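/-
W-A programme (S19/S32): INTERFACE of the generic packaging bricks (architect: helper5):
function orders, [HOPF], [SUBQ], [DESC].  No curve inside this file.

`T` = a finite abelian group with an action of `G = Gal(ℚ̄/ℚ)` by automorphisms,
`R = GaloisRep.ratLocalizedAt ℓ = ℤ_(ℓ)`.
A *Δ-closed function order* on `T` is an `R`-subalgebra `H` of `T → ℚ̄`, finitely generated as an
`R`-module, consisting of `G`-equivariant functions, separating the points of `T`, and such that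
`(x, y) ↦ a (x + y)` lies in the image of `H ⊗ H` for every `a ∈ H`.
-/
import Mathlib
import Fermat.Prelude.Def_GaloisRep_Flat
import Fermat.Prelude.Def_FLTPrelim_Ramification

set_option autoImplicit false

noncomputable section

namespace Fermat.Agent.Lib.S19

/-- `ℚ̄`. -/
abbrev s19_Qbar : Type := AlgebraicClosure ℚ

/-- `Gal(ℚ̄/ℚ)`. -/
abbrev s19_Gal : Type := s19_Qbar ≃ₐ[ℚ] s19_Qbar

/-- **a Δ-closed function order** on the Galois module `T`. -/
structure s19_IsOrder (ℓ : ℕ) (T : Type) [AddCommGroup T] [DistribMulAction s19_Gal T]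
    (H : Subalgebra ↥(GaloisRep.ratLocalizedAt ℓ) (T → s19_Qbar)) : Prop where
  /-- the elements of `H` are Galois-equivariant functions, -/
  equiv : ∀ a ∈ H, ∀ (σ : s19_Gal) (x : T), a (σ • x) = σ (a x)
  /-- `H` is a finitely generated `ℤ_(ℓ)`-module, -/
  fg : (Subalgebra.toSubmodule H).FG
  /-- `H` separates the points of `T`, -/
  sep : ∀ x y : T, x ≠ y → ∃ a ∈ H, a x ≠ a y
  /-- `H` is closed under the comultiplication. -/
  comul : ∀ a ∈ H, ∃ (n : ℕ) (a' a'' : Fin n → T → s19_Qbar),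
    (∀ i, a' i ∈ H) ∧ (∀ i, a'' i ∈ H) ∧ ∀ x y : T, a (x + y) = ∑ i, a' i x * a'' i y

/-- [HOPF] a Δ-closed function order on a finite Galois module `T` gives a finite flat
cocommutative Hopf algebra over `ℤ_(ℓ)` whose `ℚ̄`-points are `T`, equivariantly
(the conclusion is the conclusion of the frozen S19 with `T` in place of the torsion). -/
def s19_Hopf : Prop :=
  ∀ (ℓ : ℕ) [Fact ℓ.Prime] (T : Type) [AddCommGroup T] [Finite T] [DistribMulAction s19_Gal T]
    (H₀ : Subalgebra ↥(GaloisRep.ratLocalizedAt ℓ) (T → s19_Qbar)), s19_IsOrder ℓ T H₀ →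
    ∃ (H : Type) (_ : CommRing H) (_ : HopfAlgebra (GaloisRep.ratLocalizedAt ℓ) H),
      Module.Finite (GaloisRep.ratLocalizedAt ℓ) H ∧ Module.Flat (GaloisRep.ratLocalizedAt ℓ) H ∧
      Coalgebra.IsCocomm (GaloisRep.ratLocalizedAt ℓ) H ∧
      ∃ e : WithConv (H →ₐ[GaloisRep.ratLocalizedAt ℓ] AlgebraicClosure ℚ) ≃ T,
        (∀ f g, e (f * g) = e f + e g) ∧
        ∀ (σ : AlgebraicClosure ℚ ≃ₐ[ℚ] AlgebraicClosure ℚ)
          (f g : WithConv (H →ₐ[GaloisRep.ratLocalizedAt ℓ] AlgebraicClosure ℚ)),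
          (∀ h : H, g h = σ (f h)) → e g = σ • e f

/-- [SUBQ-sub] orders pass to Galois submodules (restriction of functions). -/
def s19_OrderSub : Prop :=
  ∀ (ℓ : ℕ) [Fact ℓ.Prime] (T T₁ : Type) [AddCommGroup T] [Finite T] [DistribMulAction s19_Gal T]
    [AddCommGroup T₁] [DistribMulAction s19_Gal T₁] (i : T₁ →+ T),
    Function.Injective i → (∀ (σ : s19_Gal) (x : T₁), i (σ • x) = σ • i x) →
    (∃ H, s19_IsOrder ℓ T H) → ∃ H₁, s19_IsOrder ℓ T₁ H₁

/-- [SUBQ-quot] orders pass to Galois quotients (functions constant on the fibres). -/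
def s19_OrderQuot : Prop :=
  ∀ (ℓ : ℕ) [Fact ℓ.Prime] (T T₂ : Type) [AddCommGroup T] [Finite T] [DistribMulAction s19_Gal T]
    [AddCommGroup T₂] [DistribMulAction s19_Gal T₂] (π : T →+ T₂),
    Function.Surjective π → (∀ (σ : s19_Gal) (x : T), π (σ • x) = σ • π x) →
    (∃ H, s19_IsOrder ℓ T H) → ∃ H₂, s19_IsOrder ℓ T₂ H₂

/-- [SUBQ-prod] orders pass to products. -/
def s19_OrderProd : Prop :=
  ∀ (ℓ : ℕ) [Fact ℓ.Prime] (T T' : Type) [AddCommGroup T] [Finite T] [DistribMulAction s19_Gal T]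
    [AddCommGroup T'] [Finite T'] [DistribMulAction s19_Gal T'],
    (∃ H, s19_IsOrder ℓ T H) → (∃ H', s19_IsOrder ℓ T' H') → ∃ H'', s19_IsOrder ℓ (T × T') H''

/-! ### Local orders and descent -/

/-- the ring `W = A ∩ ℚ̄^{I_v}` of integers of the maximal extension unramified at `v`. -/
def s19_W (A : ValuationSubring s19_Qbar) : Subring s19_Qbar where
  carrier := {c | c ∈ A ∧ ∀ τ ∈ A.inertiaSubgroupIn ℚ, τ c = c}
  mul_mem' := fun {a b} ha hb => ⟨A.mul_mem _ _ ha.1 hb.1, fun τ hτ => by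
    rw [map_mul, ha.2 τ hτ, hb.2 τ hτ]⟩
  one_mem' := ⟨A.one_mem, fun τ _ => map_one τ⟩
  add_mem' := fun {a b} ha hb => ⟨A.add_mem _ _ ha.1 hb.1, fun τ hτ => by
    rw [map_add, ha.2 τ hτ, hb.2 τ hτ]⟩
  zero_mem' := ⟨A.zero_mem, fun τ _ => map_zero τ⟩
  neg_mem' := fun {a} ha => ⟨A.neg_mem _ ha.1, fun τ hτ => by rw [map_neg, ha.2 τ hτ]⟩

/-- **a local order** at the place `A` over `ℓ`: a subring `HW` of `T → ℚ̄` of `A`-valued,
`I_v`-equivariant functions, containing the constants of `W`, finitely generated as a `W`-module,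
separating points, Δ-closed, and stable under the decomposition group. -/
structure s19_IsLocalOrder (A : ValuationSubring s19_Qbar) (T : Type) [AddCommGroup T]
    [DistribMulAction s19_Gal T] (HW : Subring (T → s19_Qbar)) : Prop where
  val : ∀ a ∈ HW, ∀ x : T, a x ∈ A
  equiv : ∀ a ∈ HW, ∀ τ ∈ A.inertiaSubgroupIn ℚ, ∀ x : T, a (τ • x) = τ (a x)
  const : ∀ c ∈ s19_W A, (fun _ : T => c) ∈ HW
  fg : ∃ (n : ℕ) (h : Fin n → T → s19_Qbar), (∀ i, h i ∈ HW) ∧
    ∀ a ∈ HW, ∃ c : Fin n → s19_Qbar, (∀ i, c i ∈ s19_W A) ∧ ∀ x, a x = ∑ i, c i * h i x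
  sep : ∀ x y : T, x ≠ y → ∃ a ∈ HW, a x ≠ a y
  comul : ∀ a ∈ HW, ∃ (n : ℕ) (a' a'' : Fin n → T → s19_Qbar),
    (∀ i, a' i ∈ HW) ∧ (∀ i, a'' i ∈ HW) ∧ ∀ x y : T, a (x + y) = ∑ i, a' i x * a'' i y
  stable : ∀ a ∈ HW, ∀ g ∈ A.decompositionSubgroup ℚ, (fun x => g (a (g⁻¹ • x))) ∈ HW

/-- [DESC] local order ⇒ global order, for a CONTINUOUS Galois module `T` (every point is fixed
by the Galois group of a number field; amendment of helper2: without continuity the statement is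
false). -/
def s19_Desc : Prop :=
  ∀ (ℓ : ℕ) [Fact ℓ.Prime] (A : ValuationSubring s19_Qbar), A.LiesOverPrime ℓ →
    ∀ (T : Type) [AddCommGroup T] [Finite T] [DistribMulAction s19_Gal T],
    (∀ x : T, ∃ E : IntermediateField ℚ s19_Qbar, FiniteDimensional ℚ E ∧
        ∀ σ : s19_Gal, (∀ e ∈ E, σ e = e) → σ • x = x) →
    (∃ HW, s19_IsLocalOrder A T HW) → ∃ H, s19_IsOrder ℓ T H

end Fermat.Agent.Lib.S19
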