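/-
W-A programme (S19/S32), brick [CLOS] part 1 (helper5): THE CLOSURE RING.

`A` a commutative ring with a distinguished element `l`, `W ⊆ A` a subring, `Ξ` a set of
parameters, `σ : ι → Ξ → A` finitely or infinitely many functions.  `s19_cl l W σ` is the
`l`-adic closure of `W[σ]` inside the ring of all functions `Ξ → A`:
`φ ∈ s19_cl l W σ ↔ ∀ m, ∃ p ∈ W[σ], ∀ ξ, l ^ m ∣ φ ξ - p ξ`.
This file: the definitions, `s19_cl` is a `W`-subalgebra, it is closed under `l`-adic limits.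
-/
import Mathlib

set_option autoImplicit false

noncomputable section

namespace Fermat.Agent.Lib.S19

variable {Ξ : Type*} {A : Type*} [CommRing A]

/-- `φ ≡ ψ mod l ^ m`, pointwise on `Ξ`. -/
def s19_Close (l : A) (m : ℕ) (φ ψ : Ξ → A) : Prop := ∀ ξ, l ^ m ∣ φ ξ - ψ ξ

theorem s19_close_refl (l : A) (m : ℕ) (φ : Ξ → A) : s19_Close l m φ φ := fun ξ => by
  rw [sub_self]; exact dvd_zero _

theorem s19_close_symm {l : A} {m : ℕ} {φ ψ : Ξ → A} (h : s19_Close l m φ ψ) :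
    s19_Close l m ψ φ := fun ξ => by
  have := h ξ
  rw [← neg_sub]
  exact (dvd_neg).mpr this

theorem s19_close_trans {l : A} {m : ℕ} {φ ψ χ : Ξ → A} (h : s19_Close l m φ ψ)
    (h' : s19_Close l m ψ χ) : s19_Close l m φ χ := fun ξ => by
  have : φ ξ - χ ξ = (φ ξ - ψ ξ) + (ψ ξ - χ ξ) := by ring
  rw [this]
  exact dvd_add (h ξ) (h' ξ)

theorem s19_close_mono {l : A} {m m' : ℕ} (hm : m' ≤ m) {φ ψ : Ξ → A} (h : s19_Close l m φ ψ) :
    s19_Close l m' φ ψ := fun ξ => (pow_dvd_pow l hm).trans (h ξ)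

theorem s19_close_add {l : A} {m : ℕ} {φ ψ φ' ψ' : Ξ → A} (h : s19_Close l m φ ψ)
    (h' : s19_Close l m φ' ψ') : s19_Close l m (φ + φ') (ψ + ψ') := fun ξ => by
  have : (φ + φ') ξ - (ψ + ψ') ξ = (φ ξ - ψ ξ) + (φ' ξ - ψ' ξ) := by
    simp only [Pi.add_apply]; ring
  rw [this]
  exact dvd_add (h ξ) (h' ξ)

theorem s19_close_mul {l : A} {m : ℕ} {φ ψ φ' ψ' : Ξ → A} (h : s19_Close l m φ ψ)
    (h' : s19_Close l m φ' ψ') : s19_Close l m (φ * φ') (ψ * ψ') := fun ξ => by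
  have : (φ * φ') ξ - (ψ * ψ') ξ = φ ξ * (φ' ξ - ψ' ξ) + (φ ξ - ψ ξ) * ψ' ξ := by
    simp only [Pi.mul_apply]; ring
  rw [this]
  exact dvd_add (Dvd.dvd.mul_left (h' ξ) _) (Dvd.dvd.mul_right (h ξ) _)

theorem s19_close_neg {l : A} {m : ℕ} {φ ψ : Ξ → A} (h : s19_Close l m φ ψ) :
    s19_Close l m (-φ) (-ψ) := fun ξ => by
  have : (-φ) ξ - (-ψ) ξ = -(φ ξ - ψ ξ) := by simp only [Pi.neg_apply]; ring
  rw [this]
  exact (dvd_neg).mpr (h ξ)

/-- the `l`-adic closure of a `W`-subalgebra of functions, as a `W`-subalgebra. -/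
def s19_closure (l : A) {W : Subring A} (S : Subalgebra W (Ξ → A)) : Subalgebra W (Ξ → A) where
  carrier := {φ | ∀ m : ℕ, ∃ p ∈ S, s19_Close l m φ p}
  mul_mem' := fun {φ φ'} h h' m => by
    obtain ⟨p, hp, hc⟩ := h m
    obtain ⟨p', hp', hc'⟩ := h' m
    exact ⟨p * p', S.mul_mem hp hp', s19_close_mul hc hc'⟩
  add_mem' := fun {φ φ'} h h' m => by
    obtain ⟨p, hp, hc⟩ := h m
    obtain ⟨p', hp', hc'⟩ := h' m
    exact ⟨p + p', S.add_mem hp hp', s19_close_add hc hc'⟩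
  algebraMap_mem' := fun w m => ⟨_, S.algebraMap_mem w, s19_close_refl l m _⟩

theorem s19_mem_closure {l : A} {W : Subring A} {S : Subalgebra W (Ξ → A)} {φ : Ξ → A} :
    φ ∈ s19_closure l S ↔ ∀ m : ℕ, ∃ p ∈ S, s19_Close l m φ p := Iff.rfl

theorem s19_le_closure (l : A) {W : Subring A} (S : Subalgebra W (Ξ → A)) :
    S ≤ s19_closure l S := fun φ hφ m => ⟨φ, hφ, s19_close_refl l m φ⟩

/-- the closure is closed. -/
theorem s19_closure_closure (l : A) {W : Subring A} (S : Subalgebra W (Ξ → A)) :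
    s19_closure l (s19_closure l S) = s19_closure l S := by
  refine le_antisymm (fun φ hφ m => ?_) (s19_le_closure l _)
  obtain ⟨p, hp, hc⟩ := hφ m
  obtain ⟨p', hp', hc'⟩ := hp m
  exact ⟨p', hp', s19_close_trans hc hc'⟩

theorem s19_closure_mono (l : A) {W : Subring A} {S S' : Subalgebra W (Ξ → A)} (h : S ≤ S') :
    s19_closure l S ≤ s19_closure l S' := fun φ hφ m => by
  obtain ⟨p, hp, hc⟩ := hφ m
  exact ⟨p, h hp, hc⟩

/-- membership by approximation: a function which is `l`-adically approximated by elements of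
the closure is in the closure. -/
theorem s19_mem_closure_of_approx {l : A} {W : Subring A} {S : Subalgebra W (Ξ → A)} {φ : Ξ → A}
    (h : ∀ m : ℕ, ∃ p ∈ s19_closure l S, s19_Close l m φ p) : φ ∈ s19_closure l S := by
  rw [← s19_closure_closure]
  exact h

/-- **the closure ring** `𝒜(σ)`: the `l`-adic closure of `W[σ]`. -/
def s19_cl (l : A) (W : Subring A) {ι : Type*} (σ : ι → Ξ → A) : Subalgebra W (Ξ → A) :=
  s19_closure l (Algebra.adjoin W (Set.range σ))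

theorem s19_gen_mem_cl (l : A) (W : Subring A) {ι : Type*} (σ : ι → Ξ → A) (i : ι) :
    σ i ∈ s19_cl l W σ :=
  s19_le_closure l _ (Algebra.subset_adjoin (Set.mem_range_self i))

theorem s19_const_mem_cl (l : A) (W : Subring A) {ι : Type*} (σ : ι → Ξ → A) (w : W) :
    (fun _ : Ξ => (w : A)) ∈ s19_cl l W σ :=
  (s19_cl l W σ).algebraMap_mem w

/-- monotonicity in the generators: if every `σ i` lies in `𝒜(τ)` then `𝒜(σ) ≤ 𝒜(τ)`. -/
theorem s19_cl_le (l : A) (W : Subring A) {ι ι' : Type*} (σ : ι → Ξ → A) (τ : ι' → Ξ → A)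
    (h : ∀ i, σ i ∈ s19_cl l W τ) : s19_cl l W σ ≤ s19_cl l W τ := by
  have h1 : Algebra.adjoin W (Set.range σ) ≤ s19_cl l W τ :=
    Algebra.adjoin_le (by rintro _ ⟨i, rfl⟩; exact h i)
  calc s19_cl l W σ = s19_closure l (Algebra.adjoin W (Set.range σ)) := rfl
    _ ≤ s19_closure l (s19_cl l W τ) := s19_closure_mono l h1
    _ = s19_cl l W τ := s19_closure_closure l _

end Fermat.Agent.Lib.S19
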