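/-
W-A programme (S19/S32): INTERFACE of the purely algebraic bricks (architect: helper5).

No curve inside this file.  Contents:
* `s19_Base`, `s19_Small`: the standing hypotheses on `(A, l, W)` and on the generators `σ`;
* contracts [CLOS] K2–K5 for the closure ring `s19_cl l W σ` (defined in `Clos.lean`);
* `s19_Disc`: an ABSTRACT DISC (ring of functions `G`, parameter `t`, evaluations `ev c`,
  divided-difference operator `dq c`, rational part `GW`), divided differences `s19_dd`;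
* contracts [DD] (composition theorem, Newton–Hensel on a disc);
* contract [AENG]: the abstract engine.

Every contract is a closed `Prop` `s19_XXX`; the owner delivers `theorem s19?_xxx : s19_XXX`.
-/
import Fermat.Agent.Lib.S19.Clos

set_option autoImplicit false

noncomputable section

namespace Fermat.Agent.Lib.S19

open IsLocalRing

/-! ## Standing hypotheses -/

/-- the standing hypotheses on `(A, l, W)`: `A` local, `l` in the maximal ideal, every element
of the maximal ideal is `l`-adically nilpotent, `W` is local in `A`.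
(Application: `A ⊆ ℚ̄` a valuation ring over the prime `ℓ`, `l = ℓ`, `W = A ∩ ℚ̄^{I_v}`.) -/
structure s19_Base {A : Type*} [CommRing A] [IsLocalRing A] (l : A) (W : Subring A) : Prop where
  l_mem : l ∈ maximalIdeal A
  small : ∀ c ∈ maximalIdeal A, ∃ e : ℕ, l ∣ c ^ e
  unit : ∀ w : W, IsUnit (w : A) → IsUnit w

/-- the generators are uniformly `l`-adically nilpotent. -/
def s19_Small {Ξ A : Type*} [CommRing A] (l : A) {ι : Type*} (σ : ι → Ξ → A) : Prop :=
  ∃ e : ℕ, ∀ i ξ, l ∣ σ i ξ ^ e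

/-- `φ` takes values in the maximal ideal. -/
def s19_MVal {Ξ A : Type*} [CommRing A] [IsLocalRing A] (φ : Ξ → A) : Prop :=
  ∀ ξ, φ ξ ∈ maximalIdeal A

/-! ## [CLOS] the closure ring: contracts K2–K5 -/

/-- [CLOS-SMALL] elements of `𝒜(σ)` with values in the maximal ideal are uniformly small. -/
def s19_ClosSmall : Prop :=
  ∀ {Ξ A : Type} [CommRing A] [IsLocalRing A] (l : A) (W : Subring A) (_ : s19_Base l W)
    {ι : Type} (σ : ι → Ξ → A) (_ : s19_Small l σ) (φ : Ξ → A),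
    φ ∈ s19_cl l W σ → s19_MVal φ → ∃ e : ℕ, ∀ ξ, l ∣ φ ξ ^ e

/-- [CLOS-K2] unit-valued elements of `𝒜(σ)` are invertible in `𝒜(σ)`. -/
def s19_ClosInv : Prop :=
  ∀ {Ξ A : Type} [CommRing A] [IsLocalRing A] (l : A) (W : Subring A) (_ : s19_Base l W)
    {ι : Type} (σ : ι → Ξ → A) (_ : s19_Small l σ) (φ : Ξ → A),
    φ ∈ s19_cl l W σ → (∀ ξ, IsUnit (φ ξ)) → ∃ ψ ∈ s19_cl l W σ, ∀ ξ, φ ξ * ψ ξ = 1

/-- [CLOS-K3] (Cramer) a square matrix over `𝒜(σ)` which is pointwise invertible has an inverse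
over `𝒜(σ)`. -/
def s19_ClosCramer : Prop :=
  ∀ {Ξ A : Type} [CommRing A] [IsLocalRing A] (l : A) (W : Subring A) (_ : s19_Base l W)
    {ι : Type} (σ : ι → Ξ → A) (_ : s19_Small l σ)
    {n : Type} [Fintype n] [DecidableEq n] (M : Matrix n n (Ξ → A)),
    (∀ i j, M i j ∈ s19_cl l W σ) → (∀ ξ, IsUnit (Matrix.det (M.map fun φ => φ ξ))) →
    ∃ M' : Matrix n n (Ξ → A), (∀ i j, M' i j ∈ s19_cl l W σ) ∧ M * M' = 1 ∧ M' * M = 1

/-- [CLOS-K5] `𝒜(σ) ∩ R̃ ⊆ R` for `W`-subalgebras `R ≤ R̃` of functions with `σ i ∈ R`,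
`l ^ m₀ • R̃ ⊆ R` and `R̃` `l`-saturated. -/
def s19_ClosOrder : Prop :=
  ∀ {Ξ A : Type} [CommRing A] (l : A) (W : Subring A)
    {ι : Type} (σ : ι → Ξ → A) (R Rt : Subalgebra W (Ξ → A)),
    R ≤ Rt → (∀ i, σ i ∈ R) → (∃ m₀ : ℕ, ∀ φ ∈ Rt, (fun ξ => l ^ m₀ * φ ξ) ∈ R) →
    (∀ ψ : Ξ → A, (fun ξ => l * ψ ξ) ∈ Rt → ψ ∈ Rt) →
    ∀ φ ∈ s19_cl l W σ, φ ∈ Rt → φ ∈ R

/-! ## Abstract discs and divided differences -/

/-- **an abstract disc** over `(A, W)`: `G` = the ring of (Gauss-integral) functions regular on the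
disc, `t` = the parameter (a bijection disc ≅ maximal ideal of `A`), `ev c` = evaluation at the
point with parameter `c`, `dq c g = (g − g(c))/(t − c)`, `GW` = the rational functions. -/
structure s19_Disc (A : Type*) [CommRing A] [IsLocalRing A] (W : Subring A)
    (G : Type*) [CommRing G] [Algebra A G] where
  /-- the parameter -/
  t : G
  /-- evaluation at the point of parameter `c` -/
  ev : ↥(maximalIdeal A) → G →ₐ[A] A
  /-- the divided-difference operator -/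
  dq : ↥(maximalIdeal A) → G → G
  /-- the rational functions on the disc -/
  GW : Subring G
  ev_t : ∀ c, ev c t = (c : A)
  dq_spec : ∀ c g, g = algebraMap A G (ev c g) + (t - algebraMap A G (c : A)) * dq c g
  reg : ∀ (c : ↥(maximalIdeal A)) (g : G), (t - algebraMap A G (c : A)) * g = 0 → g = 0
  /-- a function with a simple zero modulo the maximal ideal has a zero on the disc -/
  root : ∀ g : G, ev 0 g ∈ maximalIdeal A → IsUnit (ev 0 (dq 0 g)) → ∃ c, ev c g = 0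
  t_mem : t ∈ GW
  const_mem : ∀ w ∈ W, algebraMap A G w ∈ GW
  ev_mem : ∀ g ∈ GW, ev 0 g ∈ W
  dq_mem : ∀ g ∈ GW, dq 0 g ∈ GW

section DD

variable {A : Type*} [CommRing A] [IsLocalRing A] {W : Subring A}
  {G : Type*} [CommRing G] [Algebra A G] (D : s19_Disc A W G)

/-- iterated divided-difference operator `Δ_{a_{i-1}} ⋯ Δ_{a_0}`. -/
def s19_dqs : List ↥(maximalIdeal A) → G → G
  | [], g => g
  | a :: as, g => s19_dqs as (D.dq a g)

/-- **the divided difference** `g[a₀, …, a_{i-1}, a]` (nodes `as = [a₀, …, a_{i-1}]`, last node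
`a`). -/
def s19_dd (as : List ↥(maximalIdeal A)) (a : ↥(maximalIdeal A)) (g : G) : A :=
  D.ev a (s19_dqs D as g)

/-- the monic polynomial `∏ (t − a)` over a list of nodes, as an element of `G`. -/
def s19_nodal (as : List ↥(maximalIdeal A)) : G :=
  (as.map fun a => D.t - algebraMap A G (a : A)).prod

end DD

/-! ## [DD] contracts -/

/-- [DD-DIV] `g` is divisible by `∏ (t − a_j)` iff the successive divided differences vanish. -/
def s19_DDDiv : Prop :=
  ∀ {A : Type} [CommRing A] [IsLocalRing A] {W : Subring A} {G : Type} [CommRing G] [Algebra A G]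
    (D : s19_Disc A W G) (as : List ↥(maximalIdeal A)) (g : G),
    (∀ k : ℕ, ∀ hk : k < as.length, s19_dd D (as.take k) (as.get ⟨k, hk⟩) g = 0) ↔
      ∃ g', g = s19_nodal D as * g'

/-- [DD-RED] moving the nodes inside the maximal ideal changes a divided difference by an element
of the maximal ideal. -/
def s19_DDRed : Prop :=
  ∀ {A : Type} [CommRing A] [IsLocalRing A] {W : Subring A} {G : Type} [CommRing G] [Algebra A G]
    (D : s19_Disc A W G) (as : List ↥(maximalIdeal A)) (a : ↥(maximalIdeal A)) (g : G),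
    s19_dd D as a g - s19_dd D (List.replicate as.length 0) 0 g ∈ maximalIdeal A

/-- [DD-COMP] (composition) for a rational `g` and nodes in `𝒜(σ)` with values in the maximal
ideal, `ξ ↦ g[φ₀ ξ, …, φ_s ξ]` is in `𝒜(σ)`. -/
def s19_DDComp : Prop :=
  ∀ {Ξ A : Type} [CommRing A] [IsLocalRing A] (l : A) (W : Subring A) (_ : s19_Base l W)
    {ι : Type} (σ : ι → Ξ → A) (_ : s19_Small l σ)
    {G : Type} [CommRing G] [Algebra A G] (D : s19_Disc A W G)
    (s : ℕ) (φ : Fin s → Ξ → ↥(maximalIdeal A)) (φ' : Ξ → ↥(maximalIdeal A)),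
    (∀ j, (fun ξ => ((φ j ξ : ↥(maximalIdeal A)) : A)) ∈ s19_cl l W σ) →
    (fun ξ => ((φ' ξ : ↥(maximalIdeal A)) : A)) ∈ s19_cl l W σ →
    ∀ g ∈ D.GW, (fun ξ => s19_dd D (List.ofFn fun j => φ j ξ) (φ' ξ) g) ∈ s19_cl l W σ

/-- [DD-HENSEL] (Newton–Hensel on a disc) `h_ξ = Σ_m c_m(ξ) g_m` with `g_m` rational and
`c_m ∈ 𝒜(σ)`; nodes `φ_j ∈ 𝒜(σ)`; if `u ξ` is a zero of `h_ξ[φ₀ ξ, …, φ_{s-1} ξ, ·]` and the slope
`h_ξ[φ ξ, 0, 0]` is a unit, then `u ∈ 𝒜(σ)`. -/
def s19_DDHensel : Prop :=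
  ∀ {Ξ A : Type} [CommRing A] [IsLocalRing A] (l : A) (W : Subring A) (_ : s19_Base l W)
    {ι : Type} (σ : ι → Ξ → A) (_ : s19_Small l σ)
    {G : Type} [CommRing G] [Algebra A G] (D : s19_Disc A W G)
    {μ : Type} [Fintype μ] (g : μ → G) (c : μ → Ξ → A)
    (s : ℕ) (φ : Fin s → Ξ → ↥(maximalIdeal A)) (u : Ξ → ↥(maximalIdeal A)),
    (∀ m, g m ∈ D.GW) → (∀ m, c m ∈ s19_cl l W σ) →
    (∀ j, (fun ξ => ((φ j ξ : ↥(maximalIdeal A)) : A)) ∈ s19_cl l W σ) →
    (∀ ξ, s19_dd D (List.ofFn fun j => φ j ξ) (u ξ) (∑ m, algebraMap A G (c m ξ) * g m) = 0) →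
    (∀ ξ, IsUnit (s19_dd D ((List.ofFn fun j => φ j ξ) ++ [0]) 0
      (∑ m, algebraMap A G (c m ξ) * g m))) →
    (fun ξ => ((u ξ : ↥(maximalIdeal A)) : A)) ∈ s19_cl l W σ

/-! ## [AENG] the abstract engine -/

section Eng

variable {A : Type*} [CommRing A] [IsLocalRing A] {W : Subring A}
  {G : Type*} [CommRing G] [Algebra A G] (D : s19_Disc A W G)

/-- the `s`-th Taylor coefficient at the centre of the disc. -/
def s19_tay (s : ℕ) (g : G) : A := s19_dd D (List.replicate s 0) 0 g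

end Eng

/-- [AENG] **the abstract engine**.  Discs `i : ι` with multiplicities `m i` in the ambient
divisor; `Λ` = the ambient lattice with basis `b 0 = 1, b 1, …, b n`; `μ i f = t_i ^ (m i) • f` as a
function on the disc `i`; `mp i ≤ m i` plus-nodes `φp i a` and `mm i ≤ mp i` minus-nodes `φm i a`
on the disc `i`, all in `𝒜(σ)`; `m i - mp i ≤ 1` (at most one residual point per disc) and
`mp i - mm i ≤ 1` (at most one output point per disc).
(E1) the reduced first system (Taylor coefficients of order `< mp i`) is onto on `⟨b 1, …, b n⟩`;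
(E2) the reduced second system (Taylor coefficients of order `< (m i - mp i) + mm i`) is
bijective on `⟨b 1, …, b n⟩`.
Conclusion: `χ(ξ) = b 0 + Σ c_j(ξ) b_j` vanishing on the plus-nodes, with residual zeros `ρ i ξ`;
`ψ(ξ) = b 0 + Σ c'_j(ξ) b_j` vanishing on the residual zeros and the minus-nodes, with the
remaining zeros `ψ i ξ`; all of `c, c', ρ, ψ` in `𝒜(σ)`. -/
def s19_AEng : Prop :=
  ∀ {Ξ A : Type} [CommRing A] [IsLocalRing A] (l : A) (W : Subring A) (_ : s19_Base l W)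
    {κ : Type} (σ : κ → Ξ → A) (_ : s19_Small l σ)
    {ι : Type} [Fintype ι] [DecidableEq ι]
    (G : ι → Type) [∀ i, CommRing (G i)] [∀ i, Algebra A (G i)] (D : ∀ i, s19_Disc A W (G i))
    (n : ℕ) {Λ : Type} [AddCommGroup Λ] [Module A Λ] (b : Module.Basis (Fin (n + 1)) A Λ)
    (m mp mm : ι → ℕ)
    (_ : ∀ i, mm i ≤ mp i) (_ : ∀ i, mp i ≤ m i) (_ : ∀ i, m i ≤ mp i + 1)
    (_ : ∀ i, mp i ≤ mm i + 1)
    (μ : ∀ i, Λ →ₗ[A] G i) (_ : ∀ i j, μ i (b j) ∈ (D i).GW)
    (_ : ∀ i, μ i (b 0) = (D i).t ^ m i)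
    (φp : ∀ i, Fin (mp i) → Ξ → ↥(maximalIdeal A))
    (φm : ∀ i, Fin (mm i) → Ξ → ↥(maximalIdeal A))
    (_ : ∀ i a, (fun ξ => ((φp i a ξ : ↥(maximalIdeal A)) : A)) ∈ s19_cl l W σ)
    (_ : ∀ i a, (fun ξ => ((φm i a ξ : ↥(maximalIdeal A)) : A)) ∈ s19_cl l W σ),
    Function.Surjective (fun (x : Fin n → ResidueField A) (r : Σ i, Fin (mp i)) =>
      ∑ j : Fin n, x j * residue A (s19_tay (D r.1) (r.2 : ℕ) (μ r.1 (b j.succ)))) →
    Function.Bijective (fun (x : Fin n → ResidueField A)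
        (r : Σ i, Fin ((m i - mp i) + mm i)) =>
      ∑ j : Fin n, x j * residue A (s19_tay (D r.1) (r.2 : ℕ) (μ r.1 (b j.succ)))) →
    ∃ (c c' : Fin (n + 1) → Ξ → A) (ρ ψ : ι → Ξ → ↥(maximalIdeal A)),
      (∀ j, c j ∈ s19_cl l W σ) ∧ (∀ j, c' j ∈ s19_cl l W σ) ∧
      (∀ ξ, c 0 ξ = 1) ∧ (∀ ξ, c' 0 ξ = 1) ∧
      (∀ j : Fin n, s19_MVal (c j.succ)) ∧ (∀ j : Fin n, s19_MVal (c' j.succ)) ∧
      (∀ i, (fun ξ => ((ρ i ξ : ↥(maximalIdeal A)) : A)) ∈ s19_cl l W σ) ∧
      (∀ i, (fun ξ => ((ψ i ξ : ↥(maximalIdeal A)) : A)) ∈ s19_cl l W σ) ∧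
      ∀ ξ i,
        (∃ g : G i, μ i (∑ j, c j ξ • b j) =
          s19_nodal (D i) (List.ofFn fun a => φp i a ξ) *
            (if m i = mp i + 1 then (D i).t - algebraMap A (G i) (ρ i ξ : A) else 1) * g) ∧
        (∃ g : G i, μ i (∑ j, c' j ξ • b j) =
          (if m i = mp i + 1 then (D i).t - algebraMap A (G i) (ρ i ξ : A) else 1) *
            s19_nodal (D i) (List.ofFn fun a => φm i a ξ) *
            (if mp i = mm i + 1 then (D i).t - algebraMap A (G i) (ψ i ξ : A) else 1) * g)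

end Fermat.Agent.Lib.S19
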