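/-
W-A programme (S19/S32): INTERFACE of G3, the local order (architect: helper5).

The curve is abstracted away into a COORDINATE PACKAGE `s19_Frames`:
`J` a Galois module (`J = J₀(M)(ℚ̄)`), `J1 ≤ J` the kernel of specialization at the place `A`,
`𝔉` a type of frames (coordinate systems), `S 𝔰 : J1 → 𝔪_A^g` the coordinate maps, with
* `inj`     : `S 𝔰` is injective;
* `equivI`  : `S 𝔰 (τ y) = τ (S 𝔰 y)` for `τ` in the inertia group (frames are rational);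
* `equivD`  : the decomposition group transports frames: `S (σ𝔰) (σ y) = σ (S 𝔰 y)`;
* `centre`  : every coset of `J1` contains an inertia-fixed point;
* `add`,`chg` : the addition law and the change of frame are given by elements of the closure
  ring `s19_cl l W (coordinates)` (IfaceAlg/Clos).
[ORDER] `s19_OrderOfFrames`: from a coordinate package, every finite Galois submodule `T` of `J`
carries a local order `s19_IsLocalOrder A T HW` (IfaceOrder) — pure algebra, no curve.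
[FRAMES] `s19_FramesExist` (IfaceTop): the modular curve at a good level provides a coordinate
package.
[BASE] `s19_BaseA`: the standing hypotheses on `(A, ℓ, W)`.
-/
import Fermat.Agent.Lib.S19.IfaceOrder
import Fermat.Agent.Lib.S19.IfaceAlg

set_option autoImplicit false

noncomputable section

namespace Fermat.Agent.Lib.S19

open IsLocalRing

/-- `W = A ∩ ℚ̄^{I_v}` as a subring of `↥A`. -/
def s19_WA (A : ValuationSubring s19_Qbar) : Subring ↥A := (s19_W A).comap A.subtype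

theorem s19_mem_WA {A : ValuationSubring s19_Qbar} {c : ↥A} :
    c ∈ s19_WA A ↔ ∀ τ ∈ A.inertiaSubgroupIn ℚ, τ (c : s19_Qbar) = (c : s19_Qbar) :=
  ⟨fun h => h.2, fun h => ⟨c.2, h⟩⟩

/-- **a coordinate package** on the Galois module `J` at the place `A`. -/
structure s19_Frames (A : ValuationSubring s19_Qbar) (l : ↥A)
    (J : Type) [AddCommGroup J] [DistribMulAction s19_Gal J] (J1 : AddSubgroup J) (g : ℕ)
    (𝔉 : Type) (S : 𝔉 → ↥J1 → Fin g → ↥A) : Prop where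
  nonempty : Nonempty 𝔉
  /-- `J1` is stable under the decomposition group. -/
  stable : ∀ σ ∈ A.decompositionSubgroup ℚ, ∀ y ∈ J1, σ • y ∈ J1
  /-- coordinates lie in the maximal ideal. -/
  mval : ∀ 𝔰 y i, S 𝔰 y i ∈ maximalIdeal ↥A
  inj : ∀ 𝔰, Function.Injective (S 𝔰)
  /-- frames are rational: coordinates commute with the inertia group. -/
  equivI : ∀ 𝔰, ∀ τ ∈ A.inertiaSubgroupIn ℚ, ∀ (y : ↥J1) (hy : τ • (y : J) ∈ J1) (i : Fin g),
    ((S 𝔰 ⟨τ • (y : J), hy⟩ i : ↥A) : s19_Qbar) = τ ((S 𝔰 y i : ↥A) : s19_Qbar)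
  /-- the decomposition group transports frames. -/
  equivD : ∀ 𝔰, ∀ σ ∈ A.decompositionSubgroup ℚ, ∃ 𝔰' : 𝔉,
    ∀ (y : ↥J1) (hy : σ • (y : J) ∈ J1) (i : Fin g),
      ((S 𝔰' ⟨σ • (y : J), hy⟩ i : ↥A) : s19_Qbar) = σ ((S 𝔰 y i : ↥A) : s19_Qbar)
  /-- every coset of `J1` contains an inertia-fixed point. -/
  centre : ∀ x : J, ∃ x₀ : J, x - x₀ ∈ J1 ∧ ∀ τ ∈ A.inertiaSubgroupIn ℚ, τ • x₀ = x₀
  /-- the addition law in coordinates. -/
  add : ∀ (𝔰 : 𝔉) {Ξ : Type} (y₁ y₂ : Ξ → ↥J1),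
    s19_Small l (Sum.elim (fun (i : Fin g) (ξ : Ξ) => S 𝔰 (y₁ ξ) i)
      (fun (i : Fin g) (ξ : Ξ) => S 𝔰 (y₂ ξ) i)) →
    ∀ i, (fun ξ => S 𝔰 (y₁ ξ + y₂ ξ) i) ∈
      s19_cl l (s19_WA A) (Sum.elim (fun (i : Fin g) (ξ : Ξ) => S 𝔰 (y₁ ξ) i)
        (fun (i : Fin g) (ξ : Ξ) => S 𝔰 (y₂ ξ) i))
  /-- change of frame. -/
  chg : ∀ (𝔰 𝔰' : 𝔉) {Ξ : Type} (y : Ξ → ↥J1),
    s19_Small l (fun (i : Fin g) (ξ : Ξ) => S 𝔰 (y ξ) i) →
    ∀ i, (fun ξ => S 𝔰' (y ξ) i) ∈
      s19_cl l (s19_WA A) (fun (i : Fin g) (ξ : Ξ) => S 𝔰 (y ξ) i)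

/-- [BASE] the standing hypotheses on `(A, ℓ, W)` for a valuation ring of `ℚ̄` over `ℓ`: the
hypotheses `s19_Base` of the closure ring, and `A` has rank one (every nonzero element divides a
power of `ℓ`). -/
def s19_BaseA : Prop :=
  ∀ (ℓ : ℕ) [Fact ℓ.Prime] (A : ValuationSubring s19_Qbar), A.LiesOverPrime ℓ →
    ∀ l : ↥A, ((l : ↥A) : s19_Qbar) = (ℓ : s19_Qbar) →
      s19_Base l (s19_WA A) ∧ ∀ d : ↥A, d ≠ 0 → ∃ m : ℕ, d ∣ l ^ m

/-- [ORDER] a coordinate package gives local orders on all finite Galois submodules. -/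
def s19_OrderOfFrames : Prop :=
  ∀ (ℓ : ℕ) [Fact ℓ.Prime] (A : ValuationSubring s19_Qbar), A.LiesOverPrime ℓ →
    ∀ l : ↥A, ((l : ↥A) : s19_Qbar) = (ℓ : s19_Qbar) →
    ∀ (J : Type) [AddCommGroup J] [DistribMulAction s19_Gal J] (J1 : AddSubgroup J) (g : ℕ)
      (𝔉 : Type) (S : 𝔉 → ↥J1 → Fin g → ↥A), s19_Frames A l J J1 g 𝔉 S →
    ∀ (T : Type) [AddCommGroup T] [Finite T] [DistribMulAction s19_Gal T] (ι : T →+ J),
      Function.Injective ι → (∀ (σ : s19_Gal) (x : T), ι (σ • x) = σ • ι x) →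
      ∃ HW, s19_IsLocalOrder A T HW

end Fermat.Agent.Lib.S19
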