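/-
W-A programme (S19/S32), brick [HOPF] (helper4, prefix `s19c_`), part A: linear algebra of
Galois-equivariant functions on a finite set.

* `s19c_mem_range_of_fixed`   : `ℚ̄^G = ℚ`;
* `s19c_linIndep_of_equivariant` : `ℚ`-linearly independent equivariant functions `T → ℚ̄` are
  `ℚ̄`-linearly independent (minimal-support argument);
* `s19c_linIndep_prod`        : independence of the products `(x, y) ↦ f i x * g j y`;
* `s19c_span_top_of_sep`      : a `ℚ̄`-subspace of `T → ℚ̄` closed under products, containing `1` and
  separating points is everything (`T` finite).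
-/
import Mathlib
import Fermat.Agent.Lib.S19.IfaceOrder

set_option autoImplicit false

noncomputable section

namespace Fermat.Agent.Lib.S19

local notation "Kb" => AlgebraicClosure ℚ

theorem s19c_isAlgebraic_bar : Algebra.IsAlgebraic ℚ Kb := by
  have h : @Algebra.IsAlgebraic ℚ Kb _ _ (AlgebraicClosure.instAlgebra ℚ) :=
    AlgebraicClosure.isAlgebraic ℚ
  convert h
  exact Subsingleton.elim _ _

/-- an element of `ℚ̄` fixed by the whole Galois group is rational. -/
theorem s19c_mem_range_of_fixed (z : Kb) (hz : ∀ σ : Kb ≃ₐ[ℚ] Kb, σ z = z) :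
    ∃ q : ℚ, algebraMap ℚ Kb q = z := by
  have : IsAlgClosure ℚ Kb := ⟨inferInstance, s19c_isAlgebraic_bar⟩
  have : IsGalois ℚ Kb := IsAlgClosure.isGalois ℚ Kb
  have h : z ∈ (⊥ : IntermediateField ℚ Kb) := by
    rw [← InfiniteGalois.fixedField_fixingSubgroup (⊥ : IntermediateField ℚ Kb),
      IntermediateField.mem_fixedField_iff]
    intro σ _
    exact hz σ
  exact IntermediateField.mem_bot.mp h

section descent

variable {ι : Type*} {T : Type*} [MulAction s19_Gal T]

/-- **Galois descent of linear independence**: equivariant functions `T → ℚ̄` which are linearly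
independent over `ℚ` are linearly independent over `ℚ̄`. -/
theorem s19c_linIndep_of_equivariant (h : ι → T → Kb)
    (heq : ∀ i (σ : s19_Gal) (x : T), h i (σ • x) = σ (h i x))
    (hQ : LinearIndependent ℚ h) : LinearIndependent Kb h := by
  classical
  rw [linearIndependent_iff']
  intro s
  induction s using Finset.strongInduction with
  | H s ih =>
    intro g hg
    by_contra hne
    push Not at hne
    obtain ⟨i0, hi0, hgi0⟩ := hne
    -- normalise
    set d : ι → Kb := fun i => g i / g i0 with hd
    have hd0 : d i0 = 1 := by simp [hd, hgi0]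
    have hrel : ∑ i ∈ s, d i • h i = 0 := by
      have : ∑ i ∈ s, d i • h i = (g i0)⁻¹ • ∑ i ∈ s, g i • h i := by
        rw [Finset.smul_sum]
        refine Finset.sum_congr rfl fun i _ => ?_
        rw [smul_smul]
        congr 1
        simp only [hd]
        rw [div_eq_inv_mul]
      rw [this, hg, smul_zero]
    -- every conjugate relation
    have hconj : ∀ σ : s19_Gal, ∑ i ∈ s, σ (d i) • h i = 0 := by
      intro σ
      funext x
      have h1 := congrFun hrel (σ⁻¹ • x)
      simp only [Finset.sum_apply, Pi.smul_apply, smul_eq_mul, Pi.zero_apply] at h1 ⊢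
      have h2 := congrArg σ h1
      rw [map_sum, map_zero] at h2
      rw [← h2]
      refine Finset.sum_congr rfl fun i _ => ?_
      rw [map_mul, ← heq, smul_inv_smul]
    have hfix : ∀ σ : s19_Gal, ∀ i ∈ s, σ (d i) = d i := by
      intro σ
      have h3 : ∑ i ∈ s.erase i0, (σ (d i) - d i) • h i = 0 := by
        have h4 : ∑ i ∈ s, (σ (d i) - d i) • h i = 0 := by
          simp only [sub_smul, Finset.sum_sub_distrib, hconj σ, hrel, sub_zero]
        rw [← Finset.add_sum_erase s _ hi0] at h4
        rw [hd0, map_one, sub_self, zero_smul, zero_add] at h4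
        exact h4
      have h5 := ih (s.erase i0) (Finset.erase_ssubset hi0) (fun i => σ (d i) - d i) h3
      intro i hi
      by_cases hii : i = i0
      · rw [hii, hd0, map_one]
      · exact sub_eq_zero.mp (h5 i (Finset.mem_erase.mpr ⟨hii, hi⟩))
    -- the coefficients are rational
    have hrat : ∀ i ∈ s, ∃ q : ℚ, algebraMap ℚ Kb q = d i := fun i hi =>
      s19c_mem_range_of_fixed (d i) (fun σ => hfix σ i hi)
    choose! q hq using hrat
    have hrelQ : ∑ i ∈ s, q i • h i = 0 := by
      rw [← hrel]
      refine Finset.sum_congr rfl fun i hi => ?_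
      rw [← hq i hi, algebraMap_smul]
    have h6 := (linearIndependent_iff'.mp hQ) s q hrelQ i0 hi0
    have h7 := hq i0 hi0
    rw [h6, map_zero, hd0] at h7
    exact zero_ne_one h7

end descent

section general

variable {K : Type*} [Field K]

/-- products of two linearly independent families of functions are linearly independent. -/
theorem s19c_linIndep_prod {ι κ X Y : Type*} [Fintype ι] [Fintype κ] (f : ι → X → K)
    (g : κ → Y → K) (hf : LinearIndependent K f) (hg : LinearIndependent K g) :
    LinearIndependent K (fun p : ι × κ => fun z : X × Y => f p.1 z.1 * g p.2 z.2) := by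
  classical
  rw [Fintype.linearIndependent_iff] at hf hg ⊢
  intro c hc
  have h1 : ∀ (y : Y) (i : ι), ∑ j, c (i, j) * g j y = 0 := by
    intro y
    apply hf
    funext x
    have h2 := congrFun hc (x, y)
    simp only [Finset.sum_apply, Pi.smul_apply, smul_eq_mul, Pi.zero_apply] at h2 ⊢
    rw [Fintype.sum_prod_type] at h2
    rw [← h2]
    refine Finset.sum_congr rfl fun i _ => ?_
    rw [Finset.sum_mul]
    refine Finset.sum_congr rfl fun j _ => ?_
    ring
  rintro ⟨i, j⟩
  have h3 : ∑ j, c (i, j) • g j = 0 := by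
    funext y
    simp only [Finset.sum_apply, Pi.smul_apply, smul_eq_mul, Pi.zero_apply]
    exact h1 y i
  exact hg (fun j => c (i, j)) h3 j

/-- a subalgebra of `T → K` (`T` finite) separating the points is everything. -/
theorem s19c_eq_top_of_sep {T : Type*} [Finite T] (A : Subalgebra K (T → K))
    (hsep : ∀ x y : T, x ≠ y → ∃ a ∈ A, a x ≠ a y) : A = ⊤ := by
  classical
  cases nonempty_fintype T
  have hδ : ∀ x : T, (Pi.single x (1 : K) : T → K) ∈ A := by
    intro x
    have h1 : ∀ y : T, ∃ a ∈ A, y ≠ x → a x ≠ a y := by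
      intro y
      by_cases hy : y = x
      · exact ⟨0, A.zero_mem, fun h => absurd hy h⟩
      · obtain ⟨a, ha, hne⟩ := hsep x y (Ne.symm hy)
        exact ⟨a, ha, fun _ => hne⟩
    choose a haA hane using h1
    have h2 : (∏ y ∈ Finset.univ.erase x,
        ((a y - algebraMap K (T → K) (a y y)) * algebraMap K (T → K) ((a y x - a y y)⁻¹))) ∈ A :=
      Subalgebra.prod_mem _ fun y _ =>
        A.mul_mem (A.sub_mem (haA y) (A.algebraMap_mem _)) (A.algebraMap_mem _)
    have h3 : (∏ y ∈ Finset.univ.erase x,
        ((a y - algebraMap K (T → K) (a y y)) * algebraMap K (T → K) ((a y x - a y y)⁻¹))) =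
        Pi.single x (1 : K) := by
      funext z
      rw [Finset.prod_apply]
      by_cases hz : z = x
      · rw [hz, Pi.single_eq_same]
        apply Finset.prod_eq_one
        intro y hy
        have hyx : y ≠ x := (Finset.mem_erase.mp hy).1
        have h4 : a y x - a y y ≠ 0 := sub_ne_zero.mpr (hane y hyx)
        simp only [Pi.mul_apply, Pi.sub_apply, Pi.algebraMap_apply, Algebra.algebraMap_self,
          RingHom.id_apply]
        exact mul_inv_cancel₀ h4
      · rw [Pi.single_eq_of_ne hz]
        apply Finset.prod_eq_zero (i := z) (Finset.mem_erase.mpr ⟨hz, Finset.mem_univ _⟩)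
        simp only [Pi.mul_apply, Pi.sub_apply, Pi.algebraMap_apply, Algebra.algebraMap_self,
          RingHom.id_apply, sub_self, zero_mul]
    rw [← h3]
    exact h2
  rw [eq_top_iff]
  intro f _
  have h5 : f = ∑ x, f x • (Pi.single x (1 : K) : T → K) := by
    funext z
    simp only [Finset.sum_apply, Pi.smul_apply, smul_eq_mul, Pi.single_apply, mul_ite, mul_one,
      mul_zero, Finset.sum_ite_eq, Finset.mem_univ, if_true]
  rw [h5]
  exact Subalgebra.sum_mem _ fun x _ => A.smul_mem (hδ x) _

/-- a linear, unital, multiplicative functional on `T → K` (`T` finite) is an evaluation. -/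
theorem s19c_exists_eval {T : Type*} [Finite T] (Φ : (T → K) →ₗ[K] K) (h1 : Φ 1 = 1)
    (hmul : ∀ f g, Φ (f * g) = Φ f * Φ g) : ∃ x : T, ∀ f, Φ f = f x := by
  classical
  cases nonempty_fintype T
  have hsum : ∑ x, Φ (Pi.single x (1 : K)) = 1 := by
    rw [← map_sum, Finset.univ_sum_single]
    exact h1
  have hex : ∃ x₀ : T, Φ (Pi.single x₀ (1 : K)) ≠ 0 := by
    by_contra hcon
    push Not at hcon
    rw [Finset.sum_eq_zero (fun x _ => hcon x)] at hsum
    exact zero_ne_one hsum
  obtain ⟨x₀, hx₀⟩ := hex
  have hidem : Φ (Pi.single x₀ (1 : K)) = 1 := by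
    have h2 : (Pi.single x₀ (1 : K) : T → K) * Pi.single x₀ (1 : K) = Pi.single x₀ (1 : K) := by
      funext y
      by_cases hy : y = x₀
      · subst hy
        simp
      · simp [Pi.single_eq_of_ne hy]
    have h3 := hmul (Pi.single x₀ (1 : K)) (Pi.single x₀ (1 : K))
    rw [h2] at h3
    have h4 : Φ (Pi.single x₀ (1 : K)) * (Φ (Pi.single x₀ (1 : K)) - 1) = 0 := by
      rw [mul_sub, ← h3, mul_one, sub_self]
    rcases mul_eq_zero.mp h4 with h | h
    · exact absurd h hx₀
    · exact sub_eq_zero.mp h
  refine ⟨x₀, fun f => ?_⟩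
  have h5 : f * (Pi.single x₀ (1 : K) : T → K) = f x₀ • (Pi.single x₀ (1 : K) : T → K) := by
    funext y
    by_cases hy : y = x₀
    · subst hy
      simp
    · simp [Pi.single_eq_of_ne hy]
  have h6 := hmul f (Pi.single x₀ (1 : K))
  rw [h5, map_smul, hidem, mul_one, smul_eq_mul, mul_one] at h6
  exact h6.symm

end general

end Fermat.Agent.Lib.S19
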