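/-
W-A programme (S19/S32), brick [HOPF] (helper4, prefix `s19c_`), part B: a function order `H₀` is a
free `ℤ_(ℓ)`-module, a basis of it is a `ℚ̄`-basis of `T → ℚ̄`, and the evaluation maps
`H₀ ⊗ H₀ → (T × T → ℚ̄)`, `H₀ ⊗ (H₀ ⊗ H₀) → (T × (T × T) → ℚ̄)` are injective.
-/
import Mathlib
import Fermat.Agent.Lib.S19.CHopfA
import Fermat.Agent.Lib.S28.DZl

set_option autoImplicit false
set_option linter.unusedSectionVars false

noncomputable section

namespace Fermat.Agent.Lib.S19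

open Fermat.Agent.Lib.S28 TensorProduct

local notation "Kb" => AlgebraicClosure ℚ

/-! ### the ring `ℤ_(ℓ)` -/

/-- `ℤ_(ℓ)` as a type. -/
abbrev s19c_R (ℓ : ℕ) : Type := ↥(GaloisRep.ratLocalizedAt ℓ)

section ring

variable (ℓ : ℕ) [Fact ℓ.Prime]

theorem s19c_isFractionRing : IsFractionRing (s19c_R ℓ) ℚ := by
  apply IsFractionRing.of_field
  intro z
  refine ⟨(z.num : (s19c_R ℓ)), (z.den : (s19c_R ℓ)), ?_⟩
  have h1 : algebraMap (s19c_R ℓ) ℚ (z.num : (s19c_R ℓ)) = (z.num : ℚ) := by simp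
  have h2 : algebraMap (s19c_R ℓ) ℚ (z.den : (s19c_R ℓ)) = (z.den : ℚ) := by simp
  rw [h1, h2, Rat.num_div_den]

/-- a rational number which is integral over `ℤ_(ℓ)` lies in `ℤ_(ℓ)`. -/
theorem s19c_mem_of_isIntegral (q : ℚ) (hq : IsIntegral (s19c_R ℓ) q) : q ∈ GaloisRep.ratLocalizedAt ℓ := by
  have := s19c_isFractionRing ℓ
  obtain ⟨y, hy⟩ := (IsIntegrallyClosed.isIntegral_iff (R := (s19c_R ℓ)) (K := ℚ)).mp hq
  rw [← hy]
  exact y.2

omit [Fact ℓ.Prime] in
theorem s19c_algebraMap_injective : Function.Injective (algebraMap (s19c_R ℓ) Kb) := by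
  intro a b hab
  have h1 : algebraMap ℚ Kb (a : ℚ) = algebraMap ℚ Kb (b : ℚ) := hab
  exact Subtype.ext ((algebraMap ℚ Kb).injective h1)

end ring

/-! ### factoring an algebra map through an injective one -/

section factor

variable {R A B C : Type*} [CommSemiring R] [Semiring A] [Semiring B] [Semiring C]
  [Algebra R A] [Algebra R B] [Algebra R C]

/-- if `s : A → C` takes values in the range of the injective `μ : B → C`, then `s = μ ∘ Δ`. -/
def s19c_factor (μ : B →ₐ[R] C) (hμ : Function.Injective μ) (s : A →ₐ[R] C)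
    (hs : ∀ a, s a ∈ μ.range) : A →ₐ[R] B :=
  ((AlgEquiv.ofInjective μ hμ).symm : μ.range →ₐ[R] B).comp (s.codRestrict μ.range hs)

theorem s19c_factor_spec (μ : B →ₐ[R] C) (hμ : Function.Injective μ) (s : A →ₐ[R] C)
    (hs : ∀ a, s a ∈ μ.range) (a : A) : μ (s19c_factor μ hμ s hs a) = s a := by
  have h1 := (AlgEquiv.ofInjective μ hμ).apply_symm_apply ⟨s a, hs a⟩
  have h2 := congrArg Subtype.val h1
  rw [AlgEquiv.ofInjective_apply] at h2
  exact h2

end factor

/-! ### pull-back of functions -/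

section pull

variable {R : Type*} [CommSemiring R] [Algebra R Kb]

/-- composition with a map `φ : X → Y`, as an algebra map `(Y → ℚ̄) → (X → ℚ̄)`. -/
def s19c_pull {X Y : Type*} (φ : X → Y) : (Y → Kb) →ₐ[R] (X → Kb) :=
  AlgHom.pi (fun x => Pi.evalAlgHom R (fun _ : Y => Kb) (φ x))

@[simp] theorem s19c_pull_apply {X Y : Type*} (φ : X → Y) (f : Y → Kb) (x : X) :
    s19c_pull (R := R) φ f x = f (φ x) := rfl

end pull

/-! ### function orders are free; bases -/

section order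

variable (ℓ : ℕ) [Fact ℓ.Prime] {T : Type} [AddCommGroup T] [Finite T]
  [DistribMulAction s19_Gal T]

variable (H₀ : Subalgebra (s19c_R ℓ) (T → Kb))

omit [Fact ℓ.Prime] [AddCommGroup T] [Finite T] [DistribMulAction s19_Gal T] in
theorem s19c_smul_apply (r : (s19c_R ℓ)) (f : T → Kb) (x : T) :
    (r • f) x = algebraMap ℚ Kb (r : ℚ) * f x := by
  rw [Pi.smul_apply, Algebra.smul_def]
  rfl

omit [Fact ℓ.Prime] [AddCommGroup T] [Finite T] [DistribMulAction s19_Gal T] in
theorem s19c_torsionFree : Module.IsTorsionFree (s19c_R ℓ) H₀ := by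
  apply Module.IsTorsionFree.of_smul_eq_zero
  intro r a hra
  by_cases hr : r = 0
  · exact Or.inl hr
  · right
    apply Subtype.ext
    funext x
    have h1 : ((r • a : H₀) : T → Kb) x = 0 := by rw [hra]; rfl
    have h2 : ((r • a : H₀) : T → Kb) = r • (a : T → Kb) := rfl
    rw [h2, s19c_smul_apply] at h1
    rcases mul_eq_zero.mp h1 with h | h
    · exfalso
      apply hr
      apply Subtype.ext
      have := (algebraMap ℚ Kb).injective (h.trans (map_zero _).symm)
      exact this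
    · exact h

variable {H₀} (hH : s19_IsOrder ℓ T H₀)

include hH

omit [Finite T] in
theorem s19c_finite : Module.Finite (s19c_R ℓ) H₀ := Module.Finite.iff_fg.mpr hH.fg

omit [Finite T] in
theorem s19c_free : Module.Free (s19c_R ℓ) H₀ := by
  have := s19c_finite ℓ hH
  have := s19c_torsionFree ℓ H₀
  exact Module.free_of_finite_type_torsion_free'

variable {ι : Type*} [Fintype ι] (b : Module.Basis ι (s19c_R ℓ) H₀)

/-- an `ℤ_(ℓ)`-basis of a function order is linearly independent over `ℚ̄`. -/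
theorem s19c_basis_linIndep : LinearIndependent Kb (fun i => ((b i : H₀) : T → Kb)) := by
  have h1 : LinearIndependent (s19c_R ℓ) (fun i => ((b i : H₀) : T → Kb)) :=
    b.linearIndependent.map' (Subalgebra.toSubmodule H₀).subtype (Submodule.ker_subtype _)
  have := s19c_isFractionRing ℓ
  have h2 : LinearIndependent ℚ (fun i => ((b i : H₀) : T → Kb)) :=
    (LinearIndependent.iff_fractionRing (s19c_R ℓ) ℚ).mp h1
  exact s19c_linIndep_of_equivariant _ (fun i σ x => hH.equiv _ (b i).2 σ x) h2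

/-- an `ℤ_(ℓ)`-basis of a function order spans `T → ℚ̄` over `ℚ̄`. -/
theorem s19c_basis_span :
    ⊤ ≤ Submodule.span Kb (Set.range fun i => ((b i : H₀) : T → Kb)) := by
  have hA : Algebra.adjoin Kb (H₀ : Set (T → Kb)) = ⊤ := by
    apply s19c_eq_top_of_sep
    intro x y hxy
    obtain ⟨a, ha, hne⟩ := hH.sep x y hxy
    exact ⟨a, Algebra.subset_adjoin ha, hne⟩
  have h1 : Submodule.span Kb (H₀ : Set (T → Kb)) = ⊤ := by
    have h2 := Algebra.adjoin_eq_span Kb (H₀ : Set (T → Kb))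
    rw [hA] at h2
    have h3 : (Submonoid.closure (H₀ : Set (T → Kb)) : Set (T → Kb)) = (H₀ : Set (T → Kb)) := by
      have := Submonoid.closure_eq H₀.toSubmonoid
      exact congrArg (fun S : Submonoid (T → Kb) => (S : Set (T → Kb))) this
    rw [h3] at h2
    rw [← h2]
    rfl
  rw [← h1]
  apply Submodule.span_le.mpr
  intro a ha
  have h4 : (⟨a, ha⟩ : H₀) = ∑ i, b.repr ⟨a, ha⟩ i • b i := (b.sum_repr ⟨a, ha⟩).symm
  have h5 : a = ∑ i, (algebraMap (s19c_R ℓ) Kb (b.repr ⟨a, ha⟩ i)) • ((b i : H₀) : T → Kb) := by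
    have h6 := congrArg (fun z : H₀ => (z : T → Kb)) h4
    simp only at h6
    refine h6.trans ?_
    rw [AddSubmonoidClass.coe_finsetSum]
    refine Finset.sum_congr rfl fun i _ => ?_
    rw [algebraMap_smul]
    rfl
  rw [h5]
  exact Submodule.sum_mem _ fun i _ => Submodule.smul_mem _ _ (Submodule.subset_span ⟨i, rfl⟩)

/-- the basis of `T → ℚ̄` over `ℚ̄` given by an `ℤ_(ℓ)`-basis of the order. -/
def s19c_basisK : Module.Basis ι Kb (T → Kb) :=
  Module.Basis.mk (s19c_basis_linIndep ℓ hH b) (s19c_basis_span ℓ hH b)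

theorem s19c_basisK_apply (i : ι) : s19c_basisK ℓ hH b i = ((b i : H₀) : T → Kb) := by
  unfold s19c_basisK
  rw [Module.Basis.mk_apply]

end order

/-! ### the evaluation maps on tensor powers -/

section inj

theorem s19c_injective_of_basis {R M N κ : Type*} [Semiring R] [AddCommMonoid M]
    [AddCommMonoid N] [Module R M] [Module R N] (B : Module.Basis κ R M) (f : M →ₗ[R] N)
    (h : LinearIndependent R (fun k => f (B k))) : Function.Injective f := by
  have h1 := B.injective_constr_of_linearIndependent (R₂ := ℕ) h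
  rwa [B.constr_self] at h1

theorem s19c_linIndep_restrict (ℓ : ℕ) {M κ : Type*} [AddCommGroup M] [Module Kb M]
    [Module (s19c_R ℓ) M] [IsScalarTower (s19c_R ℓ) Kb M] [Fintype κ] (v : κ → M)
    (h : LinearIndependent Kb v) : LinearIndependent (s19c_R ℓ) v := by
  rw [Fintype.linearIndependent_iff] at h ⊢
  intro g hg i
  have h1 := h (fun i => algebraMap (s19c_R ℓ) Kb (g i)) (by
    rw [← hg]
    refine Finset.sum_congr rfl fun i _ => ?_
    rw [algebraMap_smul]) i
  exact s19c_algebraMap_injective ℓ (h1.trans (map_zero _).symm)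

variable (ℓ : ℕ) [Fact ℓ.Prime] {T : Type} [AddCommGroup T] [Finite T]
  [DistribMulAction s19_Gal T]

variable (H₀ : Subalgebra (s19c_R ℓ) (T → Kb))

/-- `a ⊗ b ↦ ((x, y) ↦ a x * b y)`. -/
def s19c_mu2 : H₀ ⊗[s19c_R ℓ] H₀ →ₐ[s19c_R ℓ] (T × T → Kb) :=
  Algebra.TensorProduct.lift ((s19c_pull Prod.fst).comp H₀.val)
    ((s19c_pull Prod.snd).comp H₀.val) (fun _ _ => Commute.all _ _)

theorem s19c_mu2_tmul (a b : H₀) (p : T × T) :
    s19c_mu2 ℓ H₀ (a ⊗ₜ b) p = (a : T → Kb) p.1 * (b : T → Kb) p.2 := by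
  simp [s19c_mu2]

/-- `a ⊗ (b ⊗ c) ↦ ((x, y, z) ↦ a x * b y * c z)`. -/
def s19c_mu3 : H₀ ⊗[s19c_R ℓ] (H₀ ⊗[s19c_R ℓ] H₀) →ₐ[s19c_R ℓ] (T × (T × T) → Kb) :=
  Algebra.TensorProduct.lift ((s19c_pull Prod.fst).comp H₀.val)
    ((s19c_pull Prod.snd).comp (s19c_mu2 ℓ H₀)) (fun _ _ => Commute.all _ _)

theorem s19c_mu3_tmul (a : H₀) (u : H₀ ⊗[s19c_R ℓ] H₀) (p : T × (T × T)) :
    s19c_mu3 ℓ H₀ (a ⊗ₜ u) p = (a : T → Kb) p.1 * s19c_mu2 ℓ H₀ u p.2 := by
  simp [s19c_mu3]

variable {H₀} (hH : s19_IsOrder ℓ T H₀)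

include hH

theorem s19c_mu2_injective : Function.Injective (s19c_mu2 ℓ H₀) := by
  have := s19c_finite ℓ hH
  have := s19c_free ℓ hH
  set b := Module.Free.chooseBasis (s19c_R ℓ) H₀ with hb
  have hv := s19c_basis_linIndep ℓ hH b
  have h2 := s19c_linIndep_prod _ _ hv hv
  have h3 := s19c_linIndep_restrict ℓ _ h2
  have h4 : Function.Injective (s19c_mu2 ℓ H₀).toLinearMap := by
    apply s19c_injective_of_basis (b.tensorProduct b) (s19c_mu2 ℓ H₀).toLinearMap
    have h5 : (fun k => (s19c_mu2 ℓ H₀).toLinearMap ((b.tensorProduct b) k)) =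
        fun p z => ((b p.1 : H₀) : T → Kb) z.1 * ((b p.2 : H₀) : T → Kb) z.2 := by
      funext p
      funext z
      rw [Module.Basis.tensorProduct_apply]
      exact s19c_mu2_tmul ℓ H₀ _ _ z
    rw [h5]
    exact h3
  exact h4

theorem s19c_mu3_injective : Function.Injective (s19c_mu3 ℓ H₀) := by
  have := s19c_finite ℓ hH
  have := s19c_free ℓ hH
  set b := Module.Free.chooseBasis (s19c_R ℓ) H₀ with hb
  have hv := s19c_basis_linIndep ℓ hH b
  have h2 := s19c_linIndep_prod _ _ hv hv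
  have h2' := s19c_linIndep_prod _ _ hv h2
  have h3 := s19c_linIndep_restrict ℓ _ h2'
  have h4 : Function.Injective (s19c_mu3 ℓ H₀).toLinearMap := by
    apply s19c_injective_of_basis (b.tensorProduct (b.tensorProduct b))
      (s19c_mu3 ℓ H₀).toLinearMap
    have h5 : (fun k => (s19c_mu3 ℓ H₀).toLinearMap ((b.tensorProduct (b.tensorProduct b)) k)) =
        fun p z => ((b p.1 : H₀) : T → Kb) z.1 *
          (((b p.2.1 : H₀) : T → Kb) z.2.1 * ((b p.2.2 : H₀) : T → Kb) z.2.2) := by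
      funext p
      funext z
      rw [Module.Basis.tensorProduct_apply, Module.Basis.tensorProduct_apply]
      exact (s19c_mu3_tmul ℓ H₀ _ _ z).trans (by rw [s19c_mu2_tmul])
    rw [h5]
    exact h3
  exact h4

end inj

end Fermat.Agent.Lib.S19
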