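/-
W-A programme (S19/S32), brick [HOPF] (helper4, prefix `s19c_`), part C: the Hopf algebra structure
on a Δ-closed function order: comultiplication `a ↦ ((x, y) ↦ a (x + y))`, counit `a ↦ a 0`,
antipode `a ↦ (x ↦ a (-x))`, all obtained by factoring through the injective evaluation maps of
part B.
-/
import Mathlib
import Fermat.Agent.Lib.S19.CHopfB

set_option autoImplicit false
set_option linter.unusedSectionVars false

noncomputable section

namespace Fermat.Agent.Lib.S19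

open Fermat.Agent.Lib.S28 TensorProduct

local notation "Kb" => AlgebraicClosure ℚ

section maps

variable (ℓ : ℕ) [Fact ℓ.Prime] {T : Type} [AddCommGroup T] [Finite T]
  [DistribMulAction s19_Gal T]

variable {H₀ : Subalgebra (s19c_R ℓ) (T → Kb)} (hH : s19_IsOrder ℓ T H₀)

include hH

/-! ### comultiplication -/

theorem s19c_comul_mem (a : H₀) :
    ((s19c_pull (fun p : T × T => p.1 + p.2)).comp H₀.val) a ∈ (s19c_mu2 ℓ H₀).range := by
  obtain ⟨n, a', a'', h', h'', hsum⟩ := hH.comul a.1 a.2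
  have hz : s19c_mu2 ℓ H₀ (∑ i, (⟨a' i, h' i⟩ : H₀) ⊗ₜ[s19c_R ℓ] (⟨a'' i, h'' i⟩ : H₀)) =
      ((s19c_pull (fun p : T × T => p.1 + p.2)).comp H₀.val) a := by
    funext p
    rw [map_sum, Finset.sum_apply]
    simp only [s19c_mu2_tmul]
    exact (hsum p.1 p.2).symm
  exact ⟨_, hz⟩

/-- the comultiplication. -/
def s19c_comul : H₀ →ₐ[s19c_R ℓ] H₀ ⊗[s19c_R ℓ] H₀ :=
  s19c_factor (s19c_mu2 ℓ H₀) (s19c_mu2_injective ℓ hH)
    ((s19c_pull (fun p : T × T => p.1 + p.2)).comp H₀.val) (s19c_comul_mem ℓ hH)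

theorem s19c_comul_spec (a : H₀) (p : T × T) :
    s19c_mu2 ℓ H₀ (s19c_comul ℓ hH a) p = (a : T → Kb) (p.1 + p.2) := by
  unfold s19c_comul
  rw [s19c_factor_spec]
  rfl

/-! ### counit -/

theorem s19c_counit_mem (a : H₀) :
    ((Pi.evalAlgHom (s19c_R ℓ) (fun _ : T => Kb) 0).comp H₀.val) a ∈
      (Algebra.ofId (s19c_R ℓ) Kb).range := by
  have hfix : ∀ σ : s19_Gal, σ ((a : T → Kb) 0) = (a : T → Kb) 0 := by
    intro σ
    rw [← hH.equiv a.1 a.2 σ 0, smul_zero]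
  obtain ⟨q, hq⟩ := s19c_mem_range_of_fixed _ hfix
  have := s19c_finite ℓ hH
  have hint : IsIntegral (s19c_R ℓ) a := IsIntegral.of_finite (s19c_R ℓ) a
  have hint2 : IsIntegral (s19c_R ℓ) (algebraMap ℚ Kb q) := by
    rw [hq]
    exact hint.map ((Pi.evalAlgHom (s19c_R ℓ) (fun _ : T => Kb) 0).comp H₀.val)
  have hint3 : IsIntegral (s19c_R ℓ) q :=
    (isIntegral_algHom_iff (IsScalarTower.toAlgHom (s19c_R ℓ) ℚ Kb)
      (algebraMap ℚ Kb).injective).mp hint2
  have hmem := s19c_mem_of_isIntegral ℓ q hint3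
  refine ⟨⟨q, hmem⟩, ?_⟩
  exact hq

/-- the counit. -/
def s19c_counit : H₀ →ₐ[s19c_R ℓ] s19c_R ℓ :=
  s19c_factor (Algebra.ofId (s19c_R ℓ) Kb) (s19c_algebraMap_injective ℓ)
    ((Pi.evalAlgHom (s19c_R ℓ) (fun _ : T => Kb) 0).comp H₀.val) (s19c_counit_mem ℓ hH)

theorem s19c_counit_spec (a : H₀) :
    algebraMap (s19c_R ℓ) Kb (s19c_counit ℓ hH a) = (a : T → Kb) 0 := by
  have h := s19c_factor_spec (Algebra.ofId (s19c_R ℓ) Kb) (s19c_algebraMap_injective ℓ)
    ((Pi.evalAlgHom (s19c_R ℓ) (fun _ : T => Kb) 0).comp H₀.val) (s19c_counit_mem ℓ hH) a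
  exact h

/-! ### antipode -/

theorem s19c_nsmul_mem (k : ℕ) : ∀ a : T → Kb, a ∈ H₀ → (fun x => a ((k + 1) • x)) ∈ H₀ := by
  induction k with
  | zero =>
    intro a ha
    simpa using ha
  | succ k ih =>
    intro a ha
    obtain ⟨n, a', a'', h', h'', hsum⟩ := hH.comul a ha
    have h1 : (fun x => a ((k + 1 + 1) • x)) =
        ∑ i, (fun x => a' i ((k + 1) • x)) * a'' i := by
      funext x
      rw [succ_nsmul, hsum, Finset.sum_apply]
      rfl
    rw [h1]
    exact Subalgebra.sum_mem _ fun i _ => H₀.mul_mem (ih (a' i) (h' i)) (h'' i)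

theorem s19c_neg_mem (a : T → Kb) (ha : a ∈ H₀) : (fun x => a (-x)) ∈ H₀ := by
  have hN : 0 < Nat.card T := Nat.card_pos
  have h1 := s19c_nsmul_mem ℓ hH (2 * Nat.card T - 2) a ha
  have h2 : ∀ x : T, (2 * Nat.card T - 2 + 1) • x = -x := by
    intro x
    apply eq_neg_of_add_eq_zero_left
    rw [← succ_nsmul]
    have h3 : 2 * Nat.card T - 2 + 1 + 1 = 2 * Nat.card T := by omega
    rw [h3, mul_nsmul, card_nsmul_eq_zero']
  simpa only [h2] using h1

theorem s19c_antipode_mem (a : H₀) :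
    ((s19c_pull (fun x : T => -x)).comp H₀.val) a ∈ H₀.val.range := by
  exact ⟨⟨_, s19c_neg_mem ℓ hH a.1 a.2⟩, rfl⟩

/-- the antipode. -/
def s19c_antipode : H₀ →ₐ[s19c_R ℓ] H₀ :=
  s19c_factor H₀.val Subtype.val_injective
    ((s19c_pull (fun x : T => -x)).comp H₀.val) (s19c_antipode_mem ℓ hH)

theorem s19c_antipode_spec (a : H₀) (x : T) :
    ((s19c_antipode ℓ hH a : H₀) : T → Kb) x = (a : T → Kb) (-x) := by
  have h := s19c_factor_spec H₀.val Subtype.val_injective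
    ((s19c_pull (fun x : T => -x)).comp H₀.val) (s19c_antipode_mem ℓ hH) a
  exact congrFun h x

/-! ### naturality lemmas (proved on pure tensors) -/

theorem s19c_nat_assoc (u : H₀ ⊗[s19c_R ℓ] H₀) (b : H₀) (p : T × (T × T)) :
    s19c_mu3 ℓ H₀ (Algebra.TensorProduct.assoc (s19c_R ℓ) (s19c_R ℓ) (s19c_R ℓ) H₀ H₀ H₀
      (u ⊗ₜ[s19c_R ℓ] b)) p = s19c_mu2 ℓ H₀ u (p.1, p.2.1) * (b : T → Kb) p.2.2 := by
  induction u using TensorProduct.induction_on with
  | zero => simp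
  | tmul a' a'' =>
    rw [Algebra.TensorProduct.assoc_tmul, s19c_mu3_tmul, s19c_mu2_tmul, s19c_mu2_tmul, mul_assoc]
  | add u v hu hv =>
    rw [TensorProduct.add_tmul, map_add, map_add, map_add, Pi.add_apply, Pi.add_apply, hu, hv,
      add_mul]

theorem s19c_nat_coassoc_left (z : H₀ ⊗[s19c_R ℓ] H₀) (p : T × (T × T)) :
    s19c_mu3 ℓ H₀ (Algebra.TensorProduct.assoc (s19c_R ℓ) (s19c_R ℓ) (s19c_R ℓ) H₀ H₀ H₀
      (Algebra.TensorProduct.map (s19c_comul ℓ hH) (AlgHom.id (s19c_R ℓ) H₀) z)) p =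
      s19c_mu2 ℓ H₀ z (p.1 + p.2.1, p.2.2) := by
  induction z using TensorProduct.induction_on with
  | zero => simp
  | tmul a b =>
    rw [Algebra.TensorProduct.map_tmul, AlgHom.id_apply, s19c_nat_assoc ℓ hH, s19c_comul_spec,
      s19c_mu2_tmul]
  | add u v hu hv =>
    rw [map_add, map_add, map_add, map_add, Pi.add_apply, Pi.add_apply, hu, hv]

theorem s19c_nat_coassoc_right (z : H₀ ⊗[s19c_R ℓ] H₀) (p : T × (T × T)) :
    s19c_mu3 ℓ H₀
      (Algebra.TensorProduct.map (AlgHom.id (s19c_R ℓ) H₀) (s19c_comul ℓ hH) z) p =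
      s19c_mu2 ℓ H₀ z (p.1, p.2.1 + p.2.2) := by
  induction z using TensorProduct.induction_on with
  | zero => simp
  | tmul a b =>
    rw [Algebra.TensorProduct.map_tmul, AlgHom.id_apply, s19c_mu3_tmul, s19c_comul_spec,
      s19c_mu2_tmul]
  | add u v hu hv =>
    rw [map_add, map_add, map_add, Pi.add_apply, Pi.add_apply, hu, hv]

theorem s19c_nat_lid (z : H₀ ⊗[s19c_R ℓ] H₀) (x : T) :
    ((Algebra.TensorProduct.lid (s19c_R ℓ) H₀
      (Algebra.TensorProduct.map (s19c_counit ℓ hH) (AlgHom.id (s19c_R ℓ) H₀) z) : H₀) : T → Kb) x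
      = s19c_mu2 ℓ H₀ z (0, x) := by
  induction z using TensorProduct.induction_on with
  | zero => simp
  | tmul a b =>
    rw [Algebra.TensorProduct.map_tmul, AlgHom.id_apply, Algebra.TensorProduct.lid_tmul,
      s19c_mu2_tmul]
    have h1 : ((s19c_counit ℓ hH a • b : H₀) : T → Kb) = s19c_counit ℓ hH a • (b : T → Kb) := rfl
    rw [h1, Pi.smul_apply, Algebra.smul_def, s19c_counit_spec]
  | add u v hu hv =>
    rw [map_add, map_add, map_add]
    have h1 : ∀ c d : H₀, ((c + d : H₀) : T → Kb) x = (c : T → Kb) x + (d : T → Kb) x :=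
      fun _ _ => rfl
    rw [h1, hu, hv, Pi.add_apply]

theorem s19c_nat_rid (z : H₀ ⊗[s19c_R ℓ] H₀) (x : T) :
    ((Algebra.TensorProduct.rid (s19c_R ℓ) (s19c_R ℓ) H₀
      (Algebra.TensorProduct.map (AlgHom.id (s19c_R ℓ) H₀) (s19c_counit ℓ hH) z) : H₀) : T → Kb) x
      = s19c_mu2 ℓ H₀ z (x, 0) := by
  induction z using TensorProduct.induction_on with
  | zero => simp
  | tmul a b =>
    rw [Algebra.TensorProduct.map_tmul, AlgHom.id_apply, Algebra.TensorProduct.rid_tmul,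
      s19c_mu2_tmul]
    have h1 : ((s19c_counit ℓ hH b • a : H₀) : T → Kb) = s19c_counit ℓ hH b • (a : T → Kb) := rfl
    rw [h1, Pi.smul_apply, Algebra.smul_def, s19c_counit_spec, mul_comm]
  | add u v hu hv =>
    rw [map_add, map_add, map_add]
    have h1 : ∀ c d : H₀, ((c + d : H₀) : T → Kb) x = (c : T → Kb) x + (d : T → Kb) x :=
      fun _ _ => rfl
    rw [h1, hu, hv, Pi.add_apply]

/-! ### the bialgebra structure -/

theorem s19c_coassoc :
    (Algebra.TensorProduct.assoc (s19c_R ℓ) (s19c_R ℓ) (s19c_R ℓ) H₀ H₀ H₀).toAlgHom.comp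
      ((Algebra.TensorProduct.map (s19c_comul ℓ hH) (AlgHom.id (s19c_R ℓ) H₀)).comp
        (s19c_comul ℓ hH)) =
    (Algebra.TensorProduct.map (AlgHom.id (s19c_R ℓ) H₀) (s19c_comul ℓ hH)).comp
      (s19c_comul ℓ hH) := by
  apply AlgHom.ext
  intro a
  apply s19c_mu3_injective ℓ hH
  funext p
  have h1 := s19c_nat_coassoc_left ℓ hH (s19c_comul ℓ hH a) p
  have h2 := s19c_nat_coassoc_right ℓ hH (s19c_comul ℓ hH a) p
  rw [s19c_comul_spec] at h1 h2
  show s19c_mu3 ℓ H₀ ((Algebra.TensorProduct.assoc (s19c_R ℓ) (s19c_R ℓ) (s19c_R ℓ) H₀ H₀ H₀)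
      ((Algebra.TensorProduct.map (s19c_comul ℓ hH) (AlgHom.id (s19c_R ℓ) H₀))
        (s19c_comul ℓ hH a))) p =
    s19c_mu3 ℓ H₀ ((Algebra.TensorProduct.map (AlgHom.id (s19c_R ℓ) H₀) (s19c_comul ℓ hH))
      (s19c_comul ℓ hH a)) p
  rw [h1, h2, add_assoc]

theorem s19c_rTensor :
    (Algebra.TensorProduct.map (s19c_counit ℓ hH) (AlgHom.id (s19c_R ℓ) H₀)).comp
      (s19c_comul ℓ hH) = (Algebra.TensorProduct.lid (s19c_R ℓ) H₀).symm := by
  apply AlgHom.ext
  intro a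
  apply (Algebra.TensorProduct.lid (s19c_R ℓ) H₀).injective
  show (Algebra.TensorProduct.lid (s19c_R ℓ) H₀)
      ((Algebra.TensorProduct.map (s19c_counit ℓ hH) (AlgHom.id (s19c_R ℓ) H₀))
        (s19c_comul ℓ hH a)) =
    (Algebra.TensorProduct.lid (s19c_R ℓ) H₀) ((Algebra.TensorProduct.lid (s19c_R ℓ) H₀).symm a)
  rw [AlgEquiv.apply_symm_apply]
  apply Subtype.ext
  funext x
  rw [s19c_nat_lid, s19c_comul_spec, zero_add]

theorem s19c_lTensor :
    (Algebra.TensorProduct.map (AlgHom.id (s19c_R ℓ) H₀) (s19c_counit ℓ hH)).comp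
      (s19c_comul ℓ hH) = (Algebra.TensorProduct.rid (s19c_R ℓ) (s19c_R ℓ) H₀).symm := by
  apply AlgHom.ext
  intro a
  apply (Algebra.TensorProduct.rid (s19c_R ℓ) (s19c_R ℓ) H₀).injective
  show (Algebra.TensorProduct.rid (s19c_R ℓ) (s19c_R ℓ) H₀)
      ((Algebra.TensorProduct.map (AlgHom.id (s19c_R ℓ) H₀) (s19c_counit ℓ hH))
        (s19c_comul ℓ hH a)) =
    (Algebra.TensorProduct.rid (s19c_R ℓ) (s19c_R ℓ) H₀)
      ((Algebra.TensorProduct.rid (s19c_R ℓ) (s19c_R ℓ) H₀).symm a)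
  rw [AlgEquiv.apply_symm_apply]
  apply Subtype.ext
  funext x
  rw [s19c_nat_rid, s19c_comul_spec, add_zero]

/-- the bialgebra structure of a Δ-closed function order. -/
@[reducible] def s19c_bialgebra : Bialgebra (s19c_R ℓ) H₀ :=
  Bialgebra.ofAlgHom (s19c_comul ℓ hH) (s19c_counit ℓ hH) (s19c_coassoc ℓ hH)
    (s19c_rTensor ℓ hH) (s19c_lTensor ℓ hH)

/-! ### the antipode axioms and cocommutativity -/

theorem s19c_nat_anti_r (z : H₀ ⊗[s19c_R ℓ] H₀) (x : T) :
    ((LinearMap.mul' (s19c_R ℓ) H₀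
      ((s19c_antipode ℓ hH).toLinearMap.rTensor H₀ z) : H₀) : T → Kb) x =
      s19c_mu2 ℓ H₀ z (-x, x) := by
  induction z using TensorProduct.induction_on with
  | zero => simp
  | tmul a b =>
    rw [LinearMap.rTensor_tmul, LinearMap.mul'_apply, s19c_mu2_tmul, AlgHom.toLinearMap_apply]
    have h1 : ((s19c_antipode ℓ hH a * b : H₀) : T → Kb) x =
        ((s19c_antipode ℓ hH a : H₀) : T → Kb) x * (b : T → Kb) x := rfl
    rw [h1, s19c_antipode_spec]
  | add u v hu hv =>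
    rw [map_add, map_add, map_add]
    have h1 : ∀ c d : H₀, ((c + d : H₀) : T → Kb) x = (c : T → Kb) x + (d : T → Kb) x :=
      fun _ _ => rfl
    rw [h1, hu, hv, Pi.add_apply]

theorem s19c_nat_anti_l (z : H₀ ⊗[s19c_R ℓ] H₀) (x : T) :
    ((LinearMap.mul' (s19c_R ℓ) H₀
      ((s19c_antipode ℓ hH).toLinearMap.lTensor H₀ z) : H₀) : T → Kb) x =
      s19c_mu2 ℓ H₀ z (x, -x) := by
  induction z using TensorProduct.induction_on with
  | zero => simp
  | tmul a b =>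
    rw [LinearMap.lTensor_tmul, LinearMap.mul'_apply, s19c_mu2_tmul, AlgHom.toLinearMap_apply]
    have h1 : ((a * s19c_antipode ℓ hH b : H₀) : T → Kb) x =
        (a : T → Kb) x * ((s19c_antipode ℓ hH b : H₀) : T → Kb) x := rfl
    rw [h1, s19c_antipode_spec]
  | add u v hu hv =>
    rw [map_add, map_add, map_add]
    have h1 : ∀ c d : H₀, ((c + d : H₀) : T → Kb) x = (c : T → Kb) x + (d : T → Kb) x :=
      fun _ _ => rfl
    rw [h1, hu, hv, Pi.add_apply]

theorem s19c_nat_comm (z : H₀ ⊗[s19c_R ℓ] H₀) (p : T × T) :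
    s19c_mu2 ℓ H₀ (TensorProduct.comm (s19c_R ℓ) H₀ H₀ z) p = s19c_mu2 ℓ H₀ z (p.2, p.1) := by
  induction z using TensorProduct.induction_on with
  | zero => simp
  | tmul a b =>
    rw [TensorProduct.comm_tmul, s19c_mu2_tmul, s19c_mu2_tmul, mul_comm]
  | add u v hu hv =>
    rw [map_add, map_add, map_add, Pi.add_apply, Pi.add_apply, hu, hv]

/-- the Hopf algebra structure of a Δ-closed function order. -/
@[reducible] def s19c_hopf : HopfAlgebra (s19c_R ℓ) H₀ :=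
  { s19c_bialgebra ℓ hH with
    antipode := (s19c_antipode ℓ hH).toLinearMap
    mul_antipode_rTensor_comul := by
      apply LinearMap.ext
      intro a
      apply Subtype.ext
      funext x
      have h1 := s19c_nat_anti_r ℓ hH (s19c_comul ℓ hH a) x
      rw [s19c_comul_spec] at h1
      refine h1.trans ?_
      show (a : T → Kb) (-x + x) =
        ((algebraMap (s19c_R ℓ) H₀ (s19c_counit ℓ hH a) : H₀) : T → Kb) x
      rw [neg_add_cancel, ← s19c_counit_spec ℓ hH a]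
      rfl
    mul_antipode_lTensor_comul := by
      apply LinearMap.ext
      intro a
      apply Subtype.ext
      funext x
      have h1 := s19c_nat_anti_l ℓ hH (s19c_comul ℓ hH a) x
      rw [s19c_comul_spec] at h1
      refine h1.trans ?_
      show (a : T → Kb) (x + -x) =
        ((algebraMap (s19c_R ℓ) H₀ (s19c_counit ℓ hH a) : H₀) : T → Kb) x
      rw [add_neg_cancel, ← s19c_counit_spec ℓ hH a]
      rfl }

theorem s19c_isCocomm :
    @Coalgebra.IsCocomm (s19c_R ℓ) H₀ _ _ _ (s19c_hopf ℓ hH).toCoalgebra := by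
  letI := s19c_hopf ℓ hH
  constructor
  apply LinearMap.ext
  intro a
  apply s19c_mu2_injective ℓ hH
  funext p
  have h1 := s19c_nat_comm ℓ hH (s19c_comul ℓ hH a) p
  rw [s19c_comul_spec] at h1
  refine h1.trans ?_
  have h2 := s19c_comul_spec ℓ hH a p
  refine Eq.trans ?_ h2.symm
  show (a : T → Kb) (p.2 + p.1) = (a : T → Kb) (p.1 + p.2)
  rw [add_comm]

end maps

end Fermat.Agent.Lib.S19
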