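/-
W-A programme (S19/S32), brick [HOPF] (helper4, prefix `s19c_`), part D: the `ℚ̄`-points of a Δ-closed
function order are the evaluations at the points of `T`; the contract `s19_Hopf`.
-/
import Mathlib
import Fermat.Agent.Lib.S19.CHopfC

set_option autoImplicit false
set_option linter.unusedSectionVars false

noncomputable section

namespace Fermat.Agent.Lib.S19

open Fermat.Agent.Lib.S28 TensorProduct

local notation "Kb" => AlgebraicClosure ℚ

section points

variable (ℓ : ℕ) [Fact ℓ.Prime] {T : Type} [AddCommGroup T] [Finite T]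
  [DistribMulAction s19_Gal T]

/-- evaluation at a point of `T`. -/
def s19c_ev (H₀ : Subalgebra (s19c_R ℓ) (T → Kb)) (x : T) : H₀ →ₐ[s19c_R ℓ] Kb :=
  (Pi.evalAlgHom (s19c_R ℓ) (fun _ : T => Kb) x).comp H₀.val

theorem s19c_ev_apply (H₀ : Subalgebra (s19c_R ℓ) (T → Kb)) (x : T) (a : H₀) :
    s19c_ev ℓ H₀ x a = (a : T → Kb) x := rfl

variable {H₀ : Subalgebra (s19c_R ℓ) (T → Kb)} (hH : s19_IsOrder ℓ T H₀)

include hH

theorem s19c_ev_injective : Function.Injective (s19c_ev ℓ H₀) := by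
  intro x y hxy
  by_contra hne
  obtain ⟨a, ha, h⟩ := hH.sep x y hne
  exact h (DFunLike.congr_fun hxy ⟨a, ha⟩)

/-- the coordinates of an element of the order in a basis, over `ℚ̄`. -/
theorem s19c_coe_eq_sum {ι : Type*} [Fintype ι] (b : Module.Basis ι (s19c_R ℓ) H₀) (a : H₀) :
    (a : T → Kb) = ∑ i, (algebraMap (s19c_R ℓ) Kb (b.repr a i)) • ((b i : H₀) : T → Kb) := by
  have h4 : a = ∑ i, b.repr a i • b i := (b.sum_repr a).symm
  have h6 : (a : T → Kb) = ((∑ i, b.repr a i • b i : H₀) : T → Kb) :=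
    congrArg (fun z : H₀ => (z : T → Kb)) h4
  refine h6.trans ?_
  rw [AddSubmonoidClass.coe_finsetSum]
  refine Finset.sum_congr rfl fun i _ => ?_
  rw [algebraMap_smul]
  rfl

theorem s19c_ev_surjective : Function.Surjective (s19c_ev ℓ H₀) := by
  intro φ
  have := s19c_finite ℓ hH
  have := s19c_free ℓ hH
  set b := Module.Free.chooseBasis (s19c_R ℓ) H₀ with hb
  set Bk := s19c_basisK ℓ hH b with hBk
  have hBki : ∀ i, Bk i = ((b i : H₀) : T → Kb) := s19c_basisK_apply ℓ hH b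
  set Φ : (T → Kb) →ₗ[Kb] Kb := Bk.constr Kb (fun i => φ (b i)) with hΦ
  have hΦb : ∀ i, Φ ((b i : H₀) : T → Kb) = φ (b i) := by
    intro i
    rw [← hBki, hΦ, Module.Basis.constr_basis]
  have hΦH : ∀ a : H₀, Φ (a : T → Kb) = φ a := by
    intro a
    rw [s19c_coe_eq_sum ℓ hH b a, map_sum]
    have h1 : φ a = ∑ i, algebraMap (s19c_R ℓ) Kb (b.repr a i) * φ (b i) := by
      conv_lhs => rw [← b.sum_repr a]
      rw [map_sum]
      refine Finset.sum_congr rfl fun i _ => ?_
      rw [map_smul, Algebra.smul_def]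
    rw [h1]
    refine Finset.sum_congr rfl fun i _ => ?_
    rw [map_smul, hΦb, smul_eq_mul]
  have hmul : ∀ f g, Φ (f * g) = Φ f * Φ g := by
    have h2 : (LinearMap.mul Kb (T → Kb)).compr₂ Φ = (LinearMap.mul Kb Kb).compl₁₂ Φ Φ := by
      apply Bk.ext
      intro i
      apply Bk.ext
      intro j
      simp only [LinearMap.compr₂_apply, LinearMap.mul_apply', LinearMap.compl₁₂_apply]
      rw [hBki, hBki]
      have h3 : ((b i : H₀) : T → Kb) * ((b j : H₀) : T → Kb) = ((b i * b j : H₀) : T → Kb) := rfl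
      rw [h3, hΦH, hΦb, hΦb, map_mul]
    intro f g
    have h4 := LinearMap.congr_fun (LinearMap.congr_fun h2 f) g
    simpa only [LinearMap.compr₂_apply, LinearMap.mul_apply', LinearMap.compl₁₂_apply] using h4
  have hone : Φ 1 = 1 := by
    have h5 : (1 : T → Kb) = ((1 : H₀) : T → Kb) := rfl
    rw [h5, hΦH, map_one]
  obtain ⟨x, hx⟩ := s19c_exists_eval Φ hone hmul
  refine ⟨x, ?_⟩
  apply AlgHom.ext
  intro a
  rw [s19c_ev_apply, ← hΦH a, hx]

theorem s19c_nat_lift (x y : T) (z : H₀ ⊗[s19c_R ℓ] H₀) :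
    Algebra.TensorProduct.lift (s19c_ev ℓ H₀ x) (s19c_ev ℓ H₀ y) (fun _ _ => Commute.all _ _) z =
      s19c_mu2 ℓ H₀ z (x, y) := by
  induction z using TensorProduct.induction_on with
  | zero => simp
  | tmul a b =>
    rw [Algebra.TensorProduct.lift_tmul, s19c_mu2_tmul, s19c_ev_apply, s19c_ev_apply]
  | add u v hu hv =>
    rw [map_add, map_add, Pi.add_apply, hu, hv]

/-- convolution of evaluations is evaluation at the sum. -/
theorem s19c_conv_mul (x y : T) :
    letI := s19c_hopf ℓ hH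
    (WithConv.toConv (s19c_ev ℓ H₀ x) * WithConv.toConv (s19c_ev ℓ H₀ y) :
      WithConv (H₀ →ₐ[s19c_R ℓ] Kb)) = WithConv.toConv (s19c_ev ℓ H₀ (x + y)) := by
  letI := s19c_hopf ℓ hH
  apply WithConv.ext
  apply AlgHom.ext
  intro a
  have h1 := AlgHom.convMul_apply (WithConv.toConv (s19c_ev ℓ H₀ x))
    (WithConv.toConv (s19c_ev ℓ H₀ y)) a
  refine h1.trans ?_
  have h2 := s19c_nat_lift ℓ hH x y (s19c_comul ℓ hH a)
  rw [s19c_comul_spec] at h2
  exact h2

end points

/-- **[HOPF]** a Δ-closed function order is a finite flat cocommutative Hopf algebra whose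
`ℚ̄`-points are `T`. -/
theorem s19c_hopf_main : s19_Hopf := by
  intro ℓ _ T _ _ _ H₀ hH
  refine ⟨↥H₀, inferInstance, s19c_hopf ℓ hH, s19c_finite ℓ hH, ?_, s19c_isCocomm ℓ hH, ?_⟩
  · have := s19c_free ℓ hH
    exact Module.Flat.of_free
  · letI := s19c_hopf ℓ hH
    let E₀ : T ≃ (H₀ →ₐ[s19c_R ℓ] Kb) :=
      Equiv.ofBijective (s19c_ev ℓ H₀) ⟨s19c_ev_injective ℓ hH, s19c_ev_surjective ℓ hH⟩
    let E : WithConv (H₀ →ₐ[s19c_R ℓ] Kb) ≃ T := (WithConv.equiv _).trans E₀.symm
    have hE : ∀ x : T, E (WithConv.toConv (s19c_ev ℓ H₀ x)) = x := by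
      intro x
      show E₀.symm (s19c_ev ℓ H₀ x) = x
      exact E₀.symm_apply_apply x
    have hE' : ∀ f : WithConv (H₀ →ₐ[s19c_R ℓ] Kb), f = WithConv.toConv (s19c_ev ℓ H₀ (E f)) := by
      intro f
      apply WithConv.ext
      show f.ofConv = E₀ (E₀.symm f.ofConv)
      rw [Equiv.apply_symm_apply]
    refine ⟨E, ?_, ?_⟩
    · intro f g
      conv_lhs => rw [hE' f, hE' g]
      rw [s19c_conv_mul ℓ hH, hE]
    · intro σ f g hfg
      have h1 : g = WithConv.toConv (s19c_ev ℓ H₀ (σ • E f)) := by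
        apply WithConv.ext
        apply AlgHom.ext
        intro a
        have h2 := hfg a
        have h3 : f a = (a : T → Kb) (E f) := by
          conv_lhs => rw [hE' f]
          rfl
        show g a = (a : T → Kb) (σ • E f)
        rw [h2, h3, hH.equiv a.1 a.2]
      rw [h1, hE]

end Fermat.Agent.Lib.S19
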