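/-
W-A programme (S19/S32), brick [CLOS] part 2 (helper5): inverses, Cramer, smallness and the
order lemma for the closure ring `𝒜(σ) = s19_cl l W σ`.

Contracts delivered (IfaceAlg): `s19_ClosSmall`, `s19_ClosInv`, `s19_ClosCramer`, `s19_ClosOrder`.
-/
import Fermat.Agent.Lib.S19.IfaceAlg

set_option autoImplicit false
set_option linter.unusedSectionVars false

noncomputable section

namespace Fermat.Agent.Lib.S19

open IsLocalRing

section Nil

variable {Ξ : Type*} {A : Type*} [CommRing A]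

/-- the ideal of uniformly `l`-adically nilpotent functions. -/
def s19a_nil (Ξ : Type*) {A : Type*} [CommRing A] (l : A) : Ideal (Ξ → A) :=
  (Ideal.span {(fun _ => l : Ξ → A)}).radical

theorem s19a_mem_nil {l : A} {s : Ξ → A} :
    s ∈ s19a_nil Ξ l ↔ ∃ e : ℕ, ∀ ξ, l ∣ s ξ ^ e := by
  unfold s19a_nil
  constructor
  · rintro ⟨e, he⟩
    rw [Ideal.mem_span_singleton] at he
    obtain ⟨ψ, hψ⟩ := he
    exact ⟨e, fun ξ => ⟨ψ ξ, by simpa using congrFun hψ ξ⟩⟩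
  · rintro ⟨e, he⟩
    refine ⟨e, ?_⟩
    rw [Ideal.mem_span_singleton]
    choose ψ hψ using he
    exact ⟨ψ, funext fun ξ => by simpa using hψ ξ⟩

theorem s19a_l_mul_mem_nil (l : A) (ψ : Ξ → A) : (fun ξ => l * ψ ξ) ∈ s19a_nil Ξ l :=
  s19a_mem_nil.mpr ⟨1, fun ξ => by rw [pow_one]; exact Dvd.intro _ rfl⟩

/-- a power of a nilpotent function is divisible by a high power of `l`. -/
theorem s19a_nil_pow {l : A} {s : Ξ → A} (hs : s ∈ s19a_nil Ξ l) :
    ∃ e : ℕ, ∀ m : ℕ, ∀ ξ, l ^ m ∣ s ξ ^ (e * m) := by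
  obtain ⟨e, he⟩ := s19a_mem_nil.mp hs
  refine ⟨e, fun m ξ => ?_⟩
  rw [pow_mul]
  exact pow_dvd_pow_of_dvd (he ξ) m

end Nil

section Main

variable {Ξ : Type*} {A : Type*} [CommRing A] [IsLocalRing A] {l : A} {W : Subring A}
  (hB : s19_Base l W) {ι : Type*} {σ : ι → Ξ → A} (hσ : s19_Small l σ)

include hσ in
theorem s19a_gen_mem_nil (i : ι) : σ i ∈ s19a_nil Ξ l := by
  obtain ⟨e, he⟩ := hσ
  exact s19a_mem_nil.mpr ⟨e, fun ξ => he i ξ⟩

include hσ in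
/-- every element of `W[σ]` is a constant of `W` plus a nilpotent function. -/
theorem s19a_adjoin_decomp (p : Ξ → A) (hp : p ∈ Algebra.adjoin W (Set.range σ)) :
    ∃ w : W, p - (fun _ => (w : A)) ∈ s19a_nil Ξ l := by
  induction hp using Algebra.adjoin_induction with
  | mem x hx =>
    obtain ⟨i, rfl⟩ := hx
    refine ⟨0, ?_⟩
    have : σ i - (fun _ => ((0 : W) : A)) = σ i := by
      funext ξ; simp
    rw [this]
    exact s19a_gen_mem_nil hσ i
  | algebraMap w =>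
    refine ⟨w, ?_⟩
    have : (algebraMap W (Ξ → A) w) - (fun _ => (w : A)) = 0 := by
      funext ξ
      exact sub_eq_zero.mpr rfl
    rw [this]
    exact Ideal.zero_mem _
  | add p q _ _ ihp ihq =>
    obtain ⟨w, hw⟩ := ihp
    obtain ⟨w', hw'⟩ := ihq
    refine ⟨w + w', ?_⟩
    have : p + q - (fun _ => ((w + w' : W) : A)) =
        (p - fun _ => (w : A)) + (q - fun _ => (w' : A)) := by
      funext ξ; simp; ring
    rw [this]
    exact Ideal.add_mem _ hw hw'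
  | mul p q _ _ ihp ihq =>
    obtain ⟨w, hw⟩ := ihp
    obtain ⟨w', hw'⟩ := ihq
    refine ⟨w * w', ?_⟩
    have : p * q - (fun _ => ((w * w' : W) : A)) =
        p * (q - fun _ => (w' : A)) + (p - fun _ => (w : A)) * (fun _ => (w' : A)) := by
      funext ξ; simp; ring
    rw [this]
    exact Ideal.add_mem _ (Ideal.mul_mem_left _ _ hw') (Ideal.mul_mem_right _ _ hw)

include hσ in
/-- every element of `𝒜(σ)` is a constant of `W` plus a nilpotent function. -/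
theorem s19a_cl_decomp (φ : Ξ → A) (hφ : φ ∈ s19_cl l W σ) :
    ∃ w : W, φ - (fun _ => (w : A)) ∈ s19a_nil Ξ l := by
  obtain ⟨p, hp, hc⟩ := hφ 1
  obtain ⟨w, hw⟩ := s19a_adjoin_decomp hσ p hp
  refine ⟨w, ?_⟩
  choose ψ hψ using hc
  have : φ - (fun _ => (w : A)) = (p - fun _ => (w : A)) + (fun ξ => l * ψ ξ) := by
    funext ξ
    have := hψ ξ
    rw [pow_one] at this
    simp only [Pi.sub_apply, Pi.add_apply]
    linear_combination this
  rw [this]
  exact Ideal.add_mem _ hw (s19a_l_mul_mem_nil l ψ)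

include hB in
theorem s19a_nil_val {s : Ξ → A} (hs : s ∈ s19a_nil Ξ l) (ξ : Ξ) : s ξ ∈ maximalIdeal A := by
  obtain ⟨e, he⟩ := s19a_mem_nil.mp hs
  have h1 : s ξ ^ e ∈ maximalIdeal A := by
    obtain ⟨c, hc⟩ := he ξ
    rw [hc]
    exact Ideal.mul_mem_right _ _ hB.l_mem
  exact (Ideal.IsPrime.mem_of_pow_mem inferInstance e h1)

include hB hσ in
/-- [CLOS-SMALL]. -/
theorem s19a_closSmall_aux (φ : Ξ → A) (hφ : φ ∈ s19_cl l W σ) (hm : s19_MVal φ) :
    φ ∈ s19a_nil Ξ l := by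
  obtain ⟨w, hw⟩ := s19a_cl_decomp hσ φ hφ
  rcases isEmpty_or_nonempty Ξ with hΞ | ⟨⟨ξ₀⟩⟩
  · exact s19a_mem_nil.mpr ⟨0, fun ξ => (hΞ.false ξ).elim⟩
  have hwm : (w : A) ∈ maximalIdeal A := by
    have h1 := s19a_nil_val hB hw ξ₀
    have h2 := hm ξ₀
    have : (w : A) = φ ξ₀ - (φ - (fun _ => (w : A) : Ξ → A)) ξ₀ := by simp
    rw [this]
    exact Ideal.sub_mem _ h2 h1
  obtain ⟨e, he⟩ := hB.small _ hwm
  have hconst : (fun _ => (w : A) : Ξ → A) ∈ s19a_nil Ξ l := s19a_mem_nil.mpr ⟨e, fun _ => he⟩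
  have : φ = (φ - fun _ => (w : A)) + fun _ => (w : A) := by funext ξ; simp
  rw [this]
  exact Ideal.add_mem _ hw hconst

include hB hσ in
/-- [CLOS-K2]. -/
theorem s19a_closInv_aux (φ : Ξ → A) (hφ : φ ∈ s19_cl l W σ) (hu : ∀ ξ, IsUnit (φ ξ)) :
    ∃ ψ ∈ s19_cl l W σ, ∀ ξ, φ ξ * ψ ξ = 1 := by
  rcases isEmpty_or_nonempty Ξ with hΞ | ⟨⟨ξ₀⟩⟩
  · exact ⟨0, Subalgebra.zero_mem _, fun ξ => (hΞ.false ξ).elim⟩
  obtain ⟨w, hw⟩ := s19a_cl_decomp hσ φ hφ
  -- `w` is a unit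
  have hwu : IsUnit (w : A) := by
    have h1 := s19a_nil_val hB hw ξ₀
    have : (w : A) = φ ξ₀ - (φ - (fun _ => (w : A) : Ξ → A)) ξ₀ := by simp
    rw [this]
    by_contra hnu
    have h2 : φ ξ₀ - (φ - (fun _ => (w : A) : Ξ → A)) ξ₀ ∈ maximalIdeal A :=
      (mem_maximalIdeal _).mpr hnu
    have h3 : φ ξ₀ ∈ maximalIdeal A := by
      have := Ideal.add_mem _ h2 h1
      simpa using this
    exact (mem_maximalIdeal _).mp h3 (hu ξ₀)
  obtain ⟨wi, hwi⟩ := (hB.unit w hwu).exists_right_inv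
  have hwi' : (w : A) * (wi : A) = 1 := by
    have := congrArg (Subring.subtype W) hwi
    simpa using this
  -- `ν = - wi * (φ - w)`, nilpotent, in `𝒜`
  set ν : Ξ → A := fun ξ => -(wi : A) * (φ ξ - (w : A)) with hν
  have hνnil : ν ∈ s19a_nil Ξ l := by
    have : ν = (fun _ => -(wi : A)) * (φ - fun _ => (w : A)) := by funext ξ; simp [hν]
    rw [this]
    exact Ideal.mul_mem_left _ _ hw
  have hνcl : ν ∈ s19_cl l W σ := by
    have h1 : (fun _ : Ξ => ((-wi : W) : A)) ∈ s19_cl l W σ := s19_const_mem_cl l W σ (-wi)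
    have h2 : (fun _ : Ξ => ((w : W) : A)) ∈ s19_cl l W σ := s19_const_mem_cl l W σ w
    have : ν = (fun _ : Ξ => ((-wi : W) : A)) * (φ - fun _ : Ξ => ((w : W) : A)) := by
      funext ξ; simp [hν]
    rw [this]
    exact Subalgebra.mul_mem _ h1 (Subalgebra.sub_mem _ hφ h2)
  have hφν : ∀ ξ, φ ξ = (w : A) * (1 - ν ξ) := by
    intro ξ
    simp only [hν]
    linear_combination (-(φ ξ) + (w : A)) * hwi'
  -- the pointwise inverse
  choose ψ hψ using fun ξ => (hu ξ).exists_right_inv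
  refine ⟨ψ, ?_, hψ⟩
  obtain ⟨e, he⟩ := s19a_nil_pow hνnil
  refine s19_mem_closure_of_approx fun m => ?_
  refine ⟨(fun _ : Ξ => ((wi : W) : A)) * ∑ n ∈ Finset.range (e * m), ν ^ n, ?_, ?_⟩
  · exact Subalgebra.mul_mem _ (s19_const_mem_cl l W σ wi)
      (Subalgebra.sum_mem _ fun n _ => Subalgebra.pow_mem _ hνcl n)
  · intro ξ
    obtain ⟨c, hc⟩ := he m ξ
    refine ⟨ψ ξ * c, ?_⟩
    have hgeo : (1 - ν ξ) * ∑ n ∈ Finset.range (e * m), ν ξ ^ n = 1 - ν ξ ^ (e * m) := by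
      have := (Commute.all (ν ξ) 1).mul_geom_sum₂ (e * m)
      have h2 := mul_neg_geom_sum (ν ξ) (e * m)
      exact h2
    have hsum : ((fun _ : Ξ => ((wi : W) : A)) * ∑ n ∈ Finset.range (e * m), ν ^ n) ξ =
        (wi : A) * ∑ n ∈ Finset.range (e * m), ν ξ ^ n := by
      simp [Finset.sum_apply]
    rw [hsum]
    have h1 : φ ξ * ((wi : A) * ∑ n ∈ Finset.range (e * m), ν ξ ^ n) = 1 - ν ξ ^ (e * m) := by
      rw [hφν ξ]
      calc (w : A) * (1 - ν ξ) * ((wi : A) * ∑ n ∈ Finset.range (e * m), ν ξ ^ n)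
          = ((w : A) * (wi : A)) * ((1 - ν ξ) * ∑ n ∈ Finset.range (e * m), ν ξ ^ n) := by ring
        _ = 1 - ν ξ ^ (e * m) := by rw [hwi', hgeo, one_mul]
    have h2 : ψ ξ - (wi : A) * ∑ n ∈ Finset.range (e * m), ν ξ ^ n = ψ ξ * ν ξ ^ (e * m) := by
      have hψξ := hψ ξ
      calc ψ ξ - (wi : A) * ∑ n ∈ Finset.range (e * m), ν ξ ^ n
          = ψ ξ * 1 - (φ ξ * ψ ξ) * ((wi : A) * ∑ n ∈ Finset.range (e * m), ν ξ ^ n) := by
            rw [hψξ]; ring
        _ = ψ ξ * (1 - φ ξ * ((wi : A) * ∑ n ∈ Finset.range (e * m), ν ξ ^ n)) := by ring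
        _ = ψ ξ * ν ξ ^ (e * m) := by rw [h1]; ring
    rw [h2, hc]
    ring

end Main

/-- [CLOS-SMALL]. -/
theorem s19a_closSmall : s19_ClosSmall := by
  intro Ξ A _ _ l W hB ι σ hσ φ hφ hm
  exact s19a_mem_nil.mp (s19a_closSmall_aux hB hσ φ hφ hm)

/-- [CLOS-K2]. -/
theorem s19a_closInv : s19_ClosInv := by
  intro Ξ A _ _ l W hB ι σ hσ φ hφ hu
  exact s19a_closInv_aux hB hσ φ hφ hu

/-- [CLOS-K3] Cramer. -/
theorem s19a_closCramer : s19_ClosCramer := by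
  intro Ξ A _ _ l W hB ι σ hσ n _ _ M hM hdet
  -- lift the matrix to the subalgebra
  set S := s19_cl l W σ with hS
  set M₀ : Matrix n n S := fun i j => ⟨M i j, hM i j⟩ with hM₀
  have hMeq : M = M₀.map S.val := by
    ext i j; rfl
  have hdetmem : M.det ∈ S := by
    have h := RingHom.map_det (S.val : ↥S →+* (Ξ → A)) M₀
    rw [RingHom.mapMatrix_apply] at h
    have h2 : M.det = (S.val : ↥S →+* (Ξ → A)) M₀.det := by rw [h, hMeq]; rfl
    rw [h2]
    exact (M₀.det).2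
  have hdetu : ∀ ξ, IsUnit (M.det ξ) := by
    intro ξ
    have h := hdet ξ
    have h2 : (M.map fun φ => φ ξ).det = M.det ξ := by
      have := RingHom.map_det (Pi.evalRingHom (fun _ : Ξ => A) ξ) M
      rw [RingHom.mapMatrix_apply] at this
      exact this.symm
    rwa [h2] at h
  obtain ⟨d, hd, hdinv⟩ := s19a_closInv_aux hB hσ M.det hdetmem hdetu
  have hdinv' : M.det * d = 1 := funext hdinv
  have hadj : ∀ i j, M.adjugate i j ∈ S := by
    intro i j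
    have h := RingHom.map_adjugate (S.val : ↥S →+* (Ξ → A)) M₀
    rw [RingHom.mapMatrix_apply, RingHom.mapMatrix_apply] at h
    have : M.adjugate = (M₀.adjugate).map (S.val : ↥S →+* (Ξ → A)) := by
      rw [h, hMeq]; rfl
    rw [this]
    exact (M₀.adjugate i j).2
  refine ⟨d • M.adjugate, fun i j => ?_, ?_, ?_⟩
  · rw [Matrix.smul_apply, smul_eq_mul]
    exact Subalgebra.mul_mem _ hd (hadj i j)
  · rw [Matrix.mul_smul, Matrix.mul_adjugate, smul_smul, mul_comm d, hdinv', one_smul]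
  · rw [Matrix.smul_mul, Matrix.adjugate_mul, smul_smul, mul_comm d, hdinv', one_smul]

/-- [CLOS-K5]. -/
theorem s19a_closOrder : s19_ClosOrder := by
  intro Ξ A _ l W ι σ R Rt hR hσ hm₀ hsat φ hφ hφt
  obtain ⟨m₀, hm₀⟩ := hm₀
  obtain ⟨p, hp, hc⟩ := hφ m₀
  have hpR : p ∈ R := (Algebra.adjoin_le (by rintro _ ⟨i, rfl⟩; exact hσ i) : _ ≤ R) hp
  choose ψ hψ using hc
  -- `l ^ m₀ ψ = φ - p ∈ Rt`, so `ψ ∈ Rt`
  have hsatm : ∀ m : ℕ, ∀ ψ : Ξ → A, (fun ξ => l ^ m * ψ ξ) ∈ Rt → ψ ∈ Rt := by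
    intro m
    induction m with
    | zero => intro ψ h; simpa using h
    | succ m ih =>
      intro ψ h
      apply ih
      apply hsat
      have : (fun ξ => l * (l ^ m * ψ ξ)) = fun ξ => l ^ (m + 1) * ψ ξ := by
        funext ξ; ring
      rw [this]; exact h
  have h1 : (fun ξ => l ^ m₀ * ψ ξ) = φ - p := by
    funext ξ; rw [Pi.sub_apply, hψ ξ]
  have hψt : ψ ∈ Rt := by
    apply hsatm m₀
    rw [h1]
    exact Subalgebra.sub_mem _ hφt (hR hpR)
  have h2 := hm₀ ψ hψt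
  rw [h1] at h2
  have : φ = (φ - p) + p := by ring
  rw [this]
  exact Subalgebra.add_mem _ h2 hpR

end Fermat.Agent.Lib.S19
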