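/-
W-A programme (S19/S32), brick [ORDER] (helper4, prefix `s19c_`), part B: the construction.

From a coordinate package `s19_Frames A l J J1 g 𝔉 S`, a finite Galois module `T` with an
injective equivariant `ι : T →+ J`, cosets `Q = T ⧸ T⁰` (`T⁰ = ι⁻¹ J1`), `I_v`-fixed centres
`cen : Q → J` and one frame `𝔰`:  `Y x = ι x − cen [x] ∈ J1`,
generators on `T`:  `U i x = S 𝔰 (Y x) i` (`i : Fin g`) and the idempotents `e q` (`q : Q`).
-/
import Fermat.Agent.Lib.S19.COrderA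
import Fermat.Agent.Lib.S19.ClosInv

set_option autoImplicit false
set_option linter.unusedSectionVars false

noncomputable section

namespace Fermat.Agent.Lib.S19

open IsLocalRing

section Order

variable {A : ValuationSubring s19_Qbar} {l : ↥A}
  {J : Type} [AddCommGroup J] [DistribMulAction s19_Gal J] {J1 : AddSubgroup J} {g : ℕ}
  {𝔉 : Type} {S : 𝔉 → ↥J1 → Fin g → ↥A} (hF : s19_Frames A l J J1 g 𝔉 S)
  {T : Type} [AddCommGroup T] [Finite T] [DistribMulAction s19_Gal T] (ι : T →+ J)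
  (hι : Function.Injective ι) (hιG : ∀ (σ : s19_Gal) (x : T), ι (σ • x) = σ • ι x)

/-- `T⁰ = ι⁻¹ J1`. -/
abbrev s19c_T0 (J1 : AddSubgroup J) (ι : T →+ J) : AddSubgroup T := J1.comap ι

/-- the cosets of `T⁰`. -/
abbrev s19c_Q (J1 : AddSubgroup J) (ι : T →+ J) : Type := T ⧸ s19c_T0 J1 ι

theorem s19c_q_eq {x x' : T} :
    ((x : T) : s19c_Q J1 ι) = (x' : T) ↔ ι x - ι x' ∈ J1 := by
  rw [QuotientAddGroup.eq, AddSubgroup.mem_comap, map_add, map_neg]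
  constructor
  · intro h
    have := J1.neg_mem h
    have h2 : -(-ι x + ι x') = ι x - ι x' := by abel
    rwa [h2] at this
  · intro h
    have := J1.neg_mem h
    have h2 : -(ι x - ι x') = -ι x + ι x' := by abel
    rwa [h2] at this

include hF hιG in
/-- the decomposition group acts on the cosets. -/
theorem s19c_q_smul {σ : s19_Gal} (hσ : σ ∈ A.decompositionSubgroup ℚ) {x x' : T}
    (h : ((x : T) : s19c_Q J1 ι) = (x' : T)) :
    (((σ • x : T)) : s19c_Q J1 ι) = ((σ • x' : T)) := by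
  rw [s19c_q_eq] at h ⊢
  rw [hιG, hιG, ← smul_sub]
  exact hF.stable σ hσ _ h

variable (cen : s19c_Q J1 ι → J) (hc1 : ∀ x : T, ι x - cen (x : s19c_Q J1 ι) ∈ J1)
  (hc2 : ∀ q : s19c_Q J1 ι, ∀ τ ∈ A.inertiaSubgroupIn ℚ, τ • cen q = cen q)

include hF hιG hc1 hc2 in
/-- the inertia group acts trivially on the cosets. -/
theorem s19c_q_inertia {τ : s19_Gal} (hτ : τ ∈ A.inertiaSubgroupIn ℚ) (x : T) :
    (((τ • x : T)) : s19c_Q J1 ι) = (x : T) := by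
  rw [s19c_q_eq, hιG]
  have h1 := hF.stable τ (s19c_inertia_le A hτ) _ (hc1 x)
  rw [smul_sub, hc2 _ τ hτ] at h1
  have h2 : τ • ι x - ι x = (τ • ι x - cen (x : s19c_Q J1 ι)) - (ι x - cen (x : s19c_Q J1 ι)) := by
    abel
  rw [h2]
  exact J1.sub_mem h1 (hc1 x)

/-- `Y x = ι x − cen [x]`. -/
def s19c_Y (x : T) : ↥J1 := ⟨ι x - cen (x : s19c_Q J1 ι), hc1 x⟩

theorem s19c_Y_coe (x : T) : ((s19c_Y ι cen hc1 x : ↥J1) : J) = ι x - cen (x : s19c_Q J1 ι) := rfl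

include hF hιG hc2 in
theorem s19c_Y_smul {τ : s19_Gal} (hτ : τ ∈ A.inertiaSubgroupIn ℚ) (x : T) :
    ((s19c_Y ι cen hc1 (τ • x) : ↥J1) : J) = τ • ((s19c_Y ι cen hc1 x : ↥J1) : J) := by
  rw [s19c_Y_coe, s19c_Y_coe, s19c_q_inertia hF ι hιG cen hc1 hc2 hτ x, hιG, smul_sub,
    hc2 _ τ hτ]

/-- the coordinate functions. -/
def s19c_U (𝔰 : 𝔉) (i : Fin g) (x : T) : ↥A := S 𝔰 (s19c_Y ι cen hc1 x) i

open Classical in
/-- the idempotents. -/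
def s19c_e (q : s19c_Q J1 ι) (x : T) : ↥A := if ((x : T) : s19c_Q J1 ι) = q then 1 else 0

/-- the generators. -/
def s19c_gen (𝔰 : 𝔉) : Fin g ⊕ s19c_Q J1 ι → T → ↥A :=
  Sum.elim (s19c_U (S := S) ι cen hc1 𝔰) (s19c_e (A := A) ι)

/-- the generators on `T × T`. -/
def s19c_gen2 (𝔰 : 𝔉) :
    (Fin g ⊕ s19c_Q J1 ι) ⊕ (Fin g ⊕ s19c_Q J1 ι) → T × T → ↥A :=
  Sum.elim (fun k ξ => s19c_gen (S := S) ι cen hc1 𝔰 k ξ.1)
    (fun k ξ => s19c_gen (S := S) ι cen hc1 𝔰 k ξ.2)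

/-- the order, as an algebra of `A`-valued functions. -/
def s19c_HA (𝔰 : 𝔉) : Subalgebra ↥(s19_WA A) (T → ↥A) :=
  Algebra.adjoin ↥(s19_WA A) (Set.range (s19c_gen (S := S) ι cen hc1 𝔰))

include hF hιG hc2 in
theorem s19c_U_mem_Rt (𝔰 : 𝔉) (i : Fin g) : s19c_U (S := S) ι cen hc1 𝔰 i ∈ s19c_Rt A T := by
  intro τ hτ x
  have h1 := s19c_Y_smul hF ι hιG cen hc1 hc2 hτ x
  have hy : τ • ((s19c_Y ι cen hc1 x : ↥J1) : J) ∈ J1 := by
    rw [← h1]; exact (s19c_Y ι cen hc1 (τ • x)).2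
  have h2 : s19c_Y ι cen hc1 (τ • x) = ⟨τ • ((s19c_Y ι cen hc1 x : ↥J1) : J), hy⟩ :=
    Subtype.ext h1
  show ((S 𝔰 (s19c_Y ι cen hc1 (τ • x)) i : ↥A) : s19_Qbar) = _
  rw [h2]
  exact hF.equivI 𝔰 τ hτ (s19c_Y ι cen hc1 x) hy i

include hF hιG hc1 hc2 in
theorem s19c_e_mem_Rt (q : s19c_Q J1 ι) : s19c_e (A := A) ι q ∈ s19c_Rt A T := by
  intro τ hτ x
  unfold s19c_e
  rw [s19c_q_inertia hF ι hιG cen hc1 hc2 hτ x]
  split_ifs
  · simp
  · simp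

include hF hιG hc2 in
theorem s19c_gen_mem_Rt (𝔰 : 𝔉) (k : Fin g ⊕ s19c_Q J1 ι) :
    s19c_gen (S := S) ι cen hc1 𝔰 k ∈ s19c_Rt A T := by
  rcases k with i | q
  · exact s19c_U_mem_Rt hF ι hιG cen hc1 hc2 𝔰 i
  · exact s19c_e_mem_Rt hF ι hιG cen hc1 hc2 q

include hF hιG hc2 in
theorem s19c_HA_le_Rt (𝔰 : 𝔉) : s19c_HA (S := S) ι cen hc1 𝔰 ≤ s19c_Rt A T :=
  Algebra.adjoin_le (by rintro _ ⟨k, rfl⟩; exact s19c_gen_mem_Rt hF ι hιG cen hc1 hc2 𝔰 k)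

include hF hι in
theorem s19c_gen_sep (𝔰 : 𝔉) (x y : T) (hxy : x ≠ y) :
    ∃ k, s19c_gen (S := S) ι cen hc1 𝔰 k x ≠ s19c_gen (S := S) ι cen hc1 𝔰 k y := by
  classical
  by_cases hq : ((x : T) : s19c_Q J1 ι) = (y : T)
  · -- same coset: the coordinates separate
    have h1 : s19c_Y ι cen hc1 x ≠ s19c_Y ι cen hc1 y := by
      intro h
      have h2 := congrArg (fun z : ↥J1 => (z : J)) h
      simp only [s19c_Y_coe, hq] at h2
      exact hxy (hι (sub_left_injective h2))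
    have h2 : S 𝔰 (s19c_Y ι cen hc1 x) ≠ S 𝔰 (s19c_Y ι cen hc1 y) := fun h => h1 (hF.inj 𝔰 h)
    obtain ⟨i, hi⟩ := Function.ne_iff.mp h2
    exact ⟨Sum.inl i, hi⟩
  · refine ⟨Sum.inr (x : s19c_Q J1 ι), ?_⟩
    show s19c_e (A := A) ι _ x ≠ s19c_e (A := A) ι _ y
    unfold s19c_e
    rw [if_pos rfl, if_neg (fun h => hq h.symm)]
    exact one_ne_zero

end Order

end Fermat.Agent.Lib.S19
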