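/-
W-A programme (S19/S32), brick [ORDER] (helper4, prefix `s19c_`), part C: finiteness and the
comultiplication of the local order.
-/
import Fermat.Agent.Lib.S19.COrderB

set_option autoImplicit false
set_option linter.unusedSectionVars false

noncomputable section

namespace Fermat.Agent.Lib.S19

open IsLocalRing

/-! ### Equivariant functions on `T × T` -/

section RtProd

variable {A : ValuationSubring s19_Qbar} {T : Type} [AddCommGroup T] [DistribMulAction s19_Gal T]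

theorem s19c_fst_mem_Rt {a : T → ↥A} (ha : a ∈ s19c_Rt A T) :
    (fun ξ : T × T => a ξ.1) ∈ s19c_Rt A (T × T) := fun τ hτ ξ => ha τ hτ ξ.1

theorem s19c_snd_mem_Rt {a : T → ↥A} (ha : a ∈ s19c_Rt A T) :
    (fun ξ : T × T => a ξ.2) ∈ s19c_Rt A (T × T) := fun τ hτ ξ => ha τ hτ ξ.2

theorem s19c_Delta_mem_Rt {a : T → ↥A} (ha : a ∈ s19c_Rt A T) :
    s19c_Delta ↥(s19_WA A) ↥A T a ∈ s19c_Rt A (T × T) := by
  intro τ hτ ξ
  show ((a ((τ • ξ).1 + (τ • ξ).2) : ↥A) : s19_Qbar) = _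
  rw [Prod.smul_fst, Prod.smul_snd, ← smul_add]
  exact ha τ hτ (ξ.1 + ξ.2)

end RtProd

section Order

variable {A : ValuationSubring s19_Qbar} {l : ↥A}
  {J : Type} [AddCommGroup J] [DistribMulAction s19_Gal J] {J1 : AddSubgroup J} {g : ℕ}
  {𝔉 : Type} {S : 𝔉 → ↥J1 → Fin g → ↥A} (hF : s19_Frames A l J J1 g 𝔉 S)
  (hB : s19_Base l (s19_WA A))

/-! ### The addition law and the change of frame, relative to a family of generators -/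

include hF hB in
theorem s19c_add_mem {Ξ κ : Type} [Finite Ξ] (σ : κ → Ξ → ↥A) (𝔰 : 𝔉) (y₁ y₂ : Ξ → ↥J1)
    (h₁ : ∀ j, (fun ξ => S 𝔰 (y₁ ξ) j) ∈ s19_cl l (s19_WA A) σ)
    (h₂ : ∀ j, (fun ξ => S 𝔰 (y₂ ξ) j) ∈ s19_cl l (s19_WA A) σ) (i : Fin g) :
    (fun ξ => S 𝔰 (y₁ ξ + y₂ ξ) i) ∈ s19_cl l (s19_WA A) σ := by
  have hs : s19_Small l (Sum.elim (fun (i : Fin g) (ξ : Ξ) => S 𝔰 (y₁ ξ) i)
      (fun (i : Fin g) (ξ : Ξ) => S 𝔰 (y₂ ξ) i)) := by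
    apply s19c_small_of_finite hB
    rintro (j | j) ξ
    · exact hF.mval 𝔰 _ j
    · exact hF.mval 𝔰 _ j
  have h := hF.add 𝔰 y₁ y₂ hs i
  refine s19_cl_le l (s19_WA A) _ σ ?_ h
  rintro (j | j)
  · exact h₁ j
  · exact h₂ j

include hF hB in
theorem s19c_chg_mem {Ξ κ : Type} [Finite Ξ] (σ : κ → Ξ → ↥A) (𝔰 𝔰' : 𝔉) (y : Ξ → ↥J1)
    (h : ∀ j, (fun ξ => S 𝔰 (y ξ) j) ∈ s19_cl l (s19_WA A) σ) (i : Fin g) :
    (fun ξ => S 𝔰' (y ξ) i) ∈ s19_cl l (s19_WA A) σ := by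
  have hs : s19_Small l (fun (i : Fin g) (ξ : Ξ) => S 𝔰 (y ξ) i) := by
    apply s19c_small_of_finite hB
    intro j ξ
    exact hF.mval 𝔰 _ j
  have h' := hF.chg 𝔰 𝔰' y hs i
  exact s19_cl_le l (s19_WA A) _ σ h h'

include hF in
/-- the coordinates of an inertia-fixed point of `J1` lie in `W`. -/
theorem s19c_S_fixed_mem_W (𝔰 : 𝔉) (d : ↥J1)
    (hd : ∀ τ ∈ A.inertiaSubgroupIn ℚ, τ • (d : J) = d) (j : Fin g) :
    S 𝔰 d j ∈ s19_WA A := by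
  rw [s19_mem_WA]
  intro τ hτ
  have hy : τ • (d : J) ∈ J1 := by rw [hd τ hτ]; exact d.2
  have h1 := hF.equivI 𝔰 τ hτ d hy j
  have h2 : (⟨τ • (d : J), hy⟩ : ↥J1) = d := Subtype.ext (hd τ hτ)
  rw [h2] at h1
  exact h1.symm

variable {T : Type} [AddCommGroup T] [Finite T] [DistribMulAction s19_Gal T] (ι : T →+ J)
  (hι : Function.Injective ι) (hιG : ∀ (σ : s19_Gal) (x : T), ι (σ • x) = σ • ι x)
  (cen : s19c_Q J1 ι → J) (hc1 : ∀ x : T, ι x - cen (x : s19c_Q J1 ι) ∈ J1)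
  (hc2 : ∀ q : s19c_Q J1 ι, ∀ τ ∈ A.inertiaSubgroupIn ℚ, τ • cen q = cen q)

/-! ### Finiteness -/

include hF hιG hc2 in
theorem s19c_HA_fg (𝔰 : 𝔉) :
    (Subalgebra.toSubmodule (s19c_HA (S := S) ι cen hc1 𝔰)).FG :=
  s19c_adjoin_fg _ (s19c_gen_mem_Rt hF ι hιG cen hc1 hc2 𝔰)

/-! ### The generators on `T × T` -/

include hF hιG hc2 in
theorem s19c_gen2_mem_Rt (𝔰 : 𝔉) (k : (Fin g ⊕ s19c_Q J1 ι) ⊕ (Fin g ⊕ s19c_Q J1 ι)) :
    s19c_gen2 (S := S) ι cen hc1 𝔰 k ∈ s19c_Rt A (T × T) := by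
  rcases k with k | k
  · exact s19c_fst_mem_Rt (s19c_gen_mem_Rt hF ι hιG cen hc1 hc2 𝔰 k)
  · exact s19c_snd_mem_Rt (s19c_gen_mem_Rt hF ι hιG cen hc1 hc2 𝔰 k)

include hF hι in
theorem s19c_gen2_sep (𝔰 : 𝔉) (ξ η : T × T) (h : ξ ≠ η) :
    ∃ k, s19c_gen2 (S := S) ι cen hc1 𝔰 k ξ ≠ s19c_gen2 (S := S) ι cen hc1 𝔰 k η := by
  by_cases h1 : ξ.1 = η.1
  · have h2 : ξ.2 ≠ η.2 := fun h2 => h (Prod.ext h1 h2)
    obtain ⟨k, hk⟩ := s19c_gen_sep hF ι hι cen hc1 𝔰 _ _ h2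
    exact ⟨Sum.inr k, hk⟩
  · obtain ⟨k, hk⟩ := s19c_gen_sep hF ι hι cen hc1 𝔰 _ _ h1
    exact ⟨Sum.inl k, hk⟩

/-- the projection `T × T → Q × Q`. -/
def s19c_pp (J1 : AddSubgroup J) (ι : T →+ J) (ξ : T × T) : s19c_Q J1 ι × s19c_Q J1 ι :=
  ((ξ.1 : s19c_Q J1 ι), (ξ.2 : s19c_Q J1 ι))

/-- the indicator functions of the fibres of `T × T → Q × Q` are in `W[σ₂]`. -/
theorem s19c_ind2 (𝔰 : 𝔉) (q : s19c_Q J1 ι × s19c_Q J1 ι) :
    ∃ e ∈ Algebra.adjoin ↥(s19_WA A) (Set.range (s19c_gen2 (S := S) ι cen hc1 𝔰)),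
      (∀ ξ, s19c_pp J1 ι ξ = q → e ξ = (1 : ↥A)) ∧ ∀ ξ, s19c_pp J1 ι ξ ≠ q → e ξ = 0 := by
  classical
  refine ⟨s19c_gen2 (S := S) ι cen hc1 𝔰 (Sum.inl (Sum.inr q.1)) *
    s19c_gen2 (S := S) ι cen hc1 𝔰 (Sum.inr (Sum.inr q.2)),
    Subalgebra.mul_mem _ (Algebra.subset_adjoin ⟨_, rfl⟩) (Algebra.subset_adjoin ⟨_, rfl⟩), ?_, ?_⟩
  · intro ξ hξ
    have h1 : (ξ.1 : s19c_Q J1 ι) = q.1 := congrArg Prod.fst hξ
    have h2 : (ξ.2 : s19c_Q J1 ι) = q.2 := congrArg Prod.snd hξ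
    show s19c_e (A := A) ι q.1 ξ.1 * s19c_e (A := A) ι q.2 ξ.2 = 1
    unfold s19c_e
    rw [if_pos h1, if_pos h2, mul_one]
  · intro ξ hξ
    show s19c_e (A := A) ι q.1 ξ.1 * s19c_e (A := A) ι q.2 ξ.2 = 0
    unfold s19c_e
    by_cases h1 : (ξ.1 : s19c_Q J1 ι) = q.1
    · have h2 : ¬ (ξ.2 : s19c_Q J1 ι) = q.2 := fun h2 => hξ (Prod.ext h1 h2)
      rw [if_neg h2, mul_zero]
    · rw [if_neg h1, zero_mul]

/-- the indicator functions of the cosets are in `W[σ]`. -/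
theorem s19c_ind1 (𝔰 : 𝔉) (q : s19c_Q J1 ι) :
    ∃ e ∈ s19c_HA (S := S) ι cen hc1 𝔰,
      (∀ x : T, (x : s19c_Q J1 ι) = q → e x = (1 : ↥A)) ∧
        ∀ x : T, (x : s19c_Q J1 ι) ≠ q → e x = 0 := by
  classical
  refine ⟨s19c_gen (S := S) ι cen hc1 𝔰 (Sum.inr q), Algebra.subset_adjoin ⟨_, rfl⟩, ?_, ?_⟩
  · intro x hx
    show s19c_e (A := A) ι q x = 1
    unfold s19c_e
    rw [if_pos hx]
  · intro x hx
    show s19c_e (A := A) ι q x = 0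
    unfold s19c_e
    rw [if_neg hx]

/-! ### The comultiplication on the generators -/

/-- `δ(q, q') = cen q + cen q' − cen (q + q')`. -/
def s19c_dlt (q q' : s19c_Q J1 ι) : J := cen q + cen q' - cen (q + q')

include hc1 in
theorem s19c_dlt_mem (q q' : s19c_Q J1 ι) : s19c_dlt ι cen q q' ∈ J1 := by
  induction q using QuotientAddGroup.induction_on with
  | H x =>
    induction q' using QuotientAddGroup.induction_on with
    | H y =>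
      have h1 := hc1 x
      have h2 := hc1 y
      have h3 := hc1 (x + y)
      have h4 : s19c_dlt ι cen (x : s19c_Q J1 ι) (y : s19c_Q J1 ι) =
          (ι (x + y) - cen ((x + y : T) : s19c_Q J1 ι)) -
            ((ι x - cen (x : s19c_Q J1 ι)) + (ι y - cen (y : s19c_Q J1 ι))) := by
        unfold s19c_dlt
        rw [map_add, QuotientAddGroup.mk_add]
        abel
      rw [h4]
      exact J1.sub_mem h3 (J1.add_mem h1 h2)

include hc2 in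
theorem s19c_dlt_fixed (q q' : s19c_Q J1 ι) (τ : s19_Gal) (hτ : τ ∈ A.inertiaSubgroupIn ℚ) :
    τ • s19c_dlt ι cen q q' = s19c_dlt ι cen q q' := by
  unfold s19c_dlt
  rw [smul_sub, smul_add, hc2 _ τ hτ, hc2 _ τ hτ, hc2 _ τ hτ]

include hF hB hι hιG hc2 in
theorem s19c_U_comul (hK : s19c_K5Full) (ℓ : ℕ) [Fact ℓ.Prime]
    (hl : ((l : ↥A) : s19_Qbar) = (ℓ : s19_Qbar))
    (hrk : ∀ d : ↥A, d ≠ 0 → ∃ m : ℕ, d ∣ l ^ m) (𝔰 : 𝔉) (i : Fin g) :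
    s19c_Delta ↥(s19_WA A) ↥A T (s19c_U (S := S) ι cen hc1 𝔰 i) ∈
      Algebra.adjoin ↥(s19_WA A) (Set.range (s19c_gen2 (S := S) ι cen hc1 𝔰)) := by
  apply hK ℓ A l hl hrk (T × T) _ (s19c_gen2 (S := S) ι cen hc1 𝔰)
    (s19c_gen2_mem_Rt hF ι hιG cen hc1 hc2 𝔰) (s19c_gen2_sep hF ι hι cen hc1 𝔰)
  · -- membership in the closure ring
    set y₁ : T × T → ↥J1 := fun ξ => s19c_Y ι cen hc1 ξ.1 with hy₁
    set y₂ : T × T → ↥J1 := fun ξ => s19c_Y ι cen hc1 ξ.2 with hy₂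
    set δ : T × T → ↥J1 := fun ξ =>
      ⟨s19c_dlt ι cen (ξ.1 : s19c_Q J1 ι) (ξ.2 : s19c_Q J1 ι), s19c_dlt_mem ι cen hc1 _ _⟩ with hδ
    have e1 : ∀ ξ : T × T, s19c_Y ι cen hc1 (ξ.1 + ξ.2) = (y₁ ξ + y₂ ξ) + δ ξ := by
      intro ξ
      apply Subtype.ext
      simp only [hy₁, hy₂, hδ, AddSubgroup.coe_add, s19c_Y_coe, s19c_dlt]
      rw [map_add, QuotientAddGroup.mk_add]
      abel
    have e2 : s19c_Delta ↥(s19_WA A) ↥A T (s19c_U (S := S) ι cen hc1 𝔰 i) =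
        fun ξ => S 𝔰 ((y₁ ξ + y₂ ξ) + δ ξ) i := by
      funext ξ
      rw [s19c_Delta_apply]
      unfold s19c_U
      rw [e1]
    rw [e2]
    apply s19c_add_mem hF hB (s19c_gen2 (S := S) ι cen hc1 𝔰) 𝔰 (fun ξ => y₁ ξ + y₂ ξ) δ
    · intro j
      apply s19c_add_mem hF hB (s19c_gen2 (S := S) ι cen hc1 𝔰) 𝔰 y₁ y₂
      · intro j'
        exact s19_gen_mem_cl l (s19_WA A) (s19c_gen2 (S := S) ι cen hc1 𝔰) (Sum.inl (Sum.inl j'))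
      · intro j'
        exact s19_gen_mem_cl l (s19_WA A) (s19c_gen2 (S := S) ι cen hc1 𝔰) (Sum.inr (Sum.inl j'))
    · intro j
      apply s19_le_closure
      apply s19c_locconst_mem _ (s19c_pp J1 ι) (s19c_ind2 ι cen hc1 𝔰)
      · intro ξ
        exact s19c_S_fixed_mem_W hF 𝔰 (δ ξ) (fun τ hτ => s19c_dlt_fixed ι cen hc2 _ _ τ hτ) j
      · intro ξ ξ' h
        have h1 : (ξ.1 : s19c_Q J1 ι) = ξ'.1 := congrArg Prod.fst h
        have h2 : (ξ.2 : s19c_Q J1 ι) = ξ'.2 := congrArg Prod.snd h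
        have h3 : δ ξ = δ ξ' := by
          apply Subtype.ext
          simp only [hδ]
          rw [h1, h2]
        rw [h3]
  · exact s19c_Delta_mem_Rt (s19c_U_mem_Rt hF ι hιG cen hc1 hc2 𝔰 i)

theorem s19c_e_comul (𝔰 : 𝔉) (q : s19c_Q J1 ι) :
    s19c_Delta ↥(s19_WA A) ↥A T (s19c_e (A := A) ι q) ∈
      Algebra.adjoin ↥(s19_WA A) (Set.range (s19c_gen2 (S := S) ι cen hc1 𝔰)) := by
  classical
  apply s19c_locconst_mem _ (s19c_pp J1 ι) (s19c_ind2 ι cen hc1 𝔰)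
  · intro ξ
    rw [s19c_Delta_apply]
    unfold s19c_e
    split_ifs
    · exact (s19_WA A).one_mem
    · exact (s19_WA A).zero_mem
  · intro ξ ξ' h
    have h1 : (ξ.1 : s19c_Q J1 ι) = ξ'.1 := congrArg Prod.fst h
    have h2 : (ξ.2 : s19c_Q J1 ι) = ξ'.2 := congrArg Prod.snd h
    rw [s19c_Delta_apply, s19c_Delta_apply]
    unfold s19c_e
    rw [QuotientAddGroup.mk_add, QuotientAddGroup.mk_add, h1, h2]

include hF hB hι hιG hc2 in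
/-- **the comultiplication.** -/
theorem s19c_HA_comul (hK : s19c_K5Full) (ℓ : ℕ) [Fact ℓ.Prime]
    (hl : ((l : ↥A) : s19_Qbar) = (ℓ : s19_Qbar))
    (hrk : ∀ d : ↥A, d ≠ 0 → ∃ m : ℕ, d ∣ l ^ m) (𝔰 : 𝔉) (a : T → ↥A)
    (ha : a ∈ s19c_HA (S := S) ι cen hc1 𝔰) :
    ∃ (n : ℕ) (a' a'' : Fin n → T → ↥A), (∀ i, a' i ∈ s19c_HA (S := S) ι cen hc1 𝔰) ∧
      (∀ i, a'' i ∈ s19c_HA (S := S) ι cen hc1 𝔰) ∧
      ∀ x y : T, a (x + y) = ∑ i, a' i x * a'' i y := by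
  have h1 : s19c_HA (S := S) ι cen hc1 𝔰 ≤
      (Algebra.adjoin ↥(s19_WA A) (Set.range (s19c_gen2 (S := S) ι cen hc1 𝔰))).comap
        (s19c_Delta ↥(s19_WA A) ↥A T) := by
    apply Algebra.adjoin_le
    rintro _ ⟨k, rfl⟩
    rcases k with i | q
    · exact s19c_U_comul hF hB ι hι hιG cen hc1 hc2 hK ℓ hl hrk 𝔰 i
    · exact s19c_e_comul ι cen hc1 𝔰 q
  have h2 : Algebra.adjoin ↥(s19_WA A) (Set.range (s19c_gen2 (S := S) ι cen hc1 𝔰)) ≤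
      s19c_Dec (s19c_HA (S := S) ι cen hc1 𝔰) := by
    apply Algebra.adjoin_le
    rintro _ ⟨k, rfl⟩
    rcases k with k | k
    · exact s19c_fst_mem_Dec (Algebra.subset_adjoin ⟨k, rfl⟩)
    · exact s19c_snd_mem_Dec (Algebra.subset_adjoin ⟨k, rfl⟩)
  exact s19c_mem_Dec (h2 (h1 ha))

end Order

end Fermat.Agent.Lib.S19
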