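/-
W-A programme (S19/S32), brick [ORDER] (helper4, prefix `s19c_`), part D: stability under the
decomposition group and the assembly:
`theorem s19c_order : s19_BaseA → s19c_K5Full → s19_OrderOfFrames`.
-/
import Fermat.Agent.Lib.S19.COrderC

set_option autoImplicit false
set_option linter.unusedSectionVars false

noncomputable section

namespace Fermat.Agent.Lib.S19

open IsLocalRing

/-! ### The twist of a function by an element of the decomposition group -/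

section Twist

variable {A : ValuationSubring s19_Qbar} {T : Type} [AddCommGroup T] [DistribMulAction s19_Gal T]

/-- `x ↦ γ (a (γ⁻¹ x))`. -/
def s19c_tw {γ : s19_Gal} (hγ : γ ∈ A.decompositionSubgroup ℚ) (a : T → ↥A) : T → ↥A :=
  fun x => ⟨γ ((a (γ⁻¹ • x) : ↥A) : s19_Qbar), s19c_decomp_mem A hγ (a (γ⁻¹ • x)).2⟩

theorem s19c_tw_coe {γ : s19_Gal} (hγ : γ ∈ A.decompositionSubgroup ℚ) (a : T → ↥A) (x : T) :
    ((s19c_tw hγ a x : ↥A) : s19_Qbar) = γ ((a (γ⁻¹ • x) : ↥A) : s19_Qbar) := rfl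

theorem s19c_tw_add {γ : s19_Gal} (hγ : γ ∈ A.decompositionSubgroup ℚ) (a b : T → ↥A) :
    s19c_tw hγ (a + b) = s19c_tw hγ a + s19c_tw hγ b := by
  funext x
  apply Subtype.ext
  simp [s19c_tw_coe]

theorem s19c_tw_mul {γ : s19_Gal} (hγ : γ ∈ A.decompositionSubgroup ℚ) (a b : T → ↥A) :
    s19c_tw hγ (a * b) = s19c_tw hγ a * s19c_tw hγ b := by
  funext x
  apply Subtype.ext
  simp [s19c_tw_coe]

theorem s19c_tw_mem_Rt {γ : s19_Gal} (hγ : γ ∈ A.decompositionSubgroup ℚ) {a : T → ↥A}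
    (ha : a ∈ s19c_Rt A T) : s19c_tw hγ a ∈ s19c_Rt A T := by
  intro τ hτ x
  rw [s19c_tw_coe, s19c_tw_coe]
  have h1 : γ⁻¹ • τ • x = (γ⁻¹ * τ * γ) • γ⁻¹ • x := by
    rw [← mul_smul, ← mul_smul, mul_assoc, mul_assoc, mul_inv_cancel, mul_one]
  rw [h1, ha _ (s19c_inertia_conj' A hγ hτ)]
  simp only [AlgEquiv.mul_apply]
  exact AlgEquiv.apply_symm_apply γ _

end Twist

section Order

variable {A : ValuationSubring s19_Qbar} {l : ↥A}
  {J : Type} [AddCommGroup J] [DistribMulAction s19_Gal J] {J1 : AddSubgroup J} {g : ℕ}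
  {𝔉 : Type} {S : 𝔉 → ↥J1 → Fin g → ↥A} (hF : s19_Frames A l J J1 g 𝔉 S)
  (hB : s19_Base l (s19_WA A))
  {T : Type} [AddCommGroup T] [Finite T] [DistribMulAction s19_Gal T] (ι : T →+ J)
  (hι : Function.Injective ι) (hιG : ∀ (σ : s19_Gal) (x : T), ι (σ • x) = σ • ι x)
  (cen : s19c_Q J1 ι → J) (hc1 : ∀ x : T, ι x - cen (x : s19c_Q J1 ι) ∈ J1)
  (hc2 : ∀ q : s19c_Q J1 ι, ∀ τ ∈ A.inertiaSubgroupIn ℚ, τ • cen q = cen q)

/-- `δ'(x) = cen [x] − γ • cen [γ⁻¹ x]`. -/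
def s19c_dlt' (γ : s19_Gal) (x : T) : J :=
  cen (x : s19c_Q J1 ι) - γ • cen ((γ⁻¹ • x : T) : s19c_Q J1 ι)

include hιG in
theorem s19c_dlt'_eq (γ : s19_Gal) (x : T) :
    γ • ((s19c_Y ι cen hc1 (γ⁻¹ • x) : ↥J1) : J) =
      ((s19c_Y ι cen hc1 x : ↥J1) : J) + s19c_dlt' ι cen γ x := by
  rw [s19c_Y_coe, s19c_Y_coe, smul_sub, ← hιG, smul_inv_smul]
  unfold s19c_dlt'
  abel

include hF hιG hc1 in
theorem s19c_dlt'_mem {γ : s19_Gal} (hγ : γ ∈ A.decompositionSubgroup ℚ) (x : T) :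
    s19c_dlt' ι cen γ x ∈ J1 := by
  have h1 := hF.stable γ hγ _ (s19c_Y ι cen hc1 (γ⁻¹ • x)).2
  rw [s19c_dlt'_eq ι hιG cen hc1 γ x] at h1
  have h2 := J1.sub_mem h1 (s19c_Y ι cen hc1 x).2
  rwa [add_sub_cancel_left] at h2

include hc2 in
theorem s19c_dlt'_fixed {γ : s19_Gal} (hγ : γ ∈ A.decompositionSubgroup ℚ) (x : T)
    (τ : s19_Gal) (hτ : τ ∈ A.inertiaSubgroupIn ℚ) :
    τ • s19c_dlt' ι cen γ x = s19c_dlt' ι cen γ x := by
  unfold s19c_dlt'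
  rw [smul_sub, hc2 _ τ hτ]
  congr 1
  have h1 : τ • γ • cen ((γ⁻¹ • x : T) : s19c_Q J1 ι) =
      γ • (γ⁻¹ * τ * γ) • cen ((γ⁻¹ • x : T) : s19c_Q J1 ι) := by
    rw [← mul_smul, ← mul_smul, ← mul_assoc, ← mul_assoc, mul_inv_cancel, one_mul]
  rw [h1, hc2 _ _ (s19c_inertia_conj' A hγ hτ)]

include hF hB hι hιG hc2 in
/-- the twist of a coordinate function lies in the order. -/
theorem s19c_tw_U_mem (hK : s19c_K5Full) (ℓ : ℕ) [Fact ℓ.Prime]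
    (hl : ((l : ↥A) : s19_Qbar) = (ℓ : s19_Qbar))
    (hrk : ∀ d : ↥A, d ≠ 0 → ∃ m : ℕ, d ∣ l ^ m) (𝔰 : 𝔉) {γ : s19_Gal}
    (hγ : γ ∈ A.decompositionSubgroup ℚ) (i : Fin g) :
    s19c_tw hγ (s19c_U (S := S) ι cen hc1 𝔰 i) ∈ s19c_HA (S := S) ι cen hc1 𝔰 := by
  have hγ' : γ⁻¹ ∈ A.decompositionSubgroup ℚ := (A.decompositionSubgroup ℚ).inv_mem hγ
  apply hK ℓ A l hl hrk T _ (s19c_gen (S := S) ι cen hc1 𝔰)
    (s19c_gen_mem_Rt hF ι hιG cen hc1 hc2 𝔰) (s19c_gen_sep hF ι hι cen hc1 𝔰)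
  · obtain ⟨𝔰', h𝔰'⟩ := hF.equivD 𝔰 γ hγ
    set δ : T → ↥J1 := fun x => ⟨s19c_dlt' ι cen γ x, s19c_dlt'_mem hF ι hιG cen hc1 hγ x⟩ with hδ
    have e1 : s19c_tw hγ (s19c_U (S := S) ι cen hc1 𝔰 i) =
        fun x => S 𝔰' (s19c_Y ι cen hc1 x + δ x) i := by
      funext x
      apply Subtype.ext
      rw [s19c_tw_coe]
      have hy : γ • ((s19c_Y ι cen hc1 (γ⁻¹ • x) : ↥J1) : J) ∈ J1 :=
        hF.stable γ hγ _ (s19c_Y ι cen hc1 (γ⁻¹ • x)).2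
      have h1 := h𝔰' (s19c_Y ι cen hc1 (γ⁻¹ • x)) hy i
      have h2 : (⟨γ • ((s19c_Y ι cen hc1 (γ⁻¹ • x) : ↥J1) : J), hy⟩ : ↥J1) =
          s19c_Y ι cen hc1 x + δ x := by
        apply Subtype.ext
        rw [AddSubgroup.coe_add]
        exact s19c_dlt'_eq ι hιG cen hc1 γ x
      rw [h2] at h1
      rw [h1]
      rfl
    rw [e1]
    apply s19c_chg_mem hF hB (s19c_gen (S := S) ι cen hc1 𝔰) 𝔰 𝔰'
      (fun x => s19c_Y ι cen hc1 x + δ x)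
    intro j
    apply s19c_add_mem hF hB (s19c_gen (S := S) ι cen hc1 𝔰) 𝔰 (s19c_Y ι cen hc1) δ
    · intro j'
      exact s19_gen_mem_cl l (s19_WA A) (s19c_gen (S := S) ι cen hc1 𝔰) (Sum.inl j')
    · intro j'
      apply s19_le_closure
      apply s19c_locconst_mem _ (fun x : T => (x : s19c_Q J1 ι)) (s19c_ind1 ι cen hc1 𝔰)
      · intro x
        exact s19c_S_fixed_mem_W hF 𝔰 (δ x)
          (fun τ hτ => s19c_dlt'_fixed ι cen hc2 hγ x τ hτ) j'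
      · intro x x' h
        have h2 := s19c_q_smul hF ι hιG hγ' h
        have h3 : δ x = δ x' := by
          apply Subtype.ext
          simp only [hδ, s19c_dlt']
          rw [h, h2]
        rw [h3]
  · exact s19c_tw_mem_Rt hγ (s19c_U_mem_Rt hF ι hιG cen hc1 hc2 𝔰 i)

include hF hιG in
/-- the twist of an idempotent lies in the order. -/
theorem s19c_tw_e_mem (𝔰 : 𝔉) {γ : s19_Gal}
    (hγ : γ ∈ A.decompositionSubgroup ℚ) (q : s19c_Q J1 ι) :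
    s19c_tw hγ (s19c_e (A := A) ι q) ∈ s19c_HA (S := S) ι cen hc1 𝔰 := by
  classical
  have hγ' : γ⁻¹ ∈ A.decompositionSubgroup ℚ := (A.decompositionSubgroup ℚ).inv_mem hγ
  apply s19c_locconst_mem _ (fun x : T => (x : s19c_Q J1 ι)) (s19c_ind1 ι cen hc1 𝔰)
  · intro x
    rw [s19_mem_WA]
    intro τ hτ
    rw [s19c_tw_coe]
    unfold s19c_e
    split_ifs
    · simp
    · simp
  · intro x x' h
    have h2 := s19c_q_smul hF ι hιG hγ' h
    apply Subtype.ext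
    rw [s19c_tw_coe, s19c_tw_coe]
    unfold s19c_e
    rw [h2]

include hF hB hι hιG hc2 in
/-- **stability under the decomposition group.** -/
theorem s19c_HA_stable (hK : s19c_K5Full) (ℓ : ℕ) [Fact ℓ.Prime]
    (hl : ((l : ↥A) : s19_Qbar) = (ℓ : s19_Qbar))
    (hrk : ∀ d : ↥A, d ≠ 0 → ∃ m : ℕ, d ∣ l ^ m) (𝔰 : 𝔉) {γ : s19_Gal}
    (hγ : γ ∈ A.decompositionSubgroup ℚ) (a : T → ↥A)
    (ha : a ∈ s19c_HA (S := S) ι cen hc1 𝔰) :
    s19c_tw hγ a ∈ s19c_HA (S := S) ι cen hc1 𝔰 := by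
  unfold s19c_HA at ha
  induction ha using Algebra.adjoin_induction with
  | mem a ha =>
    obtain ⟨k, rfl⟩ := ha
    rcases k with i | q
    · exact s19c_tw_U_mem hF hB ι hι hιG cen hc1 hc2 hK ℓ hl hrk 𝔰 hγ i
    · exact s19c_tw_e_mem hF ι hιG cen hc1 𝔰 hγ q
  | algebraMap w =>
    have hw : γ ((w : ↥A) : s19_Qbar) ∈ s19_W A := s19c_decomp_W A hγ w.2
    have h1 : s19c_tw hγ (algebraMap ↥(s19_WA A) (T → ↥A) w) =
        algebraMap ↥(s19_WA A) (T → ↥A) ⟨⟨γ ((w : ↥A) : s19_Qbar), hw.1⟩, hw⟩ := by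
      funext x
      apply Subtype.ext
      rfl
    rw [h1]
    exact Subalgebra.algebraMap_mem _ _
  | add a b _ _ iha ihb =>
    rw [s19c_tw_add]
    exact Subalgebra.add_mem _ iha ihb
  | mul a b _ _ iha ihb =>
    rw [s19c_tw_mul]
    exact Subalgebra.mul_mem _ iha ihb

end Order

end Fermat.Agent.Lib.S19
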