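/-
W-A programme (S19/S32), brick [ORDER] (helper4, prefix `s19c_`), part E: the assembly
`theorem s19c_order : s19_BaseA → s19c_K5Full → s19_OrderOfFrames`.
-/
import Fermat.Agent.Lib.S19.COrderD

set_option autoImplicit false
set_option linter.unusedSectionVars false

noncomputable section

namespace Fermat.Agent.Lib.S19

open IsLocalRing

/-- post-composition with the inclusion `A ⊂ ℚ̄`. -/
def s19c_toQ (A : ValuationSubring s19_Qbar) (T : Type) : (T → ↥A) →+* (T → s19_Qbar) :=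
  RingHom.compLeft A.subtype T

theorem s19c_toQ_apply {A : ValuationSubring s19_Qbar} {T : Type} (a : T → ↥A) (x : T) :
    s19c_toQ A T a x = ((a x : ↥A) : s19_Qbar) := rfl

/-- **[ORDER]** a coordinate package gives local orders on all finite Galois submodules
(assuming [BASE] and [FULL]+K5). -/
theorem s19c_order (hBA : s19_BaseA) (hK : s19c_K5Full) : s19_OrderOfFrames := by
  intro ℓ _ A hA l hl J _ _ J1 g 𝔉 S hF T _ _ _ ι hι hιG
  obtain ⟨hB, hrk⟩ := hBA ℓ A hA l hl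
  obtain ⟨𝔰⟩ := hF.nonempty
  -- the centres
  have hcen : ∀ q : s19c_Q J1 ι, ∃ x₀ : J, ι (Quotient.out q) - x₀ ∈ J1 ∧
      ∀ τ ∈ A.inertiaSubgroupIn ℚ, τ • x₀ = x₀ := fun q => hF.centre _
  choose cen hcen1 hc2 using hcen
  have hc1 : ∀ x : T, ι x - cen (x : s19c_Q J1 ι) ∈ J1 := by
    intro x
    have h1 : ((Quotient.out (x : s19c_Q J1 ι) : T) : s19c_Q J1 ι) = (x : T) :=
      QuotientAddGroup.out_eq' _
    rw [s19c_q_eq] at h1
    have h2 := hcen1 (x : s19c_Q J1 ι)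
    have h3 : ι x - cen (x : s19c_Q J1 ι) =
        (ι (Quotient.out (x : s19c_Q J1 ι)) - cen (x : s19c_Q J1 ι)) -
          (ι (Quotient.out (x : s19c_Q J1 ι)) - ι x) := by abel
    rw [h3]
    exact J1.sub_mem h2 h1
  refine ⟨(s19c_HA (S := S) ι cen hc1 𝔰).toSubring.map (s19c_toQ A T), ?_⟩
  constructor
  · -- val
    rintro _ ⟨a₀, -, rfl⟩ x
    exact (a₀ x).2
  · -- equiv
    rintro _ ⟨a₀, ha₀, rfl⟩ τ hτ x
    exact s19c_HA_le_Rt hF ι hιG cen hc1 hc2 𝔰 ha₀ τ hτ x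
  · -- const
    intro c hc
    exact ⟨algebraMap ↥(s19_WA A) (T → ↥A) ⟨⟨c, hc.1⟩, hc⟩,
      Subalgebra.algebraMap_mem _ _, rfl⟩
  · -- fg
    obtain ⟨n, s, hs⟩ := Submodule.fg_iff_exists_fin_generating_family.mp
      (s19c_HA_fg hF ι hιG cen hc1 hc2 𝔰)
    have hsmem : ∀ i, s i ∈ s19c_HA (S := S) ι cen hc1 𝔰 := fun i => by
      have h1 : s i ∈ Submodule.span ↥(s19_WA A) (Set.range s) :=
        Submodule.subset_span ⟨i, rfl⟩
      rw [hs] at h1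
      exact h1
    refine ⟨n, fun i => s19c_toQ A T (s i), fun i => ⟨s i, hsmem i, rfl⟩, ?_⟩
    rintro _ ⟨a₀, ha₀, rfl⟩
    have h1 : a₀ ∈ Submodule.span ↥(s19_WA A) (Set.range s) := by
      rw [hs]
      exact ha₀
    obtain ⟨c, hc⟩ := (Submodule.mem_span_range_iff_exists_fun _).mp h1
    refine ⟨fun i => (((c i : ↥(s19_WA A)) : ↥A) : s19_Qbar), fun i => (c i).2, fun x => ?_⟩
    rw [← hc, map_sum, Finset.sum_apply]
    refine Finset.sum_congr rfl fun i _ => ?_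
    rfl
  · -- sep
    intro x y hxy
    obtain ⟨k, hk⟩ := s19c_gen_sep hF ι hι cen hc1 𝔰 x y hxy
    exact ⟨_, ⟨s19c_gen (S := S) ι cen hc1 𝔰 k, Algebra.subset_adjoin ⟨k, rfl⟩, rfl⟩,
      fun h => hk (Subtype.ext h)⟩
  · -- comul
    rintro _ ⟨a₀, ha₀, rfl⟩
    obtain ⟨n, a', a'', h', h'', hsum⟩ :=
      s19c_HA_comul hF hB ι hι hιG cen hc1 hc2 hK ℓ hl hrk 𝔰 a₀ ha₀
    refine ⟨n, fun i => s19c_toQ A T (a' i), fun i => s19c_toQ A T (a'' i),
      fun i => ⟨a' i, h' i, rfl⟩, fun i => ⟨a'' i, h'' i, rfl⟩, fun x y => ?_⟩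
    show ((a₀ (x + y) : ↥A) : s19_Qbar) = _
    rw [hsum x y, AddSubmonoidClass.coe_finsetSum]
    rfl
  · -- stable
    rintro _ ⟨a₀, ha₀, rfl⟩ γ hγ
    exact ⟨s19c_tw hγ a₀, s19c_HA_stable hF hB ι hι hιG cen hc1 hc2 hK ℓ hl hrk 𝔰 hγ a₀ ha₀, rfl⟩

end Fermat.Agent.Lib.S19
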