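/-
W-A programme (S19/S32), brick [SUBQ-quot] (helper4, prefix `s19c_`): Δ-closed function orders pass to
Galois quotients `π : T ↠ T₂`.  `H₂ := {a₂ | a₂ ∘ π ∈ H}`.

* `equiv`, `fg` are immediate (`ℤ_(ℓ)` is noetherian);
* `sep`: the fibre sum `π_* a (y) = ∑_{π z = y} a z` maps `H` into `H₂` (its composite with `π` is
  `∑ᵢ cᵢ a'ᵢ` with `cᵢ = ∑_{κ ∈ ker π} a''ᵢ κ`, a Galois-invariant integral element of `ℚ̄`), it is
  `ℚ̄`-linear and `π_* δ_x` is the indicator of `π x`;
* `comul`: `N = H ∩ (functions constant on the fibres)` is saturated in `H`, so a Smith normal form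
  gives a basis `bM` of `H` with `bM p ∈ N` for `p` in a subset `P` and `N ⊆ span (bM p)_{p ∈ P}`; the
  coefficients `c_pq` of `a (x + x')`, `a ∈ N`, vanish unless `p, q ∈ P`, by `ℚ̄`-linear independence.
-/
import Mathlib
import Fermat.Agent.Lib.S19.CHopfD

set_option autoImplicit false
set_option linter.unusedSectionVars false

noncomputable section

namespace Fermat.Agent.Lib.S19

open Fermat.Agent.Lib.S28 TensorProduct

local notation "Kb" => AlgebraicClosure ℚ

/-- a Galois-invariant element of `ℚ̄` which is integral over `ℤ_(ℓ)` lies in `ℤ_(ℓ)`. -/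
theorem s19c_mem_range_of_fixed_integral (ℓ : ℕ) [Fact ℓ.Prime] (c : Kb)
    (hfix : ∀ σ : s19_Gal, σ c = c) (hint : IsIntegral (s19c_R ℓ) c) :
    ∃ r : s19c_R ℓ, algebraMap (s19c_R ℓ) Kb r = c := by
  obtain ⟨q, hq⟩ := s19c_mem_range_of_fixed c hfix
  have hint2 : IsIntegral (s19c_R ℓ) (algebraMap ℚ Kb q) := by rw [hq]; exact hint
  have hint3 : IsIntegral (s19c_R ℓ) q :=
    (isIntegral_algHom_iff (IsScalarTower.toAlgHom (s19c_R ℓ) ℚ Kb)
      (algebraMap ℚ Kb).injective).mp hint2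
  exact ⟨⟨q, s19c_mem_of_isIntegral ℓ q hint3⟩, hq⟩

/-- the `ℚ̄`-span of a point-separating `ℤ_(ℓ)`-subalgebra of `T → ℚ̄` is everything. -/
theorem s19c_span_top_of_sep (ℓ : ℕ) {T : Type} [Finite T]
    (H₀ : Subalgebra (s19c_R ℓ) (T → Kb))
    (hsep : ∀ x y : T, x ≠ y → ∃ a ∈ H₀, a x ≠ a y) :
    Submodule.span Kb (H₀ : Set (T → Kb)) = ⊤ := by
  have hA : Algebra.adjoin Kb (H₀ : Set (T → Kb)) = ⊤ := by
    apply s19c_eq_top_of_sep
    intro x y hxy
    obtain ⟨a, ha, hne⟩ := hsep x y hxy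
    exact ⟨a, Algebra.subset_adjoin ha, hne⟩
  have h2 := Algebra.adjoin_eq_span Kb (H₀ : Set (T → Kb))
  rw [hA] at h2
  have h3 : (Submonoid.closure (H₀ : Set (T → Kb)) : Set (T → Kb)) = (H₀ : Set (T → Kb)) := by
    have := Submonoid.closure_eq H₀.toSubmonoid
    exact congrArg (fun S : Submonoid (T → Kb) => (S : Set (T → Kb))) this
  rw [h3] at h2
  rw [← h2]
  rfl

section quot

variable (ℓ : ℕ) [Fact ℓ.Prime] {T T₂ : Type} [AddCommGroup T] [Finite T]
  [DistribMulAction s19_Gal T] [AddCommGroup T₂] [DistribMulAction s19_Gal T₂]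
  (π : T →+ T₂) (hπ : Function.Surjective π)
  (hπG : ∀ (σ : s19_Gal) (x : T), π (σ • x) = σ • π x)
  {H₀ : Subalgebra (s19c_R ℓ) (T → Kb)} (hH : s19_IsOrder ℓ T H₀)

/-- the quotient order: functions on `T₂` whose pull-back lies in `H₀`. -/
def s19c_quot (H₀ : Subalgebra (s19c_R ℓ) (T → Kb)) : Subalgebra (s19c_R ℓ) (T₂ → Kb) :=
  H₀.comap (s19c_pull (R := s19c_R ℓ) π)

theorem s19c_mem_quot (a₂ : T₂ → Kb) : a₂ ∈ s19c_quot ℓ π H₀ ↔ (fun x => a₂ (π x)) ∈ H₀ :=
  Iff.rfl

include hπ hπG hH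

theorem s19c_quot_equiv (a₂ : T₂ → Kb) (ha : a₂ ∈ s19c_quot ℓ π H₀) (σ : s19_Gal) (y : T₂) :
    a₂ (σ • y) = σ (a₂ y) := by
  obtain ⟨x, rfl⟩ := hπ y
  rw [← hπG]
  exact hH.equiv _ ha σ x

theorem s19c_quot_fg : (Subalgebra.toSubmodule (s19c_quot ℓ π H₀)).FG := by
  have := s19c_finite ℓ hH
  have : IsNoetherian (s19c_R ℓ) H₀ := isNoetherian_of_isNoetherianRing_of_finite _ _
  let φ : s19c_quot ℓ π H₀ →ₗ[s19c_R ℓ] H₀ :=
    { toFun := fun a₂ => ⟨fun x => a₂.1 (π x), a₂.2⟩
      map_add' := fun _ _ => rfl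
      map_smul' := fun _ _ => rfl }
  have hφ : Function.Injective φ := by
    intro a b hab
    apply Subtype.ext
    funext y
    obtain ⟨x, rfl⟩ := hπ y
    exact congrFun (congrArg Subtype.val hab) x
  have h1 : Module.Finite (s19c_R ℓ) (s19c_quot ℓ π H₀) := Module.Finite.of_injective φ hφ
  exact Module.Finite.iff_fg.mp h1

/-! ### separation: the fibre sum -/

section push

variable [Fintype T] [DecidableEq T₂]

omit hπ hπG hH in
/-- the fibre sum `f ↦ ∑_{π z = y} f z`, as a linear functional. -/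
def s19c_pushL (π : T → T₂) (y : T₂) : (T → Kb) →ₗ[Kb] Kb :=
  ∑ z ∈ Finset.univ.filter (fun z => π z = y), LinearMap.proj z

omit [Fact ℓ.Prime] [AddCommGroup T] [Finite T] [DistribMulAction s19_Gal T] [AddCommGroup T₂]
  [DistribMulAction s19_Gal T₂] hπ hπG hH in
theorem s19c_pushL_apply (π : T → T₂) (y : T₂) (f : T → Kb) :
    s19c_pushL π y f = ∑ z ∈ Finset.univ.filter (fun z => π z = y), f z := by
  unfold s19c_pushL
  rw [LinearMap.sum_apply]
  rfl

/-- the fibre sum of an element of the order, composed with `π`, lies in the order. -/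
theorem s19c_push_mem (a : T → Kb) (ha : a ∈ H₀) :
    (fun x => s19c_pushL π (π x) a) ∈ H₀ := by
  classical
  obtain ⟨n, a', a'', h', h'', hsum⟩ := hH.comul a ha
  have := s19c_finite ℓ hH
  -- the constants `cᵢ = ∑_{π κ = 0} a''ᵢ κ`
  have hc : ∀ i, ∃ r : s19c_R ℓ, algebraMap (s19c_R ℓ) Kb r = s19c_pushL π 0 (a'' i) := by
    intro i
    apply s19c_mem_range_of_fixed_integral
    · intro σ
      rw [s19c_pushL_apply, map_sum]
      have h1 : ∀ κ : T, σ (a'' i κ) = a'' i (σ • κ) := fun κ => (hH.equiv _ (h'' i) σ κ).symm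
      simp only [h1]
      refine Finset.sum_nbij' (fun κ => σ • κ) (fun κ => σ⁻¹ • κ) ?_ ?_ ?_ ?_ ?_
      · intro κ hκ
        simp only [Finset.mem_filter, Finset.mem_univ, true_and] at hκ ⊢
        rw [hπG, hκ, smul_zero]
      · intro κ hκ
        simp only [Finset.mem_filter, Finset.mem_univ, true_and] at hκ ⊢
        rw [hπG, hκ, smul_zero]
      · intro κ _
        exact inv_smul_smul σ κ
      · intro κ _
        exact smul_inv_smul σ κ
      · intro κ _
        rfl
    · rw [s19c_pushL_apply]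
      apply IsIntegral.sum
      intro κ _
      have hint : IsIntegral (s19c_R ℓ) (⟨a'' i, h'' i⟩ : H₀) := IsIntegral.of_finite _ _
      exact hint.map (s19c_ev ℓ H₀ κ)
  choose r hr using hc
  have h2 : (fun x => s19c_pushL π (π x) a) = ∑ i, r i • a' i := by
    funext x
    rw [s19c_pushL_apply, Finset.sum_apply]
    have h3 : ∀ i, (r i • a' i) x = a' i x * s19c_pushL π 0 (a'' i) := by
      intro i
      rw [Pi.smul_apply, Algebra.smul_def, hr, mul_comm]
    simp only [h3, s19c_pushL_apply, Finset.mul_sum]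
    rw [Finset.sum_comm]
    refine Finset.sum_nbij' (fun z => z - x) (fun κ => κ + x) ?_ ?_ ?_ ?_ ?_
    · intro z hz
      simp only [Finset.mem_filter, Finset.mem_univ, true_and] at hz ⊢
      rw [map_sub, hz, sub_self]
    · intro κ hκ
      simp only [Finset.mem_filter, Finset.mem_univ, true_and] at hκ ⊢
      rw [map_add, hκ, zero_add]
    · intro z _
      exact sub_add_cancel z x
    · intro κ _
      exact add_sub_cancel_right κ x
    · intro z _
      have h4 := hsum x (z - x)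
      rw [add_sub_cancel] at h4
      exact h4
  rw [h2]
  exact Subalgebra.sum_mem _ fun i _ => H₀.smul_mem (h' i) _

theorem s19c_quot_sep (y y' : T₂) (hy : y ≠ y') :
    ∃ a₂ ∈ s19c_quot ℓ π H₀, a₂ y ≠ a₂ y' := by
  classical
  by_contra hcon
  push Not at hcon
  -- the functional `L f = π_* f y - π_* f y'` vanishes on `H₀`, hence everywhere
  have h1 : ∀ a ∈ H₀, s19c_pushL π y a = s19c_pushL π y' a := by
    intro a ha
    have h2 := hcon (fun y => s19c_pushL π y a) (s19c_push_mem ℓ π hπ hπG hH a ha)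
    exact h2
  have h3 : Submodule.span Kb (H₀ : Set (T → Kb)) ≤
      LinearMap.ker (s19c_pushL π y - s19c_pushL π y') := by
    apply Submodule.span_le.mpr
    intro a ha
    rw [SetLike.mem_coe, LinearMap.mem_ker, LinearMap.sub_apply, h1 a ha, sub_self]
  rw [s19c_span_top_of_sep ℓ H₀ hH.sep] at h3
  obtain ⟨x, rfl⟩ := hπ y
  have h4 : (Pi.single x (1 : Kb) : T → Kb) ∈
      LinearMap.ker (s19c_pushL π (π x) - s19c_pushL π y') := h3 Submodule.mem_top
  rw [LinearMap.mem_ker, LinearMap.sub_apply, s19c_pushL_apply, s19c_pushL_apply] at h4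
  have h5 : ∑ z ∈ Finset.univ.filter (fun z => π z = π x), (Pi.single x (1 : Kb) : T → Kb) z = 1 := by
    rw [Finset.sum_eq_single x]
    · simp
    · intro z _ hz
      exact Pi.single_eq_of_ne hz _
    · intro hx
      exfalso
      apply hx
      simp
  have h6 : ∑ z ∈ Finset.univ.filter (fun z => π z = y'), (Pi.single x (1 : Kb) : T → Kb) z = 0 := by
    apply Finset.sum_eq_zero
    intro z hz
    have hz' : π z = y' := (Finset.mem_filter.mp hz).2
    apply Pi.single_eq_of_ne
    intro hzx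
    apply hy
    rw [← hzx, hz']
  rw [h5, h6, sub_zero] at h4
  exact one_ne_zero h4

end push

/-! ### Δ-closedness: saturation and Smith normal form -/

omit hπ hπG hH in
/-- the elements of the order which are constant on the fibres of `π`. -/
def s19c_invSub (H₀ : Subalgebra (s19c_R ℓ) (T → Kb)) : Submodule (s19c_R ℓ) H₀ where
  carrier := {a | ∀ z z' : T, π z = π z' → (a : T → Kb) z = (a : T → Kb) z'}
  add_mem' := by
    intro a b ha hb z z' h
    show (a : T → Kb) z + (b : T → Kb) z = (a : T → Kb) z' + (b : T → Kb) z'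
    rw [ha z z' h, hb z z' h]
  zero_mem' := fun _ _ _ => rfl
  smul_mem' := by
    intro r a ha z z' h
    show (r • (a : T → Kb)) z = (r • (a : T → Kb)) z'
    rw [Pi.smul_apply, Pi.smul_apply, ha z z' h]

omit hπ hπG hH in
theorem s19c_mem_invSub (a : H₀) :
    a ∈ s19c_invSub ℓ π H₀ ↔ ∀ z z' : T, π z = π z' → (a : T → Kb) z = (a : T → Kb) z' :=
  Iff.rfl

omit hπ hπG hH in
/-- `s19c_invSub` is saturated. -/
theorem s19c_invSub_sat (r : s19c_R ℓ) (hr : r ≠ 0) (a : H₀)
    (h : r • a ∈ s19c_invSub ℓ π H₀) : a ∈ s19c_invSub ℓ π H₀ := by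
  intro z z' hz
  have h1 := h z z' hz
  have h2 : ∀ w : T, ((r • a : H₀) : T → Kb) w = algebraMap (s19c_R ℓ) Kb r * (a : T → Kb) w := by
    intro w
    show (r • (a : T → Kb)) w = _
    rw [Pi.smul_apply, Algebra.smul_def]
  rw [h2, h2] at h1
  have h3 : algebraMap (s19c_R ℓ) Kb r ≠ 0 := by
    intro h0
    exact hr (s19c_algebraMap_injective ℓ (h0.trans (map_zero _).symm))
  exact mul_left_cancel₀ h3 h1

omit hπ hπG hH in
theorem s19c_comul_reindex {κ : Type*} [Fintype κ] (S : Set (T₂ → Kb)) (F : T₂ → T₂ → Kb)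
    (a' a'' : κ → T₂ → Kb) (h' : ∀ k, a' k ∈ S) (h'' : ∀ k, a'' k ∈ S)
    (hF : ∀ y y', F y y' = ∑ k, a' k y * a'' k y') :
    ∃ (n : ℕ) (b' b'' : Fin n → T₂ → Kb), (∀ i, b' i ∈ S) ∧ (∀ i, b'' i ∈ S) ∧
      ∀ y y', F y y' = ∑ i, b' i y * b'' i y' := by
  refine ⟨Fintype.card κ, fun i => a' ((Fintype.equivFin κ).symm i),
    fun i => a'' ((Fintype.equivFin κ).symm i), fun i => h' _, fun i => h'' _, ?_⟩
  intro y y'
  rw [hF]
  exact (Equiv.sum_comp (Fintype.equivFin κ).symm (fun k => a' k y * a'' k y')).symm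

theorem s19c_quot_comul (a₂ : T₂ → Kb) (ha₂ : a₂ ∈ s19c_quot ℓ π H₀) :
    ∃ (n : ℕ) (a' a'' : Fin n → T₂ → Kb), (∀ i, a' i ∈ s19c_quot ℓ π H₀) ∧
      (∀ i, a'' i ∈ s19c_quot ℓ π H₀) ∧ ∀ y y' : T₂, a₂ (y + y') = ∑ i, a' i y * a'' i y' := by
  classical
  have := s19c_finite ℓ hH
  have := s19c_free ℓ hH
  have hfin₂ : Finite T₂ := Finite.of_surjective π hπ
  cases nonempty_fintype T
  set b := Module.Free.chooseBasis (s19c_R ℓ) H₀ with hb
  obtain ⟨n, snf⟩ := (s19c_invSub ℓ π H₀).smithNormalForm b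
  set bM := snf.bM with hbM
  set BK := s19c_basisK ℓ hH bM with hBK
  have hBKi : ∀ p, BK p = ((bM p : H₀) : T → Kb) := s19c_basisK_apply ℓ hH bM
  set P : Set (Module.Free.ChooseBasisIndex (s19c_R ℓ) H₀) := Set.range snf.f with hP
  -- (i) the basis vectors indexed by `P` lie in `N`
  have hPN : ∀ p ∈ P, bM p ∈ s19c_invSub ℓ π H₀ := by
    rintro p ⟨i, rfl⟩
    have h1 : snf.a i ≠ 0 := by
      intro h0
      have h2 := snf.snf i
      rw [h0, zero_smul] at h2
      have h3 : snf.bN i = 0 := Subtype.ext h2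
      exact snf.bN.ne_zero i h3
    apply s19c_invSub_sat ℓ π (snf.a i) h1
    rw [← snf.snf i]
    exact (snf.bN i).2
  -- (ii) elements of `N`, as functions, lie in the span of the `BK p`, `p ∈ P`
  have hNV : ∀ m ∈ s19c_invSub ℓ π H₀, ((m : H₀) : T → Kb) ∈ Submodule.span Kb (BK '' P) := by
    intro m hm
    rw [s19c_coe_eq_sum ℓ hH bM m]
    apply Submodule.sum_mem
    intro p _
    by_cases hp : p ∈ P
    · rw [← hBKi]
      exact Submodule.smul_mem _ _ (Submodule.subset_span ⟨p, hp, rfl⟩)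
    · have h1 := snf.repr_eq_zero_of_notMem_range ⟨m, hm⟩ hp
      have h2 : bM.repr m p = 0 := h1
      rw [h2, map_zero, zero_smul]
      exact Submodule.zero_mem _
  -- (iii) every function constant on the fibres lies in that span
  have hV : ∀ g : T → Kb, (∀ z z' : T, π z = π z' → g z = g z') →
      g ∈ Submodule.span Kb (BK '' P) := by
    intro g hg
    have hsep₂ : ∀ y y' : T₂, y ≠ y' → ∃ a ∈ s19c_quot ℓ π H₀, a y ≠ a y' :=
      fun y y' hy => s19c_quot_sep ℓ π hπ hπG hH y y' hy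
    have htop := s19c_span_top_of_sep ℓ (s19c_quot ℓ π H₀) hsep₂
    have h1 : Submodule.map (LinearMap.funLeft Kb Kb π)
        (Submodule.span Kb (s19c_quot ℓ π H₀ : Set (T₂ → Kb))) ≤ Submodule.span Kb (BK '' P) := by
      rw [Submodule.map_span_le]
      intro h₂ hh₂
      have hm : (⟨fun x => h₂ (π x), hh₂⟩ : H₀) ∈ s19c_invSub ℓ π H₀ := by
        intro z z' hz
        show h₂ (π z) = h₂ (π z')
        rw [hz]
      exact hNV _ hm
    rw [htop] at h1
    have h2 : g = LinearMap.funLeft Kb Kb π (fun y => g (Function.surjInv hπ y)) := by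
      funext x
      rw [LinearMap.funLeft_apply]
      exact hg _ _ (Function.surjInv_eq hπ (π x)).symm
    rw [h2]
    exact h1 (Submodule.mem_map_of_mem Submodule.mem_top)
  -- coordinates off `P` vanish
  have hcoord : ∀ (g : T → Kb) (d : Module.Free.ChooseBasisIndex (s19c_R ℓ) H₀ → Kb),
      (∀ z z' : T, π z = π z' → g z = g z') → g = ∑ p, d p • BK p → ∀ p, p ∉ P → d p = 0 := by
    intro g d hg hgd p hp
    have h1 := BK.repr_support_subset_of_mem_span P (hV g hg)
    have h2 : BK.repr g p = 0 := by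
      by_contra h3
      exact hp (h1 (Finsupp.mem_support_iff.mpr h3))
    rw [hgd, Module.Basis.repr_sum_self] at h2
    exact h2
  -- the element `a = a₂ ∘ π` of `N` and its comultiplication
  set a : H₀ := ⟨fun x => a₂ (π x), ha₂⟩ with ha
  have haN : ∀ z z' : T, π z = π z' → (a : T → Kb) z = (a : T → Kb) z' := by
    intro z z' hz
    show a₂ (π z) = a₂ (π z')
    rw [hz]
  obtain ⟨m, a', a'', h', h'', hsum⟩ := hH.comul a.1 a.2
  set α : Fin m → Module.Free.ChooseBasisIndex (s19c_R ℓ) H₀ → Kb :=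
    fun i p => algebraMap (s19c_R ℓ) Kb (bM.repr ⟨a' i, h' i⟩ p) with hα
  set β : Fin m → Module.Free.ChooseBasisIndex (s19c_R ℓ) H₀ → Kb :=
    fun i q => algebraMap (s19c_R ℓ) Kb (bM.repr ⟨a'' i, h'' i⟩ q) with hβ
  set c : Module.Free.ChooseBasisIndex (s19c_R ℓ) H₀ →
      Module.Free.ChooseBasisIndex (s19c_R ℓ) H₀ → s19c_R ℓ :=
    fun p q => ∑ i, bM.repr ⟨a' i, h' i⟩ p * bM.repr ⟨a'' i, h'' i⟩ q with hc
  have hcK : ∀ p q, algebraMap (s19c_R ℓ) Kb (c p q) = ∑ i, α i p * β i q := by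
    intro p q
    simp only [hc, hα, hβ, map_sum, map_mul]
  have ha'x : ∀ i x, a' i x = ∑ p, α i p * BK p x := by
    intro i x
    have h1 := congrFun (s19c_coe_eq_sum ℓ hH bM ⟨a' i, h' i⟩) x
    rw [Finset.sum_apply] at h1
    refine h1.trans (Finset.sum_congr rfl fun p _ => ?_)
    rw [Pi.smul_apply, smul_eq_mul, hBKi]
  have ha''x : ∀ i x, a'' i x = ∑ q, β i q * BK q x := by
    intro i x
    have h1 := congrFun (s19c_coe_eq_sum ℓ hH bM ⟨a'' i, h'' i⟩) x
    rw [Finset.sum_apply] at h1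
    refine h1.trans (Finset.sum_congr rfl fun q _ => ?_)
    rw [Pi.smul_apply, smul_eq_mul, hBKi]
  have hexp : ∀ x x' : T, (a : T → Kb) (x + x') =
      ∑ p, ∑ q, algebraMap (s19c_R ℓ) Kb (c p q) * BK p x * BK q x' := by
    intro x x'
    rw [hsum]
    have h1 : ∀ i, a' i x * a'' i x' = ∑ p, ∑ q, α i p * β i q * BK p x * BK q x' := by
      intro i
      rw [ha'x, ha''x, Finset.sum_mul_sum]
      refine Finset.sum_congr rfl fun p _ => Finset.sum_congr rfl fun q _ => ?_
      ring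
    simp only [h1]
    rw [Finset.sum_comm]
    refine Finset.sum_congr rfl fun p _ => ?_
    rw [Finset.sum_comm]
    refine Finset.sum_congr rfl fun q _ => ?_
    rw [hcK, Finset.sum_mul, Finset.sum_mul]
  -- vanishing of the coefficients off `P`
  have hcA : ∀ p, p ∉ P → ∀ q, c p q = 0 := by
    intro p hp
    have h1 : ∀ x' : T, ∑ q, algebraMap (s19c_R ℓ) Kb (c p q) * BK q x' = 0 := by
      intro x'
      refine hcoord (fun x => (a : T → Kb) (x + x'))
        (fun p => ∑ q, algebraMap (s19c_R ℓ) Kb (c p q) * BK q x') ?_ ?_ p hp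
      · intro z z' hz
        apply haN
        rw [map_add, map_add, hz]
      · funext x
        rw [hexp, Finset.sum_apply]
        refine Finset.sum_congr rfl fun p _ => ?_
        rw [Pi.smul_apply, smul_eq_mul, Finset.sum_mul]
        refine Finset.sum_congr rfl fun q _ => ?_
        ring
    have h2 : ∑ q, algebraMap (s19c_R ℓ) Kb (c p q) • BK q = 0 := by
      funext x'
      rw [Finset.sum_apply]
      simpa only [Pi.smul_apply, smul_eq_mul, Pi.zero_apply] using h1 x'
    intro q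
    have h3 := Fintype.linearIndependent_iff.mp BK.linearIndependent _ h2 q
    exact s19c_algebraMap_injective ℓ (h3.trans (map_zero _).symm)
  have hcB : ∀ q, q ∉ P → ∀ p, c p q = 0 := by
    intro q hq
    have h1 : ∀ x : T, ∑ p, algebraMap (s19c_R ℓ) Kb (c p q) * BK p x = 0 := by
      intro x
      refine hcoord (fun x' => (a : T → Kb) (x + x'))
        (fun q => ∑ p, algebraMap (s19c_R ℓ) Kb (c p q) * BK p x) ?_ ?_ q hq
      · intro z z' hz
        apply haN
        rw [map_add, map_add, hz]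
      · funext x'
        rw [hexp, Finset.sum_apply, Finset.sum_comm]
        refine Finset.sum_congr rfl fun q _ => ?_
        rw [Pi.smul_apply, smul_eq_mul, Finset.sum_mul]
    have h2 : ∑ p, algebraMap (s19c_R ℓ) Kb (c p q) • BK p = 0 := by
      funext x
      rw [Finset.sum_apply]
      simpa only [Pi.smul_apply, smul_eq_mul, Pi.zero_apply] using h1 x
    intro p
    have h3 := Fintype.linearIndependent_iff.mp BK.linearIndependent _ h2 p
    exact s19c_algebraMap_injective ℓ (h3.trans (map_zero _).symm)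
  -- the representation on `T₂`
  set u : Module.Free.ChooseBasisIndex (s19c_R ℓ) H₀ → T₂ → Kb :=
    fun p y => if p ∈ P then ((bM p : H₀) : T → Kb) (Function.surjInv hπ y) else 0 with hu
  have hupi : ∀ p, p ∈ P → ∀ x, u p (π x) = BK p x := by
    intro p hp x
    simp only [hu, if_pos hp]
    rw [hBKi]
    exact hPN p hp _ _ (Function.surjInv_eq hπ (π x))
  have huq : ∀ p, u p ∈ s19c_quot ℓ π H₀ := by
    intro p
    rw [s19c_mem_quot]
    by_cases hp : p ∈ P
    · have h1 : (fun x => u p (π x)) = ((bM p : H₀) : T → Kb) := by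
        funext x
        rw [hupi p hp, hBKi]
      rw [h1]
      exact (bM p).2
    · have h1 : (fun x => u p (π x)) = 0 := by
        funext x
        simp only [hu, if_neg hp]
        rfl
      rw [h1]
      exact H₀.zero_mem
  apply s19c_comul_reindex (κ := Module.Free.ChooseBasisIndex (s19c_R ℓ) H₀ ×
      Module.Free.ChooseBasisIndex (s19c_R ℓ) H₀) (s19c_quot ℓ π H₀ : Set (T₂ → Kb))
    (fun y y' => a₂ (y + y')) (fun k => c k.1 k.2 • u k.1) (fun k => u k.2)
  · intro k
    exact (s19c_quot ℓ π H₀).smul_mem (huq k.1) _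
  · intro k
    exact huq k.2
  · intro y y'
    obtain ⟨x, rfl⟩ := hπ y
    obtain ⟨x', rfl⟩ := hπ y'
    have h1 : a₂ (π x + π x') = (a : T → Kb) (x + x') := by
      show a₂ (π x + π x') = a₂ (π (x + x'))
      rw [map_add]
    rw [h1, hexp, Fintype.sum_prod_type]
    refine Finset.sum_congr rfl fun p _ => ?_
    refine Finset.sum_congr rfl fun q _ => ?_
    by_cases hp : p ∈ P
    · by_cases hq : q ∈ P
      · rw [Pi.smul_apply, Algebra.smul_def, hupi p hp, hupi q hq]
      · show _ = (c p q • u p) (π x) * u q (π x')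
        rw [Pi.smul_apply, Algebra.smul_def, hcB q hq p, map_zero, zero_mul, zero_mul, zero_mul,
          zero_mul]
    · show _ = (c p q • u p) (π x) * u q (π x')
      rw [Pi.smul_apply, Algebra.smul_def, hcA p hp q, map_zero, zero_mul, zero_mul, zero_mul,
        zero_mul]

end quot



/-- **[SUBQ-quot]** Δ-closed function orders pass to Galois quotients. -/
theorem s19c_orderQuot : s19_OrderQuot := by
  intro ℓ _ T T₂ _ _ _ _ _ π hπ hπG hex
  obtain ⟨H₀, hH⟩ := hex
  classical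
  cases nonempty_fintype T
  exact ⟨s19c_quot ℓ π H₀,
    { equiv := fun a ha σ y => s19c_quot_equiv ℓ π hπ hπG hH a ha σ y
      fg := s19c_quot_fg ℓ π hπ hπG hH
      sep := fun y y' hy => s19c_quot_sep ℓ π hπ hπG hH y y' hy
      comul := fun a ha => s19c_quot_comul ℓ π hπ hπG hH a ha }⟩

end Fermat.Agent.Lib.S19
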