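/-
W-A programme (S19/S32), bricks [SUBQ-sub] and [SUBQ-prod] (helper4, prefix `s19c_`): Δ-closed function
orders pass to Galois submodules (restriction of functions) and to products
(`H ⊗ H' → (T × T' → ℚ̄)`, `a ⊗ a' ↦ ((x, x') ↦ a x * a' x')`).
-/
import Mathlib
import Fermat.Agent.Lib.S19.CQuot

set_option autoImplicit false
set_option linter.unusedSectionVars false

noncomputable section

namespace Fermat.Agent.Lib.S19

open Fermat.Agent.Lib.S28 TensorProduct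

local notation "Kb" => AlgebraicClosure ℚ

/-! ### submodules -/

/-- **[SUBQ-sub]** Δ-closed function orders pass to Galois submodules. -/
theorem s19c_orderSub : s19_OrderSub := by
  intro ℓ _ T T₁ _ _ _ _ _ i hi hiG hex
  obtain ⟨H₀, hH⟩ := hex
  refine ⟨H₀.map (s19c_pull (R := s19c_R ℓ) i), ?_⟩
  refine ⟨?_, ?_, ?_, ?_⟩
  · rintro a₁ ⟨a, ha, rfl⟩ σ x
    show a (i (σ • x)) = σ (a (i x))
    rw [hiG]
    exact hH.equiv a ha σ (i x)
  · have h1 : Subalgebra.toSubmodule (H₀.map (s19c_pull (R := s19c_R ℓ) i)) =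
        (Subalgebra.toSubmodule H₀).map (s19c_pull (R := s19c_R ℓ) i).toLinearMap := by
      ext f
      rfl
    rw [h1]
    exact hH.fg.map _
  · intro x y hxy
    obtain ⟨a, ha, hne⟩ := hH.sep (i x) (i y) (fun h => hxy (hi h))
    exact ⟨_, ⟨a, ha, rfl⟩, hne⟩
  · rintro a₁ ⟨a, ha, rfl⟩
    obtain ⟨n, a', a'', h', h'', hsum⟩ := hH.comul a ha
    refine ⟨n, fun j x => a' j (i x), fun j x => a'' j (i x), fun j => ⟨a' j, h' j, rfl⟩,
      fun j => ⟨a'' j, h'' j, rfl⟩, ?_⟩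
    intro x y
    show a (i (x + y)) = _
    rw [map_add, hsum]

/-! ### products -/

section prod

variable (ℓ : ℕ) [Fact ℓ.Prime] {T T' : Type} [AddCommGroup T] [Finite T]
  [DistribMulAction s19_Gal T] [AddCommGroup T'] [Finite T'] [DistribMulAction s19_Gal T']
  (H₀ : Subalgebra (s19c_R ℓ) (T → Kb)) (H₀' : Subalgebra (s19c_R ℓ) (T' → Kb))

/-- `a ⊗ a' ↦ ((x, x') ↦ a x * a' x')`. -/
def s19c_muP : H₀ ⊗[s19c_R ℓ] H₀' →ₐ[s19c_R ℓ] (T × T' → Kb) :=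
  Algebra.TensorProduct.lift ((s19c_pull Prod.fst).comp H₀.val)
    ((s19c_pull Prod.snd).comp H₀'.val) (fun _ _ => Commute.all _ _)

theorem s19c_muP_tmul (a : H₀) (a' : H₀') (p : T × T') :
    s19c_muP ℓ H₀ H₀' (a ⊗ₜ a') p = (a : T → Kb) p.1 * (a' : T' → Kb) p.2 := by
  simp [s19c_muP]

/-- a function `F` on `T × T'` has a comultiplication formula with factors in `S`. -/
def s19c_HasRep {X : Type} [Add X] (S : Set (X → Kb)) (F : X → Kb) : Prop :=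
  ∃ (κ : Type) (_ : Fintype κ) (u v : κ → X → Kb), (∀ k, u k ∈ S) ∧ (∀ k, v k ∈ S) ∧
    ∀ p q : X, F (p + q) = ∑ k, u k p * v k q

theorem s19c_hasRep_zero {X : Type} [Add X] (S : Set (X → Kb)) : s19c_HasRep S (0 : X → Kb) :=
  ⟨PEmpty, inferInstance, PEmpty.elim, PEmpty.elim, fun k => k.elim, fun k => k.elim,
    fun _ _ => by simp⟩

theorem s19c_hasRep_add {X : Type} [Add X] (S : Set (X → Kb)) (F G : X → Kb)
    (hF : s19c_HasRep S F) (hG : s19c_HasRep S G) : s19c_HasRep S (F + G) := by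
  obtain ⟨κ, _, u, v, hu, hv, huv⟩ := hF
  obtain ⟨κ', _, u', v', hu', hv', huv'⟩ := hG
  refine ⟨κ ⊕ κ', inferInstance, Sum.elim u u', Sum.elim v v', ?_, ?_, ?_⟩
  · rintro (k | k)
    · exact hu k
    · exact hu' k
  · rintro (k | k)
    · exact hv k
    · exact hv' k
  · intro p q
    rw [Pi.add_apply, huv, huv', Fintype.sum_sum_type]
    rfl

theorem s19c_hasRep_fin {X : Type} [Add X] (S : Set (X → Kb)) (F : X → Kb)
    (hF : s19c_HasRep S F) :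
    ∃ (n : ℕ) (b' b'' : Fin n → X → Kb), (∀ i, b' i ∈ S) ∧ (∀ i, b'' i ∈ S) ∧
      ∀ y y', F (y + y') = ∑ i, b' i y * b'' i y' := by
  obtain ⟨κ, _, u, v, hu, hv, huv⟩ := hF
  refine ⟨Fintype.card κ, fun i => u ((Fintype.equivFin κ).symm i),
    fun i => v ((Fintype.equivFin κ).symm i), fun i => hu _, fun i => hv _, ?_⟩
  intro y y'
  rw [huv]
  exact (Equiv.sum_comp (Fintype.equivFin κ).symm (fun k => u k y * v k y')).symm

variable {H₀ H₀'} (hH : s19_IsOrder ℓ T H₀) (hH' : s19_IsOrder ℓ T' H₀')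

include hH hH'

theorem s19c_prod_equiv (z : H₀ ⊗[s19c_R ℓ] H₀') (σ : s19_Gal) (p : T × T') :
    s19c_muP ℓ H₀ H₀' z (σ • p) = σ (s19c_muP ℓ H₀ H₀' z p) := by
  induction z using TensorProduct.induction_on with
  | zero => simp
  | tmul a a' =>
    rw [s19c_muP_tmul, s19c_muP_tmul, map_mul]
    show (a : T → Kb) (σ • p.1) * (a' : T' → Kb) (σ • p.2) = _
    rw [hH.equiv a.1 a.2, hH'.equiv a'.1 a'.2]
  | add u v hu hv =>
    rw [map_add, Pi.add_apply, Pi.add_apply, hu, hv, map_add]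

theorem s19c_prod_hasRep (z : H₀ ⊗[s19c_R ℓ] H₀') :
    s19c_HasRep ((s19c_muP ℓ H₀ H₀').range : Set (T × T' → Kb)) (s19c_muP ℓ H₀ H₀' z) := by
  induction z using TensorProduct.induction_on with
  | zero =>
    rw [map_zero]
    exact s19c_hasRep_zero _
  | tmul a a' =>
    obtain ⟨n, a1, a2, h1, h2, hsum⟩ := hH.comul a.1 a.2
    obtain ⟨m, b1, b2, g1, g2, gsum⟩ := hH'.comul a'.1 a'.2
    refine ⟨Fin n × Fin m, inferInstance,
      fun k => s19c_muP ℓ H₀ H₀' ((⟨a1 k.1, h1 k.1⟩ : H₀) ⊗ₜ (⟨b1 k.2, g1 k.2⟩ : H₀')),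
      fun k => s19c_muP ℓ H₀ H₀' ((⟨a2 k.1, h2 k.1⟩ : H₀) ⊗ₜ (⟨b2 k.2, g2 k.2⟩ : H₀')),
      fun k => ⟨_, rfl⟩, fun k => ⟨_, rfl⟩, ?_⟩
    intro p q
    rw [s19c_muP_tmul]
    show (a : T → Kb) (p.1 + q.1) * (a' : T' → Kb) (p.2 + q.2) = _
    rw [hsum, gsum, Finset.sum_mul_sum, Fintype.sum_prod_type]
    refine Finset.sum_congr rfl fun i _ => Finset.sum_congr rfl fun j _ => ?_
    beta_reduce
    rw [s19c_muP_tmul, s19c_muP_tmul]
    ring
  | add u v hu hv =>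
    rw [map_add]
    exact s19c_hasRep_add _ _ _ hu hv

end prod

/-- **[SUBQ-prod]** Δ-closed function orders pass to products. -/
theorem s19c_orderProd : s19_OrderProd := by
  intro ℓ _ T T' _ _ _ _ _ _ hex hex'
  obtain ⟨H₀, hH⟩ := hex
  obtain ⟨H₀', hH'⟩ := hex'
  refine ⟨(s19c_muP ℓ H₀ H₀').range, ?_⟩
  refine ⟨?_, ?_, ?_, ?_⟩
  · rintro F ⟨z, rfl⟩ σ p
    exact s19c_prod_equiv ℓ hH hH' z σ p
  · have := s19c_finite ℓ hH
    have := s19c_finite ℓ hH'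
    have h1 : Subalgebra.toSubmodule (s19c_muP ℓ H₀ H₀').range =
        LinearMap.range (s19c_muP ℓ H₀ H₀').toLinearMap := by
      ext f
      rfl
    rw [h1, LinearMap.range_eq_map]
    exact (Module.Finite.fg_top).map _
  · rintro ⟨x, x'⟩ ⟨y, y'⟩ hne
    by_cases hx : x = y
    · have hx' : x' ≠ y' := by
        intro h
        exact hne (by rw [hx, h])
      obtain ⟨a', ha', hsep⟩ := hH'.sep x' y' hx'
      refine ⟨_, ⟨(1 : H₀) ⊗ₜ (⟨a', ha'⟩ : H₀'), rfl⟩, ?_⟩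
      show s19c_muP ℓ H₀ H₀' _ _ ≠ s19c_muP ℓ H₀ H₀' _ _
      rw [s19c_muP_tmul, s19c_muP_tmul]
      simpa using hsep
    · obtain ⟨a, ha, hsep⟩ := hH.sep x y hx
      refine ⟨_, ⟨(⟨a, ha⟩ : H₀) ⊗ₜ (1 : H₀'), rfl⟩, ?_⟩
      show s19c_muP ℓ H₀ H₀' _ _ ≠ s19c_muP ℓ H₀ H₀' _ _
      rw [s19c_muP_tmul, s19c_muP_tmul]
      simpa using hsep
  · rintro F ⟨z, rfl⟩
    exact s19c_hasRep_fin _ _ (s19c_prod_hasRep ℓ hH hH' z)

end Fermat.Agent.Lib.S19
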