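/-
W-A programme (S19/S32), contract [BASE] `s19_BaseA` (IfaceLocal.lean; helper6, prefix `s19e_`):
for a valuation ring `A ⊂ ℚ̄` over `ℓ` and `l = ℓ ∈ A`: the standing hypotheses `s19_Base l W`
(`W = A ∩ ℚ̄^{I_v}`) and `A` has rank one.  Proof: the `ℚ`-valued valuation `ford_vQ` of
`Lib/Frey/Ord.lean` (`v ℓ = 1`).
-/
import Fermat.Agent.Lib.S19.IfaceLocal
import Fermat.Agent.Lib.Frey.Ord

set_option autoImplicit false

noncomputable section

namespace Fermat.Agent.Lib.S19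

open IsLocalRing Fermat.Agent.Lib.Frey

section

variable {ℓ : ℕ} (hq : ℓ.Prime) (A : ValuationSubring s19_Qbar)
  (hA : ((ℓ : ℕ) : s19_Qbar) ∈ A.nonunits)

/-- divisibility in `A` from the valuation. -/
theorem s19e_dvd_of_v_le (x y : ↥A) (hx : (x : s19_Qbar) ≠ 0)
    (h : ford_vQ A hq hA (x : s19_Qbar) ≤ ford_vQ A hq hA (y : s19_Qbar)) : x ∣ y := by
  rw [ford_vQ_le_iff] at h
  have hvx : A.valuation (x : s19_Qbar) ≠ 0 := (Valuation.ne_zero_iff _).mpr hx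
  have hmem : (y : s19_Qbar) / (x : s19_Qbar) ∈ A := by
    rw [← A.valuation_le_one_iff, map_div₀]
    exact (div_le_one₀ (zero_lt_iff.mpr hvx)).mpr h
  refine ⟨⟨_, hmem⟩, ?_⟩
  apply Subtype.ext
  show (y : s19_Qbar) = (x : s19_Qbar) * ((y : s19_Qbar) / (x : s19_Qbar))
  field_simp

/-- the valuation of a non-zero element is a rational number. -/
theorem s19e_v_eq_coe (c : s19_Qbar) (hc : c ≠ 0) :
    ∃ q : ℚ, ford_vQ A hq hA c = (q : WithTop ℚ) := by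
  have hne : ford_vQ A hq hA c ≠ ⊤ := fun h => hc ((AddValuation.top_iff _).mp h)
  obtain ⟨q, hq'⟩ := WithTop.ne_top_iff_exists.mp hne
  exact ⟨q, hq'.symm⟩

theorem s19e_v_l_pow (l : ↥A) (hl : ((l : ↥A) : s19_Qbar) = (ℓ : s19_Qbar)) (m : ℕ) :
    ford_vQ A hq hA (((l ^ m : ↥A)) : s19_Qbar) = ((m : ℚ) : WithTop ℚ) := by
  rw [SubmonoidClass.coe_pow, AddValuation.map_pow, hl, ford_vQ_q]
  rw [← WithTop.coe_one, ← WithTop.coe_nsmul, nsmul_eq_mul, mul_one]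

end

/-- **[BASE]** -/
theorem s19e_baseA : s19_BaseA := by
  intro ℓ _ A hA l hl
  have hq : ℓ.Prime := Fact.out
  have hA' : ((ℓ : ℕ) : s19_Qbar) ∈ A.nonunits := hA
  have hl0 : ((l : ↥A) : s19_Qbar) ≠ 0 := by
    rw [hl]
    exact_mod_cast hq.ne_zero
  refine ⟨⟨?_, ?_, ?_⟩, ?_⟩
  · -- `l ∈ 𝔪`
    rw [← ValuationSubring.coe_mem_nonunits_iff, hl]
    exact hA'
  · -- every element of `𝔪` is `l`-adically nilpotent
    intro c hc
    rcases eq_or_ne ((c : ↥A) : s19_Qbar) 0 with h0 | h0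
    · refine ⟨1, ?_⟩
      have : c = 0 := Subtype.ext h0
      rw [this, pow_one]
      exact dvd_zero l
    obtain ⟨q, hvq⟩ := s19e_v_eq_coe hq A hA' _ h0
    have hpos : 0 < ford_vQ A hq hA' ((c : ↥A) : s19_Qbar) :=
      (ford_vQ_pos_iff hq hA' _).mpr (ValuationSubring.coe_mem_nonunits_iff.mpr hc)
    rw [hvq] at hpos
    have hq0 : (0 : ℚ) < q := by exact_mod_cast hpos
    obtain ⟨e, he⟩ := exists_nat_ge (1 / q)
    refine ⟨e, s19e_dvd_of_v_le hq A hA' l (c ^ e) hl0 ?_⟩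
    have h1 := s19e_v_l_pow hq A hA' l hl 1
    rw [pow_one] at h1
    rw [h1, SubmonoidClass.coe_pow, AddValuation.map_pow, hvq, ← WithTop.coe_nsmul,
      WithTop.coe_le_coe, nsmul_eq_mul]
    have := (div_le_iff₀ hq0).mp he
    push_cast
    linarith
  · -- units of `W`
    rintro ⟨c, hc⟩ hu
    obtain ⟨c', hcc'⟩ := isUnit_iff_exists_inv.mp hu
    have hcc'K : ((c : ↥A) : s19_Qbar) * ((c' : ↥A) : s19_Qbar) = 1 := congrArg Subtype.val hcc'
    have hc'W : c' ∈ s19_WA A := by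
      rw [s19_mem_WA] at hc ⊢
      intro τ hτ
      have h1 := congrArg τ hcc'K
      rw [map_mul, map_one, hc τ hτ] at h1
      have hc0 : ((c : ↥A) : s19_Qbar) ≠ 0 := left_ne_zero_of_mul_eq_one hcc'K
      exact mul_left_cancel₀ hc0 (h1.trans hcc'K.symm)
    exact isUnit_iff_exists_inv.mpr ⟨⟨c', hc'W⟩, Subtype.ext hcc'⟩
  · -- rank one
    intro d hd
    have hd0 : ((d : ↥A) : s19_Qbar) ≠ 0 := fun h => hd (Subtype.ext h)
    obtain ⟨q, hvq⟩ := s19e_v_eq_coe hq A hA' _ hd0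
    obtain ⟨m, hm⟩ := exists_nat_ge q
    refine ⟨m, s19e_dvd_of_v_le hq A hA' d (l ^ m) hd0 ?_⟩
    rw [s19e_v_l_pow hq A hA' l hl m, hvq, WithTop.coe_le_coe]
    exact hm

end Fermat.Agent.Lib.S19
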