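/-
W-A programme (S19/S32), brick [DD] part 1 (helper1, prefix `s19d_`): BASIC CALCULUS ON AN ABSTRACT
DISC `D : s19_Disc A W G`, and the contracts [DD-DIV] `s19_DDDiv`, [DD-RED] `s19_DDRed`.

* uniqueness of `g = x + (t − c)·h` (from `reg`), hence `ev c`, `dq c` of sums, scalar multiples,
  `(t − c)·h`, constants, `t`, `t·h`; `dq c` is `A`-linear (`s19d_dqL`);
* the change-of-node identity `dq a h = dq b h + (a − b)·dq a (dq b h)`;
* [DD-DIV] by induction on the list of nodes; [DD-RED] via the submodule `𝔪 • ⊤ ⊆ G`.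
-/
import Fermat.Agent.Lib.S19.IfaceAlg

set_option autoImplicit false

noncomputable section

namespace Fermat.Agent.Lib.S19

open IsLocalRing

section basic

variable {A : Type*} [CommRing A] [IsLocalRing A] {W : Subring A}
  {G : Type*} [CommRing G] [Algebra A G] (D : s19_Disc A W G)

/-- `ev c (t − c) = 0`. -/
lemma s19d_ev_t_sub (c : ↥(maximalIdeal A)) :
    D.ev c (D.t - algebraMap A G (c : A)) = 0 := by
  rw [map_sub, D.ev_t, AlgHom.commutes]
  simp

/-- uniqueness of the decomposition `g = x + (t − c)·h`. -/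
lemma s19d_unique (c : ↥(maximalIdeal A)) {g h : G} {x : A}
    (hg : g = algebraMap A G x + (D.t - algebraMap A G (c : A)) * h) :
    D.ev c g = x ∧ D.dq c g = h := by
  have h1 : D.ev c g = x := by
    rw [hg, map_add, map_mul, s19d_ev_t_sub, zero_mul, add_zero, AlgHom.commutes]
    simp
  refine ⟨h1, ?_⟩
  have h2 := D.dq_spec c g
  rw [h1] at h2
  have h3 : (D.t - algebraMap A G (c : A)) * (D.dq c g - h) = 0 := by
    rw [mul_sub, sub_eq_zero]
    have : algebraMap A G x + (D.t - algebraMap A G (c : A)) * D.dq c g =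
        algebraMap A G x + (D.t - algebraMap A G (c : A)) * h := by rw [← h2, ← hg]
    exact add_left_cancel this
  exact sub_eq_zero.mp (D.reg c _ h3)

lemma s19d_dq_add (c : ↥(maximalIdeal A)) (g h : G) :
    D.dq c (g + h) = D.dq c g + D.dq c h := by
  refine (s19d_unique D c (x := D.ev c g + D.ev c h) ?_).2
  conv_lhs => rw [D.dq_spec c g, D.dq_spec c h]
  rw [map_add]
  ring

lemma s19d_dq_smul (c : ↥(maximalIdeal A)) (a : A) (g : G) :
    D.dq c (algebraMap A G a * g) = algebraMap A G a * D.dq c g := by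
  refine (s19d_unique D c (x := a * D.ev c g) ?_).2
  conv_lhs => rw [D.dq_spec c g]
  rw [map_mul]
  ring

/-- `dq c` as an `A`-linear map. -/
def s19d_dqL (c : ↥(maximalIdeal A)) : G →ₗ[A] G where
  toFun := D.dq c
  map_add' := s19d_dq_add D c
  map_smul' a g := by
    rw [Algebra.smul_def, s19d_dq_smul, RingHom.id_apply, Algebra.smul_def]

@[simp] lemma s19d_dqL_apply (c : ↥(maximalIdeal A)) (g : G) : s19d_dqL D c g = D.dq c g := rfl

lemma s19d_dq_zero (c : ↥(maximalIdeal A)) : D.dq c 0 = 0 := (s19d_dqL D c).map_zero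

lemma s19d_dq_neg (c : ↥(maximalIdeal A)) (g : G) : D.dq c (-g) = -D.dq c g :=
  (s19d_dqL D c).map_neg g

lemma s19d_dq_sub (c : ↥(maximalIdeal A)) (g h : G) : D.dq c (g - h) = D.dq c g - D.dq c h :=
  (s19d_dqL D c).map_sub g h

lemma s19d_dq_sum {μ : Type*} (s : Finset μ) (c : ↥(maximalIdeal A)) (g : μ → G) :
    D.dq c (∑ m ∈ s, g m) = ∑ m ∈ s, D.dq c (g m) :=
  map_sum (s19d_dqL D c) g s

/-- `ev c ((t − c)·h) = 0` and `dq c ((t − c)·h) = h`. -/
lemma s19d_ev_mul_sub (c : ↥(maximalIdeal A)) (h : G) :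
    D.ev c ((D.t - algebraMap A G (c : A)) * h) = 0 := by
  rw [map_mul, s19d_ev_t_sub, zero_mul]

lemma s19d_dq_mul_sub (c : ↥(maximalIdeal A)) (h : G) :
    D.dq c ((D.t - algebraMap A G (c : A)) * h) = h := by
  refine (s19d_unique D c (x := 0) ?_).2
  rw [map_zero, zero_add]

lemma s19d_dq_const (c : ↥(maximalIdeal A)) (x : A) : D.dq c (algebraMap A G x) = 0 := by
  refine (s19d_unique D c (x := x) ?_).2
  rw [mul_zero, add_zero]

lemma s19d_dq_one (c : ↥(maximalIdeal A)) : D.dq c 1 = 0 := by
  rw [← map_one (algebraMap A G)]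
  exact s19d_dq_const D c 1

lemma s19d_dq_t (c : ↥(maximalIdeal A)) : D.dq c D.t = 1 := by
  refine (s19d_unique D c (x := (c : A)) ?_).2
  ring

/-- `dq c (t·h) = h + c·dq c h`. -/
lemma s19d_dq_t_mul (c : ↥(maximalIdeal A)) (h : G) :
    D.dq c (D.t * h) = h + algebraMap A G (c : A) * D.dq c h := by
  refine (s19d_unique D c (x := (c : A) * D.ev c h) ?_).2
  rw [map_mul]
  have := D.dq_spec c h
  linear_combination (algebraMap A G (c : A)) * this

lemma s19d_ev_t_mul (c : ↥(maximalIdeal A)) (h : G) :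
    D.ev c (D.t * h) = (c : A) * D.ev c h := by
  rw [map_mul, D.ev_t]

/-- the change-of-node identity. -/
lemma s19d_dq_change (a b : ↥(maximalIdeal A)) (h : G) :
    D.dq a h = D.dq b h + algebraMap A G ((a : A) - (b : A)) * D.dq a (D.dq b h) := by
  refine (s19d_unique D a (x := D.ev b h + ((a : A) - (b : A)) * D.ev a (D.dq b h)) ?_).2
  have h1 := D.dq_spec b h
  have h2 := D.dq_spec a (D.dq b h)
  rw [map_add, map_mul, map_sub]
  linear_combination h1 + (algebraMap A G (a : A) - algebraMap A G (b : A)) * h2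

lemma s19d_ev_change (a b : ↥(maximalIdeal A)) (h : G) :
    D.ev a h = D.ev b h + ((a : A) - (b : A)) * D.ev a (D.dq b h) := by
  have h1 := congrArg (D.ev a) (D.dq_spec b h)
  rw [map_add, map_mul, map_sub, D.ev_t, AlgHom.commutes, AlgHom.commutes] at h1
  simpa using h1

/-! ### iterated operators -/

@[simp] lemma s19d_dqs_nil (g : G) : s19_dqs D [] g = g := rfl

@[simp] lemma s19d_dqs_cons (a : ↥(maximalIdeal A)) (as : List ↥(maximalIdeal A)) (g : G) :
    s19_dqs D (a :: as) g = s19_dqs D as (D.dq a g) := rfl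

lemma s19d_dqs_append (as bs : List ↥(maximalIdeal A)) (g : G) :
    s19_dqs D (as ++ bs) g = s19_dqs D bs (s19_dqs D as g) := by
  induction as generalizing g with
  | nil => rfl
  | cons a as ih => simp only [List.cons_append, s19d_dqs_cons, ih]

lemma s19d_dqs_add (as : List ↥(maximalIdeal A)) (g h : G) :
    s19_dqs D as (g + h) = s19_dqs D as g + s19_dqs D as h := by
  induction as generalizing g h with
  | nil => rfl
  | cons a as ih => simp only [s19d_dqs_cons, s19d_dq_add, ih]

lemma s19d_dqs_smul (as : List ↥(maximalIdeal A)) (x : A) (g : G) :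
    s19_dqs D as (algebraMap A G x * g) = algebraMap A G x * s19_dqs D as g := by
  induction as generalizing g with
  | nil => rfl
  | cons a as ih => simp only [s19d_dqs_cons, s19d_dq_smul, ih]

/-- the iterated operator as a linear map. -/
def s19d_dqsL (as : List ↥(maximalIdeal A)) : G →ₗ[A] G where
  toFun := s19_dqs D as
  map_add' := s19d_dqs_add D as
  map_smul' a g := by
    rw [Algebra.smul_def, s19d_dqs_smul, RingHom.id_apply, Algebra.smul_def]

@[simp] lemma s19d_dqsL_apply (as : List ↥(maximalIdeal A)) (g : G) :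
    s19d_dqsL D as g = s19_dqs D as g := rfl

lemma s19d_dd_nil (a : ↥(maximalIdeal A)) (g : G) : s19_dd D [] a g = D.ev a g := rfl

lemma s19d_dd_cons (c : ↥(maximalIdeal A)) (as : List ↥(maximalIdeal A)) (a : ↥(maximalIdeal A))
    (g : G) : s19_dd D (c :: as) a g = s19_dd D as a (D.dq c g) := rfl

lemma s19d_dd_add (as : List ↥(maximalIdeal A)) (a : ↥(maximalIdeal A)) (g h : G) :
    s19_dd D as a (g + h) = s19_dd D as a g + s19_dd D as a h := by
  unfold s19_dd
  rw [s19d_dqs_add, map_add]

lemma s19d_dd_smul (as : List ↥(maximalIdeal A)) (a : ↥(maximalIdeal A)) (x : A) (g : G) :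
    s19_dd D as a (algebraMap A G x * g) = x * s19_dd D as a g := by
  unfold s19_dd
  rw [s19d_dqs_smul, map_mul, AlgHom.commutes]
  simp

/-- the divided difference as a linear form. -/
def s19d_ddL (as : List ↥(maximalIdeal A)) (a : ↥(maximalIdeal A)) : G →ₗ[A] A where
  toFun := s19_dd D as a
  map_add' := s19d_dd_add D as a
  map_smul' x g := by
    rw [Algebra.smul_def, s19d_dd_smul, RingHom.id_apply, smul_eq_mul]

@[simp] lemma s19d_ddL_apply (as : List ↥(maximalIdeal A)) (a : ↥(maximalIdeal A)) (g : G) :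
    s19d_ddL D as a g = s19_dd D as a g := rfl

lemma s19d_dd_sum {μ : Type*} (s : Finset μ) (as : List ↥(maximalIdeal A))
    (a : ↥(maximalIdeal A)) (g : μ → G) :
    s19_dd D as a (∑ m ∈ s, g m) = ∑ m ∈ s, s19_dd D as a (g m) :=
  map_sum (s19d_ddL D as a) g s

lemma s19d_dd_sub (as : List ↥(maximalIdeal A)) (a : ↥(maximalIdeal A)) (g h : G) :
    s19_dd D as a (g - h) = s19_dd D as a g - s19_dd D as a h :=
  (s19d_ddL D as a).map_sub g h

@[simp] lemma s19d_nodal_nil : s19_nodal D [] = 1 := rfl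

@[simp] lemma s19d_nodal_cons (a : ↥(maximalIdeal A)) (as : List ↥(maximalIdeal A)) :
    s19_nodal D (a :: as) = (D.t - algebraMap A G (a : A)) * s19_nodal D as := by
  unfold s19_nodal
  simp

end basic

/-! ### [DD-DIV] -/

section div

variable {A : Type*} [CommRing A] [IsLocalRing A] {W : Subring A}
  {G : Type*} [CommRing G] [Algebra A G] (D : s19_Disc A W G)

theorem s19d_div (as : List ↥(maximalIdeal A)) (g : G) :
    (∀ k : ℕ, ∀ hk : k < as.length, s19_dd D (as.take k) (as.get ⟨k, hk⟩) g = 0) ↔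
      ∃ g', g = s19_nodal D as * g' := by
  induction as generalizing g with
  | nil =>
    constructor
    · intro _
      exact ⟨g, by rw [s19d_nodal_nil, one_mul]⟩
    · intro _ k hk
      exact absurd hk (Nat.not_lt_zero k)
  | cons a as ih =>
    constructor
    · intro h
      have h0 : D.ev a g = 0 := h 0 (Nat.succ_pos _)
      have h1 : ∀ k : ℕ, ∀ hk : k < as.length,
          s19_dd D (as.take k) (as.get ⟨k, hk⟩) (D.dq a g) = 0 := by
        intro k hk
        exact h (k + 1) (Nat.succ_lt_succ hk)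
      obtain ⟨g', hg'⟩ := (ih (D.dq a g)).1 h1
      refine ⟨g', ?_⟩
      have h2 := D.dq_spec a g
      rw [h0, map_zero, zero_add, hg'] at h2
      rw [s19d_nodal_cons, mul_assoc]
      exact h2
    · rintro ⟨g', hg'⟩
      rw [s19d_nodal_cons, mul_assoc] at hg'
      have hdq : D.dq a g = s19_nodal D as * g' := by
        rw [hg']
        exact s19d_dq_mul_sub D a _
      have hev : D.ev a g = 0 := by
        rw [hg']
        exact s19d_ev_mul_sub D a _
      intro k hk
      cases k with
      | zero => exact hev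
      | succ k =>
        have hk' : k < as.length := Nat.lt_of_succ_lt_succ hk
        exact (ih (D.dq a g)).2 ⟨g', hdq⟩ k hk'

/-- **[DD-DIV]**. -/
theorem s19d_ddDiv : s19_DDDiv := by
  intro A _ _ W G _ _ D as g
  exact s19d_div D as g

end div

/-! ### [DD-RED] -/

section red

variable {A : Type*} [CommRing A] [IsLocalRing A] {W : Subring A}
  {G : Type*} [CommRing G] [Algebra A G] (D : s19_Disc A W G)

/-- the submodule `𝔪 G` of `G`. -/
def s19d_mG (A : Type*) [CommRing A] [IsLocalRing A] (G : Type*) [CommRing G] [Algebra A G] :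
    Submodule A G := (maximalIdeal A) • (⊤ : Submodule A G)

lemma s19d_map_mG_le (f : G →ₗ[A] G) : ∀ x ∈ s19d_mG A G, f x ∈ s19d_mG A G := by
  intro x hx
  unfold s19d_mG at hx ⊢
  refine Submodule.smul_induction_on hx (fun r hr n _ => ?_) (fun x y hx hy => ?_)
  · rw [map_smul]
    exact Submodule.smul_mem_smul hr Submodule.mem_top
  · rw [map_add]
    exact Submodule.add_mem _ hx hy

lemma s19d_form_mG_le (f : G →ₗ[A] A) : ∀ x ∈ s19d_mG A G, f x ∈ maximalIdeal A := by
  intro x hx
  unfold s19d_mG at hx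
  refine Submodule.smul_induction_on hx (fun r hr n _ => ?_) (fun x y hx hy => ?_)
  · rw [map_smul, smul_eq_mul]
    exact Ideal.mul_mem_right _ _ hr
  · rw [map_add]
    exact Ideal.add_mem _ hx hy

lemma s19d_smul_mem_mG {x : A} (hx : x ∈ maximalIdeal A) (g : G) :
    algebraMap A G x * g ∈ s19d_mG A G := by
  rw [← Algebra.smul_def]
  exact Submodule.smul_mem_smul hx Submodule.mem_top

/-- moving a node changes `dq` by an element of `𝔪 G`. -/
lemma s19d_dq_congr (a b : ↥(maximalIdeal A)) {g h : G} (hgh : g - h ∈ s19d_mG A G) :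
    D.dq a g - D.dq b h ∈ s19d_mG A G := by
  have h1 : D.dq a g - D.dq b h = D.dq a (g - h) +
      algebraMap A G ((a : A) - (b : A)) * D.dq a (D.dq b h) := by
    rw [s19d_dq_sub, s19d_dq_change D a b h]
    ring
  rw [h1]
  refine Submodule.add_mem _ (s19d_map_mG_le (s19d_dqL D a) _ hgh) ?_
  exact s19d_smul_mem_mG (Ideal.sub_mem _ a.2 b.2) _

lemma s19d_ev_congr (a b : ↥(maximalIdeal A)) {g h : G} (hgh : g - h ∈ s19d_mG A G) :
    D.ev a g - D.ev b h ∈ maximalIdeal A := by
  have h1 : D.ev a g - D.ev b h = D.ev a (g - h) +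
      ((a : A) - (b : A)) * D.ev a (D.dq b h) := by
    rw [map_sub, s19d_ev_change D a b h]
    ring
  rw [h1]
  refine Ideal.add_mem _ (s19d_form_mG_le (D.ev a).toLinearMap _ hgh) ?_
  exact Ideal.mul_mem_right _ _ (Ideal.sub_mem _ a.2 b.2)

lemma s19d_dqs_congr (as bs : List ↥(maximalIdeal A)) (hl : as.length = bs.length) {g h : G}
    (hgh : g - h ∈ s19d_mG A G) : s19_dqs D as g - s19_dqs D bs h ∈ s19d_mG A G := by
  induction as generalizing bs g h with
  | nil =>
    cases bs with
    | nil => exact hgh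
    | cons b bs => simp at hl
  | cons a as ih =>
    cases bs with
    | nil => simp at hl
    | cons b bs =>
      simp only [s19d_dqs_cons]
      exact ih bs (by simpa using hl) (s19d_dq_congr D a b hgh)

theorem s19d_red (as : List ↥(maximalIdeal A)) (a : ↥(maximalIdeal A)) (g : G) :
    s19_dd D as a g - s19_dd D (List.replicate as.length 0) 0 g ∈ maximalIdeal A := by
  unfold s19_dd
  refine s19d_ev_congr D a 0 (s19d_dqs_congr D as _ (by simp) ?_)
  rw [sub_self]
  exact Submodule.zero_mem _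

/-- **[DD-RED]**. -/
theorem s19d_ddRed : s19_DDRed := by
  intro A _ _ W G _ _ D as a g
  exact s19d_red D as a g

end red

end Fermat.Agent.Lib.S19

end
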