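/-
W-A programme (S19/S32), brick [DD] part 2 (helper1, prefix `s19d_`): the composition theorem
[DD-COMP] `s19_DDComp`.

* polynomial calculus: `ev c (aeval t Q) = Q.eval c`, `dq c (aeval t Q) = aeval t (Q /ₘ (X − C c))`;
  for a polynomial `P` over a subalgebra `S` of functions and nodes in `S`, the divided
  differences of the family `aeval t (P_ξ)` form an element of `S` (`s19d_comp_poly`);
* Taylor expansion of a rational function `g = aeval t (T_N g) + t^N·R` with `T_N g ∈ W[X]`;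
* the filtration `J^k`, `J = 𝔞G + tG`: `dq c (J^(k+1)) ⊆ J^k`, `ev c (J^k) ⊆ 𝔞^k` for `c ∈ 𝔞`, hence
  `(t^N·R)[a₀, …, aᵢ] ∈ (a₀, …, aᵢ)^(N−i)`;
* pigeonhole `(a₁, …, aₙ)^(n e + 1) ⊆ (l)` when `l ∣ aⱼ^e`.
-/
import Fermat.Agent.Lib.S19.DDiffBasic
import Fermat.Agent.Lib.S19.ClosInv

set_option autoImplicit false

noncomputable section

namespace Fermat.Agent.Lib.S19

open IsLocalRing Polynomial

/-! ### polynomial calculus at a point -/

section poly

variable {A : Type*} [CommRing A] [IsLocalRing A] {W : Subring A}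
  {G : Type*} [CommRing G] [Algebra A G] (D : s19_Disc A W G)

lemma s19d_ev_aeval (c : ↥(maximalIdeal A)) (Q : A[X]) :
    D.ev c (aeval D.t Q) = Q.eval (c : A) := by
  rw [← aeval_algHom_apply, D.ev_t, coe_aeval_eq_eval]

lemma s19d_dq_aeval (c : ↥(maximalIdeal A)) (Q : A[X]) :
    D.dq c (aeval D.t Q) = aeval D.t (Q /ₘ (X - C (c : A))) := by
  refine (s19d_unique D c (x := Q.eval (c : A)) ?_).2
  have h := modByMonic_add_div Q (X - C (c : A))
  rw [modByMonic_X_sub_C_eq_C_eval] at h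
  have h2 := congrArg (aeval D.t) h
  rw [map_add, map_mul, map_sub, aeval_C, aeval_X, aeval_C] at h2
  exact h2.symm

end poly

/-! ### polynomial families over a subalgebra of functions -/

section family

variable {Ξ : Type*} {A : Type*} [CommRing A] [IsLocalRing A] {W : Subring A}
  {G : Type*} [CommRing G] [Algebra A G] (D : s19_Disc A W G)

/-- evaluation at `ξ` on a subalgebra of functions. -/
def s19d_evalAt (S : Subalgebra W (Ξ → A)) (ξ : Ξ) : ↥S →+* A :=
  (Pi.evalRingHom (fun _ : Ξ => A) ξ).comp S.toSubring.subtype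

@[simp] lemma s19d_evalAt_apply (S : Subalgebra W (Ξ → A)) (ξ : Ξ) (φ : ↥S) :
    s19d_evalAt S ξ φ = (φ : Ξ → A) ξ := rfl

lemma s19d_evalAt_algebraMap (S : Subalgebra W (Ξ → A)) (ξ : Ξ) :
    (s19d_evalAt S ξ).comp (algebraMap W ↥S) = W.subtype :=
  RingHom.ext fun _ => rfl

/-- divided differences of a polynomial family with coefficients and nodes in `S` are in `S`. -/
theorem s19d_comp_poly (S : Subalgebra W (Ξ → A)) :
    ∀ (s : ℕ) (φ : Fin s → Ξ → ↥(maximalIdeal A))
      (_ : ∀ j, (fun ξ => ((φ j ξ : ↥(maximalIdeal A)) : A)) ∈ S)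
      (φ' : Ξ → ↥(maximalIdeal A)) (_ : (fun ξ => ((φ' ξ : ↥(maximalIdeal A)) : A)) ∈ S)
      (P : (↥S)[X]),
      (fun ξ => s19_dd D (List.ofFn fun j => φ j ξ) (φ' ξ)
        (aeval D.t (P.map (s19d_evalAt S ξ)))) ∈ S := by
  intro s
  induction s with
  | zero =>
    intro φ _ φ' hφ' P
    have h : (fun ξ => s19_dd D (List.ofFn fun j => φ j ξ) (φ' ξ)
        (aeval D.t (P.map (s19d_evalAt S ξ)))) =
        ((P.eval ⟨_, hφ'⟩ : ↥S) : Ξ → A) := by
      funext ξ
      rw [List.ofFn_zero, s19d_dd_nil, s19d_ev_aeval, eval_map]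
      have := eval₂_at_apply (p := P) (s19d_evalAt S ξ)
        (⟨_, hφ'⟩ : ↥S)
      rw [s19d_evalAt_apply] at this
      rw [this, s19d_evalAt_apply]
    rw [h]
    exact (P.eval ⟨_, hφ'⟩ : ↥S).2
  | succ s ih =>
    intro φ hφ φ' hφ' P
    set c₀ : ↥S := ⟨_, hφ 0⟩ with hc₀
    have h : (fun ξ => s19_dd D (List.ofFn fun j => φ j ξ) (φ' ξ)
        (aeval D.t (P.map (s19d_evalAt S ξ)))) =
        (fun ξ => s19_dd D (List.ofFn fun j : Fin s => φ j.succ ξ) (φ' ξ)
          (aeval D.t ((P /ₘ (X - C c₀)).map (s19d_evalAt S ξ)))) := by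
      funext ξ
      rw [List.ofFn_succ, s19d_dd_cons, s19d_dq_aeval, map_divByMonic _ (monic_X_sub_C c₀),
        Polynomial.map_sub, map_X, map_C]
      rfl
    rw [h]
    exact ih (fun j => φ j.succ) (fun j => hφ j.succ) φ' hφ' _

end family

/-! ### Taylor expansion of rational functions -/

section taylor

variable {A : Type*} [CommRing A] [IsLocalRing A] {W : Subring A}
  {G : Type*} [CommRing G] [Algebra A G] (D : s19_Disc A W G)

theorem s19d_taylor (N : ℕ) : ∀ g ∈ D.GW, ∃ (P : W[X]) (R : G),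
    g = aeval D.t (P.map W.subtype) + D.t ^ N * R := by
  induction N with
  | zero =>
    intro g _
    exact ⟨0, g, by simp⟩
  | succ N ih =>
    intro g hg
    obtain ⟨P, R, hPR⟩ := ih (D.dq 0 g) (D.dq_mem g hg)
    refine ⟨C ⟨D.ev 0 g, D.ev_mem g hg⟩ + X * P, R, ?_⟩
    have h := D.dq_spec 0 g
    rw [Polynomial.map_add, Polynomial.map_mul, map_X, map_C, map_add, map_mul, aeval_X, aeval_C]
    have h0 : algebraMap A G (((0 : ↥(maximalIdeal A)) : A)) = 0 := by simp
    rw [h0, sub_zero] at h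
    have h1 : W.subtype ⟨D.ev 0 g, D.ev_mem g hg⟩ = D.ev 0 g := rfl
    rw [h1]
    conv_lhs => rw [h, hPR]
    ring

end taylor

/-! ### the filtration -/

section filtration

variable {A : Type*} [CommRing A] [IsLocalRing A] {W : Subring A}
  {G : Type*} [CommRing G] [Algebra A G] (D : s19_Disc A W G)

/-- the ideal `𝔞 G + t G`. -/
def s19d_J (𝔞 : Ideal A) : Ideal G := Ideal.map (algebraMap A G) 𝔞 ⊔ Ideal.span {D.t}

lemma s19d_t_mem_J (𝔞 : Ideal A) : D.t ∈ s19d_J D 𝔞 :=
  Ideal.mem_sup_right (Ideal.subset_span rfl)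

lemma s19d_const_mem_J (𝔞 : Ideal A) {a : A} (ha : a ∈ 𝔞) : algebraMap A G a ∈ s19d_J D 𝔞 :=
  Ideal.mem_sup_left (Ideal.mem_map_of_mem _ ha)

lemma s19d_ev_J_pow (𝔞 : Ideal A) (c : ↥(maximalIdeal A)) (hc : (c : A) ∈ 𝔞) (k : ℕ) :
    ∀ x ∈ (s19d_J D 𝔞) ^ k, D.ev c x ∈ 𝔞 ^ k := by
  intro x hx
  have h1 : Ideal.map (D.ev c).toRingHom (s19d_J D 𝔞) ≤ 𝔞 := by
    rw [Ideal.map_le_iff_le_comap]
    unfold s19d_J
    refine sup_le ?_ ?_
    · rw [Ideal.map_le_iff_le_comap]
      intro a ha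
      rw [Ideal.mem_comap, Ideal.mem_comap]
      have : (D.ev c).toRingHom (algebraMap A G a) = a := by
        show D.ev c (algebraMap A G a) = a
        rw [AlgHom.commutes]; rfl
      rw [this]
      exact ha
    · rw [Ideal.span_le]
      intro y hy
      rw [Set.mem_singleton_iff] at hy
      subst hy
      show (D.ev c).toRingHom D.t ∈ 𝔞
      have : (D.ev c).toRingHom D.t = (c : A) := D.ev_t c
      rw [this]
      exact hc
  have h2 : (D.ev c).toRingHom x ∈ Ideal.map (D.ev c).toRingHom ((s19d_J D 𝔞) ^ k) :=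
    Ideal.mem_map_of_mem _ hx
  rw [Ideal.map_pow] at h2
  exact Ideal.pow_right_mono h1 k h2

lemma s19d_dq_J_pow (𝔞 : Ideal A) (c : ↥(maximalIdeal A)) (hc : (c : A) ∈ 𝔞) :
    ∀ k : ℕ, ∀ x ∈ (s19d_J D 𝔞) ^ (k + 1), D.dq c x ∈ (s19d_J D 𝔞) ^ k := by
  intro k
  induction k with
  | zero =>
    intro x _
    rw [pow_zero, Ideal.one_eq_top]
    exact Submodule.mem_top
  | succ k ih =>
    intro x hx
    rw [pow_succ' _ (k + 1)] at hx
    refine Submodule.mul_induction_on hx (fun y hy z hz => ?_) (fun x y hx hy => ?_)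
    · -- `y ∈ J`, `z ∈ J^(k+1)`
      obtain ⟨y₁, hy₁, y₂, hy₂, rfl⟩ := Submodule.mem_sup.mp hy
      obtain ⟨r, rfl⟩ := Ideal.mem_span_singleton'.mp hy₂
      have hA : ∀ y₁ ∈ Ideal.map (algebraMap A G) 𝔞, ∀ z ∈ (s19d_J D 𝔞) ^ (k + 1),
          D.dq c (y₁ * z) ∈ (s19d_J D 𝔞) ^ (k + 1) := by
        intro y₁ hy₁
        unfold Ideal.map at hy₁
        induction hy₁ using Submodule.span_induction with
        | mem y hy =>
          obtain ⟨a, ha, rfl⟩ := hy
          intro z hz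
          rw [s19d_dq_smul, pow_succ']
          exact Ideal.mul_mem_mul (s19d_const_mem_J D 𝔞 ha) (ih z hz)
        | zero =>
          intro z _
          rw [zero_mul, s19d_dq_zero]
          exact Ideal.zero_mem _
        | add u v _ _ hu hv =>
          intro z hz
          rw [add_mul, s19d_dq_add]
          exact Ideal.add_mem _ (hu z hz) (hv z hz)
        | smul g u _ hu =>
          intro z hz
          have : g • u * z = u * (g * z) := by rw [smul_eq_mul]; ring
          rw [this]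
          exact hu _ (Ideal.mul_mem_left _ g hz)
      have hB : D.dq c (r * D.t * z) ∈ (s19d_J D 𝔞) ^ (k + 1) := by
        have : r * D.t * z = D.t * (r * z) := by ring
        rw [this, s19d_dq_t_mul]
        have hrz : r * z ∈ (s19d_J D 𝔞) ^ (k + 1) := Ideal.mul_mem_left _ r hz
        refine Ideal.add_mem _ hrz ?_
        rw [pow_succ']
        exact Ideal.mul_mem_mul (s19d_const_mem_J D 𝔞 hc) (ih _ hrz)
      rw [add_mul, s19d_dq_add]
      exact Ideal.add_mem _ (hA y₁ hy₁ z hz) hB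
    · rw [s19d_dq_add]
      exact Ideal.add_mem _ hx hy

theorem s19d_dd_J_pow (𝔞 : Ideal A) (as : List ↥(maximalIdeal A)) (a : ↥(maximalIdeal A))
    (has : ∀ c ∈ as, ((c : ↥(maximalIdeal A)) : A) ∈ 𝔞) (ha : (a : A) ∈ 𝔞) :
    ∀ N : ℕ, ∀ x ∈ (s19d_J D 𝔞) ^ N, s19_dd D as a x ∈ 𝔞 ^ (N - as.length) := by
  induction as with
  | nil =>
    intro N x hx
    rw [s19d_dd_nil, List.length_nil, Nat.sub_zero]
    exact s19d_ev_J_pow D 𝔞 a ha N x hx
  | cons c as ih =>
    intro N x hx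
    rw [s19d_dd_cons, List.length_cons]
    cases N with
    | zero =>
      rw [Nat.zero_sub, pow_zero, Ideal.one_eq_top]
      exact Submodule.mem_top
    | succ N =>
      have h1 := s19d_dq_J_pow D 𝔞 c (has c (List.mem_cons_self)) N x hx
      have h2 := ih (fun c' hc' => has c' (List.mem_cons_of_mem _ hc')) N _ h1
      rwa [Nat.succ_sub_succ]

lemma s19d_tpow_mul_mem (𝔞 : Ideal A) (N : ℕ) (R : G) : D.t ^ N * R ∈ (s19d_J D 𝔞) ^ N :=
  Ideal.mul_mem_right _ _ (Ideal.pow_mem_pow (s19d_t_mem_J D 𝔞) N)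

end filtration

/-! ### pigeonhole -/

section pigeon

variable {A : Type*} [CommRing A]

lemma s19d_span_pow_le (l : A) (e : ℕ) : ∀ L : List A, (∀ a ∈ L, l ∣ a ^ e) →
    (Ideal.span {x | x ∈ L}) ^ (L.length * e + 1) ≤ Ideal.span {l} := by
  intro L
  induction L with
  | nil =>
    intro _
    have : ({x | x ∈ ([] : List A)} : Set A) = ∅ := by ext; simp
    rw [this, Ideal.span_empty, List.length_nil, zero_mul, zero_add, pow_one]
    exact bot_le
  | cons a L ih =>
    intro h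
    have hset : ({x | x ∈ a :: L} : Set A) = {a} ∪ {x | x ∈ L} := by
      ext x; simp
    rw [hset, Ideal.span_union, List.length_cons]
    have hexp : (L.length + 1) * e + 1 = e + (L.length * e + 1) := by ring
    rw [hexp]
    refine Ideal.sup_pow_add_le_pow_sup_pow.trans (sup_le ?_ ?_)
    · rw [Ideal.span_singleton_pow, Ideal.span_singleton_le_span_singleton]
      exact h a List.mem_cons_self
    · exact ih fun b hb => h b (List.mem_cons_of_mem _ hb)

lemma s19d_span_pow_dvd (l : A) (e m : ℕ) (L : List A) (h : ∀ a ∈ L, l ∣ a ^ e) (x : A)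
    (hx : x ∈ (Ideal.span {x | x ∈ L}) ^ ((L.length * e + 1) * m)) : l ^ m ∣ x := by
  rw [pow_mul] at hx
  have h1 := Ideal.pow_right_mono (s19d_span_pow_le l e L h) m hx
  rw [Ideal.span_singleton_pow] at h1
  exact Ideal.mem_span_singleton.mp h1

end pigeon

/-! ### [DD-COMP] -/

section comp

variable {Ξ A : Type*} [CommRing A] [IsLocalRing A] {l : A} {W : Subring A} (hB : s19_Base l W)
  {ι : Type*} {σ : ι → Ξ → A} (hσ : s19_Small l σ)
  {G : Type*} [CommRing G] [Algebra A G] (D : s19_Disc A W G)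

/-- uniform smallness of finitely many `𝔪`-valued elements of `𝒜(σ)`. -/
lemma s19d_uniform_small {Ξ A : Type} [CommRing A] [IsLocalRing A] {l : A} {W : Subring A}
    (hB : s19_Base l W) {ι : Type} {σ : ι → Ξ → A} (hσ : s19_Small l σ)
    (s : ℕ) (φ : Fin s → Ξ → ↥(maximalIdeal A))
    (hφ : ∀ j, (fun ξ => ((φ j ξ : ↥(maximalIdeal A)) : A)) ∈ s19_cl l W σ) :
    ∃ e : ℕ, ∀ j ξ, l ∣ ((φ j ξ : ↥(maximalIdeal A)) : A) ^ e := by
  have h : ∀ j, ∃ e : ℕ, ∀ ξ, l ∣ ((φ j ξ : ↥(maximalIdeal A)) : A) ^ e := fun j =>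
    s19a_closSmall l W hB σ hσ _ (hφ j) (fun ξ => (φ j ξ).2)
  choose e he using h
  refine ⟨∑ j, e j, fun j ξ => ?_⟩
  exact (he j ξ).trans (pow_dvd_pow _ (Finset.single_le_sum (fun _ _ => Nat.zero_le _)
    (Finset.mem_univ j)))

end comp

/-- **[DD-COMP]**. -/
theorem s19d_ddComp : s19_DDComp := by
  intro Ξ A _ _ l W hB ι σ hσ G _ _ D s φ φ' hφ hφ' g hg
  -- uniform smallness of all the nodes
  obtain ⟨e, he⟩ := s19d_uniform_small hB hσ (s + 1) (Fin.snoc φ φ') (by
    intro j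
    refine Fin.lastCases ?_ (fun i => ?_) j
    · simpa using hφ'
    · simpa using hφ i)
  have he1 : ∀ j ξ, l ∣ ((φ j ξ : ↥(maximalIdeal A)) : A) ^ e := by
    intro j ξ
    have := he j.castSucc ξ
    simpa using this
  have he2 : ∀ ξ, l ∣ ((φ' ξ : ↥(maximalIdeal A)) : A) ^ e := by
    intro ξ
    have := he (Fin.last s) ξ
    simpa using this
  apply s19_mem_closure_of_approx
  intro m
  -- Taylor expansion of order `N`
  set K₀ : ℕ := (s + 1) * e + 1 with hK₀
  set N : ℕ := K₀ * m + s with hN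
  obtain ⟨P, R, hPR⟩ := s19d_taylor D N g hg
  set S := s19_cl l W σ with hS
  refine ⟨fun ξ => s19_dd D (List.ofFn fun j => φ j ξ) (φ' ξ)
      (aeval D.t ((P.map (algebraMap W ↥S)).map (s19d_evalAt S ξ))), ?_, ?_⟩
  · exact s19d_comp_poly D S s φ hφ φ' hφ' _
  · intro ξ
    -- the list of all nodes at `ξ`
    set L : List A := (List.ofFn fun j => ((φ j ξ : ↥(maximalIdeal A)) : A)) ++
      [((φ' ξ : ↥(maximalIdeal A)) : A)] with hL
    have hLlen : L.length = s + 1 := by simp [hL]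
    have hLe : ∀ a ∈ L, l ∣ a ^ e := by
      intro a ha
      rw [hL, List.mem_append, List.mem_ofFn, List.mem_singleton] at ha
      rcases ha with ⟨j, rfl⟩ | rfl
      · exact he1 j ξ
      · exact he2 ξ
    set 𝔞 : Ideal A := Ideal.span {x | x ∈ L} with h𝔞
    have hnodes : ∀ c ∈ (List.ofFn fun j => φ j ξ), ((c : ↥(maximalIdeal A)) : A) ∈ 𝔞 := by
      intro c hc
      rw [List.mem_ofFn] at hc
      obtain ⟨j, rfl⟩ := hc
      apply Ideal.subset_span
      show _ ∈ L
      rw [hL, List.mem_append]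
      exact Or.inl (List.mem_ofFn.mpr ⟨j, rfl⟩)
    have hlast : ((φ' ξ : ↥(maximalIdeal A)) : A) ∈ 𝔞 := by
      apply Ideal.subset_span
      show _ ∈ L
      rw [hL, List.mem_append]
      exact Or.inr (List.mem_singleton.mpr rfl)
    have hmap : (P.map (algebraMap W ↥S)).map (s19d_evalAt S ξ) = P.map W.subtype := by
      rw [Polynomial.map_map, s19d_evalAt_algebraMap]
    beta_reduce
    rw [hmap]
    have hdiff : s19_dd D (List.ofFn fun j => φ j ξ) (φ' ξ) g -
        s19_dd D (List.ofFn fun j => φ j ξ) (φ' ξ) (aeval D.t (P.map W.subtype)) =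
        s19_dd D (List.ofFn fun j => φ j ξ) (φ' ξ) (D.t ^ N * R) := by
      rw [← s19d_dd_sub]
      congr 1
      rw [hPR]
      ring
    rw [hdiff]
    have h1 := s19d_dd_J_pow D 𝔞 (List.ofFn fun j => φ j ξ) (φ' ξ) hnodes hlast N _
      (s19d_tpow_mul_mem D 𝔞 N R)
    rw [List.length_ofFn, hN, Nat.add_sub_cancel] at h1
    refine s19d_span_pow_dvd l e m L hLe _ ?_
    rw [hLlen]
    exact h1

end Fermat.Agent.Lib.S19

end
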