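/-
W-A programme (S19/S32), brick [DD] part 3 (helper1, prefix `s19d_`): Newton–Hensel on a disc,
[DD-HENSEL] `s19_DDHensel`.

`h_ξ = Σ c_m(ξ) g_m`, `H_ξ = Δ_{φ_{s-1} ξ} ⋯ Δ_{φ_0 ξ} h_ξ`, `F_ξ(x) = H_ξ(x)`, `u ξ` a zero of `F_ξ`,
slope `U₀ ξ = H_ξ[0, 0]` a unit.
* `F(ψ) ∈ 𝒜(σ)` for every `𝔪`-valued `ψ ∈ 𝒜(σ)` (linearity + [DD-COMP]); `U₀ ∈ 𝒜(σ)`, `U₀⁻¹ ∈ 𝒜(σ)`;
* `u` is uniformly small: `F(0) = −u·H[0,u]`, `H[0,u]` a unit, `F(0) ∈ 𝒜(σ)` is `𝔪`-valued;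
* iteration `ψ₀ = 0`, `ψ_{k+1} = ψ_k − F(ψ_k)·U₀⁻¹` with `u^(k+1) ∣ u − ψ_k`.
-/
import Fermat.Agent.Lib.S19.DDiffComp

set_option autoImplicit false

noncomputable section

namespace Fermat.Agent.Lib.S19

open IsLocalRing

/-! ### pointwise identities -/

section pointwise

variable {A : Type*} [CommRing A] [IsLocalRing A] {W : Subring A}
  {G : Type*} [CommRing G] [Algebra A G] (D : s19_Disc A W G)

/-- `H[x, y] = H[0, 0] + x·α + y·β`. -/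
lemma s19d_slope_change (x y : ↥(maximalIdeal A)) (H : G) :
    ∃ α β : A, D.ev y (D.dq x H) = D.ev 0 (D.dq 0 H) + (x : A) * α + (y : A) * β := by
  have h1 := s19d_dq_change D x 0 H
  have h2 := s19d_ev_change D y 0 (D.dq 0 H)
  refine ⟨D.ev y (D.dq x (D.dq 0 H)), D.ev y (D.dq 0 (D.dq 0 H)), ?_⟩
  rw [h1, map_add, map_mul, AlgHom.commutes, h2]
  simp only [ZeroMemClass.coe_zero, sub_zero, Algebra.algebraMap_self, RingHom.id_apply]
  ring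

lemma s19d_dd_snoc (as : List ↥(maximalIdeal A)) (b a : ↥(maximalIdeal A)) (h : G) :
    s19_dd D (as ++ [b]) a h = D.ev a (D.dq b (s19_dqs D as h)) := by
  unfold s19_dd
  rw [s19d_dqs_append]
  rfl

end pointwise

/-! ### function-level facts -/

section funlevel

variable {Ξ A : Type} [CommRing A] [IsLocalRing A] {l : A} {W : Subring A} (hB : s19_Base l W)
  {ι : Type} {σ : ι → Ξ → A} (hσ : s19_Small l σ)
  {G : Type} [CommRing G] [Algebra A G] (D : s19_Disc A W G)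
  {μ : Type} [Fintype μ] (g : μ → G) (c : μ → Ξ → A)

include hB hσ in
/-- divided differences of `h_ξ = Σ c_m(ξ) g_m` at nodes in `𝒜(σ)` are in `𝒜(σ)`. -/
lemma s19d_comp_lin (hg : ∀ m, g m ∈ D.GW) (hc : ∀ m, c m ∈ s19_cl l W σ)
    (s : ℕ) (φ : Fin s → Ξ → ↥(maximalIdeal A)) (ψ : Ξ → ↥(maximalIdeal A))
    (hφ : ∀ j, (fun ξ => ((φ j ξ : ↥(maximalIdeal A)) : A)) ∈ s19_cl l W σ)
    (hψ : (fun ξ => ((ψ ξ : ↥(maximalIdeal A)) : A)) ∈ s19_cl l W σ) :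
    (fun ξ => s19_dd D (List.ofFn fun j => φ j ξ) (ψ ξ)
      (∑ m, algebraMap A G (c m ξ) * g m)) ∈ s19_cl l W σ := by
  have h : (fun ξ => s19_dd D (List.ofFn fun j => φ j ξ) (ψ ξ)
      (∑ m, algebraMap A G (c m ξ) * g m)) =
      ∑ m, c m * (fun ξ => s19_dd D (List.ofFn fun j => φ j ξ) (ψ ξ) (g m)) := by
    funext ξ
    rw [s19d_dd_sum, Finset.sum_apply]
    refine Finset.sum_congr rfl fun m _ => ?_
    rw [s19d_dd_smul, Pi.mul_apply]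
  rw [h]
  refine Subalgebra.sum_mem _ fun m _ => Subalgebra.mul_mem _ (hc m) ?_
  exact s19d_ddComp l W hB σ hσ D s φ ψ hφ hψ (g m) (hg m)

end funlevel

/-- **[DD-HENSEL]**. -/
theorem s19d_ddHensel : s19_DDHensel := by
  intro Ξ A _ _ l W hB ι σ hσ G _ _ D μ _ g c s φ u hg hc hφ hzero hunit
  classical
  set S := s19_cl l W σ with hS
  -- notation
  set h : Ξ → G := fun ξ => ∑ m, algebraMap A G (c m ξ) * g m with hh
  set nodes : Ξ → List ↥(maximalIdeal A) := fun ξ => List.ofFn fun j => φ j ξ with hnodes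
  set H : Ξ → G := fun ξ => s19_dqs D (nodes ξ) (h ξ) with hH
  have hF : ∀ (x : ↥(maximalIdeal A)) ξ, s19_dd D (nodes ξ) x (h ξ) = D.ev x (H ξ) := fun _ _ => rfl
  have hzero' : ∀ ξ, D.ev (u ξ) (H ξ) = 0 := hzero
  -- the slope
  set U₀ : Ξ → A := fun ξ => D.ev 0 (D.dq 0 (H ξ)) with hU₀
  have hU₀unit : ∀ ξ, IsUnit (U₀ ξ) := by
    intro ξ
    have := hunit ξ
    rwa [s19d_dd_snoc] at this
  have h0S : (fun _ : Ξ => (((0 : ↥(maximalIdeal A)) : ↥(maximalIdeal A)) : A)) ∈ S := by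
    simp only [ZeroMemClass.coe_zero]
    exact Subalgebra.zero_mem S
  have hU₀S : U₀ ∈ S := by
    have h1 := s19d_comp_lin hB hσ D g c hg hc (s + 1)
      (Fin.snoc (α := fun _ => Ξ → ↥(maximalIdeal A)) φ (fun _ => 0)) (fun _ => 0) (by
        intro j
        refine Fin.lastCases ?_ (fun i => ?_) j
        · simpa using h0S
        · simpa using hφ i) h0S
    have h2 : (fun ξ => s19_dd D (List.ofFn fun j =>
        (Fin.snoc (α := fun _ => Ξ → ↥(maximalIdeal A)) φ (fun _ => 0)) j ξ) 0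
        (∑ m, algebraMap A G (c m ξ) * g m)) = U₀ := by
      funext ξ
      rw [List.ofFn_succ', List.concat_eq_append]
      simp only [Fin.snoc_castSucc, Fin.snoc_last]
      rw [s19d_dd_snoc]
    rw [← h2]
    exact h1
  obtain ⟨V, hVS, hV⟩ := s19a_closInv l W hB σ hσ U₀ hU₀S hU₀unit
  -- `F(ψ) ∈ 𝒜` for `ψ ∈ 𝒜`
  have hFS : ∀ ψ : Ξ → ↥(maximalIdeal A), (fun ξ => ((ψ ξ : ↥(maximalIdeal A)) : A)) ∈ S →
      (fun ξ => D.ev (ψ ξ) (H ξ)) ∈ S := fun ψ hψ =>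
    s19d_comp_lin hB hσ D g c hg hc s φ ψ hφ hψ
  -- pointwise: `F(x) = (x − u)·H[u, x]`
  have hFx : ∀ ξ (x : ↥(maximalIdeal A)),
      D.ev x (H ξ) = ((x : A) - (u ξ : A)) * D.ev x (D.dq (u ξ) (H ξ)) := by
    intro ξ x
    rw [s19d_ev_change D x (u ξ) (H ξ), hzero' ξ, zero_add]
  -- `u` is uniformly small
  obtain ⟨e, he⟩ : ∃ e : ℕ, ∀ ξ, l ∣ ((u ξ : ↥(maximalIdeal A)) : A) ^ e := by
    have hF0S := hFS (fun _ => 0) h0S
    have hF0 : ∀ ξ, D.ev 0 (H ξ) = -((u ξ : A) * D.ev 0 (D.dq (u ξ) (H ξ))) := by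
      intro ξ
      rw [hFx ξ 0]
      simp
    have hF0m : s19_MVal (fun ξ => D.ev 0 (H ξ)) := by
      intro ξ
      show D.ev 0 (H ξ) ∈ maximalIdeal A
      rw [hF0 ξ]
      exact Ideal.neg_mem_iff _ |>.mpr (Ideal.mul_mem_right _ _ (u ξ).2)
    obtain ⟨e, he⟩ := s19a_closSmall l W hB σ hσ _ hF0S hF0m
    refine ⟨e, fun ξ => ?_⟩
    -- `H[u, 0]` is a unit
    obtain ⟨α, β, hαβ⟩ := s19d_slope_change D (u ξ) 0 (H ξ)
    have hunit' : IsUnit (D.ev 0 (D.dq (u ξ) (H ξ))) := by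
      rw [hαβ]
      have hm : (u ξ : A) * α + ((0 : ↥(maximalIdeal A)) : A) * β ∈ maximalIdeal A :=
        Ideal.add_mem _ (Ideal.mul_mem_right _ _ (u ξ).2)
          (Ideal.mul_mem_right _ _ (0 : ↥(maximalIdeal A)).2)
      have : D.ev 0 (D.dq 0 (H ξ)) + (u ξ : A) * α + ((0 : ↥(maximalIdeal A)) : A) * β =
          U₀ ξ + ((u ξ : A) * α + ((0 : ↥(maximalIdeal A)) : A) * β) := by
        rw [hU₀]; ring
      rw [this]
      by_contra hnu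
      have h1 : U₀ ξ + ((u ξ : A) * α + ((0 : ↥(maximalIdeal A)) : A) * β) ∈ maximalIdeal A :=
        (mem_maximalIdeal _).mpr hnu
      have h2 : U₀ ξ ∈ maximalIdeal A := by
        have := Ideal.sub_mem _ h1 hm
        simpa using this
      exact (mem_maximalIdeal _).mp h2 (hU₀unit ξ)
    have h3 := he ξ
    rw [hF0 ξ, neg_pow, mul_pow] at h3
    have h4 : l ∣ (u ξ : A) ^ e * D.ev 0 (D.dq (u ξ) (H ξ)) ^ e := by
      rcases neg_one_pow_eq_or A e with h | h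
      · rwa [h, one_mul] at h3
      · rw [h, neg_one_mul] at h3
        exact (dvd_neg).mp h3
    exact (IsUnit.dvd_mul_right (hunit'.pow e)).mp h4
  -- the Newton iteration
  have hiter : ∀ k : ℕ, ∃ ψ : Ξ → ↥(maximalIdeal A),
      (fun ξ => ((ψ ξ : ↥(maximalIdeal A)) : A)) ∈ S ∧
      ∀ ξ, (u ξ : A) ^ (k + 1) ∣ (u ξ : A) - (ψ ξ : A) := by
    intro k
    induction k with
    | zero =>
      refine ⟨fun _ => 0, h0S, fun ξ => ?_⟩
      simp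
    | succ k ih =>
      obtain ⟨ψ, hψS, hψ⟩ := ih
      have hmem : ∀ ξ, (ψ ξ : A) - D.ev (ψ ξ) (H ξ) * V ξ ∈ maximalIdeal A := by
        intro ξ
        refine Ideal.sub_mem _ (ψ ξ).2 (Ideal.mul_mem_right _ _ ?_)
        rw [hFx ξ (ψ ξ)]
        exact Ideal.mul_mem_right _ _ (Ideal.sub_mem _ (ψ ξ).2 (u ξ).2)
      refine ⟨fun ξ => ⟨(ψ ξ : A) - D.ev (ψ ξ) (H ξ) * V ξ, hmem ξ⟩, ?_, fun ξ => ?_⟩
      · have : (fun ξ => (ψ ξ : A) - D.ev (ψ ξ) (H ξ) * V ξ) =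
            (fun ξ => (ψ ξ : A)) - (fun ξ => D.ev (ψ ξ) (H ξ)) * V := by
          funext ξ
          simp only [Pi.sub_apply, Pi.mul_apply]
        show (fun ξ => (ψ ξ : A) - D.ev (ψ ξ) (H ξ) * V ξ) ∈ S
        rw [this]
        exact Subalgebra.sub_mem _ hψS (Subalgebra.mul_mem _ (hFS ψ hψS) hVS)
      · show (u ξ : A) ^ (k + 1 + 1) ∣ (u ξ : A) - ((ψ ξ : A) - D.ev (ψ ξ) (H ξ) * V ξ)
        obtain ⟨α, β, hαβ⟩ := s19d_slope_change D (u ξ) (ψ ξ) (H ξ)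
        obtain ⟨d, hd⟩ := hψ ξ
        -- `ψ = u − u^(k+1) d ∈ u A`
        have hψu : (ψ ξ : A) = (u ξ : A) * (1 - (u ξ : A) ^ k * d) := by
          have : (ψ ξ : A) = (u ξ : A) - (u ξ : A) ^ (k + 1) * d := by rw [← hd]; ring
          rw [this]; ring
        have hUV : U₀ ξ * V ξ = 1 := hV ξ
        have key : (u ξ : A) - ((ψ ξ : A) - D.ev (ψ ξ) (H ξ) * V ξ) =
            (u ξ : A) ^ (k + 1 + 1) * (-(d * V ξ * (α + (1 - (u ξ : A) ^ k * d) * β))) := by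
          rw [hFx ξ (ψ ξ), hαβ]
          have hU : D.ev 0 (D.dq 0 (H ξ)) = U₀ ξ := rfl
          rw [hU]
          have e1 : (u ξ : A) - (ψ ξ : A) = (u ξ : A) ^ (k + 1) * d := hd
          have e2 : (ψ ξ : A) - (u ξ : A) = -((u ξ : A) ^ (k + 1) * d) := by rw [← e1]; ring
          rw [e2]
          have e3 : (u ξ : A) - ((ψ ξ : A) -
              -((u ξ : A) ^ (k + 1) * d) * (U₀ ξ + (u ξ : A) * α + (ψ ξ : A) * β) * V ξ) =
              ((u ξ : A) - (ψ ξ : A)) - ((u ξ : A) ^ (k + 1) * d) * (U₀ ξ * V ξ) -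
              ((u ξ : A) ^ (k + 1) * d) * V ξ * ((u ξ : A) * α + (ψ ξ : A) * β) := by ring
          rw [e3, hUV, e1]
          conv_lhs => rw [hψu]
          ring
        rw [key]
        exact Dvd.intro _ rfl
  -- conclusion
  apply s19_mem_closure_of_approx
  intro m
  obtain ⟨ψ, hψS, hψ⟩ := hiter (e * m)
  refine ⟨_, hψS, fun ξ => ?_⟩
  have h1 : l ^ m ∣ (u ξ : A) ^ (e * m) := by
    rw [pow_mul]
    exact pow_dvd_pow_of_dvd (he ξ) m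
  exact h1.trans ((pow_dvd_pow _ (Nat.le_succ _)).trans (hψ ξ))

end Fermat.Agent.Lib.S19

end
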