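/-
W-A programme (S19/S32), brick [AENG] part 1 (helper6, prefix `s19e_`): elementary calculus on an
abstract disc `D : s19_Disc A W G`.

* `dq c`, `s19_dqs as`, `s19_dd as a` are `A`-linear in the function (from `reg` = uniqueness of the quotient);
* `s19e_dqs_append`, `s19e_dd_append_singleton`;
* Taylor coefficients of `t ^ m`: `s19e_tay_t_pow_lt`, `s19e_tay_t_pow_self`;
* the nodal polynomial: `s19e_nodal_append`, `s19e_nodal_replicate_one`;
* **Newton**: if the successive divided differences of `g` at the nodes `as` vanish then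
  `g = s19_nodal D as * s19_dqs D as g` (`s19e_eq_nodal_mul`).
-/
import Fermat.Agent.Lib.S19.IfaceAlg

set_option autoImplicit false

noncomputable section

namespace Fermat.Agent.Lib.S19

open IsLocalRing

variable {A : Type*} [CommRing A] [IsLocalRing A] {W : Subring A}
  {G : Type*} [CommRing G] [Algebra A G] (D : s19_Disc A W G)

/-! ### linearity -/

/-- uniqueness of the quotient: `g = α + (t − c) q` forces `α = ev c g`, `q = dq c g`. -/
theorem s19e_dq_unique (c : ↥(maximalIdeal A)) (g q : G) (α : A)
    (h : g = algebraMap A G α + (D.t - algebraMap A G (c : A)) * q) :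
    D.ev c g = α ∧ D.dq c g = q := by
  have hev : D.ev c g = α := by
    have := congrArg (D.ev c) h
    rw [map_add, map_mul, map_sub, D.ev_t, AlgHom.commutes, AlgHom.commutes] at this
    simpa using this
  refine ⟨hev, ?_⟩
  have h2 := D.dq_spec c g
  rw [hev] at h2
  apply sub_eq_zero.mp
  apply D.reg c
  have : (D.t - algebraMap A G (c : A)) * (D.dq c g - q)
      = (algebraMap A G α + (D.t - algebraMap A G (c : A)) * D.dq c g)
        - (algebraMap A G α + (D.t - algebraMap A G (c : A)) * q) := by ring
  rw [this, ← h2, ← h, sub_self]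

theorem s19e_dq_add (c : ↥(maximalIdeal A)) (g h : G) :
    D.dq c (g + h) = D.dq c g + D.dq c h := by
  refine (s19e_dq_unique D c (g + h) (D.dq c g + D.dq c h) (D.ev c g + D.ev c h) ?_).2
  conv_lhs => rw [D.dq_spec c g, D.dq_spec c h]
  rw [map_add]
  ring

theorem s19e_dq_smul (c : ↥(maximalIdeal A)) (a : A) (g : G) :
    D.dq c (algebraMap A G a * g) = algebraMap A G a * D.dq c g := by
  refine (s19e_dq_unique D c (algebraMap A G a * g) (algebraMap A G a * D.dq c g)
    (a * D.ev c g) ?_).2
  conv_lhs => rw [D.dq_spec c g]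
  rw [map_mul]
  ring

theorem s19e_dq_zero (c : ↥(maximalIdeal A)) : D.dq c (0 : G) = 0 := by
  have := s19e_dq_smul D c 0 0
  simpa using this

theorem s19e_dq_sum {μ : Type*} (s : Finset μ) (c : ↥(maximalIdeal A)) (g : μ → G) :
    D.dq c (∑ m ∈ s, g m) = ∑ m ∈ s, D.dq c (g m) := by
  classical
  induction s using Finset.induction_on with
  | empty => simp [s19e_dq_zero]
  | insert a s ha ih => rw [Finset.sum_insert ha, Finset.sum_insert ha, s19e_dq_add, ih]

theorem s19e_dqs_add (as : List ↥(maximalIdeal A)) (g h : G) :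
    s19_dqs D as (g + h) = s19_dqs D as g + s19_dqs D as h := by
  induction as generalizing g h with
  | nil => rfl
  | cons a as ih =>
    simp only [s19_dqs]
    rw [s19e_dq_add, ih]

theorem s19e_dqs_smul (as : List ↥(maximalIdeal A)) (a : A) (g : G) :
    s19_dqs D as (algebraMap A G a * g) = algebraMap A G a * s19_dqs D as g := by
  induction as generalizing g with
  | nil => rfl
  | cons b as ih =>
    simp only [s19_dqs]
    rw [s19e_dq_smul, ih]

theorem s19e_dqs_zero (as : List ↥(maximalIdeal A)) : s19_dqs D as (0 : G) = 0 := by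
  have := s19e_dqs_smul D as 0 0
  simpa using this

theorem s19e_dqs_sum {μ : Type*} (s : Finset μ) (as : List ↥(maximalIdeal A)) (g : μ → G) :
    s19_dqs D as (∑ m ∈ s, g m) = ∑ m ∈ s, s19_dqs D as (g m) := by
  classical
  induction s using Finset.induction_on with
  | empty => simp [s19e_dqs_zero]
  | insert a s ha ih => rw [Finset.sum_insert ha, Finset.sum_insert ha, s19e_dqs_add, ih]

/-- **linearity of the divided differences.** -/
theorem s19e_dd_sum {μ : Type*} (s : Finset μ) (as : List ↥(maximalIdeal A))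
    (a : ↥(maximalIdeal A)) (c : μ → A) (g : μ → G) :
    s19_dd D as a (∑ m ∈ s, algebraMap A G (c m) * g m) = ∑ m ∈ s, c m * s19_dd D as a (g m) := by
  unfold s19_dd
  rw [s19e_dqs_sum, map_sum]
  refine Finset.sum_congr rfl fun m _ => ?_
  rw [s19e_dqs_smul, map_mul, AlgHom.commutes]
  rfl

/-! ### concatenation of nodes -/

theorem s19e_dqs_append (as bs : List ↥(maximalIdeal A)) (g : G) :
    s19_dqs D (as ++ bs) g = s19_dqs D bs (s19_dqs D as g) := by
  induction as generalizing g with
  | nil => rfl
  | cons a as ih =>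
    simp only [List.cons_append, s19_dqs]
    rw [ih]

theorem s19e_dd_append_singleton (as : List ↥(maximalIdeal A)) (c a : ↥(maximalIdeal A)) (g : G) :
    s19_dd D (as ++ [c]) a g = D.ev a (D.dq c (s19_dqs D as g)) := by
  unfold s19_dd
  rw [s19e_dqs_append]
  rfl

theorem s19e_nodal_nil : s19_nodal D [] = 1 := by
  simp [s19_nodal]

theorem s19e_nodal_cons (a : ↥(maximalIdeal A)) (as : List ↥(maximalIdeal A)) :
    s19_nodal D (a :: as) = (D.t - algebraMap A G (a : A)) * s19_nodal D as := by
  simp [s19_nodal]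

theorem s19e_nodal_append (as bs : List ↥(maximalIdeal A)) :
    s19_nodal D (as ++ bs) = s19_nodal D as * s19_nodal D bs := by
  simp [s19_nodal]

theorem s19e_nodal_replicate_one (a : ↥(maximalIdeal A)) :
    s19_nodal D (List.replicate 1 a) = D.t - algebraMap A G (a : A) := by
  simp [s19_nodal]

/-! ### Taylor coefficients of the powers of the parameter -/

theorem s19e_ev_zero_t : D.ev 0 D.t = 0 := by
  rw [D.ev_t]
  rfl

theorem s19e_dq_zero_t_pow (m : ℕ) : D.dq 0 (D.t ^ (m + 1)) = D.t ^ m := by
  refine (s19e_dq_unique D 0 (D.t ^ (m + 1)) (D.t ^ m) 0 ?_).2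
  have h0 : ((0 : ↥(maximalIdeal A)) : A) = 0 := rfl
  rw [h0, map_zero, sub_zero, zero_add, pow_succ, mul_comm]

theorem s19e_dqs_replicate_t_pow (s k : ℕ) :
    s19_dqs D (List.replicate s 0) (D.t ^ (s + k)) = D.t ^ k := by
  induction s with
  | zero => simp [s19_dqs]
  | succ s ih =>
    rw [List.replicate_succ]
    simp only [s19_dqs]
    have : s + 1 + k = (s + k) + 1 := by ring
    rw [this, s19e_dq_zero_t_pow, ih]

theorem s19e_tay_t_pow_lt {s m : ℕ} (h : s < m) : s19_tay D s (D.t ^ m) = 0 := by
  obtain ⟨k, rfl⟩ : ∃ k, m = s + (k + 1) := ⟨m - s - 1, by omega⟩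
  unfold s19_tay s19_dd
  rw [s19e_dqs_replicate_t_pow, map_pow, s19e_ev_zero_t, zero_pow (Nat.succ_ne_zero k)]

theorem s19e_tay_t_pow_self (m : ℕ) : s19_tay D m (D.t ^ m) = 1 := by
  unfold s19_tay s19_dd
  have := s19e_dqs_replicate_t_pow D m 0
  rw [add_zero] at this
  rw [this, pow_zero, map_one]

/-- linearity of the Taylor coefficients. -/
theorem s19e_tay_sum {μ : Type*} (s : Finset μ) (k : ℕ) (c : μ → A) (g : μ → G) :
    s19_tay D k (∑ m ∈ s, algebraMap A G (c m) * g m) = ∑ m ∈ s, c m * s19_tay D k (g m) :=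
  s19e_dd_sum D s _ _ c g

/-! ### Newton -/

/-- **Newton**: vanishing of the successive divided differences gives divisibility by the nodal
polynomial, with the explicit quotient `s19_dqs D as g`. -/
theorem s19e_eq_nodal_mul (as : List ↥(maximalIdeal A)) (g : G)
    (h : ∀ k : ℕ, ∀ hk : k < as.length, s19_dd D (as.take k) (as.get ⟨k, hk⟩) g = 0) :
    g = s19_nodal D as * s19_dqs D as g := by
  induction as generalizing g with
  | nil => simp [s19e_nodal_nil, s19_dqs]
  | cons a as ih =>
    have h0 : D.ev a g = 0 := by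
      have := h 0 (by simp)
      simpa [s19_dd, s19_dqs] using this
    have h1 : g = (D.t - algebraMap A G (a : A)) * D.dq a g := by
      have := D.dq_spec a g
      rw [h0, map_zero, zero_add] at this
      exact this
    have h2 : ∀ k : ℕ, ∀ hk : k < as.length,
        s19_dd D (as.take k) (as.get ⟨k, hk⟩) (D.dq a g) = 0 := by
      intro k hk
      have := h (k + 1) (by simp; omega)
      simpa [s19_dd, s19_dqs] using this
    have h3 := ih (D.dq a g) h2
    rw [s19e_nodal_cons]
    simp only [s19_dqs]
    rw [mul_assoc, ← h3]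
    exact h1

/-- evaluation of the quotient: `ev a (s19_dqs as g) = g[as, a]`. -/
theorem s19e_ev_dqs (as : List ↥(maximalIdeal A)) (a : ↥(maximalIdeal A)) (g : G) :
    D.ev a (s19_dqs D as g) = s19_dd D as a g := rfl

/-- a zero of the quotient splits off a linear factor. -/
theorem s19e_factor_of_ev_eq_zero (c : ↥(maximalIdeal A)) (g : G) (h : D.ev c g = 0) :
    g = (D.t - algebraMap A G (c : A)) * D.dq c g := by
  have := D.dq_spec c g
  rw [h, map_zero, zero_add] at this
  exact this

end Fermat.Agent.Lib.S19
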