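/-
W-A programme (S19/S32), brick [AENG] part 2 (helper6, prefix `s19e_`): **solving a linear system over
the closure ring `𝒜(σ)`** whose reduction modulo the maximal ideal is a CONSTANT surjective system.

* `s19e_exists_minor` : a surjective `k`-linear map `kⁿ → k^R` given by a matrix has an invertible
  `R × R` minor (choice of columns `f : R → Fin n`);
* `s19e_solve` : rows `r : R`, unknowns `c₁ … c_n`, coefficients `Θ r j ∈ 𝒜(σ)` (`j = 0 … n`), reductions of
  `Θ r (j+1)` constant `= T r j` with `T` onto, `Θ r 0` with values in the maximal ideal: there are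
  `c_j ∈ 𝒜(σ)`, `c₀ = 1`, `c_{j+1}` with values in the maximal ideal, `Σ_j c_j Θ r j = 0` for all rows
  (Cramer `s19_ClosCramer` on the minor).
-/
import Fermat.Agent.Lib.S19.IfaceAlg

set_option autoImplicit false
set_option linter.style.haveILetI false

noncomputable section

namespace Fermat.Agent.Lib.S19

open IsLocalRing

/-- a surjective matrix map `kⁿ → k^R` has an invertible square minor. -/
theorem s19e_exists_minor {k : Type*} [Field k] {R : Type*} [Fintype R] [DecidableEq R] {n : ℕ}
    (T : R → Fin n → k)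
    (hsurj : Function.Surjective (fun (x : Fin n → k) (r : R) => ∑ j, x j * T r j)) :
    ∃ f : R → Fin n, (Matrix.of fun r r' => T r (f r')).det ≠ 0 := by
  classical
  let v : Fin n → (R → k) := fun j r => T r j
  have hspan : Submodule.span k (Set.range v) = ⊤ := by
    rw [eq_top_iff]
    intro y _
    obtain ⟨x, hx⟩ := hsurj y
    have hy : y = ∑ j, x j • v j := by
      rw [← hx]
      funext r
      simp [v, Finset.sum_apply]
    rw [hy]
    exact Submodule.sum_mem _ fun j _ =>
      Submodule.smul_mem _ _ (Submodule.subset_span ⟨j, rfl⟩)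
  obtain ⟨κ, a, ha, hsp, hli⟩ := exists_linearIndependent' k v
  rw [hspan] at hsp
  haveI : Finite κ := Finite.of_injective a ha
  haveI : Fintype κ := Fintype.ofFinite κ
  let B : Module.Basis κ k (R → k) := Module.Basis.mk hli (by rw [hsp])
  have hcard : Fintype.card κ = Fintype.card R := by
    have h1 := Module.finrank_eq_card_basis B
    rw [Module.finrank_fintype_fun_eq_card] at h1
    exact h1.symm
  let e : R ≃ κ := Fintype.equivOfCardEq hcard.symm
  refine ⟨fun r => a (e r), ?_⟩
  have hcols : LinearIndependent k (Matrix.of fun r r' => T r (a (e r'))).col := by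
    have : (Matrix.of fun r r' => T r (a (e r'))).col = (v ∘ a) ∘ e := by
      funext r' r
      rfl
    rw [this]
    exact hli.comp e e.injective
  have hunit := Matrix.linearIndependent_cols_iff_isUnit.mp hcols
  exact ((Matrix.isUnit_iff_isUnit_det _).mp hunit).ne_zero

/-- **solving a system over `𝒜(σ)` with constant surjective reduction.** -/
theorem s19e_solve (hCr : s19_ClosCramer) {Ξ A : Type} [CommRing A] [IsLocalRing A] (l : A)
    (W : Subring A) (hB : s19_Base l W) {κ : Type} (σ : κ → Ξ → A) (hσ : s19_Small l σ)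
    {R : Type} [Fintype R] [DecidableEq R] (n : ℕ)
    (Θ : R → Fin (n + 1) → Ξ → A) (hΘ : ∀ r j, Θ r j ∈ s19_cl l W σ)
    (T : R → Fin n → ResidueField A)
    (hred : ∀ ξ r j, residue A (Θ r (Fin.succ j) ξ) = T r j)
    (hsurj : Function.Surjective
      (fun (x : Fin n → ResidueField A) (r : R) => ∑ j, x j * T r j))
    (h0 : ∀ ξ r, Θ r 0 ξ ∈ maximalIdeal A) :
    ∃ c : Fin (n + 1) → Ξ → A, (∀ j, c j ∈ s19_cl l W σ) ∧ (∀ ξ, c 0 ξ = 1) ∧
      (∀ j : Fin n, s19_MVal (c j.succ)) ∧ ∀ ξ r, ∑ j, c j ξ * Θ r j ξ = 0 := by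
  classical
  obtain ⟨f, hf⟩ := s19e_exists_minor T hsurj
  set M : Matrix R R (Ξ → A) := Matrix.of fun r r' => Θ r (f r').succ with hM
  have hMmem : ∀ r r', M r r' ∈ s19_cl l W σ := fun r r' => hΘ r _
  have hMunit : ∀ ξ, IsUnit (Matrix.det (M.map fun φ => φ ξ)) := by
    intro ξ
    rw [← IsLocalRing.notMem_maximalIdeal, ← IsLocalRing.residue_eq_zero_iff, RingHom.map_det]
    have : (residue A).mapMatrix (M.map fun φ => φ ξ) = Matrix.of fun r r' => T r (f r') := by
      ext r r'
      simp [M, hred]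
    rw [this]
    exact hf
  obtain ⟨M', hM'mem, hMM', -⟩ := hCr l W hB σ hσ M hMmem hMunit
  -- pointwise form of `M * M' = 1`
  have hMM'ξ : ∀ ξ r r'', ∑ r', Θ r (f r').succ ξ * M' r' r'' ξ = if r = r'' then 1 else 0 := by
    intro ξ r r''
    have h1 := congrFun (congrFun (congrFun hMM' r) r'') ξ
    rw [Matrix.mul_apply, Finset.sum_apply] at h1
    rw [Matrix.one_apply] at h1
    simp only [Pi.mul_apply, M, Matrix.of_apply] at h1
    rw [h1]
    split_ifs <;> rfl
  -- the solution on the chosen columns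
  set v : R → Ξ → A := fun r' => -∑ r, M' r' r * Θ r 0 with hv
  have hvmem : ∀ r', v r' ∈ s19_cl l W σ := fun r' =>
    Subalgebra.neg_mem _ (Subalgebra.sum_mem _ fun r _ => Subalgebra.mul_mem _ (hM'mem r' r) (hΘ r 0))
  have hvval : ∀ r' ξ, v r' ξ ∈ maximalIdeal A := by
    intro r' ξ
    simp only [v, Pi.neg_apply, Finset.sum_apply, Pi.mul_apply]
    exact Ideal.neg_mem_iff _ |>.mpr
      (Ideal.sum_mem _ fun r _ => Ideal.mul_mem_left _ _ (h0 ξ r))
  set c : Fin (n + 1) → Ξ → A :=
    Fin.cases (fun _ => 1) (fun j => ∑ r', if f r' = j then v r' else 0) with hc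
  have hcsucc : ∀ (j : Fin n) ξ, c j.succ ξ = ∑ r', if f r' = j then v r' ξ else 0 := by
    intro j ξ
    simp only [c, Fin.cases_succ, Finset.sum_apply]
    refine Finset.sum_congr rfl fun r' _ => ?_
    split_ifs <;> rfl
  refine ⟨c, ?_, fun ξ => by simp [c], ?_, ?_⟩
  · intro j
    refine Fin.cases ?_ (fun j => ?_) j
    · simp only [c, Fin.cases_zero]
      exact Subalgebra.one_mem _
    · simp only [c, Fin.cases_succ]
      refine Subalgebra.sum_mem _ fun r' _ => ?_
      split_ifs
      · exact hvmem r'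
      · exact Subalgebra.zero_mem _
  · intro j ξ
    rw [hcsucc]
    refine Ideal.sum_mem _ fun r' _ => ?_
    split_ifs
    · exact hvval r' ξ
    · exact Ideal.zero_mem _
  · intro ξ r
    rw [Fin.sum_univ_succ]
    have hc0 : c 0 ξ = 1 := by simp [c]
    rw [hc0, one_mul]
    have h1 : ∑ j : Fin n, c j.succ ξ * Θ r j.succ ξ = ∑ r', v r' ξ * Θ r (f r').succ ξ := by
      simp only [hcsucc, Finset.sum_mul]
      rw [Finset.sum_comm]
      refine Finset.sum_congr rfl fun r' _ => ?_
      simp only [ite_mul, zero_mul]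
      rw [Finset.sum_ite_eq]
      simp
    rw [h1]
    have h2 : ∑ r', v r' ξ * Θ r (f r').succ ξ = -Θ r 0 ξ := by
      simp only [v, Pi.neg_apply, Finset.sum_apply, Pi.mul_apply, neg_mul, Finset.sum_neg_distrib,
        Finset.sum_mul]
      rw [Finset.sum_comm]
      congr 1
      have : ∀ r'', ∑ r', M' r' r'' ξ * Θ r'' 0 ξ * Θ r (f r').succ ξ
          = (if r = r'' then 1 else 0) * Θ r'' 0 ξ := by
        intro r''
        rw [← hMM'ξ ξ r r'', Finset.sum_mul]
        refine Finset.sum_congr rfl fun r' _ => ?_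
        ring
      simp only [this, ite_mul, one_mul, zero_mul]
      rw [Finset.sum_ite_eq]
      simp
    rw [h2, add_neg_cancel]

end Fermat.Agent.Lib.S19
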