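/-
W-A programme (S19/S32), brick **[AENG]** (helper6, prefix `s19e_`): the abstract engine
`s19e_aeng : s19_DDDiv → s19_DDRed → s19_DDComp → s19_DDHensel → s19_AEng`.

One *stage* (`s19e_stage`) does: nodes `ν i a ∈ 𝒜(σ)` on the discs `i` (`L i ≤ m i` of them), reduced system of
Taylor coefficients onto ⇒ coefficients `c_j ∈ 𝒜(σ)` (`c₀ = 1`, the others with values in the maximal ideal)
such that `μ i (Σ c_j b_j)` is divisible by the nodal polynomial of the nodes (Cramer on a minor + Newton),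
and on the discs with `L i + 1 = m i` one more zero `ρ i ∈ 𝒜(σ)` of the quotient (`root` + Newton–Hensel).
The engine is two stages: nodes `φp`, then nodes `[ρ] ++ φm`.
(The contract `s19_DDDiv` is not needed: Newton's formula is proved directly in `EEngDisc`.)
-/
import Fermat.Agent.Lib.S19.EEngDisc
import Fermat.Agent.Lib.S19.EEngSolve
import Fermat.Agent.Lib.S19.ClosInv

set_option autoImplicit false
set_option linter.style.haveILetI false

noncomputable section

namespace Fermat.Agent.Lib.S19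

open IsLocalRing

/-! ### reduction of a divided difference of a combination `t ^ m + Σ (small) · g_j` -/

section Red

variable {A : Type} [CommRing A] [IsLocalRing A] {W : Subring A}
  {G : Type} [CommRing G] [Algebra A G] (D : s19_Disc A W G)

/-- modulo the maximal ideal a divided difference is the Taylor coefficient. -/
theorem s19e_dd_sub_tay_mem (hRed : s19_DDRed) (as : List ↥(maximalIdeal A))
    (a : ↥(maximalIdeal A)) (g : G) :
    s19_dd D as a g - s19_tay D as.length g ∈ maximalIdeal A :=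
  hRed D as a g

theorem s19e_dd_comb_sub_mem (hRed : s19_DDRed) {n m : ℕ} (g : Fin (n + 1) → G)
    (hg0 : g 0 = D.t ^ m) (c : Fin (n + 1) → A) (hc0 : c 0 = 1)
    (hcm : ∀ j : Fin n, c j.succ ∈ maximalIdeal A) (as : List ↥(maximalIdeal A))
    (a : ↥(maximalIdeal A)) :
    s19_dd D as a (∑ j, algebraMap A G (c j) * g j) - s19_tay D as.length (D.t ^ m)
      ∈ maximalIdeal A := by
  have h1 := s19e_dd_sub_tay_mem D hRed as a (∑ j, algebraMap A G (c j) * g j)
  have h2 : s19_tay D as.length (∑ j, algebraMap A G (c j) * g j)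
      - s19_tay D as.length (D.t ^ m) ∈ maximalIdeal A := by
    rw [s19e_tay_sum, Fin.sum_univ_succ, hc0, one_mul, hg0, add_sub_cancel_left]
    exact Ideal.sum_mem _ fun j _ => Ideal.mul_mem_right _ _ (hcm j)
  have := Ideal.add_mem _ h1 h2
  rwa [sub_add_sub_cancel] at this

theorem s19e_dd_comb_mem (hRed : s19_DDRed) {n m : ℕ} (g : Fin (n + 1) → G)
    (hg0 : g 0 = D.t ^ m) (c : Fin (n + 1) → A) (hc0 : c 0 = 1)
    (hcm : ∀ j : Fin n, c j.succ ∈ maximalIdeal A) (as : List ↥(maximalIdeal A))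
    (a : ↥(maximalIdeal A)) (hlen : as.length < m) :
    s19_dd D as a (∑ j, algebraMap A G (c j) * g j) ∈ maximalIdeal A := by
  have := s19e_dd_comb_sub_mem D hRed g hg0 c hc0 hcm as a
  rwa [s19e_tay_t_pow_lt D hlen, sub_zero] at this

theorem s19e_dd_comb_isUnit (hRed : s19_DDRed) {n m : ℕ} (g : Fin (n + 1) → G)
    (hg0 : g 0 = D.t ^ m) (c : Fin (n + 1) → A) (hc0 : c 0 = 1)
    (hcm : ∀ j : Fin n, c j.succ ∈ maximalIdeal A) (as : List ↥(maximalIdeal A))
    (a : ↥(maximalIdeal A)) (hlen : as.length = m) :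
    IsUnit (s19_dd D as a (∑ j, algebraMap A G (c j) * g j)) := by
  have h := s19e_dd_comb_sub_mem D hRed g hg0 c hc0 hcm as a
  rw [hlen, s19e_tay_t_pow_self] at h
  by_contra hu
  have hx : s19_dd D as a (∑ j, algebraMap A G (c j) * g j) ∈ maximalIdeal A :=
    (IsLocalRing.mem_maximalIdeal _).mpr hu
  have h1 : (1 : A) ∈ maximalIdeal A := by
    have := Ideal.sub_mem _ hx h
    rwa [sub_sub_cancel] at this
  exact (IsLocalRing.maximalIdeal A).ne_top_iff_one.mp (Ideal.IsMaximal.ne_top inferInstance) h1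

theorem s19e_dd_t_pow_mem (hRed : s19_DDRed) {m : ℕ} (as : List ↥(maximalIdeal A))
    (a : ↥(maximalIdeal A)) (hlen : as.length < m) :
    s19_dd D as a (D.t ^ m) ∈ maximalIdeal A := by
  have := s19e_dd_sub_tay_mem D hRed as a (D.t ^ m)
  rwa [s19e_tay_t_pow_lt D hlen, sub_zero] at this

end Red

/-! ### one stage of the engine -/

/-- the image of a combination of the basis under `μ`. -/
theorem s19e_mu_comb {A : Type} [CommRing A] {G : Type} [CommRing G] [Algebra A G] {n : ℕ}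
    {Λ : Type} [AddCommGroup Λ] [Module A Λ] (b : Fin (n + 1) → Λ) (μ : Λ →ₗ[A] G)
    (c : Fin (n + 1) → A) :
    μ (∑ j, c j • b j) = ∑ j, algebraMap A G (c j) * μ (b j) := by
  rw [map_sum]
  refine Finset.sum_congr rfl fun j _ => ?_
  rw [map_smul, Algebra.smul_def]

/-- **one stage.** -/
theorem s19e_stage (hRed : s19_DDRed) (hComp : s19_DDComp) (hHen : s19_DDHensel)
    {Ξ A : Type} [CommRing A] [IsLocalRing A] (l : A) (W : Subring A) (hB : s19_Base l W)
    {κ : Type} (σ : κ → Ξ → A) (hσ : s19_Small l σ)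
    {ι : Type} [Fintype ι] [DecidableEq ι]
    (G : ι → Type) [∀ i, CommRing (G i)] [∀ i, Algebra A (G i)] (D : ∀ i, s19_Disc A W (G i))
    (n : ℕ) {Λ : Type} [AddCommGroup Λ] [Module A Λ] (b : Fin (n + 1) → Λ)
    (m : ι → ℕ) (μ : ∀ i, Λ →ₗ[A] G i) (hμ : ∀ i j, μ i (b j) ∈ (D i).GW)
    (hμ0 : ∀ i, μ i (b 0) = (D i).t ^ m i)
    (L : ι → ℕ) (hL : ∀ i, L i ≤ m i) (e : ι → Prop) [DecidablePred e]
    (he : ∀ i, e i → L i + 1 = m i)
    (ν : ∀ i, Fin (L i) → Ξ → ↥(maximalIdeal A))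
    (hν : ∀ i a, (fun ξ => ((ν i a ξ : ↥(maximalIdeal A)) : A)) ∈ s19_cl l W σ)
    (hsurj : Function.Surjective (fun (x : Fin n → ResidueField A) (r : Σ i, Fin (L i)) =>
      ∑ j : Fin n, x j * residue A (s19_tay (D r.1) (r.2 : ℕ) (μ r.1 (b j.succ))))) :
    ∃ (c : Fin (n + 1) → Ξ → A) (ρ : ι → Ξ → ↥(maximalIdeal A)),
      (∀ j, c j ∈ s19_cl l W σ) ∧ (∀ ξ, c 0 ξ = 1) ∧ (∀ j : Fin n, s19_MVal (c j.succ)) ∧
      (∀ i, (fun ξ => ((ρ i ξ : ↥(maximalIdeal A)) : A)) ∈ s19_cl l W σ) ∧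
      ∀ ξ i, ∃ g : G i, μ i (∑ j, c j ξ • b j) =
        s19_nodal (D i) (List.ofFn fun a => ν i a ξ) *
          (if e i then (D i).t - algebraMap A (G i) (ρ i ξ : A) else 1) * g := by
  classical
  -- the system
  set Θ : (Σ i, Fin (L i)) → Fin (n + 1) → Ξ → A := fun r j ξ =>
    s19_dd (D r.1) (List.ofFn fun a : Fin (r.2 : ℕ) => ν r.1 (Fin.castLE r.2.is_lt.le a) ξ)
      (ν r.1 r.2 ξ) (μ r.1 (b j)) with hΘdef
  have hΘ : ∀ r j, Θ r j ∈ s19_cl l W σ := by
    intro r j
    exact hComp l W hB σ hσ (D r.1) (r.2 : ℕ) (fun a => ν r.1 (Fin.castLE r.2.is_lt.le a))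
      (ν r.1 r.2) (fun a => hν r.1 _) (hν r.1 r.2) (μ r.1 (b j)) (hμ r.1 j)
  have hred : ∀ ξ r (j : Fin n), residue A (Θ r j.succ ξ)
      = residue A (s19_tay (D r.1) (r.2 : ℕ) (μ r.1 (b j.succ))) := by
    intro ξ r j
    have h := s19e_dd_sub_tay_mem (D r.1) hRed
      (List.ofFn fun a : Fin (r.2 : ℕ) => ν r.1 (Fin.castLE r.2.is_lt.le a) ξ) (ν r.1 r.2 ξ)
      (μ r.1 (b j.succ))
    rw [List.length_ofFn] at h
    rw [← IsLocalRing.residue_eq_zero_iff, map_sub, sub_eq_zero] at h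
    exact h
  have h0 : ∀ ξ r, Θ r 0 ξ ∈ maximalIdeal A := by
    intro ξ r
    simp only [Θ]
    rw [hμ0]
    apply s19e_dd_t_pow_mem (D r.1) hRed
    rw [List.length_ofFn]
    exact lt_of_lt_of_le r.2.is_lt (hL r.1)
  obtain ⟨c, hcmem, hc0, hcm, hsol⟩ := s19e_solve s19a_closCramer l W hB σ hσ n Θ hΘ
    (fun r j => residue A (s19_tay (D r.1) (r.2 : ℕ) (μ r.1 (b j.succ)))) hred hsurj h0
  -- the functions `g₁ = μ i χ`
  have hg1 : ∀ ξ i, μ i (∑ j, c j ξ • b j) = ∑ j, algebraMap A (G i) (c j ξ) * μ i (b j) :=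
    fun ξ i => s19e_mu_comb b (μ i) fun j => c j ξ
  -- vanishing of the divided differences at the nodes
  have hvan : ∀ ξ i, ∀ k : ℕ, ∀ hk : k < (List.ofFn fun a => ν i a ξ).length,
      s19_dd (D i) ((List.ofFn fun a => ν i a ξ).take k)
        ((List.ofFn fun a => ν i a ξ).get ⟨k, hk⟩) (μ i (∑ j, c j ξ • b j)) = 0 := by
    intro ξ i k hk
    have hkL : k < L i := by simpa using hk
    rw [hg1, s19e_dd_sum]
    have htake : (List.ofFn fun a => ν i a ξ).take k
        = List.ofFn fun a : Fin k => ν i (Fin.castLE hkL.le a) ξ := by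
      rw [← Fin.ofFn_take_eq_take_ofFn hkL.le]
      rfl
    have hget : (List.ofFn fun a => ν i a ξ).get ⟨k, hk⟩ = ν i ⟨k, hkL⟩ ξ := by
      rw [List.get_ofFn]
      rfl
    rw [htake, hget]
    exact hsol ξ ⟨i, ⟨k, hkL⟩⟩
  have hdiv : ∀ ξ i, μ i (∑ j, c j ξ • b j) = s19_nodal (D i) (List.ofFn fun a => ν i a ξ) *
      s19_dqs (D i) (List.ofFn fun a => ν i a ξ) (μ i (∑ j, c j ξ • b j)) :=
    fun ξ i => s19e_eq_nodal_mul (D i) _ _ (hvan ξ i)
  -- the extra zero
  have hroot : ∀ i, e i → ∀ ξ, ∃ c₀ : ↥(maximalIdeal A),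
      (D i).ev c₀ (s19_dqs (D i) (List.ofFn fun a => ν i a ξ) (μ i (∑ j, c j ξ • b j))) = 0 := by
    intro i hei ξ
    apply (D i).root
    · rw [s19e_ev_dqs, hg1]
      apply s19e_dd_comb_mem (D i) hRed (fun j => μ i (b j)) (hμ0 i) (fun j => c j ξ) (hc0 ξ)
        (fun j => hcm j ξ)
      rw [List.length_ofFn]
      have := he i hei
      omega
    · rw [← s19e_dd_append_singleton, hg1]
      apply s19e_dd_comb_isUnit (D i) hRed (fun j => μ i (b j)) (hμ0 i) (fun j => c j ξ) (hc0 ξ)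
        (fun j => hcm j ξ)
      rw [List.length_append, List.length_ofFn]
      exact he i hei
  set ρ : ι → Ξ → ↥(maximalIdeal A) := fun i ξ =>
    if hei : e i then Classical.choose (hroot i hei ξ) else 0 with hρdef
  have hρspec : ∀ i, e i → ∀ ξ,
      (D i).ev (ρ i ξ) (s19_dqs (D i) (List.ofFn fun a => ν i a ξ) (μ i (∑ j, c j ξ • b j))) = 0 := by
    intro i hei ξ
    simp only [ρ, dif_pos hei]
    exact Classical.choose_spec (hroot i hei ξ)
  have hρmem : ∀ i, (fun ξ => ((ρ i ξ : ↥(maximalIdeal A)) : A)) ∈ s19_cl l W σ := by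
    intro i
    by_cases hei : e i
    · refine hHen l W hB σ hσ (D i) (fun j => μ i (b j)) c (L i) (ν i) (ρ i) (hμ i) hcmem (hν i)
        ?_ ?_
      · intro ξ
        have := hρspec i hei ξ
        rw [s19e_ev_dqs, hg1] at this
        exact this
      · intro ξ
        apply s19e_dd_comb_isUnit (D i) hRed (fun j => μ i (b j)) (hμ0 i) (fun j => c j ξ) (hc0 ξ)
          (fun j => hcm j ξ)
        rw [List.length_append, List.length_ofFn]
        exact he i hei
    · have : (fun ξ => ((ρ i ξ : ↥(maximalIdeal A)) : A)) = 0 := by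
        funext ξ
        simp only [ρ, dif_neg hei]
        rfl
      rw [this]
      exact Subalgebra.zero_mem _
  refine ⟨c, ρ, hcmem, hc0, hcm, hρmem, fun ξ i => ?_⟩
  by_cases hei : e i
  · refine ⟨(D i).dq (ρ i ξ)
      (s19_dqs (D i) (List.ofFn fun a => ν i a ξ) (μ i (∑ j, c j ξ • b j))), ?_⟩
    rw [if_pos hei, mul_assoc, ← s19e_factor_of_ev_eq_zero (D i) _ _ (hρspec i hei ξ)]
    exact hdiv ξ i
  · refine ⟨s19_dqs (D i) (List.ofFn fun a => ν i a ξ) (μ i (∑ j, c j ξ • b j)), ?_⟩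
    rw [if_neg hei, mul_one]
    exact hdiv ξ i

/-! ### the engine -/

/-- **[AENG]** -/
theorem s19e_aeng : s19_DDDiv → s19_DDRed → s19_DDComp → s19_DDHensel → s19_AEng := by
  intro _ hRed hComp hHen Ξ A _ _ l W hB κ σ hσ ι _ _ G _ _ D n Λ _ _ b m mp mm h1 h2 h3 h4 μ hμ
    hμ0 φp φm hφp hφm hE1 hE2
  classical
  -- first stage
  obtain ⟨c, ρ, hcmem, hc0, hcm, hρmem, hst1⟩ := s19e_stage hRed hComp hHen l W hB σ hσ G D n
    (fun j => b j) m μ hμ hμ0 mp h2 (fun i => m i = mp i + 1) (fun i hi => hi.symm) φp hφp hE1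
  -- the nodes of the second stage
  set ν : ∀ i, Fin ((m i - mp i) + mm i) → Ξ → ↥(maximalIdeal A) := fun i =>
    Fin.append (fun _ : Fin (m i - mp i) => ρ i) (φm i) with hνdef
  have hν : ∀ i a, (fun ξ => ((ν i a ξ : ↥(maximalIdeal A)) : A)) ∈ s19_cl l W σ := by
    intro i a
    refine Fin.addCases (fun a' => ?_) (fun a' => ?_) a
    · simp only [ν, Fin.append_left]
      exact hρmem i
    · simp only [ν, Fin.append_right]
      exact hφm i a'
  have hL2 : ∀ i, (m i - mp i) + mm i ≤ m i := by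
    intro i
    have := h1 i
    have := h2 i
    omega
  obtain ⟨c', ψ, hc'mem, hc'0, hc'm, hψmem, hst2⟩ := s19e_stage hRed hComp hHen l W hB σ hσ G D n
    (fun j => b j) m μ hμ hμ0 (fun i => (m i - mp i) + mm i) hL2 (fun i => mp i = mm i + 1)
    (fun i hi => by have := h2 i; omega) ν hν hE2.2
  refine ⟨c, c', ρ, ψ, hcmem, hc'mem, hc0, hc'0, hcm, hc'm, hρmem, hψmem, fun ξ i => ⟨?_, ?_⟩⟩
  · exact hst1 ξ i
  · obtain ⟨g, hg⟩ := hst2 ξ i
    refine ⟨g, ?_⟩
    rw [hg]
    have hnod : s19_nodal (D i) (List.ofFn fun a => ν i a ξ)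
        = (if m i = mp i + 1 then (D i).t - algebraMap A (G i) (ρ i ξ : A) else 1) *
          s19_nodal (D i) (List.ofFn fun a => φm i a ξ) := by
      have hofn : (List.ofFn fun a => ν i a ξ)
          = List.replicate (m i - mp i) (ρ i ξ) ++ List.ofFn fun a => φm i a ξ := by
        have : (fun a => ν i a ξ)
            = Fin.append (fun _ : Fin (m i - mp i) => ρ i ξ) (fun a => φm i a ξ) := by
          funext a
          refine Fin.addCases (fun a' => ?_) (fun a' => ?_) a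
          · simp only [ν, Fin.append_left]
          · simp only [ν, Fin.append_right]
        rw [this, List.ofFn_fin_append, List.ofFn_const]
      rw [hofn, s19e_nodal_append]
      congr 1
      by_cases hm : m i = mp i + 1
      · have : m i - mp i = 1 := by omega
        rw [if_pos hm, this, s19e_nodal_replicate_one]
      · have : m i - mp i = 0 := by
          have := h2 i
          have := h3 i
          omega
        rw [if_neg hm, this, List.replicate_zero, s19e_nodal_nil]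
    rw [hnod]

end Fermat.Agent.Lib.S19
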