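/-
W-A programme (S19/S32), brick G1.6 part 2 (helper5): a parameter `t` of the disc of `Q` makes
`G(Q) = s19a_G O r Q` an ABSTRACT DISC `s19_Disc` in the sense of IfaceAlg:
`s19a_disc : s19_Disc ↥A W ↥(s19a_G O r Q)`.

The rational structure is abstract: `FW ⊆ F` a subring closed under inverses ("rational
functions"), `W = {c ∈ A | c ∈ FW}`, and the only hypothesis is that the CENTRE of the disc
(the point of parameter `0`) is rational: values of rational functions at it are rational.
-/
import Fermat.Agent.Lib.S19.ADisc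
import Fermat.Agent.Lib.S19.IfaceAlg

set_option autoImplicit false
set_option linter.unusedSectionVars false
set_option linter.unusedVariables false

noncomputable section

namespace Fermat.Agent.Lib.S19

open AlgebraicCurve Fermat.Agent.Lib.FF Fermat.Agent.Lib.S37 IsLocalRing

variable {K F : Type*} [Field K] [Field F] [Algebra K F] [IsAlgClosed K]
  {k Fb : Type*} [Field k] [Field Fb] [Algebra k Fb]
  {A : ValuationSubring K} {π : ↥A →+* k} {O : ValuationSubring F} {red : ↥O →+* Fb}
  {r : Place K F → Place k Fb}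
  (x : F) [FFGen K x] (h : s19_RD A π O red r)
  {Q : Place k Fb} {t : F} (ht : s19a_IsParam red r Q t)

include h in
theorem s19a_pi_eq_zero_iff (c : ↥A) : π c = 0 ↔ c ∈ maximalIdeal ↥A := by
  rw [mem_maximalIdeal, mem_nonunits_iff]
  constructor
  · intro hc hu
    have := hu.map π
    rw [hc] at this
    exact not_isUnit_zero this
  · intro hnu
    by_contra hc
    apply hnu
    have hinv := h.unit_of_ne c hc
    have hc0 : (c : K) ≠ 0 := by
      intro h0
      apply hc
      have : c = 0 := Subtype.ext h0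
      rw [this, map_zero]
    exact IsUnit.of_mul_eq_one (⟨(c : K)⁻¹, hinv⟩ : ↥A) (Subtype.ext (mul_inv_cancel₀ hc0))

/-- **the point of parameter `c`.** -/
def s19a_pt (c : ↥(maximalIdeal ↥A)) : Place K F :=
  Classical.choose (s19a_exists_point x h ht c.1 ((s19a_pi_eq_zero_iff h c.1).mpr c.2))

theorem s19a_pt_r (c : ↥(maximalIdeal ↥A)) : r (s19a_pt x h ht c) = Q :=
  (Classical.choose_spec (s19a_exists_point x h ht c.1 ((s19a_pi_eq_zero_iff h c.1).mpr c.2))).1

theorem s19a_pt_val (c : ↥(maximalIdeal ↥A)) :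
    s19a_evA x h (s19a_pt x h ht c) (s19a_pt_r x h ht c) (s19a_tG ht) = c.1 :=
  (Classical.choose_spec (s19a_exists_point x h ht c.1
    ((s19a_pi_eq_zero_iff h c.1).mpr c.2))).2.1

theorem s19a_pt_ord (c : ↥(maximalIdeal ↥A)) :
    (s19a_pt x h ht c).ord (t - algebraMap K F ((c.1 : ↥A) : K)) = 1 :=
  (Classical.choose_spec (s19a_exists_point x h ht c.1
    ((s19a_pi_eq_zero_iff h c.1).mpr c.2))).2.2.1

theorem s19a_pt_other (c : ↥(maximalIdeal ↥A)) (P' : Place K F) (hP' : r P' = Q)
    (hne : P' ≠ s19a_pt x h ht c) : P'.ord (t - algebraMap K F ((c.1 : ↥A) : K)) = 0 :=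
  (Classical.choose_spec (s19a_exists_point x h ht c.1
    ((s19a_pi_eq_zero_iff h c.1).mpr c.2))).2.2.2 P' hP' hne

/-- every point of the disc is the point of its parameter. -/
theorem s19a_pt_surj (P : Place K F) (hP : r P = Q) :
    ∃ c : ↥(maximalIdeal ↥A), s19a_pt x h ht c = P := by
  refine ⟨⟨s19a_evA x h P hP (s19a_tG ht),
    (s19a_pi_eq_zero_iff h _).mp (s19a_param_val x h ht P hP)⟩, ?_⟩
  apply s19a_param_injective x h ht _ _ (s19a_pt_r x h ht _) hP
  rw [s19a_pt_val]

include x h ht in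
theorem s19a_t_sub_ne_zero (c : ↥(maximalIdeal ↥A)) :
    t - algebraMap K F ((c.1 : ↥A) : K) ≠ 0 := by
  intro h0
  have := s19a_pt_ord x h ht c
  rw [h0, Place.ord_zero] at this
  omega

/-- **division by `t - c` inside `G(Q)`.** -/
theorem s19a_div_mem (c : ↥(maximalIdeal ↥A)) (g : ↥(s19a_G O r Q)) :
    ((g : F) - algebraMap K F
        ((s19a_evA x h (s19a_pt x h ht c) (s19a_pt_r x h ht c) g : ↥A) : K)) /
      (t - algebraMap K F ((c.1 : ↥A) : K)) ∈ s19a_G O r Q := by
  set P := s19a_pt x h ht c with hPdef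
  have hP : r P = Q := s19a_pt_r x h ht c
  set a := s19a_evA x h P hP g with ha
  set num : ↥(s19a_G O r Q) := g - s19a_constG h Q a with hnum
  set den : ↥(s19a_G O r Q) := s19a_tG ht - s19a_constG h Q c.1 with hden
  have hnumF : (num : F) = (g : F) - algebraMap K F (a : K) := rfl
  have hdenF : (den : F) = t - algebraMap K F ((c.1 : ↥A) : K) := rfl
  have hden0 : (den : F) ≠ 0 := by rw [hdenF]; exact s19a_t_sub_ne_zero x h ht c
  have hredden : red ⟨(den : F), s19a_memO den⟩ ≠ 0 := by
    rw [hden, s19a_red_t_sub h ht c.1 ((s19a_pi_eq_zero_iff h c.1).mpr c.2)]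
    exact s19a_param_red_ne_zero ht
  have hdeninv : ((den : F))⁻¹ ∈ O := h.inv_mem ⟨(den : F), s19a_memO den⟩ hredden
  rw [← hnumF, ← hdenF, div_eq_mul_inv]
  refine ⟨O.mul_mem _ _ (s19a_memO num) hdeninv, fun P' hP' => ?_⟩
  rcases eq_or_ne (num : F) 0 with h0 | h0
  · rw [h0, zero_mul]; exact P'.toValuationSubring.zero_mem
  have hq0 : (num : F) * ((den : F))⁻¹ ≠ 0 := mul_ne_zero h0 (inv_ne_zero hden0)
  rw [ff_mem_iff_ord_nonneg P' hq0, P'.ord_mul h0 (inv_ne_zero hden0), P'.ord_inv]
  have hnumnn : 0 ≤ P'.ord (num : F) :=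
    (ff_mem_iff_ord_nonneg P' h0).mp (s19a_memP num P' hP')
  by_cases hPP : P' = P
  · have hev : s19a_evK x O r P hP num = 0 := by
      rw [hnum, map_sub, s19a_evK_const, ← s19a_coe_evA x h P hP g, sub_self]
    have hpos : 0 < P.ord (num : F) :=
      ((s19a_evK_eq_zero_iff x h P hP num).mp hev).resolve_left h0
    have h1 : P.ord (den : F) = 1 := by rw [hdenF]; exact s19a_pt_ord x h ht c
    rw [hPP]
    omega
  · have h1 : P'.ord (den : F) = 0 := by rw [hdenF]; exact s19a_pt_other x h ht c P' hP' hPP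
    omega

/-! ### The abstract disc -/

include h in
/-- the structure map `A → G(Q)`. -/
def s19a_algMapG (Q : Place k Fb) : ↥A →+* ↥(s19a_G O r Q) where
  toFun c := s19a_constG h Q c
  map_one' := Subtype.ext (by simp [s19a_constG])
  map_mul' a b := Subtype.ext (by simp [s19a_constG])
  map_zero' := Subtype.ext (by simp [s19a_constG])
  map_add' a b := Subtype.ext (by simp [s19a_constG])

/-- `G(Q)` as an `A`-algebra. -/
abbrev s19a_algebraG (Q : Place k Fb) : Algebra ↥A ↥(s19a_G O r Q) := (s19a_algMapG h Q).toAlgebra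

theorem s19a_coe_algebraMapG (Q : Place k Fb) (c : ↥A) :
    letI := s19a_algebraG h Q
    ((algebraMap ↥A ↥(s19a_G O r Q) c : ↥(s19a_G O r Q)) : F) = algebraMap K F (c : K) := rfl

/-- the rational constants. -/
def s19a_W (A : ValuationSubring K) (FW : Subring F) : Subring ↥A :=
  FW.comap ((algebraMap K F).comp A.subtype)

theorem s19a_mem_W {FW : Subring F} {c : ↥A} : c ∈ s19a_W A FW ↔ algebraMap K F (c : K) ∈ FW :=
  Iff.rfl

/-- the order of a function regular at `Q` with non-zero value. -/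
theorem s19a_ord_eq_zero_of_sub_pos (Q : Place k Fb) {f : Fb} {b : k} (hb : b ≠ 0)
    (hf : f = algebraMap k Fb b ∨ 0 < Q.ord (f - algebraMap k Fb b)) :
    f ≠ 0 ∧ Q.ord f = 0 := by
  rcases hf with rfl | hpos
  · exact ⟨by simpa using hb, ff_ord_algebraMap Q b⟩
  have hb' : algebraMap k Fb b ≠ 0 := by simpa using hb
  have hf0 : f ≠ 0 := by
    rintro rfl
    rw [zero_sub] at hpos
    have : Q.ord (-(algebraMap k Fb b)) = 0 := by
      have := ff_ord_algebraMap Q (-b)
      simpa using this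
    omega
  refine ⟨hf0, ?_⟩
  have hsub0 : f - algebraMap k Fb b ≠ 0 := by
    intro h0; rw [h0, Place.ord_zero] at hpos; omega
  -- `f` is regular at `Q`
  have hreg : 0 ≤ Q.ord f := by
    have h1 := ff_ord_add_ge Q hsub0 hb' (by rw [sub_add_cancel]; exact hf0)
    rw [sub_add_cancel, ff_ord_algebraMap] at h1
    have : 0 ≤ min (Q.ord (f - algebraMap k Fb b)) 0 := le_min hpos.le le_rfl
    omega
  by_contra hne
  have hpos' : 0 < Q.ord (f - algebraMap k Fb 0) := by
    rw [map_zero, sub_zero]; omega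
  exact hb (ff_ord_sub_pos_unique Q hpos hpos')

/-- **the abstract disc attached to a parameter** of the disc of `Q`. -/
def s19a_disc (FW : Subring F) (hinv : ∀ f ∈ FW, f⁻¹ ∈ FW) (htW : t ∈ FW)
    (hrat : ∀ g : ↥(s19a_G O r Q), (g : F) ∈ FW →
      algebraMap K F ((s19a_evA x h (s19a_pt x h ht 0) (s19a_pt_r x h ht 0) g : ↥A) : K) ∈ FW) :
    letI := s19a_algebraG h Q
    s19_Disc ↥A (s19a_W A FW) ↥(s19a_G O r Q) :=
  letI := s19a_algebraG h Q
  { t := s19a_tG ht
    ev := fun c =>
      { toRingHom := s19a_evA x h (s19a_pt x h ht c) (s19a_pt_r x h ht c)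
        commutes' := fun a => s19a_evA_const x h _ _ a }
    dq := fun c g => ⟨_, s19a_div_mem x h ht c g⟩
    GW := FW.comap (s19a_G O r Q).subtype
    ev_t := fun c => s19a_pt_val x h ht c
    dq_spec := fun c g => by
      apply Subtype.ext
      have hne := s19a_t_sub_ne_zero x h ht c
      show (g : F) = algebraMap K F
          ((s19a_evA x h (s19a_pt x h ht c) (s19a_pt_r x h ht c) g : ↥A) : K) +
        (t - algebraMap K F ((c.1 : ↥A) : K)) *
          (((g : F) - algebraMap K F
            ((s19a_evA x h (s19a_pt x h ht c) (s19a_pt_r x h ht c) g : ↥A) : K)) /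
            (t - algebraMap K F ((c.1 : ↥A) : K)))
      field_simp
      ring
    reg := fun c g hg => by
      have hne := s19a_t_sub_ne_zero x h ht c
      have h1 : (t - algebraMap K F ((c.1 : ↥A) : K)) * (g : F) = 0 := congrArg Subtype.val hg
      rcases mul_eq_zero.mp h1 with h2 | h2
      · exact absurd h2 hne
      · exact Subtype.ext h2
    root := fun g hg0 hgu => by
      set P₀ := s19a_pt x h ht 0 with hP₀def
      have hP₀ : r P₀ = Q := s19a_pt_r x h ht 0
      set a₀ := s19a_evA x h P₀ hP₀ g with ha₀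
      set g' : ↥(s19a_G O r Q) := ⟨_, s19a_div_mem x h ht 0 g⟩ with hg'
      have hπa₀ : π a₀ = 0 := (s19a_pi_eq_zero_iff h a₀).mpr hg0
      have hπu : π (s19a_evA x h P₀ hP₀ g') ≠ 0 := by
        intro h0
        have := (s19a_pi_eq_zero_iff h _).mp h0
        exact (mem_maximalIdeal _).mp this hgu
      -- `g = a₀ + t g'`
      have hgF : (g : F) = algebraMap K F (a₀ : K) + t * (g' : F) := by
        have hne := s19a_t_sub_ne_zero x h ht 0
        have h0 : algebraMap K F (((0 : ↥(maximalIdeal ↥A)).1 : ↥A) : K) = 0 := by simp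
        rw [h0, sub_zero] at hne
        show (g : F) = algebraMap K F (a₀ : K) + t * (((g : F) - algebraMap K F (a₀ : K)) /
          (t - algebraMap K F (((0 : ↥(maximalIdeal ↥A)).1 : ↥A) : K)))
        rw [h0, sub_zero]
        field_simp
        ring
      have hgO : (⟨(g : F), s19a_memO g⟩ : ↥O) =
          ⟨algebraMap K F (a₀ : K), h.const_mem a₀⟩ +
            ⟨t, (s19a_mem_G.mp ht.mem).1⟩ * ⟨(g' : F), s19a_memO g'⟩ := Subtype.ext hgF
      have hredg : red ⟨(g : F), s19a_memO g⟩ =
          red ⟨t, (s19a_mem_G.mp ht.mem).1⟩ * red ⟨(g' : F), s19a_memO g'⟩ := by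
        rw [hgO, map_add, map_mul, h.red_const, hπa₀, map_zero, zero_add]
      obtain ⟨hg'0, hg'ord⟩ := s19a_ord_eq_zero_of_sub_pos Q hπu (s19a_red_val x h P₀ hP₀ g')
      have ht0 := s19a_param_red_ne_zero ht
      have hg0' : red ⟨(g : F), s19a_memO g⟩ ≠ 0 := by
        rw [hredg]; exact mul_ne_zero ht0 hg'0
      have hgord : Q.ord (red ⟨(g : F), s19a_memO g⟩) = 1 := by
        rw [hredg, Q.ord_mul ht0 hg'0, ht.ord, hg'ord, add_zero]
      obtain ⟨P, hP, hP1, -⟩ := s19a_exists_unique_zero h g.2 hg0' hgord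
      obtain ⟨c, hc⟩ := s19a_pt_surj x h ht P hP
      refine ⟨c, ?_⟩
      apply Subtype.ext
      show s19a_evK x O r (s19a_pt x h ht c) (s19a_pt_r x h ht c) g = 0
      rw [s19a_evK_eq_zero_iff x h]
      right
      rw [hc, hP1]
      exact one_pos
    t_mem := htW
    const_mem := fun w hw => hw
    ev_mem := fun g hg => hrat g hg
    dq_mem := fun g hg => by
      show ((g : F) - algebraMap K F
        ((s19a_evA x h (s19a_pt x h ht 0) (s19a_pt_r x h ht 0) g : ↥A) : K)) /
        (t - algebraMap K F (((0 : ↥(maximalIdeal ↥A)).1 : ↥A) : K)) ∈ FW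
      rw [div_eq_mul_inv]
      refine FW.mul_mem (FW.sub_mem hg (hrat g hg)) (hinv _ (FW.sub_mem htW ?_))
      have h0 : algebraMap K F (((0 : ↥(maximalIdeal ↥A)).1 : ↥A) : K) = 0 := by simp
      rw [h0]
      exact FW.zero_mem }

end Fermat.Agent.Lib.S19
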