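/-
W-A programme (S19/S32): INTERFACE between the reduction theory of the curve (G1) and the
coordinates / engine corollaries (G2), in ABSTRACT form (architect: helper5).

`structure s19_Curve` collects everything G2 needs to know about the curve:
a reduction datum with conservation of number (`s19_RD`), the Gauss valuation has the value group
of `A` (`gv`), finite-dimensional spaces of functions have bases with independent reductions
(`sc`, rational version `scW`), Riemann's theorem on both fibres WITH THE SAME GENUS (`rrF`, `rrFb`),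
rational parameters at every place of the special fibre (`param`), rationality of the centres
(`ratc`) and of the Riemann–Roch spaces of divisors supported on centres (`ratL`).
G1 = prove `s19_Curve` for `X₀(M)` at a good level (contract `s19_CurveExists`, IfaceModular);
G2 = the contracts below, consequences of `s19_Curve` alone.
-/
import Fermat.Agent.Lib.S19.ADiscStruct
import Fermat.Prelude.Def_AlgebraicCurve_Repartitions

set_option autoImplicit false
set_option linter.unusedSectionVars false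
set_option linter.unusedVariables false

noncomputable section

namespace Fermat.Agent.Lib.S19

open AlgebraicCurve Fermat.Agent.Lib.FF Fermat.Agent.Lib.S37 IsLocalRing

variable {K F : Type*} [Field K] [Field F] [Algebra K F] [IsAlgClosed K]
  {k Fb : Type*} [Field k] [Field Fb] [Algebra k Fb]

/-- Riemann's theorem with genus `g`: `ℓ(D) ≥ deg D + 1 - g`, with equality for `deg D` large;
all `L(D)` finite-dimensional. -/
structure s19_Riemann (K F : Type*) [Field K] [Field F] [Algebra K F] (g : ℕ) : Prop where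
  fin : ∀ D : Divisor K F, Module.Finite K ↥(riemannRochSpace D)
  ineq : ∀ D : Divisor K F,
    Divisor.degree D + 1 - g ≤ (Module.finrank K ↥(riemannRochSpace D) : ℤ)
  large : ∃ c : ℤ, ∀ D : Divisor K F, c ≤ Divisor.degree D →
    (Module.finrank K ↥(riemannRochSpace D) : ℤ) = Divisor.degree D + 1 - g

/-- **the abstract curve with good reduction** (`FW` = rational functions, `l` = the residue
characteristic as an element of `A`, `g` = the common genus). -/
structure s19_Curve (x : F) [FFGen K x] (A : ValuationSubring K) (π : ↥A →+* k)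
    (O : ValuationSubring F) (red : ↥O →+* Fb) (r : Place K F → Place k Fb) (FW : Subring F)
    (l : ↥A) (g : ℕ) : Prop where
  rd : s19_RD A π O red r
  pi_surj : Function.Surjective π
  degF : ∀ P : Place K F, P.deg = 1
  degFb : ∀ Q : Place k Fb, Q.deg = 1
  pdF : HasPrincipalDivisors K F
  pdFb : HasPrincipalDivisors k Fb
  /-- the Gauss valuation has the value group of `A`. -/
  gv : ∀ f : F, f ≠ 0 → ∃ c : K, c ≠ 0 ∧ algebraMap K F c * f ∈ O ∧ (algebraMap K F c * f)⁻¹ ∈ O
  /-- finite-dimensional spaces of functions have Gauss-orthonormal bases. -/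
  sc : ∀ (n : ℕ) (b : Fin n → F), LinearIndependent K b →
    ∃ b' : Fin n → F, Submodule.span K (Set.range b') = Submodule.span K (Set.range b) ∧
      ∃ hb' : ∀ i, b' i ∈ O, LinearIndependent k fun i => red ⟨b' i, hb' i⟩
  /-- … rational ones, if the space has a rational basis. -/
  scW : ∀ (n : ℕ) (b : Fin n → F), LinearIndependent K b → (∀ i, b i ∈ FW) →
    ∃ b' : Fin n → F, Submodule.span K (Set.range b') = Submodule.span K (Set.range b) ∧
      (∀ i, b' i ∈ FW) ∧ ∃ hb' : ∀ i, b' i ∈ O, LinearIndependent k fun i => red ⟨b' i, hb' i⟩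
  rrF : s19_Riemann K F g
  rrFb : s19_Riemann k Fb g
  fw_inv : ∀ f ∈ FW, f⁻¹ ∈ FW
  base : s19_Base l (s19a_W A FW)
  /-- rational parameters exist. -/
  param : ∀ Q : Place k Fb, ∃ t ∈ FW, s19a_IsParam red r Q t
  /-- the centre of a rational parameter is a rational point. -/
  ratc : ∀ (Q : Place k Fb) (t : F) (ht : s19a_IsParam red r Q t), t ∈ FW →
    ∀ f : ↥(s19a_G O r Q), (f : F) ∈ FW →
      algebraMap K F ((s19a_evA x rd (s19a_pt x rd ht 0) (s19a_pt_r x rd ht 0) f : ↥A) : K) ∈ FW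
  /-- the Riemann–Roch space of a divisor supported on rational centres has a rational basis. -/
  ratL : ∀ (n : ℕ) (Q : Fin n → Place k Fb) (t : Fin n → F)
    (ht : ∀ j, s19a_IsParam red r (Q j) (t j)), (∀ j, t j ∈ FW) → ∀ m : Fin n → ℤ,
    ∃ (N : ℕ) (b : Fin N → F), (∀ i, b i ∈ FW) ∧
      Submodule.span K (Set.range b) =
        riemannRochSpace (∑ j, Finsupp.single (s19a_pt x rd (ht j) 0) (m j))

/-! ### Coordinate systems -/

/-- **a coordinate system** on `J¹`: `g` distinct places `Q i` of the special fibre forming a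
non-special divisor, with rational parameters `t i`. -/
structure s19_Sys {O : ValuationSubring F} (red : ↥O →+* Fb) (r : Place K F → Place k Fb)
    (FW : Subring F) (g : ℕ) where
  Q : Fin g → Place k Fb
  t : Fin g → F
  inj : Function.Injective Q
  param : ∀ i, s19a_IsParam red r (Q i) (t i)
  rat : ∀ i, t i ∈ FW
  nonsp : Module.finrank k ↥(riemannRochSpace (∑ i, Finsupp.single (Q i) (1 : ℤ))) = 1

section Contracts

variable {x : F} [FFGen K x] {A : ValuationSubring K} {π : ↥A →+* k}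
  {O : ValuationSubring F} {red : ↥O →+* Fb} {r : Place K F → Place k Fb} {FW : Subring F}
  {l : ↥A} {g : ℕ}

/-- the point of parameter `c` on the `i`-th disc of a coordinate system. -/
def s19_ptS (hC : s19_Curve x A π O red r FW l g) (𝔰 : s19_Sys red r FW g) (i : Fin g)
    (c : ↥(maximalIdeal ↥A)) : Place K F :=
  s19a_pt x hC.rd (𝔰.param i) c

/-- the effective divisor of degree `g` with coordinates `a` in the system `𝔰`. -/
def s19_divS (hC : s19_Curve x A π O red r FW l g) (𝔰 : s19_Sys red r FW g)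
    (a : Fin g → ↥(maximalIdeal ↥A)) : Divisor K F :=
  ∑ i, Finsupp.single (s19_ptS hC 𝔰 i (a i)) (1 : ℤ)

end Contracts

/-- [NONSP] (G1.8) non-special systems exist off any finite set of places (function field of
genus `g` over an algebraically closed field, Riemann's theorem). -/
def s19_NonSp : Prop :=
  ∀ {k Fb : Type} [Field k] [Field Fb] [Algebra k Fb] [IsAlgClosed k] (g : ℕ),
    s19_Riemann k Fb g → HasPrincipalDivisors k Fb → (∀ Q : Place k Fb, Q.deg = 1) →
    Infinite (Place k Fb) → ∀ S : Finset (Place k Fb),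
    ∃ Q : Fin g → Place k Fb, Function.Injective Q ∧ (∀ i, Q i ∉ S) ∧
      Module.finrank k ↥(riemannRochSpace (∑ i, Finsupp.single (Q i) (1 : ℤ))) = 1

/-- [LIFT] (G1.7) for divisors of large degree every function of `L_k(r_* E)` lifts to a
Gauss-integral function of `L(E)`. -/
def s19_Lift : Prop :=
  ∀ {K F k Fb : Type} [Field K] [Field F] [Algebra K F] [IsAlgClosed K] [Field k] [Field Fb]
    [Algebra k Fb] (x : F) [FFGen K x] (A : ValuationSubring K) (π : ↥A →+* k)
    (O : ValuationSubring F) (red : ↥O →+* Fb) (r : Place K F → Place k Fb) (FW : Subring F)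
    (l : ↥A) (g : ℕ), s19_Curve x A π O red r FW l g →
    ∃ c : ℤ, ∀ E : Divisor K F, c ≤ Divisor.degree E →
      ∀ z ∈ riemannRochSpace (Finsupp.mapDomain r E),
        ∃ (f : F) (hf : f ∈ O), f ∈ riemannRochSpace E ∧ red ⟨f, hf⟩ = z

/-- [COORD] (G2.1) every class of degree `0` with trivial reduction has unique coordinates in a
coordinate system. -/
def s19_Coord : Prop :=
  ∀ {K F k Fb : Type} [Field K] [Field F] [Algebra K F] [IsAlgClosed K] [Field k] [Field Fb]
    [Algebra k Fb] (x : F) [FFGen K x] (A : ValuationSubring K) (π : ↥A →+* k)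
    (O : ValuationSubring F) (red : ↥O →+* Fb) (r : Place K F → Place k Fb) (FW : Subring F)
    (l : ↥A) (g : ℕ) (hC : s19_Curve x A π O red r FW l g) (𝔰 : s19_Sys red r FW g)
    (D : Divisor K F), Divisor.degree D = 0 →
    Finsupp.mapDomain r D ∈ Divisor.principal (K := k) (F := Fb) →
    ∃! a : Fin g → ↥(maximalIdeal ↥A),
      D - (s19_divS hC 𝔰 a - s19_divS hC 𝔰 0) ∈ Divisor.principal (K := K) (F := F)

/-- [ADD] (G2.5) coordinates of a sum are in the closure ring of the coordinates of the summands. -/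
def s19_Add : Prop :=
  ∀ {K F k Fb : Type} [Field K] [Field F] [Algebra K F] [IsAlgClosed K] [Field k] [Field Fb]
    [Algebra k Fb] (x : F) [FFGen K x] (A : ValuationSubring K) (π : ↥A →+* k)
    (O : ValuationSubring F) (red : ↥O →+* Fb) (r : Place K F → Place k Fb) (FW : Subring F)
    (l : ↥A) (g : ℕ) (hC : s19_Curve x A π O red r FW l g) (𝔰 : s19_Sys red r FW g)
    {Ξ : Type} (a₁ a₂ a₃ : Ξ → Fin g → ↥(maximalIdeal ↥A)),
    s19_Small l (Sum.elim (fun (i : Fin g) (ξ : Ξ) => ((a₁ ξ i : ↥(maximalIdeal ↥A)) : ↥A))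
      (fun (i : Fin g) (ξ : Ξ) => ((a₂ ξ i : ↥(maximalIdeal ↥A)) : ↥A))) →
    (∀ ξ, s19_divS hC 𝔰 (a₁ ξ) + s19_divS hC 𝔰 (a₂ ξ) - s19_divS hC 𝔰 (a₃ ξ) - s19_divS hC 𝔰 0 ∈
      Divisor.principal (K := K) (F := F)) →
    ∀ i, (fun ξ => ((a₃ ξ i : ↥(maximalIdeal ↥A)) : ↥A)) ∈
      s19_cl l (s19a_W A FW)
        (Sum.elim (fun (i : Fin g) (ξ : Ξ) => ((a₁ ξ i : ↥(maximalIdeal ↥A)) : ↥A))
          (fun (i : Fin g) (ξ : Ξ) => ((a₂ ξ i : ↥(maximalIdeal ↥A)) : ↥A)))

/-- [NEG] (G2.5) coordinates of the opposite. -/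
def s19_Neg : Prop :=
  ∀ {K F k Fb : Type} [Field K] [Field F] [Algebra K F] [IsAlgClosed K] [Field k] [Field Fb]
    [Algebra k Fb] (x : F) [FFGen K x] (A : ValuationSubring K) (π : ↥A →+* k)
    (O : ValuationSubring F) (red : ↥O →+* Fb) (r : Place K F → Place k Fb) (FW : Subring F)
    (l : ↥A) (g : ℕ) (hC : s19_Curve x A π O red r FW l g) (𝔰 : s19_Sys red r FW g)
    {Ξ : Type} (a₁ a₃ : Ξ → Fin g → ↥(maximalIdeal ↥A)),
    s19_Small l (fun (i : Fin g) (ξ : Ξ) => ((a₁ ξ i : ↥(maximalIdeal ↥A)) : ↥A)) →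
    (∀ ξ, s19_divS hC 𝔰 (a₁ ξ) + s19_divS hC 𝔰 (a₃ ξ) - s19_divS hC 𝔰 0 - s19_divS hC 𝔰 0 ∈
      Divisor.principal (K := K) (F := F)) →
    ∀ i, (fun ξ => ((a₃ ξ i : ↥(maximalIdeal ↥A)) : ↥A)) ∈
      s19_cl l (s19a_W A FW) (fun (i : Fin g) (ξ : Ξ) => ((a₁ ξ i : ↥(maximalIdeal ↥A)) : ↥A))

/-- [CHG] (G2.5) change of coordinate system. -/
def s19_Chg : Prop :=
  ∀ {K F k Fb : Type} [Field K] [Field F] [Algebra K F] [IsAlgClosed K] [Field k] [Field Fb]
    [Algebra k Fb] (x : F) [FFGen K x] (A : ValuationSubring K) (π : ↥A →+* k)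
    (O : ValuationSubring F) (red : ↥O →+* Fb) (r : Place K F → Place k Fb) (FW : Subring F)
    (l : ↥A) (g : ℕ) (hC : s19_Curve x A π O red r FW l g) (𝔰 𝔰' : s19_Sys red r FW g)
    {Ξ : Type} (a₁ a₃ : Ξ → Fin g → ↥(maximalIdeal ↥A)),
    s19_Small l (fun (i : Fin g) (ξ : Ξ) => ((a₁ ξ i : ↥(maximalIdeal ↥A)) : ↥A)) →
    (∀ ξ, (s19_divS hC 𝔰 (a₁ ξ) - s19_divS hC 𝔰 0) -
        (s19_divS hC 𝔰' (a₃ ξ) - s19_divS hC 𝔰' 0) ∈ Divisor.principal (K := K) (F := F)) →
    ∀ i, (fun ξ => ((a₃ ξ i : ↥(maximalIdeal ↥A)) : ↥A)) ∈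
      s19_cl l (s19a_W A FW) (fun (i : Fin g) (ξ : Ξ) => ((a₁ ξ i : ↥(maximalIdeal ↥A)) : ↥A))

end Fermat.Agent.Lib.S19
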