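/-
W-A programme (S19/S32), brick G2.1 [COORD] (helper1, prefix `s19f_`): `s19_Coord`.

Every divisor `D` of degree `0` whose reduction is principal is linearly equivalent to
`divS a − divS 0` for a unique coordinate vector `a ∈ 𝔪^g`.
* `s19f_red_mem_L` : a Gauss unit of `L(E)` reduces into `L_k(r_* E)` (conservation of number);
* `s19f_semicont`  : `ℓ(E) ≤ ℓ_k(r_* E)` (Gauss-orthonormal bases `sc`);
* `s19f_divS_map`  : `r_* (divS a) = Σ Qᵢ`;
* `s19f_eq_divS_of_map` : an effective divisor with `r_* D' = Σ Qᵢ` is a `divS a`;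
* existence by Riemann's inequality on `F` and `ℓ_k(Σ Qᵢ) = 1`; uniqueness by semicontinuity.
-/
import Fermat.Agent.Lib.S19.IfaceCurve

set_option autoImplicit false
set_option linter.unusedSectionVars false
set_option linter.unusedVariables false

noncomputable section

namespace Fermat.Agent.Lib.S19

open AlgebraicCurve Fermat.Agent.Lib.FF Fermat.Agent.Lib.S37 IsLocalRing

/-! ### generalities -/

lemma s19f_mapDomain_nonneg {α β : Type*} (r : α → β) (Dv : α →₀ ℤ) (h : ∀ P, 0 ≤ Dv P) (Q : β) :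
    0 ≤ Finsupp.mapDomain r Dv Q := by
  classical
  rw [s37r_mapDomain_apply]
  exact Finset.sum_nonneg fun P _ => h P

/-- a finite sum of positive integers equal to `1` has exactly one term. -/
lemma s19f_sum_eq_one {ι : Type*} (T : Finset ι) (f : ι → ℤ) (hpos : ∀ x ∈ T, 0 < f x)
    (hsum : ∑ x ∈ T, f x = 1) : ∃ x ∈ T, f x = 1 ∧ ∀ y ∈ T, y = x := by
  classical
  have hne : T.Nonempty := by
    by_contra hemp
    rw [Finset.not_nonempty_iff_eq_empty] at hemp
    rw [hemp, Finset.sum_empty] at hsum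
    omega
  obtain ⟨x, hx⟩ := hne
  have hnonneg : ∀ y ∈ T, 0 ≤ f y := fun y hy => (hpos y hy).le
  have hle : f x ≤ 1 := by
    have := Finset.single_le_sum hnonneg hx
    omega
  refine ⟨x, hx, by have := hpos x hx; omega, fun y hy => ?_⟩
  by_contra hyx
  have hsub : ({x, y} : Finset ι) ⊆ T := by
    intro z hz
    rw [Finset.mem_insert, Finset.mem_singleton] at hz
    rcases hz with rfl | rfl
    · exact hx
    · exact hy
  have h2 := Finset.sum_le_sum_of_subset_of_nonneg hsub (f := f) (fun z hz _ => hnonneg z hz)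
  rw [Finset.sum_pair (Ne.symm hyx)] at h2
  have := hpos x hx
  have := hpos y hy
  omega

section curve

variable {K F : Type*} [Field K] [Field F] [Algebra K F] [IsAlgClosed K]
  {k Fb : Type*} [Field k] [Field Fb] [Algebra k Fb]
  {x : F} [FFGen K x] {A : ValuationSubring K} {π : ↥A →+* k}
  {O : ValuationSubring F} {red : ↥O →+* Fb} {r : Place K F → Place k Fb} {FW : Subring F}
  {l : ↥A} {g : ℕ} (hC : s19_Curve x A π O red r FW l g)

include hC

/-- a Gauss unit of `L(E)` reduces into `L_k(r_* E)`. -/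
theorem s19f_red_mem_L (E : Divisor K F) {f : F} (hfO : f ∈ O) (hfE : f ∈ riemannRochSpace E)
    (hred : red ⟨f, hfO⟩ ≠ 0) :
    red ⟨f, hfO⟩ ∈ riemannRochSpace (Finsupp.mapDomain r E) := by
  have hf0 : f ≠ 0 := s19a_ne_zero_of_red hC.rd hfO hred
  obtain ⟨Dv, hDv, -⟩ := hC.pdF.exists_divisor f hf0
  rw [mem_riemannRochSpace_iff]
  intro Q
  right
  have h1 := hC.rd.cons f hfO hred Dv hDv Q
  have h2 : ∀ P, 0 ≤ (Dv + E) P := by
    intro P
    rw [Finsupp.add_apply, hDv P]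
    rcases (mem_riemannRochSpace_iff.mp hfE P) with h | h
    · exact absurd h hf0
    · linarith
  have h3 := s19f_mapDomain_nonneg r (Dv + E) h2 Q
  rw [Finsupp.mapDomain_add, Finsupp.add_apply, h1] at h3
  linarith

/-- **semicontinuity** `ℓ(E) ≤ ℓ_k(r_* E)`. -/
theorem s19f_semicont (E : Divisor K F) :
    Module.finrank K ↥(riemannRochSpace E) ≤
      Module.finrank k ↥(riemannRochSpace (Finsupp.mapDomain r E)) := by
  haveI := hC.rrF.fin E
  haveI := hC.rrFb.fin (Finsupp.mapDomain r E)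
  set n := Module.finrank K ↥(riemannRochSpace E) with hn
  let B := Module.finBasis K ↥(riemannRochSpace E)
  let b : Fin n → F := fun i => (B i : F)
  have hli : LinearIndependent K b :=
    B.linearIndependent.map' (Submodule.subtype _) (Submodule.ker_subtype _)
  obtain ⟨b', hspan, hb', hli'⟩ := hC.sc n b hli
  have hb'E : ∀ i, b' i ∈ riemannRochSpace E := by
    intro i
    have h1 : b' i ∈ Submodule.span K (Set.range b') := Submodule.subset_span ⟨i, rfl⟩
    rw [hspan] at h1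
    refine (Submodule.span_le.mpr ?_) h1
    rintro _ ⟨j, rfl⟩
    exact (B j).2
  have hmem : ∀ i, red ⟨b' i, hb' i⟩ ∈ riemannRochSpace (Finsupp.mapDomain r E) := fun i =>
    s19f_red_mem_L hC E (hb' i) (hb'E i) (hli'.ne_zero i)
  have hli'' : LinearIndependent k (fun i =>
      (⟨red ⟨b' i, hb' i⟩, hmem i⟩ : ↥(riemannRochSpace (Finsupp.mapDomain r E)))) := by
    apply LinearIndependent.of_comp (Submodule.subtype _)
    exact hli'
  have := hli''.fintype_card_le_finrank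
  simpa using this

variable (𝔰 : s19_Sys red r FW g)

lemma s19f_ptS_r (i : Fin g) (c : ↥(maximalIdeal ↥A)) : r (s19_ptS hC 𝔰 i c) = 𝔰.Q i :=
  s19a_pt_r x hC.rd (𝔰.param i) c

lemma s19f_evA_congr {Q : Place k Fb} (f : ↥(s19a_G O r Q)) (P P' : Place K F) (hP : r P = Q)
    (hP' : r P' = Q) (e : P = P') : s19a_evA x hC.rd P hP f = s19a_evA x hC.rd P' hP' f := by
  subst e
  rfl

lemma s19f_ptS_inj (i : Fin g) (c c' : ↥(maximalIdeal ↥A))
    (h : s19_ptS hC 𝔰 i c = s19_ptS hC 𝔰 i c') : c = c' := by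
  have h1 := s19a_pt_val x hC.rd (𝔰.param i) c
  have h2 := s19a_pt_val x hC.rd (𝔰.param i) c'
  apply Subtype.ext
  rw [← h1, ← h2]
  exact s19f_evA_congr hC _ _ _ _ _ h

lemma s19f_ptS_surj (i : Fin g) (P : Place K F) (hP : r P = 𝔰.Q i) :
    ∃ c : ↥(maximalIdeal ↥A), s19_ptS hC 𝔰 i c = P :=
  s19a_pt_surj x hC.rd (𝔰.param i) P hP

/-- `r_* (divS a) = Σ Qᵢ`. -/
lemma s19f_divS_map (a : Fin g → ↥(maximalIdeal ↥A)) :
    Finsupp.mapDomain r (s19_divS hC 𝔰 a) = ∑ i, Finsupp.single (𝔰.Q i) (1 : ℤ) := by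
  unfold s19_divS
  rw [Finsupp.mapDomain_finset_sum]
  refine Finset.sum_congr rfl fun i _ => ?_
  rw [Finsupp.mapDomain_single, s19f_ptS_r hC 𝔰 i (a i)]

lemma s19f_divS_nonneg (a : Fin g → ↥(maximalIdeal ↥A)) (P : Place K F) :
    0 ≤ s19_divS hC 𝔰 a P := by
  classical
  unfold s19_divS
  rw [Finsupp.finset_sum_apply]
  refine Finset.sum_nonneg fun i _ => ?_
  rw [Finsupp.single_apply]
  split_ifs <;> norm_num

lemma s19f_divS_ge (a : Fin g → ↥(maximalIdeal ↥A)) (i : Fin g) :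
    1 ≤ s19_divS hC 𝔰 a (s19_ptS hC 𝔰 i (a i)) := by
  classical
  unfold s19_divS
  rw [Finsupp.finset_sum_apply]
  have h1 : ∀ j ∈ Finset.univ, 0 ≤ (Finsupp.single (s19_ptS hC 𝔰 j (a j)) (1 : ℤ))
      (s19_ptS hC 𝔰 i (a i)) := by
    intro j _
    rw [Finsupp.single_apply]
    split_ifs <;> norm_num
  have h2 := Finset.single_le_sum h1 (Finset.mem_univ i)
  rw [Finsupp.single_eq_same] at h2
  exact h2

lemma s19f_divS_pos_iff (a : Fin g → ↥(maximalIdeal ↥A)) (P : Place K F)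
    (hP : 0 < s19_divS hC 𝔰 a P) : ∃ i, s19_ptS hC 𝔰 i (a i) = P := by
  classical
  by_contra hcon
  push Not at hcon
  unfold s19_divS at hP
  rw [Finsupp.finset_sum_apply] at hP
  have : ∑ i, (Finsupp.single (s19_ptS hC 𝔰 i (a i)) (1 : ℤ)) P = 0 :=
    Finset.sum_eq_zero fun i _ => Finsupp.single_eq_of_ne (hcon i).symm
  omega

lemma s19f_divS_degree (a : Fin g → ↥(maximalIdeal ↥A)) :
    Divisor.degree (s19_divS hC 𝔰 a) = g := by
  unfold s19_divS
  rw [map_sum]
  simp [Divisor.degree_single, hC.degF]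

lemma s19f_divS_inj (a a' : Fin g → ↥(maximalIdeal ↥A))
    (h : s19_divS hC 𝔰 a = s19_divS hC 𝔰 a') : a = a' := by
  funext i
  have h1 := s19f_divS_ge hC 𝔰 a i
  rw [h] at h1
  obtain ⟨j, hj⟩ := s19f_divS_pos_iff hC 𝔰 a' (s19_ptS hC 𝔰 i (a i)) (by omega)
  have hr := congrArg r hj
  rw [s19f_ptS_r hC 𝔰, s19f_ptS_r hC 𝔰] at hr
  have hji : j = i := 𝔰.inj hr
  subst hji
  exact (s19f_ptS_inj hC 𝔰 j _ _ hj).symm

/-- the value of `Σ Qᵢ` at a place. -/
lemma s19f_D0_apply_self (i : Fin g) :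
    (∑ j, Finsupp.single (𝔰.Q j) (1 : ℤ)) (𝔰.Q i) = 1 := by
  classical
  rw [Finsupp.finset_sum_apply, Finset.sum_eq_single i]
  · exact Finsupp.single_eq_same
  · intro j _ hji
    exact Finsupp.single_eq_of_ne (fun h => hji (𝔰.inj h).symm)
  · intro h
    exact absurd (Finset.mem_univ i) h

lemma s19f_D0_apply_other (Q₀ : Place k Fb) (h : ∀ i, 𝔰.Q i ≠ Q₀) :
    (∑ j, Finsupp.single (𝔰.Q j) (1 : ℤ)) Q₀ = 0 := by
  classical
  rw [Finsupp.finset_sum_apply]
  exact Finset.sum_eq_zero fun j _ => Finsupp.single_eq_of_ne (h j).symm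

lemma s19f_D0_nonneg (Q₀ : Place k Fb) : 0 ≤ (∑ j, Finsupp.single (𝔰.Q j) (1 : ℤ)) Q₀ := by
  classical
  rw [Finsupp.finset_sum_apply]
  refine Finset.sum_nonneg fun i _ => ?_
  rw [Finsupp.single_apply]
  split_ifs <;> norm_num

/-- an effective divisor with `r_* D' = Σ Qᵢ` is a `divS a`. -/
theorem s19f_eq_divS_of_map (D' : Divisor K F) (hnn : ∀ P, 0 ≤ D' P)
    (hmap : Finsupp.mapDomain r D' = ∑ i, Finsupp.single (𝔰.Q i) (1 : ℤ)) :
    ∃ a : Fin g → ↥(maximalIdeal ↥A), D' = s19_divS hC 𝔰 a := by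
  classical
  have hpos : ∀ P ∈ D'.support, 0 < D' P := fun P hP =>
    lt_of_le_of_ne (hnn P) (Ne.symm (Finsupp.mem_support_iff.mp hP))
  -- one simple point over each `Q i`
  have hone : ∀ i, ∃ P ∈ D'.support.filter (fun P => r P = 𝔰.Q i), D' P = 1 ∧
      ∀ P' ∈ D'.support.filter (fun P => r P = 𝔰.Q i), P' = P := by
    intro i
    apply s19f_sum_eq_one
    · intro P hP
      exact hpos P (Finset.mem_filter.mp hP).1
    · rw [← s37r_mapDomain_apply, hmap, s19f_D0_apply_self hC 𝔰 i]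
  choose P hPT hP1 hPuniq using hone
  have hPr : ∀ i, r (P i) = 𝔰.Q i := fun i => (Finset.mem_filter.mp (hPT i)).2
  have hPs : ∀ i, P i ∈ D'.support := fun i => (Finset.mem_filter.mp (hPT i)).1
  have hPa : ∀ i, ∃ c : ↥(maximalIdeal ↥A), s19_ptS hC 𝔰 i c = P i := fun i =>
    s19f_ptS_surj hC 𝔰 i (P i) (hPr i)
  choose a ha using hPa
  refine ⟨a, ?_⟩
  have hPinj : ∀ i j, P j = P i → j = i := by
    intro i j hji
    have := congrArg r hji
    rw [hPr, hPr] at this
    exact 𝔰.inj this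
  ext P₀
  unfold s19_divS
  rw [Finsupp.finset_sum_apply]
  simp only [ha]
  by_cases hP₀ : P₀ ∈ D'.support
  · -- `P₀` lies over some `Q i`
    have hex : ∃ i, 𝔰.Q i = r P₀ := by
      by_contra hcon
      push Not at hcon
      have h0 := s19f_D0_apply_other hC 𝔰 (r P₀) hcon
      rw [← hmap, s37r_mapDomain_apply] at h0
      have hmem : P₀ ∈ D'.support.filter (fun P => r P = r P₀) :=
        Finset.mem_filter.mpr ⟨hP₀, rfl⟩
      have h1 := Finset.single_le_sum (f := fun P => D' P)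
        (fun P hP => (hpos P (Finset.mem_filter.mp hP).1).le) hmem
      have := hpos P₀ hP₀
      omega
    obtain ⟨i, hi⟩ := hex
    have hP₀i : P₀ = P i := hPuniq i P₀ (Finset.mem_filter.mpr ⟨hP₀, hi.symm⟩)
    rw [hP₀i, hP1 i, Finset.sum_eq_single i]
    · exact Finsupp.single_eq_same.symm
    · intro j _ hji
      exact Finsupp.single_eq_of_ne (fun h => hji (hPinj i j h.symm |>.symm ▸ rfl))
    · intro h
      exact absurd (Finset.mem_univ i) h
  · rw [Finsupp.notMem_support_iff.mp hP₀]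
    symm
    refine Finset.sum_eq_zero fun j _ => Finsupp.single_eq_of_ne ?_
    intro h
    exact hP₀ (h ▸ hPs j)

/-- **existence of coordinates.** -/
theorem s19f_coord_exists (D : Divisor K F) (hdeg : Divisor.degree D = 0)
    (hprin : Finsupp.mapDomain r D ∈ Divisor.principal (K := k) (F := Fb)) :
    ∃ a : Fin g → ↥(maximalIdeal ↥A),
      D - (s19_divS hC 𝔰 a - s19_divS hC 𝔰 0) ∈ Divisor.principal (K := K) (F := F) := by
  classical
  set D₀ := s19_divS hC 𝔰 0 with hD₀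
  set E : Divisor K F := D + D₀ with hE
  have hEdeg : Divisor.degree E = g := by
    rw [hE, map_add, hdeg, zero_add, hD₀, s19f_divS_degree]
  -- a non-zero function in `L(E)`
  haveI := hC.rrF.fin E
  have hineq := hC.rrF.ineq E
  rw [hEdeg] at hineq
  have hpos : 0 < Module.finrank K ↥(riemannRochSpace E) := by
    have : (1 : ℤ) ≤ (Module.finrank K ↥(riemannRochSpace E) : ℤ) := by linarith
    exact_mod_cast this
  obtain ⟨⟨f₀, hf₀E⟩, hf₀ne⟩ := Module.finrank_pos_iff_exists_ne_zero.mp hpos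
  have hf₀0 : f₀ ≠ 0 := fun h => hf₀ne (Subtype.ext h)
  -- normalise to a Gauss unit
  obtain ⟨c, hc0, hfO, hfinvO⟩ := hC.gv f₀ hf₀0
  set f : F := algebraMap K F c * f₀ with hf
  have hf0 : f ≠ 0 := mul_ne_zero (by simpa using hc0) hf₀0
  have hfE : f ∈ riemannRochSpace E := by
    rw [hf, ← Algebra.smul_def]
    exact Submodule.smul_mem _ c hf₀E
  have hred : red ⟨f, hfO⟩ ≠ 0 := by
    intro h0
    have h1 : (⟨f, hfO⟩ : ↥O) * ⟨f⁻¹, hfinvO⟩ = 1 := Subtype.ext (mul_inv_cancel₀ hf0)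
    have h2 := congrArg red h1
    rw [map_mul, h0, zero_mul, map_one] at h2
    exact zero_ne_one h2
  obtain ⟨Dv, hDv, -⟩ := hC.pdF.exists_divisor f hf0
  set D' : Divisor K F := Dv + E with hD'
  have hD'nn : ∀ P, 0 ≤ D' P := by
    intro P
    rw [hD', Finsupp.add_apply, hDv P]
    rcases (mem_riemannRochSpace_iff.mp hfE P) with h | h
    · exact absurd h hf0
    · linarith
  -- the reduction
  obtain ⟨hb, hhb0, hhb⟩ := hprin
  set z : Fb := red ⟨f, hfO⟩ * hb with hz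
  have hz0 : z ≠ 0 := mul_ne_zero hred hhb0
  have hmapD' : ∀ Q, Finsupp.mapDomain r D' Q =
      Q.ord z + (∑ i, Finsupp.single (𝔰.Q i) (1 : ℤ)) Q := by
    intro Q
    rw [hD', hE, Finsupp.mapDomain_add, Finsupp.mapDomain_add, Finsupp.add_apply,
      Finsupp.add_apply, hC.rd.cons f hfO hred Dv hDv Q, hhb Q, hD₀, s19f_divS_map hC 𝔰 0, hz,
      Q.ord_mul hred hhb0]
    ring
  have hzL : z ∈ riemannRochSpace (∑ i, Finsupp.single (𝔰.Q i) (1 : ℤ)) := by
    rw [mem_riemannRochSpace_iff]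
    intro Q
    right
    have := s19f_mapDomain_nonneg r D' hD'nn Q
    rw [hmapD' Q] at this
    linarith
  have h1L : (1 : Fb) ∈ riemannRochSpace (∑ i, Finsupp.single (𝔰.Q i) (1 : ℤ)) := by
    rw [mem_riemannRochSpace_iff]
    intro Q
    right
    rw [Place.ord_one]
    have := s19f_D0_nonneg hC 𝔰 Q
    linarith
  -- `z` is a constant
  obtain ⟨b, hbz⟩ : ∃ b : k, b • (1 : Fb) = z := by
    have h1 := (finrank_eq_one_iff_of_nonzero'
      (⟨1, h1L⟩ : ↥(riemannRochSpace (∑ i, Finsupp.single (𝔰.Q i) (1 : ℤ))))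
      (fun h => one_ne_zero (congrArg Subtype.val h))).mp 𝔰.nonsp ⟨z, hzL⟩
    obtain ⟨b, hb⟩ := h1
    exact ⟨b, congrArg Subtype.val hb⟩
  have hzord : ∀ Q : Place k Fb, Q.ord z = 0 := by
    intro Q
    rw [← hbz, Algebra.smul_def, mul_one]
    exact ff_ord_algebraMap Q b
  have hmap : Finsupp.mapDomain r D' = ∑ i, Finsupp.single (𝔰.Q i) (1 : ℤ) := by
    ext Q
    rw [hmapD' Q, hzord Q, zero_add]
  obtain ⟨a, ha⟩ := s19f_eq_divS_of_map hC 𝔰 D' hD'nn hmap
  refine ⟨a, ?_⟩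
  have hneg : D - (s19_divS hC 𝔰 a - D₀) = -Dv := by
    rw [← ha, hD', hE]
    abel
  rw [hneg]
  exact (Divisor.principal).neg_mem ⟨f, hf0, hDv⟩

/-- **uniqueness of coordinates.** -/
theorem s19f_coord_unique (a a' : Fin g → ↥(maximalIdeal ↥A))
    (h : s19_divS hC 𝔰 a - s19_divS hC 𝔰 a' ∈ Divisor.principal (K := K) (F := F)) :
    a = a' := by
  obtain ⟨f, hf0, hf⟩ := h
  set E := s19_divS hC 𝔰 a' with hE
  haveI := hC.rrF.fin E
  have hfE : f ∈ riemannRochSpace E := by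
    rw [mem_riemannRochSpace_iff]
    intro P
    right
    rw [← hf P, Finsupp.sub_apply]
    have := s19f_divS_nonneg hC 𝔰 a P
    linarith
  have h1E : (1 : F) ∈ riemannRochSpace E := by
    rw [mem_riemannRochSpace_iff]
    intro P
    right
    rw [Place.ord_one]
    have := s19f_divS_nonneg hC 𝔰 a' P
    linarith
  have hle : Module.finrank K ↥(riemannRochSpace E) ≤ 1 := by
    have := s19f_semicont hC E
    rw [hE, s19f_divS_map hC 𝔰 a', 𝔰.nonsp] at this
    exact this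
  obtain ⟨v, hv⟩ := finrank_le_one_iff.mp hle
  obtain ⟨c, hc⟩ := hv ⟨f, hfE⟩
  obtain ⟨c', hc'⟩ := hv ⟨1, h1E⟩
  have hc'0 : c' ≠ 0 := by
    rintro rfl
    rw [zero_smul] at hc'
    exact one_ne_zero (congrArg Subtype.val hc').symm
  have hv1 : v = c'⁻¹ • (⟨1, h1E⟩ : ↥(riemannRochSpace E)) := by
    rw [← hc', inv_smul_smul₀ hc'0]
  have hfc : f = algebraMap K F (c * c'⁻¹) := by
    have h1 : (f : F) = ((c • v : ↥(riemannRochSpace E)) : F) := (congrArg Subtype.val hc).symm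
    rw [h1, hv1, smul_smul]
    show (c * c'⁻¹) • (1 : F) = _
    rw [Algebra.smul_def, mul_one]
  have heq : s19_divS hC 𝔰 a = E := by
    ext P
    have := hf P
    rw [hfc, ff_ord_algebraMap, Finsupp.sub_apply] at this
    linarith
  exact s19f_divS_inj hC 𝔰 a a' heq

end curve

/-- **[COORD]**. -/
theorem s19f_coord : s19_Coord := by
  intro K F k Fb _ _ _ _ _ _ _ x _ A π O red r FW l g hC 𝔰 D hdeg hprin
  obtain ⟨a, ha⟩ := s19f_coord_exists hC 𝔰 D hdeg hprin
  refine ⟨a, ha, fun a' ha' => ?_⟩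
  apply s19f_coord_unique hC 𝔰 a' a
  have h := (Divisor.principal (K := K) (F := F)).sub_mem ha ha'
  have he : D - (s19_divS hC 𝔰 a - s19_divS hC 𝔰 0) - (D - (s19_divS hC 𝔰 a' - s19_divS hC 𝔰 0)) =
      s19_divS hC 𝔰 a' - s19_divS hC 𝔰 a := by abel
  rw [he] at h
  exact h

end Fermat.Agent.Lib.S19

end
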