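/-
W-A programme (S19/S32): INTERFACE of the geometric engine (architect: helper5).

[GENG] = the abstract engine `s19_AEng` (IfaceAlg) wired on an abstract curve with good reduction
`s19_Curve` (IfaceCurve).  Data: finitely many discs `i : ι` with DISTINCT reductions `Q i` and
rational parameters `t i`; on the disc `i`: `mp i` moving plus-points, `mm i` moving minus-points
(all with parameters in the closure ring `𝒜(σ)`), `m i - mp i ∈ {0, 1}` (`= 1`: auxiliary disc,
carrying one residual point), `mp i - mm i ∈ {0, 1}` (`= 1`: output disc).  The output discs form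
a non-special system; there are at least `c` auxiliary discs (`c` depends only on the curve).
Conclusion: the unique effective divisor `D″(ξ)` supported on the output discs with
`Z⁺(ξ) - Z⁻(ξ) ~ D″(ξ)` has its parameters in `𝒜(σ)`.

[INF] = the special fibre has an algebraically closed constant field and infinitely many places.
-/
import Fermat.Agent.Lib.S19.IfaceCurve

set_option autoImplicit false
set_option linter.unusedSectionVars false
set_option linter.unusedVariables false

noncomputable section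

namespace Fermat.Agent.Lib.S19

open AlgebraicCurve Fermat.Agent.Lib.FF Fermat.Agent.Lib.S37 IsLocalRing

/-- [GENG] **the geometric engine.** -/
def s19_GEng : Prop :=
  ∀ {K F k Fb : Type} [Field K] [Field F] [Algebra K F] [IsAlgClosed K] [Field k] [Field Fb]
    [Algebra k Fb] (x : F) [FFGen K x] (A : ValuationSubring K) (π : ↥A →+* k)
    (O : ValuationSubring F) (red : ↥O →+* Fb) (r : Place K F → Place k Fb) (FW : Subring F)
    (l : ↥A) (g : ℕ) (hC : s19_Curve x A π O red r FW l g),
    ∃ c : ℕ, ∀ {ι : Type} [Fintype ι] [DecidableEq ι] (Q : ι → Place k Fb) (t : ι → F),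
      Function.Injective Q → ∀ ht : ∀ i, s19a_IsParam red r (Q i) (t i), (∀ i, t i ∈ FW) →
      ∀ m mp mm : ι → ℕ, (∀ i, mm i ≤ mp i) → (∀ i, mp i ≤ m i) → (∀ i, m i ≤ mp i + 1) →
      (∀ i, mp i ≤ mm i + 1) →
      Module.finrank k
        ↥(riemannRochSpace (∑ i, Finsupp.single (Q i) (((mp i - mm i : ℕ) : ℤ)))) = 1 →
      ∑ i, (mp i - mm i) = g → c ≤ ∑ i, (m i - mp i) →
      ∀ {Ξ κ : Type} (σ : κ → Ξ → ↥A), s19_Small l σ →
      ∀ (φp : ∀ i, Fin (mp i) → Ξ → ↥(maximalIdeal ↥A))
        (φm : ∀ i, Fin (mm i) → Ξ → ↥(maximalIdeal ↥A)),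
      (∀ i a, (fun ξ => ((φp i a ξ : ↥(maximalIdeal ↥A)) : ↥A)) ∈ s19_cl l (s19a_W A FW) σ) →
      (∀ i a, (fun ξ => ((φm i a ξ : ↥(maximalIdeal ↥A)) : ↥A)) ∈ s19_cl l (s19a_W A FW) σ) →
      ∃ ψ : ι → Ξ → ↥(maximalIdeal ↥A),
        (∀ i, (fun ξ => ((ψ i ξ : ↥(maximalIdeal ↥A)) : ↥A)) ∈ s19_cl l (s19a_W A FW) σ) ∧
        ∀ ξ,
          (∑ i, ∑ a : Fin (mp i),
              Finsupp.single (s19a_pt x hC.rd (ht i) (φp i a ξ)) (1 : ℤ)) -
            (∑ i, ∑ a : Fin (mm i),
              Finsupp.single (s19a_pt x hC.rd (ht i) (φm i a ξ)) (1 : ℤ)) -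
            (∑ i, Finsupp.single (s19a_pt x hC.rd (ht i) (ψ i ξ))
              (((mp i - mm i : ℕ) : ℤ))) ∈ Divisor.principal (K := K) (F := F)

/-- [INF] the special fibre of an abstract curve with good reduction has an algebraically closed
constant field and infinitely many places. -/
def s19_Inf : Prop :=
  ∀ {K F k Fb : Type} [Field K] [Field F] [Algebra K F] [IsAlgClosed K] [Field k] [Field Fb]
    [Algebra k Fb] (x : F) [FFGen K x] (A : ValuationSubring K) (π : ↥A →+* k)
    (O : ValuationSubring F) (red : ↥O →+* Fb) (r : Place K F → Place k Fb) (FW : Subring F)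
    (l : ↥A) (g : ℕ), s19_Curve x A π O red r FW l g →
    IsAlgClosed k ∧ Infinite (Place k Fb)

end Fermat.Agent.Lib.S19
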