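/-
W-A programme (S19/S32), brick [GENG] part 5 (helper6, prefix `s19e_`): THE ENGINE ON A COORDINATE
SYSTEM.

`s19e_geng_sys`: the geometric engine `s19_GEng` applied to an output coordinate system `𝔰`
(multiplicities `pS + 1` / `pS` on its discs), `d` extra discs (multiplicities `pX` / `pX`) and as
many fresh auxiliary discs as the engine wants (chosen with `s19n_exists_fresh` and `hC.param`).
-/
import Fermat.Agent.Lib.S19.IfaceEng
import Fermat.Agent.Lib.S19.NPlaces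
import Fermat.Agent.Lib.S19.FCoord

set_option autoImplicit false
set_option linter.unusedSectionVars false
set_option linter.unusedVariables false

noncomputable section

namespace Fermat.Agent.Lib.S19

open AlgebraicCurve Fermat.Agent.Lib.FF Fermat.Agent.Lib.S37 IsLocalRing

variable {K F k Fb : Type} [Field K] [Field F] [Algebra K F] [IsAlgClosed K] [Field k] [Field Fb]
  [Algebra k Fb] {x : F} [FFGen K x] {A : ValuationSubring K} {π : ↥A →+* k}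
  {O : ValuationSubring F} {red : ↥O →+* Fb} {r : Place K F → Place k Fb} {FW : Subring F}
  {l : ↥A} {g : ℕ}

theorem s19e_sum3 {M : Type*} [AddCommMonoid M] {a b c : ℕ} (f : (Fin a ⊕ Fin b) ⊕ Fin c → M) :
    ∑ i, f i = ∑ i : Fin a, f (Sum.inl (Sum.inl i)) + ∑ j : Fin b, f (Sum.inl (Sum.inr j)) +
      ∑ j : Fin c, f (Sum.inr j) := by
  rw [Fintype.sum_sum_type, Fintype.sum_sum_type]

/-- **the engine on a coordinate system.** -/
theorem s19e_geng_sys (hG : s19_GEng) (hC : s19_Curve x A π O red r FW l g)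
    (𝔰 : s19_Sys red r FW g) {d : ℕ} (Qx : Fin d → Place k Fb) (tx : Fin d → F)
    (hparx : ∀ j, s19a_IsParam red r (Qx j) (tx j)) (hratx : ∀ j, tx j ∈ FW)
    (hinjx : Function.Injective Qx) (hdisj : ∀ i j, 𝔰.Q i ≠ Qx j)
    (pS pX : ℕ) {Ξ κ : Type} (σ : κ → Ξ → ↥A) (hσ : s19_Small l σ)
    (φpS : Fin g → Fin (pS + 1) → Ξ → ↥(maximalIdeal ↥A))
    (φmS : Fin g → Fin pS → Ξ → ↥(maximalIdeal ↥A))
    (φpX φmX : Fin d → Fin pX → Ξ → ↥(maximalIdeal ↥A))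
    (hφpS : ∀ i a, (fun ξ => ((φpS i a ξ : ↥(maximalIdeal ↥A)) : ↥A)) ∈
      s19_cl l (s19a_W A FW) σ)
    (hφmS : ∀ i a, (fun ξ => ((φmS i a ξ : ↥(maximalIdeal ↥A)) : ↥A)) ∈
      s19_cl l (s19a_W A FW) σ)
    (hφpX : ∀ i a, (fun ξ => ((φpX i a ξ : ↥(maximalIdeal ↥A)) : ↥A)) ∈
      s19_cl l (s19a_W A FW) σ)
    (hφmX : ∀ i a, (fun ξ => ((φmX i a ξ : ↥(maximalIdeal ↥A)) : ↥A)) ∈
      s19_cl l (s19a_W A FW) σ) :
    ∃ ψ : Fin g → Ξ → ↥(maximalIdeal ↥A),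
      (∀ i, (fun ξ => ((ψ i ξ : ↥(maximalIdeal ↥A)) : ↥A)) ∈ s19_cl l (s19a_W A FW) σ) ∧
      ∀ ξ,
        ((∑ i, ∑ a, Finsupp.single (s19_ptS hC 𝔰 i (φpS i a ξ)) (1 : ℤ)) +
            ∑ j, ∑ a, Finsupp.single (s19a_pt x hC.rd (hparx j) (φpX j a ξ)) (1 : ℤ)) -
          ((∑ i, ∑ a, Finsupp.single (s19_ptS hC 𝔰 i (φmS i a ξ)) (1 : ℤ)) +
            ∑ j, ∑ a, Finsupp.single (s19a_pt x hC.rd (hparx j) (φmX j a ξ)) (1 : ℤ)) -
          s19_divS hC 𝔰 (fun i => ψ i ξ) ∈ Divisor.principal (K := K) (F := F) := by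
  classical
  obtain ⟨c, hc⟩ := hG x A π O red r FW l g hC
  -- fresh auxiliary places with rational parameters
  obtain ⟨Qa, hQainj, hQaS⟩ := s19n_exists_fresh hC
    (Finset.univ.image 𝔰.Q ∪ Finset.univ.image Qx) c
  have hQaS1 : ∀ j i, Qa j ≠ 𝔰.Q i := fun j i e =>
    hQaS j (Finset.mem_union_left _ (Finset.mem_image.mpr ⟨i, Finset.mem_univ i, e.symm⟩))
  have hQaS2 : ∀ j i, Qa j ≠ Qx i := fun j i e =>
    hQaS j (Finset.mem_union_right _ (Finset.mem_image.mpr ⟨i, Finset.mem_univ i, e.symm⟩))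
  choose ta htaW hta using fun j => hC.param (Qa j)
  -- the family
  let Q : (Fin g ⊕ Fin d) ⊕ Fin c → Place k Fb := Sum.elim (Sum.elim 𝔰.Q Qx) Qa
  let t : (Fin g ⊕ Fin d) ⊕ Fin c → F := Sum.elim (Sum.elim 𝔰.t tx) ta
  have hQinj : Function.Injective Q := by
    rintro ((i | i) | i) ((j | j) | j) e
    · exact congrArg _ (congrArg _ (𝔰.inj e))
    · exact absurd e (hdisj i j)
    · exact absurd e.symm (hQaS1 j i)
    · exact absurd e.symm (hdisj j i)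
    · exact congrArg _ (congrArg _ (hinjx e))
    · exact absurd e.symm (hQaS2 j i)
    · exact absurd e (hQaS1 i j)
    · exact absurd e (hQaS2 i j)
    · exact congrArg _ (hQainj e)
  have ht : ∀ i, s19a_IsParam red r (Q i) (t i) := by
    rintro ((i | i) | i)
    · exact 𝔰.param i
    · exact hparx i
    · exact hta i
  have htW : ∀ i, t i ∈ FW := by
    rintro ((i | i) | i)
    · exact 𝔰.rat i
    · exact hratx i
    · exact htaW i
  let m : (Fin g ⊕ Fin d) ⊕ Fin c → ℕ :=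
    Sum.elim (Sum.elim (fun _ => pS + 1) (fun _ => pX)) (fun _ => 1)
  let mp : (Fin g ⊕ Fin d) ⊕ Fin c → ℕ :=
    Sum.elim (Sum.elim (fun _ => pS + 1) (fun _ => pX)) (fun _ => 0)
  let mm : (Fin g ⊕ Fin d) ⊕ Fin c → ℕ :=
    Sum.elim (Sum.elim (fun _ => pS) (fun _ => pX)) (fun _ => 0)
  have h1 : ∀ i, mm i ≤ mp i := by
    rintro ((i | i) | i) <;> simp [mm, mp]
  have h2 : ∀ i, mp i ≤ m i := by
    rintro ((i | i) | i) <;> simp [m, mp]
  have h3 : ∀ i, m i ≤ mp i + 1 := by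
    rintro ((i | i) | i) <;> simp [m, mp]
  have h4 : ∀ i, mp i ≤ mm i + 1 := by
    rintro ((i | i) | i) <;> simp [mm, mp]
  have hns : Module.finrank k
      ↥(riemannRochSpace (∑ i, Finsupp.single (Q i) (((mp i - mm i : ℕ) : ℤ)))) = 1 := by
    have : (∑ i, Finsupp.single (Q i) (((mp i - mm i : ℕ) : ℤ))) =
        ∑ i, Finsupp.single (𝔰.Q i) (1 : ℤ) := by
      rw [s19e_sum3]
      simp [Q, mp, mm]
    rw [this]
    exact 𝔰.nonsp
  have hg : ∑ i, (mp i - mm i) = g := by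
    rw [s19e_sum3]
    simp [mp, mm]
  have hcc : c ≤ ∑ i, (m i - mp i) := by
    rw [s19e_sum3]
    simp [m, mp]
  let φp : ∀ i, Fin (mp i) → Ξ → ↥(maximalIdeal ↥A) := fun i =>
    match i with
    | Sum.inl (Sum.inl i) => φpS i
    | Sum.inl (Sum.inr j) => φpX j
    | Sum.inr _ => fun a => Fin.elim0 a
  let φm : ∀ i, Fin (mm i) → Ξ → ↥(maximalIdeal ↥A) := fun i =>
    match i with
    | Sum.inl (Sum.inl i) => φmS i
    | Sum.inl (Sum.inr j) => φmX j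
    | Sum.inr _ => fun a => Fin.elim0 a
  have hφp : ∀ i a, (fun ξ => ((φp i a ξ : ↥(maximalIdeal ↥A)) : ↥A)) ∈
      s19_cl l (s19a_W A FW) σ := by
    rintro ((i | i) | i) a
    · exact hφpS i a
    · exact hφpX i a
    · exact Fin.elim0 a
  have hφm : ∀ i a, (fun ξ => ((φm i a ξ : ↥(maximalIdeal ↥A)) : ↥A)) ∈
      s19_cl l (s19a_W A FW) σ := by
    rintro ((i | i) | i) a
    · exact hφmS i a
    · exact hφmX i a
    · exact Fin.elim0 a
  obtain ⟨ψ, hψ, hprin⟩ := hc Q t hQinj ht htW m mp mm h1 h2 h3 h4 hns hg hcc σ hσ φp φm hφp hφm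
  refine ⟨fun i => ψ (Sum.inl (Sum.inl i)), fun i => hψ _, fun ξ => ?_⟩
  have h := hprin ξ
  rw [s19e_sum3, s19e_sum3, s19e_sum3] at h
  have hz1 : ∀ j : Fin c, (∑ a : Fin (mp (Sum.inr j)),
      Finsupp.single (s19a_pt x hC.rd (ht (Sum.inr j)) (φp (Sum.inr j) a ξ)) (1 : ℤ)) = 0 :=
    fun j => Finset.sum_of_isEmpty (ι := Fin 0) _
  have hz2 : ∀ j : Fin c, (∑ a : Fin (mm (Sum.inr j)),
      Finsupp.single (s19a_pt x hC.rd (ht (Sum.inr j)) (φm (Sum.inr j) a ξ)) (1 : ℤ)) = 0 :=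
    fun j => Finset.sum_of_isEmpty (ι := Fin 0) _
  have hz3 : ∀ j : Fin c, Finsupp.single (s19a_pt x hC.rd (ht (Sum.inr j)) (ψ (Sum.inr j) ξ))
      (((mp (Sum.inr j) - mm (Sum.inr j) : ℕ) : ℤ)) = 0 := by
    intro j
    show Finsupp.single _ (((0 - 0 : ℕ) : ℤ)) = 0
    simp
  have hz4 : ∀ j : Fin d, Finsupp.single
      (s19a_pt x hC.rd (ht (Sum.inl (Sum.inr j))) (ψ (Sum.inl (Sum.inr j)) ξ))
      (((mp (Sum.inl (Sum.inr j)) - mm (Sum.inl (Sum.inr j)) : ℕ) : ℤ)) = 0 := by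
    intro j
    show Finsupp.single _ (((pX - pX : ℕ) : ℤ)) = 0
    simp
  have hz5 : ∀ i : Fin g, Finsupp.single
      (s19a_pt x hC.rd (ht (Sum.inl (Sum.inl i))) (ψ (Sum.inl (Sum.inl i)) ξ))
      (((mp (Sum.inl (Sum.inl i)) - mm (Sum.inl (Sum.inl i)) : ℕ) : ℤ)) =
      Finsupp.single (s19_ptS hC 𝔰 i (ψ (Sum.inl (Sum.inl i)) ξ)) (1 : ℤ) := by
    intro i
    show Finsupp.single _ (((pS + 1 - pS : ℕ) : ℤ)) = _
    rw [Nat.add_sub_cancel_left, Nat.cast_one]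
    rfl
  simp only [hz1, hz2, hz3, hz4, hz5, Finset.sum_const_zero, add_zero] at h
  exact h

end Fermat.Agent.Lib.S19
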