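/-
W-A programme (S19/S32), brick [GENG] part 6 (helper6, prefix `s19e_`): THE COROLLARIES
[ADD], [NEG], [CHG] of the geometric engine (contracts `s19_Add`, `s19_Neg`, `s19_Chg` of
IfaceCurve).
-/
import Fermat.Agent.Lib.S19.EGeoSys
import Fermat.Agent.Lib.S19.ClosInv

set_option autoImplicit false
set_option linter.unusedSectionVars false
set_option linter.unusedVariables false

noncomputable section

namespace Fermat.Agent.Lib.S19

open AlgebraicCurve Fermat.Agent.Lib.FF Fermat.Agent.Lib.S37 IsLocalRing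

/-- **[ADD]** -/
theorem s19e_add : s19_GEng → s19_Add := by
  intro hG K F k Fb _ _ _ _ _ _ _ x _ A π O red r FW l g hC 𝔰 Ξ a₁ a₂ a₃ hσ hprin i
  classical
  obtain ⟨ψ, hψ, hp⟩ := s19e_geng_sys hG hC 𝔰 (d := 0) (fun j => j.elim0) (fun j => j.elim0)
    (fun j => j.elim0) (fun j => j.elim0) (fun j => j.elim0) (fun _ j => j.elim0) 1 0
    (Sum.elim (fun (i : Fin g) (ξ : Ξ) => ((a₁ ξ i : ↥(maximalIdeal ↥A)) : ↥A))
      (fun (i : Fin g) (ξ : Ξ) => ((a₂ ξ i : ↥(maximalIdeal ↥A)) : ↥A))) hσ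
    (fun i a ξ => if a = 0 then a₁ ξ i else a₂ ξ i) (fun i _ ξ => 0)
    (fun j => j.elim0) (fun j => j.elim0)
    (by
      intro i a
      by_cases ha : a = 0
      · simp only [ha, if_true]
        exact s19_gen_mem_cl l _ _ (Sum.inl i)
      · simp only [ha, if_false]
        exact s19_gen_mem_cl l _ _ (Sum.inr i))
    (fun i a => Subalgebra.zero_mem _) (fun j => j.elim0) (fun j => j.elim0)
  have key : ∀ ξ, a₃ ξ = fun i => ψ i ξ := by
    intro ξ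
    apply s19f_coord_unique hC 𝔰
    have h1 := hp ξ
    have h2 := hprin ξ
    have h3 := (Divisor.principal (K := K) (F := F)).sub_mem h1 h2
    convert h3 using 1
    simp only [Finset.univ_eq_empty, Finset.sum_empty, add_zero, Fin.sum_univ_succ,
      Fin.sum_univ_zero, Finset.sum_add_distrib, s19_divS, if_true, Fin.succ_ne_zero, if_false,
      Pi.zero_apply]
    abel
  have : (fun ξ => ((a₃ ξ i : ↥(maximalIdeal ↥A)) : ↥A)) =
      fun ξ => ((ψ i ξ : ↥(maximalIdeal ↥A)) : ↥A) := by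
    funext ξ
    rw [key ξ]
  rw [this]
  exact hψ i

/-- **[NEG]** -/
theorem s19e_neg : s19_GEng → s19_Neg := by
  intro hG K F k Fb _ _ _ _ _ _ _ x _ A π O red r FW l g hC 𝔰 Ξ a₁ a₃ hσ hprin i
  classical
  obtain ⟨ψ, hψ, hp⟩ := s19e_geng_sys hG hC 𝔰 (d := 0) (fun j => j.elim0) (fun j => j.elim0)
    (fun j => j.elim0) (fun j => j.elim0) (fun j => j.elim0) (fun _ j => j.elim0) 1 0
    (fun (i : Fin g) (ξ : Ξ) => ((a₁ ξ i : ↥(maximalIdeal ↥A)) : ↥A)) hσ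
    (fun i _ ξ => 0) (fun i _ ξ => a₁ ξ i)
    (fun j => j.elim0) (fun j => j.elim0)
    (fun i a => Subalgebra.zero_mem _)
    (fun i a => s19_gen_mem_cl l _ _ i) (fun j => j.elim0) (fun j => j.elim0)
  have key : ∀ ξ, a₃ ξ = fun i => ψ i ξ := by
    intro ξ
    apply s19f_coord_unique hC 𝔰
    have h1 := hp ξ
    have h2 := hprin ξ
    have h3 := (Divisor.principal (K := K) (F := F)).add_mem h1 h2
    convert h3 using 1
    simp only [Finset.univ_eq_empty, Finset.sum_empty, add_zero, Fin.sum_univ_succ,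
      Fin.sum_univ_zero, Finset.sum_add_distrib, s19_divS, Pi.zero_apply]
    abel
  have : (fun ξ => ((a₃ ξ i : ↥(maximalIdeal ↥A)) : ↥A)) =
      fun ξ => ((ψ i ξ : ↥(maximalIdeal ↥A)) : ↥A) := by
    funext ξ
    rw [key ξ]
  rw [this]
  exact hψ i

section Chg

variable {K F k Fb : Type} [Field K] [Field F] [Algebra K F] [IsAlgClosed K] [Field k] [Field Fb]
  [Algebra k Fb] {x : F} [FFGen K x] {A : ValuationSubring K} {π : ↥A →+* k}
  {O : ValuationSubring F} {red : ↥O →+* Fb} {r : Place K F → Place k Fb} {FW : Subring F}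
  {l : ↥A} {g : ℕ}

/-- [CHG] for systems with disjoint supports. -/
theorem s19e_chg_disj (hG : s19_GEng) (hC : s19_Curve x A π O red r FW l g)
    (𝔰 𝔰' : s19_Sys red r FW g) (hdis : ∀ i j, 𝔰'.Q i ≠ 𝔰.Q j)
    {Ξ : Type} (a₁ a₃ : Ξ → Fin g → ↥(maximalIdeal ↥A))
    (hσ : s19_Small l (fun (i : Fin g) (ξ : Ξ) => ((a₁ ξ i : ↥(maximalIdeal ↥A)) : ↥A)))
    (hprin : ∀ ξ, (s19_divS hC 𝔰 (a₁ ξ) - s19_divS hC 𝔰 0) -
        (s19_divS hC 𝔰' (a₃ ξ) - s19_divS hC 𝔰' 0) ∈ Divisor.principal (K := K) (F := F))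
    (i : Fin g) :
    (fun ξ => ((a₃ ξ i : ↥(maximalIdeal ↥A)) : ↥A)) ∈
      s19_cl l (s19a_W A FW) (fun (i : Fin g) (ξ : Ξ) => ((a₁ ξ i : ↥(maximalIdeal ↥A)) : ↥A)) := by
  classical
  obtain ⟨ψ, hψ, hp⟩ := s19e_geng_sys hG hC 𝔰' (d := g) 𝔰.Q 𝔰.t 𝔰.param 𝔰.rat 𝔰.inj hdis 0 1
    (fun (i : Fin g) (ξ : Ξ) => ((a₁ ξ i : ↥(maximalIdeal ↥A)) : ↥A)) hσ
    (fun i _ ξ => 0) (fun i a => a.elim0)
    (fun j _ ξ => a₁ ξ j) (fun j _ ξ => 0)
    (fun i a => Subalgebra.zero_mem _) (fun i a => a.elim0)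
    (fun j a => s19_gen_mem_cl l _ _ j) (fun j a => Subalgebra.zero_mem _)
  have key : ∀ ξ, a₃ ξ = fun i => ψ i ξ := by
    intro ξ
    apply s19f_coord_unique hC 𝔰'
    have h1 := hp ξ
    have h2 := hprin ξ
    have h3 := (Divisor.principal (K := K) (F := F)).sub_mem h1 h2
    convert h3 using 1
    simp only [Finset.univ_eq_empty, Finset.sum_empty, add_zero, Fin.sum_univ_succ,
      Fin.sum_univ_zero, Finset.sum_add_distrib, s19_divS, s19_ptS, Pi.zero_apply, zero_add,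
      Finset.sum_const_zero]
    abel
  have : (fun ξ => ((a₃ ξ i : ↥(maximalIdeal ↥A)) : ↥A)) =
      fun ξ => ((ψ i ξ : ↥(maximalIdeal ↥A)) : ↥A) := by
    funext ξ
    rw [key ξ]
  rw [this]
  exact hψ i

/-- a coordinate system off a finite set of places. -/
theorem s19e_exists_sys (hC : s19_Curve x A π O red r FW l g) (S : Finset (Place k Fb)) :
    ∃ 𝔰 : s19_Sys red r FW g, ∀ i, 𝔰.Q i ∉ S := by
  obtain ⟨Q, hQinj, hQS, hQns⟩ := s19n_nonSp_curve hC S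
  choose t htW ht using fun i => hC.param (Q i)
  exact ⟨⟨Q, t, hQinj, ht, htW, hQns⟩, hQS⟩

theorem s19e_mapDomain_sub {α β : Type*} (f : α → β) (D E : α →₀ ℤ) :
    Finsupp.mapDomain f (D - E) = Finsupp.mapDomain f D - Finsupp.mapDomain f E := by
  have h := Finsupp.mapDomain_add (f := f) (v₁ := D - E) (v₂ := E)
  rw [sub_add_cancel] at h
  rw [h, add_sub_cancel_right]

end Chg

/-- **[CHG]** -/
theorem s19e_chg : s19_GEng → s19_Chg := by
  intro hG K F k Fb _ _ _ _ _ _ _ x _ A π O red r FW l g hC 𝔰 𝔰' Ξ a₁ a₃ hσ hprin i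
  classical
  -- a third system, off both
  obtain ⟨𝔱, h𝔱⟩ := s19e_exists_sys hC (Finset.univ.image 𝔰.Q ∪ Finset.univ.image 𝔰'.Q)
  have h𝔱1 : ∀ i j, 𝔱.Q i ≠ 𝔰.Q j := fun i j e =>
    h𝔱 i (Finset.mem_union_left _ (Finset.mem_image.mpr ⟨j, Finset.mem_univ j, e.symm⟩))
  have h𝔱2 : ∀ i j, 𝔰'.Q i ≠ 𝔱.Q j := fun i j e =>
    h𝔱 j (Finset.mem_union_right _ (Finset.mem_image.mpr ⟨i, Finset.mem_univ i, e⟩))
  -- the coordinates in the third system
  have hex : ∀ ξ, ∃ a : Fin g → ↥(maximalIdeal ↥A),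
      (s19_divS hC 𝔰 (a₁ ξ) - s19_divS hC 𝔰 0) - (s19_divS hC 𝔱 a - s19_divS hC 𝔱 0) ∈
        Divisor.principal (K := K) (F := F) := by
    intro ξ
    apply s19f_coord_exists hC 𝔱
    · rw [map_sub, s19f_divS_degree, s19f_divS_degree, sub_self]
    · rw [s19e_mapDomain_sub, s19f_divS_map, s19f_divS_map, sub_self]
      exact (Divisor.principal (K := k) (F := Fb)).zero_mem
  choose a₂ ha₂ using hex
  have hmem2 : ∀ j, (fun ξ => ((a₂ ξ j : ↥(maximalIdeal ↥A)) : ↥A)) ∈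
      s19_cl l (s19a_W A FW) (fun (i : Fin g) (ξ : Ξ) => ((a₁ ξ i : ↥(maximalIdeal ↥A)) : ↥A)) :=
    fun j => s19e_chg_disj hG hC 𝔰 𝔱 h𝔱1 a₁ a₂ hσ ha₂ j
  -- smallness of the intermediate coordinates
  have hsmall2 : s19_Small l (fun (i : Fin g) (ξ : Ξ) => ((a₂ ξ i : ↥(maximalIdeal ↥A)) : ↥A)) := by
    have h1 : ∀ j : Fin g, ∃ e : ℕ, ∀ ξ, l ∣ ((a₂ ξ j : ↥(maximalIdeal ↥A)) : ↥A) ^ e := fun j =>
      s19a_closSmall l (s19a_W A FW) hC.base _ hσ _ (hmem2 j) (fun ξ => (a₂ ξ j).2)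
    choose e he using h1
    refine ⟨∑ j, e j, fun j ξ => ?_⟩
    have hle : e j ≤ ∑ j, e j := Finset.single_le_sum (fun _ _ => Nat.zero_le _) (Finset.mem_univ j)
    exact (he j ξ).trans (pow_dvd_pow _ hle)
  -- from the third system to the second
  have hprin2 : ∀ ξ, (s19_divS hC 𝔱 (a₂ ξ) - s19_divS hC 𝔱 0) -
      (s19_divS hC 𝔰' (a₃ ξ) - s19_divS hC 𝔰' 0) ∈ Divisor.principal (K := K) (F := F) := by
    intro ξ
    have h3 := (Divisor.principal (K := K) (F := F)).sub_mem (hprin ξ) (ha₂ ξ)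
    convert h3 using 1
    abel
  have hmem3 := s19e_chg_disj hG hC 𝔱 𝔰' h𝔱2 a₂ a₃ hsmall2 hprin2 i
  exact s19_cl_le l (s19a_W A FW) _ _ hmem2 hmem3

end Fermat.Agent.Lib.S19
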