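/-
W-A programme (S19/S32), brick [GENG] part 0 (helper6, prefix `s19e_`): LINEAR ALGEBRA for the
hypotheses (E1)/(E2) of the abstract engine.

* `s19e_onto_of_ker`: `β 0, …, β N` independent, `U` a finite-dimensional subspace containing
  `β 0`; a linear system `T : k^N → k^R` whose kernel is carried into `U` by
  `x ↦ Σ x_j β_{j+1}` is ONTO as soon as `dim U + |R| ≤ N + 1`.
* `s19e_bij_of_surj`: an onto square system is bijective.
* `s19e_surj_transport`, `s19e_bij_transport`: transport along an isomorphism of fields
  (`ResidueField A ≃+* k`).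
-/
import Mathlib

set_option autoImplicit false

noncomputable section

namespace Fermat.Agent.Lib.S19

open Module

/-- the linear system with coefficient matrix `C`. -/
def s19e_sys {k : Type*} [Field k] {N : ℕ} {R : Type*} (C : R → Fin N → k) :
    (Fin N → k) →ₗ[k] (R → k) where
  toFun x r := ∑ j, x j * C r j
  map_add' x y := by
    funext r
    simp only [Pi.add_apply, add_mul, Finset.sum_add_distrib]
  map_smul' c x := by
    funext r
    simp only [Pi.smul_apply, smul_eq_mul, RingHom.id_apply, Finset.mul_sum, mul_assoc]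

theorem s19e_sys_apply {k : Type*} [Field k] {N : ℕ} {R : Type*} (C : R → Fin N → k)
    (x : Fin N → k) (r : R) : s19e_sys C x r = ∑ j, x j * C r j := rfl

/-- the map `x ↦ Σ x_j β_{j+1}`. -/
def s19e_comb (k : Type*) {V : Type*} [Field k] [AddCommGroup V] [Module k V] {N : ℕ}
    (β : Fin (N + 1) → V) : (Fin N → k) →ₗ[k] V :=
  Fintype.linearCombination k (fun j : Fin N => β j.succ)

theorem s19e_comb_apply {k V : Type*} [Field k] [AddCommGroup V] [Module k V] {N : ℕ}
    (β : Fin (N + 1) → V) (x : Fin N → k) : s19e_comb k β x = ∑ j, x j • β j.succ := by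
  unfold s19e_comb
  rw [Fintype.linearCombination_apply]

theorem s19e_comb_injective {k V : Type*} [Field k] [AddCommGroup V] [Module k V] {N : ℕ}
    (β : Fin (N + 1) → V) (hβ : LinearIndependent k β) : Function.Injective (s19e_comb k β) := by
  have h1 : LinearIndependent k (fun j : Fin N => β j.succ) :=
    hβ.comp Fin.succ (Fin.succ_injective N)
  intro x y hxy
  have hsub : ∑ j, (x j - y j) • β j.succ = 0 := by
    have := sub_eq_zero.mpr hxy
    rw [← map_sub, s19e_comb_apply] at this
    simpa using this
  have := Fintype.linearIndependent_iff.mp h1 _ hsub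
  funext j
  exact sub_eq_zero.mp (this j)

theorem s19e_zero_notMem_span {k V : Type*} [Field k] [AddCommGroup V] [Module k V] {N : ℕ}
    (β : Fin (N + 1) → V) (hβ : LinearIndependent k β) :
    β 0 ∉ LinearMap.range (s19e_comb k β) := by
  rintro ⟨x, hx⟩
  rw [s19e_comb_apply] at hx
  -- a non-trivial relation
  have hrel : ∑ i : Fin (N + 1), (Fin.cons (-1) x : Fin (N + 1) → k) i • β i = 0 := by
    rw [Fin.sum_univ_succ]
    simp only [Fin.cons_zero, Fin.cons_succ, neg_smul, one_smul]
    rw [hx]
    exact neg_add_cancel _
  have := Fintype.linearIndependent_iff.mp hβ _ hrel 0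
  simp only [Fin.cons_zero] at this
  exact one_ne_zero (neg_eq_zero.mp this)

/-- **surjectivity from a bound on the kernel.** -/
theorem s19e_onto_of_ker {k V : Type*} [Field k] [AddCommGroup V] [Module k V] {N : ℕ}
    {R : Type*} [Fintype R] (β : Fin (N + 1) → V) (hβ : LinearIndependent k β)
    (U : Submodule k V) [FiniteDimensional k U] (h0 : β 0 ∈ U)
    (T : (Fin N → k) →ₗ[k] (R → k)) (hT : ∀ x, T x = 0 → s19e_comb k β x ∈ U)
    (hdim : finrank k U + Fintype.card R ≤ N + 1) : Function.Surjective T := by
  classical
  set S : Submodule k V := LinearMap.range (s19e_comb k β) with hS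
  -- `U ⊓ S` is a proper subspace of `U`
  have hlt : U ⊓ S < U := by
    refine lt_of_le_of_ne inf_le_left fun h => ?_
    have : β 0 ∈ U ⊓ S := by rw [h]; exact h0
    exact s19e_zero_notMem_span β hβ this.2
  have hfin : finrank k ↥(U ⊓ S) < finrank k U := Submodule.finrank_lt_finrank_of_lt hlt
  -- the kernel of `T` embeds into `U ⊓ S`
  let ι₀ : ↥(LinearMap.ker T) →ₗ[k] ↥(U ⊓ S) :=
    { toFun := fun x => ⟨s19e_comb k β x.1, hT x.1 (LinearMap.mem_ker.mp x.2), ⟨x.1, rfl⟩⟩
      map_add' := fun x y => Subtype.ext (by simp)
      map_smul' := fun c x => Subtype.ext (by simp) }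
  have hι₀ : Function.Injective ι₀ := by
    intro x y hxy
    apply Subtype.ext
    apply s19e_comb_injective β hβ
    exact congrArg (fun z : ↥(U ⊓ S) => (z : V)) hxy
  have : FiniteDimensional k ↥(U ⊓ S) := Submodule.finiteDimensional_inf_left U S
  have hker : finrank k ↥(LinearMap.ker T) ≤ finrank k ↥(U ⊓ S) :=
    LinearMap.finrank_le_finrank_of_injective hι₀
  have hrn := LinearMap.finrank_range_add_finrank_ker T
  rw [finrank_fin_fun] at hrn
  have hrange : finrank k ↥(LinearMap.range T) = finrank k (R → k) := by
    have h1 : finrank k ↥(LinearMap.range T) ≤ finrank k (R → k) := Submodule.finrank_le _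
    rw [finrank_pi] at h1 ⊢
    omega
  rw [← LinearMap.range_eq_top]
  exact Submodule.eq_top_of_finrank_eq hrange

/-- an onto square system is bijective. -/
theorem s19e_bij_of_surj {k : Type*} [Field k] {N : ℕ} {R : Type*} [Fintype R]
    (T : (Fin N → k) →ₗ[k] (R → k)) (hT : Function.Surjective T) (hcard : Fintype.card R = N) :
    Function.Bijective T := by
  refine ⟨?_, hT⟩
  have hfr : finrank k (Fin N → k) = finrank k (R → k) := by
    rw [finrank_fin_fun, finrank_pi, hcard]
  exact (LinearMap.injective_iff_surjective_of_finrank_eq_finrank hfr).mpr hT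

/-! ### transport along an isomorphism of fields -/

theorem s19e_surj_transport {k' k : Type*} [Field k'] [Field k] (e : k' ≃+* k) {N : ℕ}
    {R : Type*} (C : R → Fin N → k')
    (h : Function.Surjective (fun (y : Fin N → k) (r : R) => ∑ j, y j * e (C r j))) :
    Function.Surjective (fun (x : Fin N → k') (r : R) => ∑ j, x j * C r j) := by
  intro z
  obtain ⟨y, hy⟩ := h (fun r => e (z r))
  refine ⟨fun j => e.symm (y j), ?_⟩
  funext r
  apply e.injective
  have := congrFun hy r
  simp only at this
  rw [← this, map_sum]
  refine Finset.sum_congr rfl fun j _ => ?_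
  rw [map_mul, RingEquiv.apply_symm_apply]

theorem s19e_inj_transport {k' k : Type*} [Field k'] [Field k] (e : k' ≃+* k) {N : ℕ}
    {R : Type*} (C : R → Fin N → k')
    (h : Function.Injective (fun (y : Fin N → k) (r : R) => ∑ j, y j * e (C r j))) :
    Function.Injective (fun (x : Fin N → k') (r : R) => ∑ j, x j * C r j) := by
  intro x x' hxx
  have h1 : (fun j => e (x j)) = fun j => e (x' j) := by
    apply h
    funext r
    have := congrArg e (congrFun hxx r)
    simp only [map_sum, map_mul] at this
    exact this
  funext j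
  exact e.injective (congrFun h1 j)

end Fermat.Agent.Lib.S19
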