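/-
W-A programme (S19/S32), brick [GENG] part 3 (helper6, prefix `s19e_`): THE REDUCED SYSTEMS.

For a family of discs with ambient divisor `E_amb = Σ m_i · centre_i` and a Gauss-integral family
`b 0 = 1, b 1, …, b N` of `L(E_amb)` with independent reductions, the functions
`B i j = t_i^{m_i} · b j ∈ G(Q_i)` and the reduced Taylor systems of order `< L_i`:
`s19e_rows_surj`: the system is onto on `⟨b̄ 1, …, b̄ N⟩` as soon as
`ℓ_k(Σ (m_i − L_i) Q_i) + Σ L_i ≤ N + 1`.
-/
import Fermat.Agent.Lib.S19.EGeoDiv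
import Fermat.Agent.Lib.S19.EGeoLin

set_option autoImplicit false
set_option linter.unusedSectionVars false
set_option linter.unusedVariables false

noncomputable section

namespace Fermat.Agent.Lib.S19

open AlgebraicCurve Fermat.Agent.Lib.FF Fermat.Agent.Lib.S37 IsLocalRing

section Family

variable {K F k Fb : Type} [Field K] [Field F] [Algebra K F] [IsAlgClosed K] [Field k] [Field Fb]
  [Algebra k Fb] {x : F} [FFGen K x] {A : ValuationSubring K} {π : ↥A →+* k}
  {O : ValuationSubring F} {red : ↥O →+* Fb} {r : Place K F → Place k Fb} {FW : Subring F}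
  {l : ↥A} {g : ℕ} (hC : s19_Curve x A π O red r FW l g)
  {ι : Type} [Fintype ι] [DecidableEq ι] (Qd : ι → Place k Fb) (td : ι → F)
  (hpar : ∀ i, s19a_IsParam red r (Qd i) (td i)) (hinj : Function.Injective Qd)
  (hratt : ∀ i, td i ∈ FW)

/-! ### the residue field of `A` is `k` -/

include hC in
theorem s19e_ker_pi : RingHom.ker π = maximalIdeal ↥A := by
  ext a
  rw [RingHom.mem_ker]
  exact s19a_pi_eq_zero_iff hC.rd a

/-- `ResidueField A ≃ k`. -/
def s19e_resEquiv : ResidueField ↥A ≃+* k :=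
  (Ideal.quotEquivOfEq (s19e_ker_pi hC).symm).trans
    (RingHom.quotientKerEquivOfSurjective hC.pi_surj)

theorem s19e_resEquiv_residue (a : ↥A) : s19e_resEquiv hC (residue ↥A a) = π a := by
  unfold s19e_resEquiv
  show (RingHom.quotientKerEquivOfSurjective hC.pi_surj)
    ((Ideal.quotEquivOfEq (s19e_ker_pi hC).symm) (Ideal.Quotient.mk _ a)) = π a
  rw [Ideal.quotEquivOfEq_mk]
  exact RingHom.quotientKerEquivOfSurjective_apply_mk _ a

/-! ### the discs and the functions `B i j` -/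

/-- the abstract disc of the `i`-th place. -/
def s19e_Dd (i : ι) :
    letI := s19a_algebraG hC.rd (Qd i)
    s19_Disc ↥A (s19a_W A FW) ↥(s19a_G O r (Qd i)) :=
  s19a_disc x hC.rd (hpar i) FW hC.fw_inv (hratt i) (hC.ratc (Qd i) (td i) (hpar i) (hratt i))

variable (m : ι → ℕ) {N : ℕ} (b : Fin (N + 1) → F) (hbO : ∀ j, b j ∈ O)
  (hbE : ∀ j, b j ∈ riemannRochSpace (s19e_Eamb hC Qd td hpar m))

include hinj in
theorem s19e_B_mem (i : ι) {f : F} (hfO : f ∈ O)
    (hfE : f ∈ riemannRochSpace (s19e_Eamb hC Qd td hpar m)) :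
    td i ^ m i * f ∈ s19a_G O r (Qd i) :=
  s19e_pow_mul_mem x hC.rd (hpar i) (m i) (s19e_Eamb hC Qd td hpar m)
    (s19e_Eamb_centre hC Qd td hpar hinj m i)
    (fun P hP hne => s19e_Eamb_other hC Qd td hpar hinj m i P hP hne) hfO hfE

/-- `B i j = t_i^{m_i} b_j` as an element of `G(Q_i)`. -/
def s19e_B (i : ι) (j : Fin (N + 1)) : ↥(s19a_G O r (Qd i)) :=
  ⟨td i ^ m i * b j, s19e_B_mem hC Qd td hpar hinj m i (hbO j) (hbE j)⟩

theorem s19e_sum_single_nonneg (n : ι → ℤ) (hn : ∀ i, 0 ≤ n i) (Q₀ : Place k Fb) :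
    0 ≤ (∑ j, Finsupp.single (Qd j) (n j)) Q₀ := by
  classical
  rw [Finsupp.finsetSum_apply]
  refine Finset.sum_nonneg fun i _ => ?_
  rw [Finsupp.single_apply]
  split_ifs
  · exact hn i
  · exact le_rfl

/-- **the reduced Taylor system of order `< L_i` is onto.** -/
theorem s19e_rows_surj (hb0 : b 0 = 1)
    (hbli : LinearIndependent k fun j => red ⟨b j, hbO j⟩)
    (L : ι → ℕ) (hL : ∀ i, L i ≤ m i)
    (hdim : Module.finrank k
      ↥(riemannRochSpace (∑ i, Finsupp.single (Qd i) ((m i : ℤ) - L i))) + ∑ i, L i ≤ N + 1) :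
    letI : ∀ i, Algebra ↥A ↥(s19a_G O r (Qd i)) := fun i => s19a_algebraG hC.rd (Qd i)
    Function.Surjective (fun (y : Fin N → ResidueField ↥A) (ρ : Σ i, Fin (L i)) =>
      ∑ j : Fin N, y j * residue ↥A (s19_tay (s19e_Dd hC Qd td hpar hratt ρ.1) (ρ.2 : ℕ)
        (s19e_B hC Qd td hpar hinj m b hbO hbE ρ.1 j.succ))) := by
  letI : ∀ i, Algebra ↥A ↥(s19a_G O r (Qd i)) := fun i => s19a_algebraG hC.rd (Qd i)
  classical
  apply s19e_surj_transport (s19e_resEquiv hC)
  set C : (Σ i, Fin (L i)) → Fin N → k := fun ρ j =>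
    π (s19_tay (s19e_Dd hC Qd td hpar hratt ρ.1) (ρ.2 : ℕ)
      (s19e_B hC Qd td hpar hinj m b hbO hbE ρ.1 j.succ)) with hCdef
  have hCe : ∀ (ρ : Σ i, Fin (L i)) (j : Fin N),
      s19e_resEquiv hC (residue ↥A (s19_tay (s19e_Dd hC Qd td hpar hratt ρ.1) (ρ.2 : ℕ)
        (s19e_B hC Qd td hpar hinj m b hbO hbE ρ.1 j.succ))) = C ρ j :=
    fun ρ j => s19e_resEquiv_residue hC _
  simp only [hCe]
  show Function.Surjective (s19e_sys C)
  set β : Fin (N + 1) → Fb := fun j => red ⟨b j, hbO j⟩ with hβ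
  set Udiv : Divisor k Fb := ∑ i, Finsupp.single (Qd i) ((m i : ℤ) - L i) with hUdiv
  have hUnn : ∀ Q₀, 0 ≤ Udiv Q₀ :=
    s19e_sum_single_nonneg Qd _ (fun i => by have := hL i; omega)
  haveI : FiniteDimensional k ↥(riemannRochSpace Udiv) := hC.rrFb.fin Udiv
  have h0 : β 0 ∈ riemannRochSpace Udiv := by
    have : β 0 = 1 := by
      rw [hβ]
      simp only
      have : (⟨b 0, hbO 0⟩ : ↥O) = 1 := Subtype.ext hb0
      rw [this, map_one]
    rw [this]
    exact s19n_one_mem hUnn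
  have hcard : Fintype.card (Σ i, Fin (L i)) = ∑ i, L i := by
    rw [Fintype.card_sigma]
    simp
  refine s19e_onto_of_ker β hbli (riemannRochSpace Udiv) h0 (s19e_sys C) ?_ (by rw [hcard]; exact hdim)
  -- the kernel
  intro y hy
  rw [s19e_comb_apply]
  have hy' : ∀ ρ : Σ i, Fin (L i), ∑ j, y j * C ρ j = 0 := fun ρ => by
    have := congrFun hy ρ
    rwa [s19e_sys_apply] at this
  choose lam hlam using fun j => hC.pi_surj (y j)
  set f : F := ∑ j : Fin N, algebraMap K F ((lam j : ↥A) : K) * b j.succ with hf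
  have hfO : f ∈ O :=
    sum_mem fun j _ => O.mul_mem _ _ (hC.rd.const_mem (lam j)) (hbO j.succ)
  have hfE : f ∈ riemannRochSpace (s19e_Eamb hC Qd td hpar m) := by
    refine Submodule.sum_mem _ fun j _ => ?_
    rw [← Algebra.smul_def]
    exact Submodule.smul_mem _ _ (hbE j.succ)
  -- the reduction of `f`
  have hfsub : (⟨f, hfO⟩ : ↥O) =
      ∑ j : Fin N, (⟨algebraMap K F ((lam j : ↥A) : K), hC.rd.const_mem (lam j)⟩ : ↥O) *
        ⟨b j.succ, hbO j.succ⟩ := by
    apply Subtype.ext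
    rw [AddSubmonoidClass.coe_finsetSum]
    rfl
  have hredf : red ⟨f, hfO⟩ = ∑ j : Fin N, y j • β j.succ := by
    rw [hfsub, map_sum]
    refine Finset.sum_congr rfl fun j _ => ?_
    rw [map_mul, hC.rd.red_const, hlam j, Algebra.smul_def]
  rw [← hredf, mem_riemannRochSpace_iff]
  intro Q₀
  by_cases hred0 : red ⟨f, hfO⟩ = 0
  · exact Or.inl hred0
  right
  by_cases hex : ∃ i, Q₀ = Qd i
  · obtain ⟨i, rfl⟩ := hex
    rw [hUdiv, s19e_sum_single_self Qd hinj]
    -- the function on the `i`-th disc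
    set fG : ↥(s19a_G O r (Qd i)) := ∑ j : Fin N,
      algebraMap ↥A ↥(s19a_G O r (Qd i)) (lam j) *
        s19e_B hC Qd td hpar hinj m b hbO hbE i j.succ with hfG
    have hfGcoe : (fG : F) = td i ^ m i * f := by
      rw [hfG, AddSubmonoidClass.coe_finsetSum, hf, Finset.mul_sum]
      refine Finset.sum_congr rfl fun j _ => ?_
      show algebraMap K F ((lam j : ↥A) : K) * (td i ^ m i * b j.succ) = _
      ring
    have htay : ∀ s < L i, s19_tay (s19e_Dd hC Qd td hpar hratt i) s fG ∈ maximalIdeal ↥A := by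
      intro s hs
      rw [← s19a_pi_eq_zero_iff hC.rd, hfG, s19e_tay_sum, map_sum]
      have := hy' ⟨i, ⟨s, hs⟩⟩
      rw [← this]
      refine Finset.sum_congr rfl fun j _ => ?_
      rw [map_mul, hlam j]
    obtain ⟨h', hh'⟩ := s19e_bridge x hC.rd (hpar i) FW hC.fw_inv (hratt i)
      (hC.ratc (Qd i) (td i) (hpar i) (hratt i)) (L i) fG htay
    set tb : Fb := red ⟨td i, (s19a_mem_G.mp (hpar i).mem).1⟩ with htb
    have htb0 : tb ≠ 0 := s19a_param_red_ne_zero (hpar i)
    have hredG : s19e_redG red r (Qd i) fG = tb ^ m i * red ⟨f, hfO⟩ := by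
      rw [s19e_redG_apply]
      have : (⟨(fG : F), s19a_memO fG⟩ : ↥O) =
          ⟨td i, (s19a_mem_G.mp (hpar i).mem).1⟩ ^ m i * ⟨f, hfO⟩ := Subtype.ext hfGcoe
      rw [this, map_mul, map_pow]
    rw [hredG] at hh'
    have hlhs0 : tb ^ m i * red ⟨f, hfO⟩ ≠ 0 := mul_ne_zero (pow_ne_zero _ htb0) hred0
    have hh'0 : s19e_redG red r (Qd i) h' ≠ 0 := by
      intro h0
      rw [h0, mul_zero] at hh'
      exact hlhs0 hh'
    have hord := congrArg (Qd i).ord hh'
    rw [(Qd i).ord_mul (pow_ne_zero _ htb0) hred0, (Qd i).ord_mul (pow_ne_zero _ htb0) hh'0,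
      s19e_ord_pow, s19e_ord_pow, htb, (hpar i).ord] at hord
    have := s19e_redG_ord_nonneg x hC.rd (hpar i) h' hh'0
    linarith
  · push Not at hex
    rw [hUdiv, s19e_sum_single_off Qd _ Q₀ hex]
    have h1 := s19l_red_mem hC.rd (s19e_Eamb hC Qd td hpar m) hfO hfE
    rw [s19e_Eamb_map, mem_riemannRochSpace_iff] at h1
    have h2 := (h1 Q₀).resolve_left hred0
    rw [s19e_sum_single_off Qd _ Q₀ hex] at h2
    exact h2

end Family

end Fermat.Agent.Lib.S19
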