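/-
W-A programme (S19/S32), contract [LIFT] `s19_Lift` (IfaceCurve.lean): for divisors `E` of large
degree every function of `L_k(r_* E)` lifts to a Gauss-integral function of `L(E)`
(helper7, prefix `s19l_`).

Proof: the reduction of a Gauss-integral function of `L(E)` lies in `L_k(r_* E)` (conservation of
number); a Gauss-orthonormal basis of `L(E)` (`sc`) reduces to `ℓ(E)` independent functions of
`L_k(r_* E)`, which has the same dimension `deg E + 1 - g` (Riemann on both fibres, same genus):
they form a basis, and coefficients lift along `π`.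
-/
import Fermat.Agent.Lib.S19.IfaceCurve

set_option autoImplicit false

noncomputable section

namespace Fermat.Agent.Lib.S19

open AlgebraicCurve Fermat.Agent.Lib.FF Fermat.Agent.Lib.S37 IsLocalRing

variable {K F : Type*} [Field K] [Field F] [Algebra K F]
  {k Fb : Type*} [Field k] [Field Fb] [Algebra k Fb]
  {A : ValuationSubring K} {π : ↥A →+* k} {O : ValuationSubring F} {red : ↥O →+* Fb}
  {r : Place K F → Place k Fb}

/-- the push-forward preserves the degree when all places have degree one. -/
theorem s19l_degree_mapDomain (hF : ∀ P : Place K F, P.deg = 1) (hFb : ∀ Q : Place k Fb, Q.deg = 1)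
    (D : Divisor K F) : Divisor.degree (Finsupp.mapDomain r D) = Divisor.degree D := by
  induction D using Finsupp.induction with
  | zero => simp
  | single_add P n D _ _ ih =>
    rw [Finsupp.mapDomain_add, map_add, map_add, ih, Finsupp.mapDomain_single,
      Divisor.degree_single, Divisor.degree_single, hF, hFb]

/-- the push-forward of an effective divisor is effective. -/
theorem s19l_mapDomain_nonneg (D : Divisor K F) (hD : ∀ P, 0 ≤ D P) (Q : Place k Fb) :
    0 ≤ Finsupp.mapDomain r D Q := by
  classical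
  rw [s37r_mapDomain_apply]
  exact Finset.sum_nonneg fun P _ => hD P

/-- **the reduction of a Gauss-integral function of `L(E)` lies in `L_k(r_* E)`.** -/
theorem s19l_red_mem [IsAlgClosed K] (h : s19_RD A π O red r) (E : Divisor K F) {f : F} (hf : f ∈ O)
    (hfE : f ∈ riemannRochSpace E) :
    red ⟨f, hf⟩ ∈ riemannRochSpace (Finsupp.mapDomain r E) := by
  rw [mem_riemannRochSpace_iff]
  intro Q
  by_cases h0 : red ⟨f, hf⟩ = 0
  · exact Or.inl h0
  right
  have hne : f ≠ 0 := s19a_ne_zero_of_red h hf h0
  set Dv : Divisor K F := Finsupp.ofSupportFinite (fun P => P.ord f) (h.fin f hne) with hDv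
  have hDvP : ∀ P, Dv P = P.ord f := fun P => rfl
  have hc := h.cons f hf h0 Dv hDvP Q
  rw [← hc]
  have hnn : ∀ P, 0 ≤ (Dv + E) P := by
    intro P
    rw [Finsupp.add_apply, hDvP]
    rw [mem_riemannRochSpace_iff] at hfE
    rcases hfE P with h1 | h1
    · exact absurd h1 hne
    · omega
  have := s19l_mapDomain_nonneg (r := r) (Dv + E) hnn Q
  rw [Finsupp.mapDomain_add, Finsupp.add_apply] at this
  omega

/-- **[LIFT]** -/
theorem s19l_lift : s19_Lift := by
  intro K F k Fb _ _ _ _ _ _ _ x _ A π O red r FW l g hC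
  obtain ⟨c₁, hc₁⟩ := hC.rrF.large
  obtain ⟨c₂, hc₂⟩ := hC.rrFb.large
  refine ⟨max c₁ c₂, fun E hE z hz => ?_⟩
  have hdegE : Divisor.degree (Finsupp.mapDomain r E) = Divisor.degree E :=
    s19l_degree_mapDomain hC.degF hC.degFb E
  have h1 := hc₁ E (le_trans (le_max_left _ _) hE)
  have h2 := hc₂ (Finsupp.mapDomain r E) (by rw [hdegE]; exact le_trans (le_max_right _ _) hE)
  rw [hdegE, ← h1] at h2
  have hfr : Module.finrank k ↥(riemannRochSpace (Finsupp.mapDomain r E)) =
      Module.finrank K ↥(riemannRochSpace E) := by exact_mod_cast h2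
  have hfinE := hC.rrF.fin E
  have hfinbE := hC.rrFb.fin (Finsupp.mapDomain r E)
  -- a basis of `L(E)`
  set n := Module.finrank K ↥(riemannRochSpace E) with hn
  let B := Module.finBasis K ↥(riemannRochSpace E)
  set b : Fin n → F := fun i => ((B i : ↥(riemannRochSpace E)) : F) with hb
  have hbli : LinearIndependent K b :=
    B.linearIndependent.map' (riemannRochSpace E).subtype (Submodule.ker_subtype _)
  have hbspan : Submodule.span K (Set.range b) = riemannRochSpace E := by
    have : Set.range b = (riemannRochSpace E).subtype '' Set.range B := by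
      rw [← Set.range_comp]; rfl
    rw [this, ← Submodule.map_span, B.span_eq, Submodule.map_subtype_top]
  obtain ⟨b', hb'span, hb'O, hb'li⟩ := hC.sc n b hbli
  rw [hbspan] at hb'span
  have hb'E : ∀ i, b' i ∈ riemannRochSpace E := fun i => by
    rw [← hb'span]; exact Submodule.subset_span ⟨i, rfl⟩
  -- the reductions form a basis of `L_k(r_* E)`
  set w : Fin n → ↥(riemannRochSpace (Finsupp.mapDomain r E)) :=
    fun i => ⟨red ⟨b' i, hb'O i⟩, s19l_red_mem hC.rd E (hb'O i) (hb'E i)⟩ with hw
  have hwli : LinearIndependent k w :=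
    LinearIndependent.of_comp (riemannRochSpace (Finsupp.mapDomain r E)).subtype hb'li
  have hcard : Fintype.card (Fin n) =
      Module.finrank k ↥(riemannRochSpace (Finsupp.mapDomain r E)) := by
    rw [Fintype.card_fin, hfr]
  have hwspan : Submodule.span k (Set.range w) = ⊤ :=
    hwli.span_eq_top_of_card_eq_finrank' hcard
  let W := Module.Basis.mk hwli hwspan.ge
  have hz' : (⟨z, hz⟩ : ↥(riemannRochSpace (Finsupp.mapDomain r E))) =
      ∑ i, W.repr ⟨z, hz⟩ i • w i := by
    conv_lhs => rw [← W.sum_repr ⟨z, hz⟩]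
    refine Finset.sum_congr rfl fun i _ => ?_
    rw [Module.Basis.coe_mk]
  have hz'' : z = ∑ i, W.repr ⟨z, hz⟩ i • red ⟨b' i, hb'O i⟩ := by
    have := congrArg Subtype.val hz'
    rw [AddSubmonoidClass.coe_finsetSum] at this
    exact this
  -- lift the coefficients
  choose a ha using fun i => hC.pi_surj (W.repr ⟨z, hz⟩ i)
  set fO : ↥O := ∑ i, ⟨algebraMap K F (a i : K), hC.rd.const_mem (a i)⟩ * ⟨b' i, hb'O i⟩ with hfO
  have hfOcoe : (fO : F) = ∑ i, algebraMap K F (a i : K) * b' i := by
    rw [hfO, AddSubmonoidClass.coe_finsetSum]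
    rfl
  refine ⟨(fO : F), fO.2, ?_, ?_⟩
  · rw [hfOcoe]
    refine Submodule.sum_mem _ fun i _ => ?_
    rw [← Algebra.smul_def]
    exact Submodule.smul_mem _ _ (hb'E i)
  · rw [Subtype.coe_eta, hfO, map_sum, hz'']
    refine Finset.sum_congr rfl fun i _ => ?_
    rw [map_mul, hC.rd.red_const, ha, Algebra.smul_def]

end Fermat.Agent.Lib.S19
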