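/-
W-A programme (S19/S32), brick [AMB] of the geometric engine (contract of helper6, #2772;
helper7, prefix `s19l_`): for an ambient divisor `E = Σ m_j · centre_j` of large degree supported
on rational centres, `L(E)` has a rational, Gauss-integral basis `b 0 = 1, b 1, …, b N` whose
reductions are linearly independent over `k`, and `N + 1 = deg E + 1 - g`.

Proof: `ratL` gives a rational spanning family, we extract a basis, `scW` makes it
Gauss-orthonormal; the reductions form a basis of `L_k(r_* E)` (Riemann on both fibres, same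
genus; conservation of number), which contains `1`; exchange one vector for `1`.
-/
import Fermat.Agent.Lib.S19.LLift

set_option autoImplicit false

noncomputable section

namespace Fermat.Agent.Lib.S19

open AlgebraicCurve Fermat.Agent.Lib.FF Fermat.Agent.Lib.S37 IsLocalRing

/-- [AMB] the ambient lattice: rational Gauss-orthonormal basis of `L(Σ m_j · centre_j)`
containing `1`. -/
def s19_Amb : Prop :=
  ∀ {K F k Fb : Type} [Field K] [Field F] [Algebra K F] [IsAlgClosed K] [Field k] [Field Fb]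
    [Algebra k Fb] (x : F) [FFGen K x] (A : ValuationSubring K) (π : ↥A →+* k)
    (O : ValuationSubring F) (red : ↥O →+* Fb) (r : Place K F → Place k Fb) (FW : Subring F)
    (l : ↥A) (g : ℕ) (hC : s19_Curve x A π O red r FW l g),
    ∃ c : ℤ, ∀ (n : ℕ) (Q : Fin n → Place k Fb) (t : Fin n → F)
      (ht : ∀ j, s19a_IsParam red r (Q j) (t j)),
      (∀ j, t j ∈ FW) → ∀ m : Fin n → ℕ, c ≤ ∑ j, (m j : ℤ) →
      ∃ (N : ℕ) (b : Fin (N + 1) → F) (hb : ∀ i, b i ∈ O), b 0 = 1 ∧ (∀ i, b i ∈ FW) ∧
        (∀ i, b i ∈ riemannRochSpace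
          (∑ j, Finsupp.single (s19a_pt x hC.rd (ht j) 0) ((m j : ℕ) : ℤ))) ∧
        LinearIndependent k (fun i => red ⟨b i, hb i⟩) ∧
        ((N : ℤ) + 1 = ∑ j, (m j : ℤ) + 1 - g)

variable {K F : Type*} [Field K] [Field F] [Algebra K F]
  {k Fb : Type*} [Field k] [Field Fb] [Algebra k Fb]
  {A : ValuationSubring K} {π : ↥A →+* k} {O : ValuationSubring F} {red : ↥O →+* Fb}
  {r : Place K F → Place k Fb}

/-- extraction of a basis from a finite spanning family, indexed by `Fin d`. -/
theorem s19l_extract {N₀ : ℕ} (b₀ : Fin N₀ → F) :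
    ∃ (d : ℕ) (a : Fin d → Fin N₀), Function.Injective a ∧
      Submodule.span K (Set.range (b₀ ∘ a)) = Submodule.span K (Set.range b₀) ∧
      LinearIndependent K (b₀ ∘ a) := by
  obtain ⟨κ, a, ha, hsp, hli⟩ := exists_linearIndependent' K b₀
  have : Finite κ := Finite.of_injective a ha
  let e : Fin (Nat.card κ) ≃ κ := (Finite.equivFin κ).symm
  refine ⟨Nat.card κ, a ∘ e, ha.comp e.injective, ?_, hli.comp e e.injective⟩
  rw [← hsp]
  congr 1
  exact e.surjective.range_comp (b₀ ∘ a)

/-- `1 ∈ L(D)` for an effective divisor. -/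
theorem s19l_one_mem {D : Divisor K F} (h0 : ∀ v, 0 ≤ D v) : (1 : F) ∈ riemannRochSpace D := by
  rw [mem_riemannRochSpace_iff]
  intro v
  right
  rw [Place.ord_one]
  have := h0 v
  omega

/-- **in large degree the reductions of a Gauss-orthonormal basis of `L(E)` span
`L_k(r_* E)`.** -/
theorem s19l_span_red_eq [IsAlgClosed K] {x : F} [FFGen K x] {FW : Subring F} {l : ↥A} {g : ℕ}
    (hC : s19_Curve x A π O red r FW l g) {c₁ c₂ : ℤ}
    (hc₁ : ∀ D : Divisor K F, c₁ ≤ Divisor.degree D →
      (Module.finrank K ↥(riemannRochSpace D) : ℤ) = Divisor.degree D + 1 - g)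
    (hc₂ : ∀ D : Divisor k Fb, c₂ ≤ Divisor.degree D →
      (Module.finrank k ↥(riemannRochSpace D) : ℤ) = Divisor.degree D + 1 - g)
    (E : Divisor K F) (hE : max c₁ c₂ ≤ Divisor.degree E) {d : ℕ} (b' : Fin d → F)
    (hb'O : ∀ i, b' i ∈ O) (hb'E : ∀ i, b' i ∈ riemannRochSpace E)
    (hd : d = Module.finrank K ↥(riemannRochSpace E))
    (hli : LinearIndependent k fun i => red ⟨b' i, hb'O i⟩) :
    Submodule.span k (Set.range fun i => red ⟨b' i, hb'O i⟩) =
      riemannRochSpace (Finsupp.mapDomain r E) := by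
  have hdegE : Divisor.degree (Finsupp.mapDomain r E) = Divisor.degree E :=
    s19l_degree_mapDomain hC.degF hC.degFb E
  have h1 := hc₁ E (le_trans (le_max_left _ _) hE)
  have h2 := hc₂ (Finsupp.mapDomain r E) (by rw [hdegE]; exact le_trans (le_max_right _ _) hE)
  rw [hdegE, ← h1] at h2
  have hfr : Module.finrank k ↥(riemannRochSpace (Finsupp.mapDomain r E)) =
      Module.finrank K ↥(riemannRochSpace E) := by exact_mod_cast h2
  have hfinbE := hC.rrFb.fin (Finsupp.mapDomain r E)
  set w : Fin d → ↥(riemannRochSpace (Finsupp.mapDomain r E)) :=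
    fun i => ⟨red ⟨b' i, hb'O i⟩, s19l_red_mem hC.rd E (hb'O i) (hb'E i)⟩ with hw
  have hwli : LinearIndependent k w :=
    LinearIndependent.of_comp (riemannRochSpace (Finsupp.mapDomain r E)).subtype hli
  have hcard : Fintype.card (Fin d) =
      Module.finrank k ↥(riemannRochSpace (Finsupp.mapDomain r E)) := by
    rw [Fintype.card_fin, hfr, hd]
  have hwspan : Submodule.span k (Set.range w) = ⊤ :=
    hwli.span_eq_top_of_card_eq_finrank' hcard
  have hrange : (Set.range fun i => red ⟨b' i, hb'O i⟩) =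
      (riemannRochSpace (Finsupp.mapDomain r E)).subtype '' Set.range w := by
    rw [← Set.range_comp]; rfl
  rw [hrange, ← Submodule.map_span, hwspan, Submodule.map_subtype_top]

/-- **[AMB]** -/
theorem s19l_amb : s19_Amb := by
  intro K F k Fb _ _ _ _ _ _ _ x _ A π O red r FW l g hC
  obtain ⟨c₁, hc₁⟩ := hC.rrF.large
  obtain ⟨c₂, hc₂⟩ := hC.rrFb.large
  refine ⟨max c₁ c₂, fun n Q t ht htW m hm => ?_⟩
  set E : Divisor K F := ∑ j, Finsupp.single (s19a_pt x hC.rd (ht j) 0) ((m j : ℕ) : ℤ) with hEdef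
  have hdegE : Divisor.degree E = ∑ j, (m j : ℤ) := by
    rw [hEdef, map_sum]
    refine Finset.sum_congr rfl fun j _ => ?_
    rw [Divisor.degree_single, hC.degF, Nat.cast_one, mul_one]
  have hE : max c₁ c₂ ≤ Divisor.degree E := by rw [hdegE]; exact hm
  have hEnn : ∀ v, 0 ≤ E v := by
    intro v
    rw [hEdef, Finsupp.finsetSum_apply]
    refine Finset.sum_nonneg fun j _ => ?_
    classical
    rw [Finsupp.single_apply]
    split_ifs
    · exact Int.natCast_nonneg _
    · exact le_refl _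
  -- a rational spanning family, a rational basis, a rational Gauss-orthonormal basis
  obtain ⟨N₀, b₀, hb₀W, hb₀span⟩ := hC.ratL n Q t ht htW (fun j => ((m j : ℕ) : ℤ))
  obtain ⟨d, a, -, hsp, hli⟩ := s19l_extract (K := K) b₀
  obtain ⟨b', hb'span, hb'W, hb'O, hb'li⟩ := hC.scW d (b₀ ∘ a) hli (fun i => hb₀W (a i))
  have hspanE : Submodule.span K (Set.range (b₀ ∘ a)) = riemannRochSpace E := hsp.trans hb₀span
  have hd : d = Module.finrank K ↥(riemannRochSpace E) := by
    have h1 := finrank_span_eq_card hli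
    rw [Fintype.card_fin] at h1
    rw [← h1]
    exact congrArg (fun S : Submodule K F => Module.finrank K ↥S) hspanE
  have hb'E : ∀ i, b' i ∈ riemannRochSpace E := fun i => by
    rw [← hspanE, ← hb'span]; exact Submodule.subset_span ⟨i, rfl⟩
  have hspanred := s19l_span_red_eq hC hc₁ hc₂ E hE b' hb'O hb'E hd hb'li
  -- `1` in terms of the reductions
  have h1mem : (1 : Fb) ∈ riemannRochSpace (Finsupp.mapDomain r E) :=
    s19l_one_mem (s19l_mapDomain_nonneg E hEnn)
  rw [← hspanred, Submodule.mem_span_range_iff_exists_fun] at h1mem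
  obtain ⟨cb, hcb⟩ := h1mem
  obtain ⟨i₀, hi₀⟩ : ∃ i₀, cb i₀ ≠ 0 := by
    by_contra hcon
    have hall : ∀ i, cb i = 0 := fun i => by
      by_contra hi
      exact hcon ⟨i, hi⟩
    apply one_ne_zero (α := Fb)
    rw [← hcb]
    exact Finset.sum_eq_zero fun i _ => by rw [hall i, zero_smul]
  obtain ⟨N, rfl⟩ : ∃ N, d = N + 1 := ⟨d - 1, by have := i₀.pos; omega⟩
  set v : Fin (N + 1) → Fb := fun i => red ⟨b' i, hb'O i⟩ with hv
  -- the exchange
  have hnot : (1 : Fb) ∉ Submodule.span k (Set.range (v ∘ i₀.succAbove)) := by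
    intro h1
    have hrange : Set.range (v ∘ i₀.succAbove) = v '' {i₀}ᶜ := by
      rw [Set.range_comp, Fin.range_succAbove]
    rw [hrange] at h1
    have hmemj : ∀ j, v (i₀.succAbove j) ∈ Submodule.span k (v '' {i₀}ᶜ) := fun j =>
      Submodule.subset_span ⟨i₀.succAbove j, Fin.succAbove_ne i₀ j, rfl⟩
    have h2 : cb i₀ • v i₀ ∈ Submodule.span k (v '' {i₀}ᶜ) := by
      have h3 : cb i₀ • v i₀ = 1 - ∑ j, cb (i₀.succAbove j) • v (i₀.succAbove j) := by
        rw [← hcb, Fin.sum_univ_succAbove _ i₀, add_sub_cancel_right]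
      rw [h3]
      exact Submodule.sub_mem _ h1
        (Submodule.sum_mem _ fun j _ => Submodule.smul_mem _ _ (hmemj j))
    have h4 : v i₀ ∈ Submodule.span k (v '' {i₀}ᶜ) := by
      have := Submodule.smul_mem _ (cb i₀)⁻¹ h2
      rwa [smul_smul, inv_mul_cancel₀ hi₀, one_smul] at this
    exact hb'li.notMem_span_image (s := {i₀}ᶜ) (x := i₀) (by simp) h4
  have hli' : LinearIndependent k (Fin.cons (1 : Fb) (v ∘ i₀.succAbove) : Fin (N + 1) → Fb) :=
    linearIndependent_finCons.mpr ⟨hb'li.comp _ Fin.succAbove_right_injective, hnot⟩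
  -- the new basis
  set b : Fin (N + 1) → F := Fin.cons 1 (b' ∘ i₀.succAbove) with hbdef
  have hbO : ∀ i, b i ∈ O := by
    intro i
    refine Fin.cases ?_ (fun j => ?_) i
    · rw [hbdef, Fin.cons_zero]; exact O.one_mem
    · rw [hbdef, Fin.cons_succ]; exact hb'O _
  refine ⟨N, b, hbO, by rw [hbdef, Fin.cons_zero], ?_, ?_, ?_, ?_⟩
  · intro i
    refine Fin.cases ?_ (fun j => ?_) i
    · rw [hbdef, Fin.cons_zero]; exact FW.one_mem
    · rw [hbdef, Fin.cons_succ]; exact hb'W _
  · intro i
    refine Fin.cases ?_ (fun j => ?_) i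
    · rw [hbdef, Fin.cons_zero]; exact s19l_one_mem hEnn
    · rw [hbdef, Fin.cons_succ]; exact hb'E _
  · have hfun : (fun i => red ⟨b i, hbO i⟩) =
        (Fin.cons (1 : Fb) (v ∘ i₀.succAbove) : Fin (N + 1) → Fb) := by
      funext i
      refine Fin.cases ?_ (fun j => ?_) i
      · rw [Fin.cons_zero]
        have : (⟨b 0, hbO 0⟩ : ↥O) = 1 := Subtype.ext (by
          show b 0 = (1 : F)
          rw [hbdef, Fin.cons_zero])
        rw [this, map_one]
      · rw [Fin.cons_succ]
        have : (⟨b j.succ, hbO j.succ⟩ : ↥O) = ⟨b' (i₀.succAbove j), hb'O _⟩ :=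
          Subtype.ext (by
            show b j.succ = b' (i₀.succAbove j)
            rw [hbdef, Fin.cons_succ]; rfl)
        rw [this]
        rfl
    rw [hfun]
    exact hli'
  · have h1 := hc₁ E (le_trans (le_max_left _ _) hE)
    rw [← hd, hdegE] at h1
    push_cast at h1
    exact h1

end Fermat.Agent.Lib.S19
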