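/-
W-A programme (S19/S32), brick [GENG] part 4 (helper6, prefix `s19e_`): THE GEOMETRIC ENGINE.

`s19e_geng : s19_AEng → s19_Amb → s19_GEng` — wiring of the abstract engine on an abstract curve
with good reduction.
-/
import Fermat.Agent.Lib.S19.EGeoRows
import Fermat.Agent.Lib.S19.IfaceEng
import Fermat.Agent.Lib.S19.LAmb

set_option autoImplicit false
set_option linter.unusedSectionVars false
set_option linter.unusedVariables false

noncomputable section

namespace Fermat.Agent.Lib.S19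

open AlgebraicCurve Fermat.Agent.Lib.FF Fermat.Agent.Lib.S37 IsLocalRing

section Family

variable {K F k Fb : Type} [Field K] [Field F] [Algebra K F] [IsAlgClosed K] [Field k] [Field Fb]
  [Algebra k Fb] {x : F} [FFGen K x] {A : ValuationSubring K} {π : ↥A →+* k}
  {O : ValuationSubring F} {red : ↥O →+* Fb} {r : Place K F → Place k Fb} {FW : Subring F}
  {l : ↥A} {g : ℕ} (hC : s19_Curve x A π O red r FW l g)
  {ι : Type} [Fintype ι] [DecidableEq ι] (Qd : ι → Place k Fb) (td : ι → F)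
  (hpar : ∀ i, s19a_IsParam red r (Qd i) (td i)) (hinj : Function.Injective Qd)
  (hratt : ∀ i, td i ∈ FW)
  (m : ι → ℕ) {N : ℕ} (b : Fin (N + 1) → F) (hbO : ∀ j, b j ∈ O)
  (hbE : ∀ j, b j ∈ riemannRochSpace (s19e_Eamb hC Qd td hpar m))

/-! ### integral combinations of the `b j` -/

/-- the function `Σ v_j b_j`. -/
def s19e_fv (v : Fin (N + 1) → ↥A) : F := ∑ j, algebraMap K F ((v j : ↥A) : K) * b j

include hC hbO in
theorem s19e_fv_memO (v : Fin (N + 1) → ↥A) : s19e_fv b v ∈ O :=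
  sum_mem fun j _ => O.mul_mem _ _ (hC.rd.const_mem (v j)) (hbO j)

include hbE in
theorem s19e_fv_memE (v : Fin (N + 1) → ↥A) :
    s19e_fv b v ∈ riemannRochSpace (s19e_Eamb hC Qd td hpar m) := by
  refine Submodule.sum_mem _ fun j _ => ?_
  rw [← Algebra.smul_def]
  exact Submodule.smul_mem _ _ (hbE j)

theorem s19e_fv_red (hb0 : b 0 = 1) (v : Fin (N + 1) → ↥A) (hv0 : v 0 = 1)
    (hvm : ∀ j : Fin N, v j.succ ∈ maximalIdeal ↥A) :
    red ⟨s19e_fv b v, s19e_fv_memO hC b hbO v⟩ = 1 := by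
  have hsub : (⟨s19e_fv b v, s19e_fv_memO hC b hbO v⟩ : ↥O) =
      ∑ j, (⟨algebraMap K F ((v j : ↥A) : K), hC.rd.const_mem (v j)⟩ : ↥O) * ⟨b j, hbO j⟩ := by
    apply Subtype.ext
    rw [AddSubmonoidClass.coe_finsetSum]
    rfl
  rw [hsub, map_sum, Fin.sum_univ_succ]
  have h1 : (⟨b 0, hbO 0⟩ : ↥O) = 1 := Subtype.ext hb0
  rw [map_mul, hC.rd.red_const, hv0, map_one, map_one, h1, map_one, mul_one]
  have h2 : ∑ j : Fin N, red ((⟨algebraMap K F ((v j.succ : ↥A) : K),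
      hC.rd.const_mem (v j.succ)⟩ : ↥O) * ⟨b j.succ, hbO j.succ⟩) = 0 := by
    refine Finset.sum_eq_zero fun j _ => ?_
    rw [map_mul, hC.rd.red_const, (s19a_pi_eq_zero_iff hC.rd _).mpr (hvm j), map_zero, zero_mul]
  rw [h2, add_zero]

include hC hbO in
theorem s19e_fv_ne_zero (hb0 : b 0 = 1) (v : Fin (N + 1) → ↥A) (hv0 : v 0 = 1)
    (hvm : ∀ j : Fin N, v j.succ ∈ maximalIdeal ↥A) : s19e_fv b v ≠ 0 := by
  intro h0
  have h1 := s19e_fv_red hC b hbO hb0 v hv0 hvm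
  have h2 : (⟨s19e_fv b v, s19e_fv_memO hC b hbO v⟩ : ↥O) = 0 := Subtype.ext h0
  rw [h2, map_zero] at h1
  exact zero_ne_one h1

/-- `Σ v_j • B i j = t_i^{m_i} · Σ v_j b_j`. -/
theorem s19e_fv_B (i : ι) (v : Fin (N + 1) → ↥A) :
    letI := s19a_algebraG hC.rd (Qd i)
    ((∑ j, v j • s19e_B hC Qd td hpar hinj m b hbO hbE i j : ↥(s19a_G O r (Qd i))) : F) =
      td i ^ m i * s19e_fv b v := by
  letI := s19a_algebraG hC.rd (Qd i)
  rw [AddSubmonoidClass.coe_finsetSum, s19e_fv, Finset.mul_sum]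
  refine Finset.sum_congr rfl fun j _ => ?_
  rw [Algebra.smul_def]
  show algebraMap K F ((v j : ↥A) : K) * (td i ^ m i * b j) = _
  ring

/-! ### lists of nodes -/

theorem s19e_Zl_singleton {Q : Place k Fb} {t : F} (ht : s19a_IsParam red r Q t)
    (a : ↥(maximalIdeal ↥A)) :
    s19e_Zl x hC.rd ht [a] = Finsupp.single (s19a_pt x hC.rd ht a) (1 : ℤ) := by
  simp [s19e_Zl]

theorem s19e_Zl_ofFn {Q : Place k Fb} {t : F} (ht : s19a_IsParam red r Q t) {n : ℕ}
    (f : Fin n → ↥(maximalIdeal ↥A)) :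
    s19e_Zl x hC.rd ht (List.ofFn f) =
      ∑ a, Finsupp.single (s19a_pt x hC.rd ht (f a)) (1 : ℤ) := by
  unfold s19e_Zl
  rw [List.map_ofFn, List.sum_ofFn]
  rfl

/-! ### the core -/

include hinj hratt hbE in
/-- **the geometric engine, core form**: ambient lattice and dimension hypotheses explicit. -/
theorem s19e_geng_core (hEng : s19_AEng) (mp mm : ι → ℕ)
    (h1 : ∀ i, mm i ≤ mp i) (h2 : ∀ i, mp i ≤ m i) (h3 : ∀ i, m i ≤ mp i + 1)
    (h4 : ∀ i, mp i ≤ mm i + 1)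
    (hb0 : b 0 = 1) (hbW : ∀ j, b j ∈ FW)
    (hbli : LinearIndependent k fun j => red ⟨b j, hbO j⟩)
    (hdim1 : Module.finrank k
      ↥(riemannRochSpace (∑ i, Finsupp.single (Qd i) ((m i : ℤ) - (mp i : ℕ)))) +
        ∑ i, mp i ≤ N + 1)
    (hdim2 : Module.finrank k
      ↥(riemannRochSpace (∑ i, Finsupp.single (Qd i)
        ((m i : ℤ) - (((m i - mp i) + mm i : ℕ) : ℤ)))) +
        ∑ i, ((m i - mp i) + mm i) ≤ N + 1)
    (hsq : ∑ i, ((m i - mp i) + mm i) = N)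
    {Ξ κ : Type} (σ : κ → Ξ → ↥A) (hσ : s19_Small l σ)
    (φp : ∀ i, Fin (mp i) → Ξ → ↥(maximalIdeal ↥A))
    (φm : ∀ i, Fin (mm i) → Ξ → ↥(maximalIdeal ↥A))
    (hφp : ∀ i a, (fun ξ => ((φp i a ξ : ↥(maximalIdeal ↥A)) : ↥A)) ∈
      s19_cl l (s19a_W A FW) σ)
    (hφm : ∀ i a, (fun ξ => ((φm i a ξ : ↥(maximalIdeal ↥A)) : ↥A)) ∈
      s19_cl l (s19a_W A FW) σ) :
    ∃ ψ : ι → Ξ → ↥(maximalIdeal ↥A),
      (∀ i, (fun ξ => ((ψ i ξ : ↥(maximalIdeal ↥A)) : ↥A)) ∈ s19_cl l (s19a_W A FW) σ) ∧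
      ∀ ξ,
        (∑ i, s19e_Zl x hC.rd (hpar i) (List.ofFn fun a => φp i a ξ)) -
          (∑ i, s19e_Zl x hC.rd (hpar i) (List.ofFn fun a => φm i a ξ)) -
          (∑ i, if mp i = mm i + 1 then
            Finsupp.single (s19a_pt x hC.rd (hpar i) (ψ i ξ)) (1 : ℤ) else 0) ∈
          Divisor.principal (K := K) (F := F) := by
  letI instAlg : ∀ i, Algebra ↥A ↥(s19a_G O r (Qd i)) := fun i => s19a_algebraG hC.rd (Qd i)
  classical
  set Dd := fun i => s19e_Dd hC Qd td hpar hratt i with hDd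
  set B := s19e_B hC Qd td hpar hinj m b hbO hbE with hB
  -- the lattice
  let bΛ : Module.Basis (Fin (N + 1)) ↥A (Fin (N + 1) → ↥A) := Pi.basisFun ↥A (Fin (N + 1))
  let μ : ∀ i, (Fin (N + 1) → ↥A) →ₗ[↥A] ↥(s19a_G O r (Qd i)) := fun i =>
    Fintype.linearCombination ↥A (B i)
  have hμb : ∀ i j, μ i (bΛ j) = B i j := by
    intro i j
    show Fintype.linearCombination ↥A (B i) (Pi.basisFun ↥A (Fin (N + 1)) j) = B i j
    rw [Pi.basisFun_apply, Fintype.linearCombination_apply_single, one_smul]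
  have hμGW : ∀ i j, μ i (bΛ j) ∈ (Dd i).GW := by
    intro i j
    rw [hμb]
    show ((B i j : ↥(s19a_G O r (Qd i))) : F) ∈ FW
    exact FW.mul_mem (FW.pow_mem (hratt i) _) (hbW j)
  have hμ0 : ∀ i, μ i (bΛ 0) = (Dd i).t ^ m i := by
    intro i
    rw [hμb]
    apply Subtype.ext
    rw [SubmonoidClass.coe_pow]
    show td i ^ m i * b 0 = td i ^ m i
    rw [hb0, mul_one]
  have hE1 : Function.Surjective (fun (y : Fin N → ResidueField ↥A) (ρ : Σ i, Fin (mp i)) =>
      ∑ j : Fin N, y j * residue ↥A (s19_tay (Dd ρ.1) (ρ.2 : ℕ) (μ ρ.1 (bΛ j.succ)))) := by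
    simp only [hμb]
    exact s19e_rows_surj hC Qd td hpar hinj hratt m b hbO hbE hb0 hbli mp h2 hdim1
  have hE2 : Function.Bijective (fun (y : Fin N → ResidueField ↥A)
      (ρ : Σ i, Fin ((m i - mp i) + mm i)) =>
      ∑ j : Fin N, y j * residue ↥A (s19_tay (Dd ρ.1) (ρ.2 : ℕ) (μ ρ.1 (bΛ j.succ)))) := by
    simp only [hμb]
    have hs := s19e_rows_surj hC Qd td hpar hinj hratt m b hbO hbE hb0 hbli
      (fun i => (m i - mp i) + mm i)
      (fun i => by have := h1 i; have := h2 i; omega) hdim2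
    have hcard : Fintype.card (Σ i, Fin ((m i - mp i) + mm i)) = N := by
      rw [Fintype.card_sigma, ← hsq]
      simp
    exact s19e_bij_of_surj (s19e_sys fun (ρ : Σ i, Fin ((m i - mp i) + mm i)) (j : Fin N) =>
      residue ↥A (s19_tay (Dd ρ.1) (ρ.2 : ℕ) (B ρ.1 j.succ))) hs hcard
  obtain ⟨c, c', ρ, ψ, hc, hc', hc0, hc'0, hcm, hc'm, hρ, hψ, hfact⟩ :=
    hEng l (s19a_W A FW) hC.base σ hσ (fun i => ↥(s19a_G O r (Qd i))) Dd N bΛ m mp mm h1 h2 h3 h4
      μ hμGW hμ0 φp φm hφp hφm hE1 hE2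
  refine ⟨ψ, hψ, fun ξ => ?_⟩
  -- the two functions
  set vχ : Fin (N + 1) → ↥A := fun j => c j ξ with hvχ
  set vψ : Fin (N + 1) → ↥A := fun j => c' j ξ with hvψ
  set χ : F := s19e_fv b vχ with hχ
  set ψf : F := s19e_fv b vψ with hψf
  have hχ0 : χ ≠ 0 := s19e_fv_ne_zero hC b hbO hb0 vχ (hc0 ξ) (fun j => hcm j ξ)
  have hψf0 : ψf ≠ 0 := s19e_fv_ne_zero hC b hbO hb0 vψ (hc'0 ξ) (fun j => hc'm j ξ)
  have hχE := s19e_fv_memE hC Qd td hpar m b hbE vχ
  have hψfE := s19e_fv_memE hC Qd td hpar m b hbE vψ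
  have hμv : ∀ (i : ι) (v : Fin (N + 1) → ↥A),
      ((μ i (∑ j, v j • bΛ j) : ↥(s19a_G O r (Qd i))) : F) = td i ^ m i * s19e_fv b v := by
    intro i v
    rw [map_sum]
    simp only [map_smul, hμb]
    exact s19e_fv_B hC Qd td hpar hinj m b hbO hbE i v
  -- the lists of zeros
  set R : ι → List ↥(maximalIdeal ↥A) := fun i => if m i = mp i + 1 then [ρ i ξ] else [] with hR
  set Ψ : ι → List ↥(maximalIdeal ↥A) := fun i => if mp i = mm i + 1 then [ψ i ξ] else []
    with hΨ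
  set as1 : ι → List ↥(maximalIdeal ↥A) := fun i => (List.ofFn fun a => φp i a ξ) ++ R i
    with has1
  set as2 : ι → List ↥(maximalIdeal ↥A) := fun i =>
    (R i ++ List.ofFn fun a => φm i a ξ) ++ Ψ i with has2
  have hRlen : ∀ i, (R i).length = m i - mp i := by
    intro i
    simp only [hR]
    split_ifs with hi
    · simp only [List.length_singleton]; omega
    · have := h2 i; have := h3 i
      simp only [List.length_nil]; omega
  have hΨlen : ∀ i, (Ψ i).length = mp i - mm i := by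
    intro i
    simp only [hΨ]
    split_ifs with hi
    · simp only [List.length_singleton]; omega
    · have := h1 i; have := h4 i
      simp only [List.length_nil]; omega
  have hlen1 : ∀ i, (as1 i).length = m i := by
    intro i
    simp only [has1, List.length_append, List.length_ofFn, hRlen]
    have := h2 i
    omega
  have hlen2 : ∀ i, (as2 i).length = m i := by
    intro i
    simp only [has2, List.length_append, List.length_ofFn, hRlen, hΨlen]
    have := h1 i; have := h2 i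
    omega
  have hRnod : ∀ i, s19_nodal (Dd i) (R i) =
      (if m i = mp i + 1 then (Dd i).t - algebraMap ↥A ↥(s19a_G O r (Qd i)) (ρ i ξ : ↥A)
        else 1) := by
    intro i
    simp only [hR]
    split_ifs with hi
    · exact s19e_nodal_replicate_one (Dd i) (ρ i ξ)
    · exact s19e_nodal_nil (Dd i)
  have hΨnod : ∀ i, s19_nodal (Dd i) (Ψ i) =
      (if mp i = mm i + 1 then (Dd i).t - algebraMap ↥A ↥(s19a_G O r (Qd i)) (ψ i ξ : ↥A)
        else 1) := by
    intro i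
    simp only [hΨ]
    split_ifs with hi
    · exact s19e_nodal_replicate_one (Dd i) (ψ i ξ)
    · exact s19e_nodal_nil (Dd i)
  -- factorisations
  have hfac1 : ∀ i, ∃ g' : ↥(s19a_G O r (Qd i)), td i ^ m i * χ =
      ((s19_nodal (Dd i) (as1 i) : ↥(s19a_G O r (Qd i))) : F) * (g' : F) := by
    intro i
    obtain ⟨g', hg'⟩ := (hfact ξ i).1
    refine ⟨g', ?_⟩
    rw [← hμv i vχ, hg', has1]
    simp only [s19e_nodal_append, hRnod, Subring.coe_mul]
  have hfac2 : ∀ i, ∃ g' : ↥(s19a_G O r (Qd i)), td i ^ m i * ψf =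
      ((s19_nodal (Dd i) (as2 i) : ↥(s19a_G O r (Qd i))) : F) * (g' : F) := by
    intro i
    obtain ⟨g', hg'⟩ := (hfact ξ i).2
    refine ⟨g', ?_⟩
    rw [← hμv i vψ, hg', has2]
    simp only [s19e_nodal_append, hRnod, hΨnod, Subring.coe_mul]
  have hdiv1 := s19e_div_of_factor hC Qd td hpar hinj hratt m χ hχ0 hχE as1 hlen1 hfac1
  have hdiv2 := s19e_div_of_factor hC Qd td hpar hinj hratt m ψf hψf0 hψfE as2 hlen2 hfac2
  -- the quotient
  refine ⟨χ * ψf⁻¹, mul_ne_zero hχ0 (inv_ne_zero hψf0), fun P => ?_⟩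
  rw [P.ord_mul hχ0 (inv_ne_zero hψf0), P.ord_inv, hdiv1 P, hdiv2 P]
  simp only [Finsupp.sub_apply, Finsupp.finsetSum_apply, has1, has2, s19e_Zl_append,
    Finsupp.add_apply, Finset.sum_add_distrib]
  have hΨZ : ∀ i, s19e_Zl x hC.rd (hpar i) (Ψ i) P =
      (if mp i = mm i + 1 then
        Finsupp.single (s19a_pt x hC.rd (hpar i) (ψ i ξ)) (1 : ℤ) else 0) P := by
    intro i
    simp only [hΨ]
    split_ifs with hi
    · rw [s19e_Zl_singleton hC]
    · rfl
  simp only [hΨZ]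
  ring

end Family

/-! ### the contract -/

/-- **[GENG]** the geometric engine. -/
theorem s19e_geng : s19_AEng → s19_Amb → s19_GEng := by
  intro hEng hAmb K F k Fb _ _ _ _ _ _ _ x _ A π O red r FW l g hC
  obtain ⟨cA, hcA⟩ := hAmb x A π O red r FW l g hC
  obtain ⟨cB, hcB⟩ := hC.rrFb.large
  refine ⟨(max cA cB).toNat, ?_⟩
  intro ι _ _ Qd td hinj hpar hratt m mp mm h1 h2 h3 h4 hns hg hc Ξ κ σ hσ φp φm hφp hφm
  classical
  -- integer bookkeeping
  have e1 : ∀ i, ((mp i - mm i : ℕ) : ℤ) = (mp i : ℤ) - mm i := fun i => Nat.cast_sub (h1 i)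
  have e2 : ∀ i, ((m i - mp i : ℕ) : ℤ) = (m i : ℤ) - mp i := fun i => Nat.cast_sub (h2 i)
  have hgZ : ∑ i, ((mp i : ℤ) - mm i) = g := by
    have := congrArg (fun n : ℕ => (n : ℤ)) hg
    simp only [Nat.cast_sum, e1] at this
    exact this
  have hcZ : max cA cB ≤ ∑ i, ((m i : ℤ) - mp i) := by
    have h0 : ((max cA cB).toNat : ℤ) ≤ ((∑ i, (m i - mp i) : ℕ) : ℤ) := by exact_mod_cast hc
    simp only [Nat.cast_sum, e2] at h0
    exact le_trans (Int.self_le_toNat _) h0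
  have hmpnn : (0 : ℤ) ≤ ∑ i, (mp i : ℤ) := Finset.sum_nonneg fun i _ => Int.natCast_nonneg _
  have hsplit : ∑ i, ((m i : ℤ) - mp i) = ∑ i, (m i : ℤ) - ∑ i, (mp i : ℤ) :=
    Finset.sum_sub_distrib _ _
  have hsplit2 : ∑ i, ((mp i : ℤ) - mm i) = ∑ i, (mp i : ℤ) - ∑ i, (mm i : ℤ) :=
    Finset.sum_sub_distrib _ _
  -- the ambient lattice, after reindexing by `Fin n`
  set e : ι ≃ Fin (Fintype.card ι) := Fintype.equivFin ι with he
  have hsumre : ∀ f : ι → ℤ, ∑ j : Fin (Fintype.card ι), f (e.symm j) = ∑ i, f i := fun f =>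
    Equiv.sum_comp e.symm f
  have hcA' : cA ≤ ∑ j : Fin (Fintype.card ι), ((m (e.symm j) : ℕ) : ℤ) := by
    rw [hsumre fun i => (m i : ℤ)]
    have := le_trans (le_max_left cA cB) hcZ
    linarith
  obtain ⟨N, b, hbO, hb0, hbW, hbE', hbli, hN'⟩ :=
    hcA (Fintype.card ι) (fun j => Qd (e.symm j)) (fun j => td (e.symm j))
      (fun j => hpar (e.symm j)) (fun j => hratt (e.symm j)) (fun j => m (e.symm j)) hcA'
  have hN : (N : ℤ) + 1 = ∑ i, (m i : ℤ) + 1 - g := by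
    rw [← hsumre fun i => (m i : ℤ)]
    exact hN'
  have hEeq : (∑ j : Fin (Fintype.card ι),
      Finsupp.single (s19a_pt x hC.rd (hpar (e.symm j)) 0) ((m (e.symm j) : ℕ) : ℤ)) =
      s19e_Eamb hC Qd td hpar m := by
    unfold s19e_Eamb
    exact Equiv.sum_comp e.symm
      (fun i => Finsupp.single (s19a_pt x hC.rd (hpar i) 0) ((m i : ℕ) : ℤ))
  have hbE : ∀ j, b j ∈ riemannRochSpace (s19e_Eamb hC Qd td hpar m) := by
    intro j
    rw [← hEeq]
    exact hbE' j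
  -- (E1): Riemann-large on the special fibre
  have hdim1 : Module.finrank k
      ↥(riemannRochSpace (∑ i, Finsupp.single (Qd i) ((m i : ℤ) - (mp i : ℕ)))) +
        ∑ i, mp i ≤ N + 1 := by
    have hdeg : Divisor.degree (∑ i, Finsupp.single (Qd i) ((m i : ℤ) - (mp i : ℕ))) =
        ∑ i, ((m i : ℤ) - mp i) := by
      rw [map_sum]
      refine Finset.sum_congr rfl fun i _ => ?_
      rw [Divisor.degree_single, hC.degFb, Nat.cast_one, mul_one]
    have hfr := hcB (∑ i, Finsupp.single (Qd i) ((m i : ℤ) - (mp i : ℕ)))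
      (by rw [hdeg]; exact le_trans (le_max_right cA cB) hcZ)
    rw [hdeg] at hfr
    have : ((Module.finrank k
      ↥(riemannRochSpace (∑ i, Finsupp.single (Qd i) ((m i : ℤ) - (mp i : ℕ)))) +
        ∑ i, mp i : ℕ) : ℤ) ≤ ((N + 1 : ℕ) : ℤ) := by
      push_cast
      rw [hfr]
      linarith
    exact_mod_cast this
  -- (E2): the output discs form a non-special system
  have hdiveq : (∑ i, Finsupp.single (Qd i) ((m i : ℤ) - (((m i - mp i) + mm i : ℕ) : ℤ))) =
      ∑ i, Finsupp.single (Qd i) (((mp i - mm i : ℕ) : ℤ)) := by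
    refine Finset.sum_congr rfl fun i _ => ?_
    congr 1
    have := h1 i
    have := h2 i
    omega
  have hsqZ : ((∑ i, ((m i - mp i) + mm i) : ℕ) : ℤ) = N := by
    push_cast
    simp only [e2]
    rw [Finset.sum_add_distrib, hsplit]
    linarith
  have hsq : ∑ i, ((m i - mp i) + mm i) = N := by exact_mod_cast hsqZ
  have hdim2 : Module.finrank k
      ↥(riemannRochSpace (∑ i, Finsupp.single (Qd i)
        ((m i : ℤ) - (((m i - mp i) + mm i : ℕ) : ℤ)))) +
        ∑ i, ((m i - mp i) + mm i) ≤ N + 1 := by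
    rw [hdiveq, hns, hsq]
    omega
  obtain ⟨ψ, hψ, hprin⟩ := s19e_geng_core hC Qd td hpar hinj hratt m b hbO hbE hEng mp mm
    h1 h2 h3 h4 hb0 hbW hbli hdim1 hdim2 hsq σ hσ φp φm hφp hφm
  refine ⟨ψ, hψ, fun ξ => ?_⟩
  have h := hprin ξ
  simp only [s19e_Zl_ofFn hC] at h
  have hlast : (∑ i, if mp i = mm i + 1 then
      Finsupp.single (s19a_pt x hC.rd (hpar i) (ψ i ξ)) (1 : ℤ) else 0) =
      ∑ i, Finsupp.single (s19a_pt x hC.rd (hpar i) (ψ i ξ)) (((mp i - mm i : ℕ) : ℤ)) := by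
    refine Finset.sum_congr rfl fun i _ => ?_
    split_ifs with hi
    · have : mp i - mm i = 1 := by omega
      rw [this, Nat.cast_one]
    · have : mp i - mm i = 0 := by have := h1 i; have := h4 i; omega
      rw [this, Nat.cast_zero, Finsupp.single_zero]
  rw [hlast] at h
  exact h

/-- [GENG] with helper7's ambient lattice plugged in. -/
theorem s19e_geng' : s19_AEng → s19_GEng := fun h => s19e_geng h s19l_amb

end Fermat.Agent.Lib.S19
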