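/-
W-A programme (S19/S32), brick [GENG] part 7 (helper6, prefix `s19e_`): CLOSED FORMS.

The contracts `s19_AEng`, `s19_GEng`, `s19_Add`, `s19_Neg`, `s19_Chg` with every hypothesis
discharged: [DD] (helper1, `DDiff*.lean`), [AENG] (`EEng.lean`), [AMB] (helper7, `LAmb.lean`),
[GENG] (`EGeoEng.lean`), corollaries (`EGeoCor.lean`).
-/
import Fermat.Agent.Lib.S19.EGeoCor
import Fermat.Agent.Lib.S19.EGeoEng
import Fermat.Agent.Lib.S19.EEng
import Fermat.Agent.Lib.S19.DDiffHensel

set_option autoImplicit false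

namespace Fermat.Agent.Lib.S19

/-- [AENG], closed. -/
theorem s19e_aeng_closed : s19_AEng :=
  s19e_aeng s19d_ddDiv s19d_ddRed s19d_ddComp s19d_ddHensel

/-- [GENG], closed. -/
theorem s19e_geng_closed : s19_GEng := s19e_geng' s19e_aeng_closed

/-- [ADD], closed. -/
theorem s19e_add_closed : s19_Add := s19e_add s19e_geng_closed

/-- [NEG], closed. -/
theorem s19e_neg_closed : s19_Neg := s19e_neg s19e_geng_closed

/-- [CHG], closed. -/
theorem s19e_chg_closed : s19_Chg := s19e_chg s19e_geng_closed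

end Fermat.Agent.Lib.S19
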