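/-
W-A programme (S19), brick G4d [DESC], part 1 (helper2, prefix `s19b_`): DENSITY.

`Ω/ℚ` Galois (e.g. `ℚ̄`), `A` a valuation subring of `Ω` over the prime `ℓ`, `φ` a Frobenius element
of `A`, `I` the inertia group.  Every `x ∈ A` fixed by `φ` and by `I` is `ℓ`-adically approximable
by elements of `ℤ_(ℓ)`:  `∀ n ∃ r ∈ ℤ_(ℓ), x - r ∈ ℓⁿ A`  (`s19b_density`).

Proof at a finite Galois level `F ∋ x`: `Γ = Gal(F/ℚ)`, `P = 𝔪_A ∩ 𝓞 F`.  Every `γ ∈ Γ` with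
`γ P = P` fixes `x` (`γ` is a power of the Frobenius modulo the inertia group of `P`, which lifts
to `I` by the landed `cfg_exists_lifts_inertia`).  Chinese remainders give `θ ∈ 𝓞 F` with
`θ ≡ 1` at `P` and `θ ≡ 0` at the other primes over `ℓ` to high order; then
`Tr_{F/ℚ}(x θ) ≡ |Stab P| · x`, and one divides by the `ℓ`-part of `|Stab P|`.
-/
import Mathlib
import Fermat.Agent.Lib.CFT.RamBridgeGal
import Fermat.Prelude.Def_EllipticCurve_FrobeniusTrace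

set_option autoImplicit false
set_option linter.unusedSectionVars false
set_option linter.style.haveILetI false

noncomputable section

namespace Fermat.Agent.Lib.S19

open NumberField Fermat.Agent.Lib.CFT Fermat.Agent.Lib.Frey
open scoped Pointwise

/-! ### Unfolding of the Prelude's Frobenius predicate -/

/-- A Frobenius element acts as the `q`-th power modulo the maximal ideal. -/
theorem s19b_frob_spec {K L : Type*} [Field K] [Field L] [Algebra K L] (A : ValuationSubring L)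
    (φ : L ≃ₐ[K] L) (q : ℕ) (h : A.IsFrobeniusAt φ q) :
    φ ∈ A.decompositionSubgroup K ∧ ∀ a ∈ A, φ a - a ^ q ∈ A.nonunits := by
  obtain ⟨hσ, hx⟩ := h
  refine ⟨hσ, ?_⟩
  intro a ha
  have h1 := hx (IsLocalRing.residue A ⟨a, ha⟩)
  rw [← IsLocalRing.ResidueField.residue_smul, ← map_pow] at h1
  have h2 : (⟨φ, hσ⟩ : A.decompositionSubgroup K) • (⟨a, ha⟩ : A) - ⟨a, ha⟩ ^ q ∈
      IsLocalRing.maximalIdeal A := by
    rw [← Ideal.Quotient.eq]
    exact h1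
  exact (ValuationSubring.coe_mem_nonunits_iff (A := A)).mpr h2

section Center

variable {Ω : Type*} [Field Ω] [Algebra ℚ Ω] [CharZero Ω] (A : ValuationSubring Ω)

/-- the decomposition group stabilises the centre. -/
theorem s19b_smul_center (σ : Ω ≃ₐ[ℚ] Ω) (hσ : σ ∈ A.decompositionSubgroup ℚ) :
    σ • cfg_center A = cfg_center A := by
  have h1 : ∀ τ : Ω ≃ₐ[ℚ] Ω, τ ∈ A.decompositionSubgroup ℚ → ∀ b : 𝓞 Ω,
      b ∈ cfg_center A → τ • b ∈ cfg_center A := by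
    intro τ hτ b hb
    rw [cfg_mem_center_iff] at hb ⊢
    have hτ' : τ⁻¹ ∈ A.decompositionSubgroup ℚ := inv_mem hτ
    exact cfg_map_mem_nonunits A τ (ford_decomposition_mem A τ⁻¹ hτ') hb
  ext b
  rw [Ideal.mem_pointwise_smul_iff_inv_smul_mem]
  constructor
  · intro hb
    have := h1 σ hσ _ hb
    rwa [smul_inv_smul] at this
  · intro hb
    exact h1 σ⁻¹ (inv_mem hσ) b hb

end Center

/-! ### The finite level -/

section Level

variable {Ω : Type*} [Field Ω] [Algebra ℚ Ω] [IsGalois ℚ Ω] [CharZero Ω]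
variable {F : Type*} [Field F] [NumberField F] [Algebra F Ω] [IsGalois ℚ F]
variable (A : ValuationSubring Ω) {ℓ : ℕ} (hℓ : ℓ.Prime) (hA : (ℓ : Ω) ∈ A.nonunits)

/-- the prime of `𝓞 F` below `A`. -/
def s19b_P : Ideal (𝓞 F) := (cfg_center A).under (𝓞 F)

theorem s19b_mem_P_iff (y : 𝓞 F) :
    y ∈ s19b_P (F := F) A ↔ algebraMap (𝓞 F) Ω y ∈ A.nonunits := by
  rw [s19b_P, Ideal.under_def, Ideal.mem_comap, cfg_mem_center_iff,
    ← IsScalarTower.algebraMap_apply]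

theorem s19b_coe_mem (y : 𝓞 F) : algebraMap (𝓞 F) Ω y ∈ A := by
  rw [IsScalarTower.algebraMap_apply (𝓞 F) (𝓞 Ω) Ω]
  exact cfg_coe_mem A _

include hℓ hA in
theorem s19b_P_isMaximal : (s19b_P (F := F) A).IsMaximal := by
  haveI := cfg_center_isMaximal hℓ hA
  haveI := cfg_isIntegral_top (Ω := Ω) F
  exact Ideal.isMaximal_comap_of_isIntegral_of_isMaximal (R := 𝓞 F) (cfg_center A)

include hA in
theorem s19b_natCast_mem_P : (ℓ : 𝓞 F) ∈ s19b_P (F := F) A := by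
  rw [s19b_mem_P_iff, map_natCast]
  exact hA

/-- an automorphism of `Ω` and the automorphism of `F` it induces. -/
theorem s19b_lifts_restrict (σ : Ω ≃ₐ[ℚ] Ω) : cfg_Lifts σ (σ.restrictNormal F) := fun x =>
  (σ.restrictNormal_commutes F x).symm

theorem s19b_smul_P_of_lifts {σ : Ω ≃ₐ[ℚ] Ω} {τ : F ≃ₐ[ℚ] F} (h : cfg_Lifts σ τ)
    (hσ : σ ∈ A.decompositionSubgroup ℚ) : τ • s19b_P (F := F) A = s19b_P A := by
  rw [s19b_P, ← cfg_under_smul h, s19b_smul_center A σ hσ]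

theorem s19b_algebraMap_smul {σ : Ω ≃ₐ[ℚ] Ω} {τ : F ≃ₐ[ℚ] F} (h : cfg_Lifts σ τ) (y : 𝓞 F) :
    algebraMap (𝓞 F) Ω (τ • y) = σ (algebraMap (𝓞 F) Ω y) := by
  rw [IsScalarTower.algebraMap_apply (𝓞 F) F Ω, IsScalarTower.algebraMap_apply (𝓞 F) F Ω]
  exact (h _).symm

/-- the Frobenius at the level `F`. -/
theorem s19b_frob_level (φ : Ω ≃ₐ[ℚ] Ω) (hφ : A.IsFrobeniusAt φ ℓ) (i : ℕ) (y : 𝓞 F) :
    (φ.restrictNormal F) ^ i • y - y ^ (ℓ ^ i) ∈ s19b_P (F := F) A := by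
  obtain ⟨hφD, hφF⟩ := s19b_frob_spec A φ ℓ hφ
  have hl := s19b_lifts_restrict (F := F) φ
  have h1 : ∀ z : 𝓞 F, (φ.restrictNormal F) • z - z ^ ℓ ∈ s19b_P (F := F) A := by
    intro z
    rw [s19b_mem_P_iff, map_sub, map_pow, s19b_algebraMap_smul hl]
    exact hφF _ (s19b_coe_mem A z)
  induction i with
  | zero => simp
  | succ i ih =>
    have h2 : (φ.restrictNormal F) ^ (i + 1) • y - y ^ (ℓ ^ (i + 1)) =
        ((φ.restrictNormal F) • ((φ.restrictNormal F) ^ i • y) -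
          ((φ.restrictNormal F) ^ i • y) ^ ℓ) +
        (((φ.restrictNormal F) ^ i • y) ^ ℓ - (y ^ (ℓ ^ i)) ^ ℓ) := by
      rw [pow_succ' (φ.restrictNormal F), mul_smul, pow_succ ℓ, pow_mul]
      ring
    rw [h2]
    refine Ideal.add_mem _ (h1 _) ?_
    exact Ideal.mem_of_dvd _ (sub_dvd_pow_sub_pow _ _ ℓ) ih

include hℓ hA in
/-- **the decomposition group of `P` fixes what Frobenius and inertia fix.** -/
theorem s19b_fixed_of_stab (φ : Ω ≃ₐ[ℚ] Ω) (hφ : A.IsFrobeniusAt φ ℓ) (x : F)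
    (hxφ : φ (algebraMap F Ω x) = algebraMap F Ω x)
    (hxI : ∀ τ ∈ A.inertiaSubgroupIn ℚ, τ (algebraMap F Ω x) = algebraMap F Ω x)
    (γ : F ≃ₐ[ℚ] F) (hγ : γ • s19b_P (F := F) A = s19b_P A) : γ x = x := by
  classical
  haveI : Fact ℓ.Prime := ⟨hℓ⟩
  haveI hQmax := cfg_center_isMaximal hℓ hA
  haveI hPmax : (s19b_P (F := F) A).IsMaximal := s19b_P_isMaximal A hℓ hA
  haveI hQP : (cfg_center A).LiesOver (s19b_P (F := F) A) := ⟨rfl⟩
  obtain ⟨hφD, -⟩ := s19b_frob_spec A φ ℓ hφ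
  have hl := s19b_lifts_restrict (F := F) φ
  set φF := φ.restrictNormal F with hφF_def
  have hφP : φF • s19b_P (F := F) A = s19b_P A := s19b_smul_P_of_lifts A hl hφD
  -- `γ` is a power of Frobenius on the residue field
  have hpow : ∃ i : ℕ, ∀ y : 𝓞 F, γ • y - y ^ (ℓ ^ i) ∈ s19b_P (F := F) A := by
    haveI hℓmax : (Ideal.span {(ℓ : ℤ)}).IsMaximal := Int.ideal_span_isMaximal_of_prime ℓ
    haveI hover : (s19b_P (F := F) A).LiesOver (Ideal.span {(ℓ : ℤ)}) := by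
      constructor
      refine hℓmax.eq_of_le ?_ ?_
      · intro h
        apply hPmax.ne_top
        rw [Ideal.eq_top_iff_one]
        have : (1 : ℤ) ∈ (s19b_P (F := F) A).under ℤ := by rw [h]; trivial
        simpa [Ideal.under_def] using this
      · rw [Ideal.span_le]
        intro z hz
        rw [Set.mem_singleton_iff] at hz
        subst hz
        show algebraMap ℤ (𝓞 F) (ℓ : ℤ) ∈ s19b_P (F := F) A
        have := s19b_natCast_mem_P (F := F) A hA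
        simpa using this
    letI : Field (ℤ ⧸ Ideal.span {(ℓ : ℤ)}) := Ideal.Quotient.field _
    letI : Field (𝓞 F ⧸ s19b_P (F := F) A) := Ideal.Quotient.field _
    have e := Int.quotientSpanNatEquivZMod ℓ
    haveI : Finite (ℤ ⧸ Ideal.span {(ℓ : ℤ)}) := Finite.of_equiv _ e.symm.toEquiv
    haveI : CharP (ℤ ⧸ Ideal.span {(ℓ : ℤ)}) ℓ :=
      charP_of_injective_ringHom (f := e.symm.toRingHom) e.symm.injective ℓ
    have hcard : Nat.card (ℤ ⧸ Ideal.span {(ℓ : ℤ)}) = ℓ := by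
      rw [Nat.card_congr e.toEquiv, Nat.card_zmod]
    have hP0 : s19b_P (F := F) A ≠ ⊥ := by
      intro h0
      have := s19b_natCast_mem_P (F := F) A hA
      rw [h0, Ideal.mem_bot] at this
      exact hℓ.ne_zero (by exact_mod_cast this)
    haveI : Finite (𝓞 F ⧸ s19b_P (F := F) A) := Ideal.finiteQuotientOfFreeOfNeBot _ hP0
    obtain ⟨i, hi⟩ := FiniteField.exists_forall_apply_eq_pow (ℤ ⧸ Ideal.span {(ℓ : ℤ)}) ℓ
      (𝓞 F ⧸ s19b_P (F := F) A)
      (Ideal.Quotient.stabilizerHom (s19b_P (F := F) A) (Ideal.span {(ℓ : ℤ)}) (F ≃ₐ[ℚ] F)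
        ⟨γ, hγ⟩)
    refine ⟨i, fun y => ?_⟩
    have h1 := hi (Ideal.Quotient.mk _ y)
    rw [Ideal.Quotient.stabilizerHom_apply, hcard, ← map_pow] at h1
    exact Ideal.Quotient.eq.mp h1
  obtain ⟨i, hi⟩ := hpow
  -- `γ' = φF⁻ⁱ γ` is in the inertia group of `P`
  set γ' : F ≃ₐ[ℚ] F := (φF ^ i)⁻¹ * γ with hγ'
  have hφiP : (φF ^ i)⁻¹ • s19b_P (F := F) A = s19b_P A := by
    have h1 : φF ∈ MulAction.stabilizer (F ≃ₐ[ℚ] F) (s19b_P (F := F) A) := hφP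
    exact Subgroup.inv_mem _ (Subgroup.pow_mem _ h1 i)
  have hγ'I : ∀ y : 𝓞 F, γ' • y - y ∈ s19b_P (F := F) A := by
    intro y
    have h1 : γ • y - φF ^ i • y ∈ s19b_P (F := F) A := by
      have := Ideal.sub_mem _ (hi y) (s19b_frob_level A φ hφ i y)
      rwa [sub_sub_sub_cancel_right] at this
    have h2 : γ' • y - y = (φF ^ i)⁻¹ • (γ • y - φF ^ i • y) := by
      rw [hγ', mul_smul, smul_sub, inv_smul_smul]
    rw [h2, ← hφiP]
    exact Ideal.smul_mem_pointwise_smul _ _ _ h1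
  obtain ⟨σ, hσl, -, hσI⟩ := cfg_exists_lifts_inertia (s19b_P (F := F) A) (cfg_center A) γ' hγ'I
  have hσ : σ ∈ A.inertiaSubgroupIn ℚ := by
    refine cfg_mem_inertiaSubgroupIn_of_integral hℓ hA σ ?_
    intro b hb
    obtain ⟨b', rfl⟩ : ∃ b' : 𝓞 Ω, algebraMap (𝓞 Ω) Ω b' = b :=
      (IsIntegralClosure.isIntegral_iff (A := 𝓞 Ω)).mp hb
    have h1 := hσI b'
    rw [cfg_mem_center_iff, map_sub] at h1
    exact h1
  have h1 : γ' x = x := by
    apply (algebraMap F Ω).injective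
    rw [← hσl x]
    exact hxI σ hσ
  have h2 : φF x = x := by
    apply (algebraMap F Ω).injective
    rw [← hl x]
    exact hxφ
  have h3 : ∀ j : ℕ, (φF ^ j) x = x := by
    intro j
    induction j with
    | zero => rfl
    | succ j ih => rw [pow_succ, AlgEquiv.mul_apply, h2, ih]
  have h4 : γ x = (φF ^ i) (γ' x) := by
    rw [hγ', AlgEquiv.mul_apply]
    exact ((φF ^ i).apply_symm_apply (γ x)).symm
  rw [h4, h1, h3]

end Level

/-! ### Chinese remainders -/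

section CRT

/-- an element which is `1` modulo `P` and `0` modulo the other conjugates of `P`. -/
theorem s19b_exists_theta0 {R Γ : Type*} [CommRing R] [Group Γ] [Fintype Γ]
    [MulSemiringAction Γ R] (P : Ideal R) [hP : P.IsMaximal] :
    ∃ θ₀ : R, 1 - θ₀ ∈ P ∧ ∀ γ : Γ, γ • P ≠ P → θ₀ ∈ γ • P := by
  classical
  set S : Finset Γ := Finset.univ.filter (fun γ : Γ => γ • P ≠ P) with hS
  set P'' : Ideal R := ∏ γ ∈ S, γ • P with hP''
  have hsup : P ⊔ P'' = ⊤ := by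
    by_contra hne
    have hle : P'' ≤ P := by
      have h1 : P ≤ P ⊔ P'' := le_sup_left
      have h2 := hP.eq_of_le hne h1
      rw [h2]
      exact le_sup_right
    obtain ⟨γ, hγS, hγ⟩ := (hP.isPrime.prod_le).mp hle
    rw [hS, Finset.mem_filter] at hγS
    apply hγS.2
    -- `γ • P ≤ P` forces equality
    have h3 : P ≤ γ⁻¹ • P := by
      intro a ha
      rw [Ideal.mem_pointwise_smul_iff_inv_smul_mem, inv_inv]
      exact hγ (Ideal.smul_mem_pointwise_smul _ _ _ ha)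
    have h4 : γ⁻¹ • P ≠ ⊤ := by
      intro h
      have h1 : (1 : R) ∈ γ⁻¹ • P := h ▸ Submodule.mem_top
      rw [Ideal.mem_pointwise_smul_iff_inv_smul_mem, smul_one] at h1
      exact hP.ne_top ((Ideal.eq_top_iff_one P).mpr h1)
    have h5 : P = γ⁻¹ • P := hP.eq_of_le h4 h3
    rw [eq_comm, inv_smul_eq_iff] at h5
    exact h5.symm
  have h1 : (1 : R) ∈ P ⊔ P'' := hsup ▸ Submodule.mem_top
  obtain ⟨a, ha, θ₀, hθ₀, hsum⟩ := Submodule.mem_sup.mp h1
  refine ⟨θ₀, ?_, ?_⟩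
  · have : 1 - θ₀ = a := by rw [← hsum]; ring
    rw [this]
    exact ha
  · intro γ hγ
    have hγS : γ ∈ S := by rw [hS, Finset.mem_filter]; exact ⟨Finset.mem_univ _, hγ⟩
    have h2 : P'' ≤ γ • P := (Ideal.prod_le_inf).trans (Finset.inf_le hγS)
    exact h2 hθ₀

theorem s19b_theta_identities {R : Type*} [CommRing R] (θ₀ : R) (N : ℕ) :
    ∃ g h : R, 1 - (1 - (1 - θ₀ ^ N) ^ N) = (1 - θ₀) ^ N * g ∧
      (1 - (1 - θ₀ ^ N) ^ N) = θ₀ ^ N * h := by
  obtain ⟨g₀, hg₀⟩ := sub_dvd_pow_sub_pow (1 : R) θ₀ N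
  obtain ⟨h, hh⟩ := sub_dvd_pow_sub_pow (1 : R) (1 - θ₀ ^ N) N
  rw [one_pow] at hg₀ hh
  refine ⟨g₀ ^ N, h, ?_, ?_⟩
  · rw [sub_sub_cancel, hg₀, mul_pow]
  · rw [hh]
    ring

end CRT

/-! ### The approximate idempotent -/

section Theta

variable {Ω : Type*} [Field Ω] [Algebra ℚ Ω] [IsGalois ℚ Ω] [CharZero Ω]
variable {F : Type*} [Field F] [NumberField F] [Algebra F Ω] [IsGalois ℚ F]
variable (A : ValuationSubring Ω) {ℓ : ℕ} (hℓ : ℓ.Prime) (hA : (ℓ : Ω) ∈ A.nonunits)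

theorem s19b_w_nonneg (y : 𝓞 F) : 0 ≤ ford_vQ A hℓ hA (algebraMap (𝓞 F) Ω y) :=
  (ford_vQ_nonneg_iff hℓ hA _).mpr (s19b_coe_mem A y)

theorem s19b_w_eq_zero {y : 𝓞 F} (hy : y ∉ s19b_P (F := F) A) :
    ford_vQ A hℓ hA (algebraMap (𝓞 F) Ω y) = 0 := by
  refine le_antisymm (not_lt.mp fun h => hy ?_) (s19b_w_nonneg A hℓ hA y)
  rw [s19b_mem_P_iff]
  exact (ford_vQ_pos_iff hℓ hA _).mp h

include hℓ hA in
/-- the primes of `𝓞 F` over `ℓ` are the conjugates of `P`. -/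
theorem s19b_exists_smul_eq (𝔭 : Ideal (𝓞 F)) [h𝔭 : 𝔭.IsPrime] (hℓ𝔭 : (ℓ : 𝓞 F) ∈ 𝔭) :
    ∃ γ : F ≃ₐ[ℚ] F, 𝔭 = γ • s19b_P (F := F) A := by
  haveI : Fact ℓ.Prime := ⟨hℓ⟩
  haveI hPmax : (s19b_P (F := F) A).IsMaximal := s19b_P_isMaximal A hℓ hA
  have hℓmax : (Ideal.span {(ℓ : ℤ)}).IsMaximal := Int.ideal_span_isMaximal_of_prime ℓ
  have hunder : ∀ (𝔮 : Ideal (𝓞 F)), 𝔮.IsPrime → (ℓ : 𝓞 F) ∈ 𝔮 →
      𝔮.under ℤ = Ideal.span {(ℓ : ℤ)} := by
    intro 𝔮 h𝔮 hℓ𝔮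
    symm
    refine hℓmax.eq_of_le ?_ ?_
    · intro h
      apply h𝔮.ne_top
      rw [Ideal.eq_top_iff_one]
      have : (1 : ℤ) ∈ 𝔮.under ℤ := by rw [h]; trivial
      simpa [Ideal.under_def] using this
    · rw [Ideal.span_le]
      intro z hz
      rw [Set.mem_singleton_iff] at hz
      subst hz
      show algebraMap ℤ (𝓞 F) (ℓ : ℤ) ∈ 𝔮
      simpa using hℓ𝔮
  haveI : Algebra.IsInvariant ℤ (𝓞 F) (F ≃ₐ[ℚ] F) :=
    (IsGaloisGroup.of_isFractionRing (F ≃ₐ[ℚ] F) ℤ (𝓞 F) ℚ F).isInvariant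
  exact Algebra.IsInvariant.exists_smul_of_under_eq ℤ (𝓞 F) (F ≃ₐ[ℚ] F) (s19b_P (F := F) A) 𝔭
    ((hunder _ hPmax.isPrime (s19b_natCast_mem_P A hA)).trans (hunder 𝔭 h𝔭 hℓ𝔭).symm)

include hℓ hA in
/-- **the approximate idempotent**: `θ ≡ 1` at `P` and `θ ≡ 0` at the other primes over `ℓ`,
to the order `M`, together with all its conjugates. -/
theorem s19b_exists_theta (M : ℕ) : ∃ θ : 𝓞 F,
    (∀ γ : F ≃ₐ[ℚ] F, γ • s19b_P (F := F) A = s19b_P A →
      (M : WithTop ℚ) ≤ ford_vQ A hℓ hA (algebraMap (𝓞 F) Ω (γ • θ) - 1)) ∧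
    (∀ γ : F ≃ₐ[ℚ] F, γ • s19b_P (F := F) A ≠ s19b_P A →
      (M : WithTop ℚ) ≤ ford_vQ A hℓ hA (algebraMap (𝓞 F) Ω (γ • θ))) := by
  classical
  haveI hPmax : (s19b_P (F := F) A).IsMaximal := s19b_P_isMaximal A hℓ hA
  set P := s19b_P (F := F) A with hPdef
  set v := ford_vQ A hℓ hA with hv
  obtain ⟨θ₀, hθ₀P, hθ₀⟩ := s19b_exists_theta0 (Γ := F ≃ₐ[ℚ] F) P
  have h1P : (1 : 𝓞 F) ∉ P := fun h => hPmax.ne_top ((Ideal.eq_top_iff_one P).mpr h)
  have hθ₀nP : θ₀ ∉ P := fun h => h1P (by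
    have := P.add_mem hθ₀P h
    rwa [sub_add_cancel] at this)
  -- the radical
  have hrad : θ₀ * (1 - θ₀) ∈ (Ideal.span {((ℓ : 𝓞 F)) ^ M}).radical := by
    rw [Ideal.radical_eq_sInf, Ideal.mem_sInf]
    rintro 𝔭 ⟨hle, h𝔭⟩
    have h1 : (ℓ : 𝓞 F) ^ M ∈ 𝔭 := hle (Ideal.mem_span_singleton_self _)
    have h2 : (ℓ : 𝓞 F) ∈ 𝔭 := h𝔭.mem_of_pow_mem M h1
    obtain ⟨γ, rfl⟩ := s19b_exists_smul_eq A hℓ hA 𝔭 h2
    by_cases hγ : γ • P = P
    · rw [hγ]
      exact P.mul_mem_left _ hθ₀P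
    · exact Ideal.mul_mem_right _ _ (hθ₀ γ hγ)
  obtain ⟨N, hN⟩ := Ideal.mem_radical_iff.mp hrad
  obtain ⟨c, hc⟩ := Ideal.mem_span_singleton'.mp hN
  obtain ⟨g, h, hg, hh⟩ := s19b_theta_identities θ₀ N
  obtain ⟨θ, hθ⟩ : ∃ θ : 𝓞 F, θ = 1 - (1 - θ₀ ^ N) ^ N := ⟨_, rfl⟩
  rw [← hθ] at hg hh
  -- the basic valuation identity
  have hval : ∀ γ : F ≃ₐ[ℚ] F,
      N • v (algebraMap (𝓞 F) Ω (γ • θ₀)) + N • v (algebraMap (𝓞 F) Ω (γ • (1 - θ₀))) =
        (M : WithTop ℚ) + v (algebraMap (𝓞 F) Ω (γ • c)) := by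
    intro γ
    have h1 : (γ • θ₀) ^ N * (γ • (1 - θ₀)) ^ N = (γ • c) * (ℓ : 𝓞 F) ^ M := by
      have hnat : γ • (ℓ : 𝓞 F) = (ℓ : 𝓞 F) :=
        map_natCast (MulSemiringAction.toRingHom (F ≃ₐ[ℚ] F) (𝓞 F) γ) ℓ
      rw [← smul_pow', ← smul_pow', ← smul_mul', ← mul_pow, ← hc, smul_mul', smul_pow', hnat]
    have h2 := congrArg (fun z => v (algebraMap (𝓞 F) Ω z)) h1
    simp only [map_mul, map_pow, map_natCast, AddValuation.map_mul, AddValuation.map_pow] at h2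
    rw [h2, hv, ford_vQ_q hℓ hA, nsmul_one, add_comm]
  refine ⟨θ, fun γ hγ => ?_, fun γ hγ => ?_⟩
  · -- `γ` stabilises `P`
    have h1 : γ • θ₀ ∉ P := by
      intro h
      apply hθ₀nP
      rw [← hγ] at h
      exact (Ideal.smul_mem_pointwise_smul_iff).mp h
    have h2 := hval γ
    rw [s19b_w_eq_zero A hℓ hA h1, smul_zero, zero_add] at h2
    have h3 : (M : WithTop ℚ) ≤ N • v (algebraMap (𝓞 F) Ω (γ • (1 - θ₀))) := by
      rw [h2]
      exact le_add_of_nonneg_right (s19b_w_nonneg A hℓ hA _)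
    have h4 : algebraMap (𝓞 F) Ω (γ • θ) - 1 =
        -(algebraMap (𝓞 F) Ω ((γ • (1 - θ₀)) ^ N * (γ • g))) := by
      have h5 : θ - 1 = -((1 - θ₀) ^ N * g) := by rw [← hg]; ring
      have h6 : algebraMap (𝓞 F) Ω (γ • θ) - 1 = algebraMap (𝓞 F) Ω (γ • (θ - 1)) := by
        rw [smul_sub, smul_one, map_sub, map_one]
      rw [h6, h5, smul_neg, smul_mul', smul_pow', map_neg]
    rw [h4, AddValuation.map_neg, map_mul, map_pow, AddValuation.map_mul, AddValuation.map_pow]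
    exact h3.trans (le_add_of_nonneg_right (s19b_w_nonneg A hℓ hA _))
  · -- `γ` moves `P`
    have hγ' : γ⁻¹ • P ≠ P := by
      intro h
      exact hγ (inv_smul_eq_iff.mp h).symm
    have h0 : θ₀ ∈ γ⁻¹ • P := hθ₀ γ⁻¹ hγ'
    have h1 : γ • (1 - θ₀) ∉ P := by
      intro h
      have h2 : 1 - θ₀ ∈ γ⁻¹ • P := by
        rw [Ideal.mem_pointwise_smul_iff_inv_smul_mem, inv_inv]
        exact h
      have h3 : (1 : 𝓞 F) ∈ γ⁻¹ • P := by
        have := (γ⁻¹ • P).add_mem h2 h0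
        rwa [sub_add_cancel] at this
      rw [Ideal.mem_pointwise_smul_iff_inv_smul_mem, smul_one] at h3
      exact h1P h3
    have h2 := hval γ
    rw [s19b_w_eq_zero A hℓ hA h1, smul_zero, add_zero] at h2
    have h3 : (M : WithTop ℚ) ≤ N • v (algebraMap (𝓞 F) Ω (γ • θ₀)) := by
      rw [h2]
      exact le_add_of_nonneg_right (s19b_w_nonneg A hℓ hA _)
    have h4 : algebraMap (𝓞 F) Ω (γ • θ) =
        algebraMap (𝓞 F) Ω ((γ • θ₀) ^ N * (γ • h)) := by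
      rw [← smul_pow', ← smul_mul', ← hh]
    rw [h4, map_mul, map_pow, AddValuation.map_mul, AddValuation.map_pow]
    exact h3.trans (le_add_of_nonneg_right (s19b_w_nonneg A hℓ hA _))

end Theta

/-! ### The trace argument -/

section Trace

theorem s19b_exists_bound {ι : Type*} [Fintype ι] (w : ι → WithTop ℚ) (k : ℕ) :
    ∃ M : ℕ, k ≤ M ∧ ∀ i, (k : WithTop ℚ) ≤ (M : WithTop ℚ) + w i := by
  classical
  have h1 : ∀ i, ∃ m : ℕ, k ≤ m ∧ (k : WithTop ℚ) ≤ (m : WithTop ℚ) + w i := by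
    intro i
    induction w i using WithTop.recTopCoe with
    | top => exact ⟨k, le_rfl, by rw [add_top]; exact le_top⟩
    | coe q =>
      refine ⟨k + ⌈-q⌉₊, Nat.le_add_right _ _, ?_⟩
      have h2 : ((k : ℕ) : WithTop ℚ) = (((k : ℕ) : ℚ) : WithTop ℚ) := rfl
      have h3 : ((k + ⌈-q⌉₊ : ℕ) : WithTop ℚ) = (((k + ⌈-q⌉₊ : ℕ) : ℚ) : WithTop ℚ) := rfl
      rw [h2, h3, ← WithTop.coe_add, WithTop.coe_le_coe]
      have := Nat.le_ceil (-q)
      push_cast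
      linarith
  choose m hm1 hm2 using h1
  refine ⟨k + Finset.univ.sup m, Nat.le_add_right _ _, fun i => ?_⟩
  refine (hm2 i).trans (add_le_add_left ?_ _)
  have h4 : m i ≤ k + Finset.univ.sup m :=
    (Finset.le_sup (f := m) (Finset.mem_univ i)).trans (Nat.le_add_left _ _)
  exact_mod_cast h4

end Trace

/-! ### Density at a finite level -/

section Density

variable {Ω : Type*} [Field Ω] [Algebra ℚ Ω] [IsGalois ℚ Ω] [CharZero Ω]
variable {F : Type*} [Field F] [NumberField F] [Algebra F Ω] [IsGalois ℚ F]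
variable (A : ValuationSubring Ω) {ℓ : ℕ} (hℓ : ℓ.Prime) (hA : (ℓ : Ω) ∈ A.nonunits)

include hℓ hA in
theorem s19b_density_level (φ : Ω ≃ₐ[ℚ] Ω) (hφ : A.IsFrobeniusAt φ ℓ) (x : F)
    (hxA : algebraMap F Ω x ∈ A)
    (hxφ : φ (algebraMap F Ω x) = algebraMap F Ω x)
    (hxI : ∀ τ ∈ A.inertiaSubgroupIn ℚ, τ (algebraMap F Ω x) = algebraMap F Ω x) (n : ℕ) :
    ∃ r : ℚ, algebraMap ℚ Ω r ∈ A ∧
      (n : WithTop ℚ) ≤ ford_vQ A hℓ hA (algebraMap F Ω x - algebraMap ℚ Ω r) := by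
  classical
  set v := ford_vQ A hℓ hA with hv
  set P := s19b_P (F := F) A with hPdef
  set Stab : Finset (F ≃ₐ[ℚ] F) := Finset.univ.filter (fun γ => γ • P = P) with hStab
  have hS1 : (1 : F ≃ₐ[ℚ] F) ∈ Stab := by
    rw [hStab, Finset.mem_filter]
    exact ⟨Finset.mem_univ _, one_smul _ _⟩
  have hS0 : Stab.card ≠ 0 := Finset.card_ne_zero.mpr ⟨1, hS1⟩
  set s := padicValNat ℓ Stab.card with hs
  obtain ⟨M, hM1, hM2⟩ :=
    s19b_exists_bound (fun γ : F ≃ₐ[ℚ] F => v (algebraMap F Ω (γ x))) (n + s)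
  obtain ⟨θ, hθ1, hθ2⟩ := s19b_exists_theta (F := F) A hℓ hA M
  set q : ℚ := Algebra.trace ℚ F (x * algebraMap (𝓞 F) F θ) with hq
  have hqsum : algebraMap ℚ F q = ∑ γ : F ≃ₐ[ℚ] F, γ (x * algebraMap (𝓞 F) F θ) :=
    trace_eq_sum_automorphisms _
  have hest : ((n + s : ℕ) : WithTop ℚ) ≤
      v (algebraMap F Ω (algebraMap ℚ F q) - (Stab.card : Ω) * algebraMap F Ω x) := by
    have h1 : algebraMap F Ω (algebraMap ℚ F q) - (Stab.card : Ω) * algebraMap F Ω x =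
        ∑ γ : F ≃ₐ[ℚ] F, (algebraMap F Ω (γ x) * algebraMap (𝓞 F) Ω (γ • θ) -
          if γ • P = P then algebraMap F Ω x else 0) := by
      rw [Finset.sum_sub_distrib, hqsum, map_sum, ← Finset.sum_filter, Finset.sum_const,
        nsmul_eq_mul]
      congr 1
      refine Finset.sum_congr rfl fun γ _ => ?_
      rw [map_mul, map_mul]
      rfl
    rw [h1]
    refine AddValuation.map_le_sum _ fun γ _ => ?_
    by_cases hγ : γ • P = P
    · rw [if_pos hγ, s19b_fixed_of_stab A hℓ hA φ hφ x hxφ hxI γ hγ]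
      have h2 : algebraMap F Ω x * algebraMap (𝓞 F) Ω (γ • θ) - algebraMap F Ω x =
          algebraMap F Ω x * (algebraMap (𝓞 F) Ω (γ • θ) - 1) := by ring
      rw [h2, AddValuation.map_mul]
      calc ((n + s : ℕ) : WithTop ℚ) ≤ (M : WithTop ℚ) := by exact_mod_cast hM1
        _ ≤ v (algebraMap (𝓞 F) Ω (γ • θ) - 1) := hθ1 γ hγ
        _ ≤ v (algebraMap F Ω x) + v (algebraMap (𝓞 F) Ω (γ • θ) - 1) :=
            le_add_of_nonneg_left ((ford_vQ_nonneg_iff hℓ hA _).mpr hxA)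
    · rw [if_neg hγ, sub_zero, AddValuation.map_mul]
      refine (hM2 γ).trans ?_
      rw [add_comm (M : WithTop ℚ)]
      exact add_le_add_right (hθ2 γ hγ) _
  -- divide by the order of the stabiliser
  have hcardΩ : (Stab.card : Ω) ≠ 0 := by exact_mod_cast hS0
  have hvcard : v (Stab.card : Ω) = ((s : ℚ) : WithTop ℚ) := ford_vQ_natCast hℓ hA hS0
  set r : ℚ := q / Stab.card with hr
  have hrq : algebraMap ℚ Ω r * (Stab.card : Ω) = algebraMap F Ω (algebraMap ℚ F q) := by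
    rw [← IsScalarTower.algebraMap_apply ℚ F Ω, hr, map_div₀, map_natCast,
      div_mul_cancel₀ _ hcardΩ]
  have hd : (Stab.card : Ω) * (algebraMap F Ω x - algebraMap ℚ Ω r) =
      -(algebraMap F Ω (algebraMap ℚ F q) - (Stab.card : Ω) * algebraMap F Ω x) := by
    rw [← hrq]
    ring
  have h3 : ((s : ℚ) : WithTop ℚ) + (n : WithTop ℚ) ≤
      ((s : ℚ) : WithTop ℚ) + v (algebraMap F Ω x - algebraMap ℚ Ω r) := by
    rw [← hvcard, ← AddValuation.map_mul, hd, AddValuation.map_neg, hvcard]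
    refine le_trans (le_of_eq ?_) hest
    push_cast
    rw [add_comm]
  have h4 : (n : WithTop ℚ) ≤ v (algebraMap F Ω x - algebraMap ℚ Ω r) :=
    WithTop.le_of_add_le_add_left WithTop.coe_ne_top h3
  refine ⟨r, ?_, h4⟩
  rw [← ford_vQ_nonneg_iff hℓ hA]
  have h5 : algebraMap ℚ Ω r = algebraMap F Ω x - (algebraMap F Ω x - algebraMap ℚ Ω r) := by
    ring
  rw [h5]
  refine AddValuation.map_le_sub _ ((ford_vQ_nonneg_iff hℓ hA _).mpr hxA) ?_
  exact le_trans (by exact_mod_cast Nat.zero_le n) h4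

end Density

/-! ### Density -/

section Final

variable {Ω : Type*} [Field Ω] [Algebra ℚ Ω] [IsGalois ℚ Ω] [CharZero Ω]
variable (A : ValuationSubring Ω) {ℓ : ℕ} (hℓ : ℓ.Prime) (hA : (ℓ : Ω) ∈ A.nonunits)

include hℓ hA in
/-- **density**: an element of `A` fixed by a Frobenius and by the inertia group is `ℓ`-adically
approximable by rational numbers which are `ℓ`-integral. -/
theorem s19b_density (φ : Ω ≃ₐ[ℚ] Ω) (hφ : A.IsFrobeniusAt φ ℓ) (x : Ω) (hxA : x ∈ A)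
    (hxφ : φ x = x) (hxI : ∀ τ ∈ A.inertiaSubgroupIn ℚ, τ x = x) (n : ℕ) :
    ∃ r : ℚ, algebraMap ℚ Ω r ∈ A ∧
      (n : WithTop ℚ) ≤ ford_vQ A hℓ hA (x - algebraMap ℚ Ω r) := by
  haveI : Finite ({x} : Set Ω) := Set.finite_singleton x
  let F := FiniteGaloisIntermediateField.adjoin ℚ ({x} : Set Ω)
  have hxF : x ∈ F.toIntermediateField :=
    FiniteGaloisIntermediateField.subset_adjoin ℚ ({x} : Set Ω) (Set.mem_singleton x)
  haveI : NumberField ↥F.toIntermediateField := by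
    refine @NumberField.mk _ _ inferInstance ?_
    have h := F.finiteDimensional
    convert h
    · rfl
    · exact Subsingleton.elim _ _
  haveI : IsGalois ℚ ↥F.toIntermediateField := by
    have h := F.isGalois
    convert h
    exact Subsingleton.elim _ _
  exact s19b_density_level (F := ↥F.toIntermediateField) A hℓ hA φ hφ ⟨x, hxF⟩ hxA hxφ hxI n

end Final

end Fermat.Agent.Lib.S19

end
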