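/-
W-A programme (S19/S32), brick [RATL] part 1 (helper7, prefix `s19r_`): SPEISER'S LEMMA in the
form needed for `q`-expansion fields.

`L/K₀` a field extension, `I` a subgroup of `Aut(L/K₀)` acting semilinearly on an `L`-vector space
`V` (`act τ (c • v) = τ c • act τ v`), `S ≤ V` an `I`-stable subspace.  If `v ∈ S` is "defined
over a finite subextension `L₁ ⊆ L`" (`act τ v` only depends on the restriction of `τ ∈ I` to `L₁`),
then `v` is an `L`-linear combination of `I`-fixed vectors of `S`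
(averages `Σ_φ φ(λ) • act(s φ) v` over the finitely many restrictions `φ` of `I` to `L₁`, and
Dedekind's independence of characters).
-/
import Mathlib

set_option autoImplicit false

noncomputable section

namespace Fermat.Agent.Lib.S19

open scoped Classical in
/-- **Speiser's lemma** (finite-level form). -/
theorem s19r_speiser {K₀ L : Type*} [Field K₀] [Field L] [Algebra K₀ L]
    (I : Subgroup (L ≃ₐ[K₀] L))
    {V : Type*} [AddCommGroup V] [Module L V] (act : (L ≃ₐ[K₀] L) → V → V)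
    (hadd : ∀ τ v w, act τ (v + w) = act τ v + act τ w)
    (hsmul : ∀ τ (c : L) v, act τ (c • v) = τ c • act τ v)
    (hmul : ∀ τ τ' v, act (τ * τ') v = act τ (act τ' v))
    (S : Submodule L V) (hS : ∀ τ ∈ I, ∀ w ∈ S, act τ w ∈ S)
    (v : V) (hv : v ∈ S) (L₁ : IntermediateField K₀ L) [FiniteDimensional K₀ L₁]
    (hstab : ∀ τ ∈ I, ∀ τ' ∈ I, (∀ x ∈ L₁, τ x = τ' x) → act τ v = act τ' v)
    (hone : act 1 v = v) :
    v ∈ Submodule.span L {w : V | w ∈ S ∧ ∀ τ ∈ I, act τ w = w} := by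
  -- the restrictions of `I` to `L₁`
  let res : (L ≃ₐ[K₀] L) → (↥L₁ →ₐ[K₀] L) := fun τ => (τ : L →ₐ[K₀] L).comp L₁.val
  have hres : ∀ τ (x : ↥L₁), res τ x = τ (x : L) := fun τ x => rfl
  let Φ := {φ : ↥L₁ →ₐ[K₀] L // ∃ τ ∈ I, res τ = φ}
  choose s hsI hs using fun φ : Φ => φ.2
  have hact0 : ∀ τ, act τ 0 = 0 := fun τ => by
    have := hadd τ 0 0
    rw [add_zero] at this
    exact left_eq_add.mp this
  let actHom : (L ≃ₐ[K₀] L) → V →+ V := fun τ => AddMonoidHom.mk' (act τ) (hadd τ)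
  -- the averages
  let T : ↥L₁ → V := fun c => ∑ φ : Φ, (φ.1 c) • act (s φ) v
  have hTS : ∀ c, T c ∈ S := fun c =>
    Submodule.sum_mem _ fun φ _ => Submodule.smul_mem _ _ (hS _ (hsI φ) v hv)
  -- invariance
  have hTfix : ∀ c, ∀ τ ∈ I, act τ (T c) = T c := by
    intro c τ hτ
    -- the permutation of the restrictions
    have hmem : ∀ (σ : L ≃ₐ[K₀] L), σ ∈ I → ∀ φ : Φ,
        ∃ τ' ∈ I, res τ' = (σ : L →ₐ[K₀] L).comp φ.1 := fun σ hσ φ =>
      ⟨σ * s φ, mul_mem hσ (hsI φ), by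
        apply AlgHom.ext
        intro x
        rw [hres, AlgHom.comp_apply, ← hs φ, hres]
        rfl⟩
    let e : Φ ≃ Φ :=
      { toFun := fun φ => ⟨(τ : L →ₐ[K₀] L).comp φ.1, hmem τ hτ φ⟩
        invFun := fun φ => ⟨((τ⁻¹ : L ≃ₐ[K₀] L) : L →ₐ[K₀] L).comp φ.1, hmem τ⁻¹ (inv_mem hτ) φ⟩
        left_inv := fun φ => by
          apply Subtype.ext
          apply AlgHom.ext
          intro x
          show (τ⁻¹ : L ≃ₐ[K₀] L) (τ (φ.1 x)) = φ.1 x
          rw [← AlgEquiv.mul_apply, inv_mul_cancel, AlgEquiv.one_apply]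
        right_inv := fun φ => by
          apply Subtype.ext
          apply AlgHom.ext
          intro x
          show τ ((τ⁻¹ : L ≃ₐ[K₀] L) (φ.1 x)) = φ.1 x
          rw [← AlgEquiv.mul_apply, mul_inv_cancel, AlgEquiv.one_apply] }
    have h1 : act τ (T c) = ∑ φ : Φ, act τ ((φ.1 c) • act (s φ) v) := map_sum (actHom τ) _ _
    rw [h1]
    have h2 : ∀ φ : Φ, act τ ((φ.1 c) • act (s φ) v) = ((e φ).1 c) • act (s (e φ)) v := by
      intro φ
      rw [hsmul, ← hmul]
      congr 1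
      apply hstab _ (mul_mem hτ (hsI φ)) _ (hsI (e φ))
      intro x hx
      have h3 := congrArg (fun ψ : ↥L₁ →ₐ[K₀] L => ψ ⟨x, hx⟩) (hs (e φ))
      have h4 := congrArg (fun ψ : ↥L₁ →ₐ[K₀] L => ψ ⟨x, hx⟩) (hs φ)
      simp only [hres] at h3 h4
      rw [h3]
      show τ (s φ x) = τ (φ.1 ⟨x, hx⟩)
      rw [h4]
    rw [Finset.sum_congr rfl fun φ _ => h2 φ]
    exact Equiv.sum_comp e fun φ => (φ.1 c) • act (s φ) v
  -- Dedekind
  set W := Submodule.span L {w : V | w ∈ S ∧ ∀ τ ∈ I, act τ w = w} with hW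
  have hTW : ∀ c, T c ∈ W := fun c => Submodule.subset_span ⟨hTS c, hTfix c⟩
  by_contra hvW
  obtain ⟨f, hfv, hfker⟩ := Submodule.exists_le_ker_of_notMem hvW
  have hli := linearIndependent_toLinearMap K₀ ↥L₁ L
  have hli' : LinearIndependent L (fun φ : Φ => (φ.1 : ↥L₁ →ₐ[K₀] L).toLinearMap) :=
    hli.comp (fun φ : Φ => φ.1) Subtype.val_injective
  rw [Fintype.linearIndependent_iff] at hli'
  have hzero := hli' (fun φ => f (act (s φ) v)) (by
    ext c
    have h1 : f (T c) = 0 := hfker (hTW c)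
    rw [map_sum] at h1
    rw [LinearMap.sum_apply, LinearMap.zero_apply, ← h1]
    refine Finset.sum_congr rfl fun φ _ => ?_
    rw [map_smul, LinearMap.smul_apply, AlgHom.toLinearMap_apply, smul_eq_mul, smul_eq_mul,
      mul_comm])
  -- the restriction of `1`
  let φ₀ : Φ := ⟨res 1, 1, one_mem I, rfl⟩
  have h0 := hzero φ₀
  apply hfv
  rw [← hone, ← h0]
  congr 1
  apply hstab 1 (one_mem I) _ (hsI φ₀)
  intro x hx
  have h3 := congrArg (fun ψ : ↥L₁ →ₐ[K₀] L => ψ ⟨x, hx⟩) (hs φ₀)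
  simp only [hres] at h3
  rw [h3]
  rfl

end Fermat.Agent.Lib.S19
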