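/-
W-A programme (S19), brick G4d [DESC] (helper3, prefix `s19g_`), part A:
the semilinear action of `G = Gal(ℚ̄/ℚ)` on functions `T → ℚ̄`, and Speiser's lemma for it
(helper7's `s19r_speiser`): on a continuous finite Galois module `T`, the `G`-equivariant functions
span `T → ℚ̄` over `ℚ̄`.
-/
import Mathlib
import Fermat.Agent.Lib.S19.IfaceOrder
import Fermat.Agent.Lib.S19.RSpeiser

set_option autoImplicit false
set_option linter.style.haveILetI false

noncomputable section

namespace Fermat.Agent.Lib.S19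

local notation "Kb" => AlgebraicClosure ℚ

section star

variable {T : Type} [AddCommGroup T] [DistribMulAction s19_Gal T]

/-- the semilinear action of `G` on functions: `(σ ⋆ a) x = σ (a (σ⁻¹ x))`. -/
def s19g_star (σ : s19_Gal) (a : T → Kb) : T → Kb := fun x => σ (a (σ⁻¹ • x))

theorem s19g_star_apply (σ : s19_Gal) (a : T → Kb) (x : T) :
    s19g_star σ a x = σ (a (σ⁻¹ • x)) := rfl

theorem s19g_star_one (a : T → Kb) : s19g_star 1 a = a := by
  funext x
  simp [s19g_star]

theorem s19g_star_mul (σ τ : s19_Gal) (a : T → Kb) :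
    s19g_star (σ * τ) a = s19g_star σ (s19g_star τ a) := by
  funext x
  simp only [s19g_star, mul_inv_rev, mul_smul, AlgEquiv.mul_apply]

theorem s19g_star_add (σ : s19_Gal) (a b : T → Kb) :
    s19g_star σ (a + b) = s19g_star σ a + s19g_star σ b := by
  funext x
  simp [s19g_star]

theorem s19g_star_zero (σ : s19_Gal) : s19g_star σ (0 : T → Kb) = 0 := by
  funext x
  simp [s19g_star]

theorem s19g_star_sum {ι : Type*} (σ : s19_Gal) (s : Finset ι) (a : ι → T → Kb) :
    s19g_star σ (∑ i ∈ s, a i) = ∑ i ∈ s, s19g_star σ (a i) := by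
  classical
  induction s using Finset.induction_on with
  | empty => simp [s19g_star_zero]
  | insert i s hi ih => rw [Finset.sum_insert hi, Finset.sum_insert hi, s19g_star_add, ih]

theorem s19g_star_smul (σ : s19_Gal) (c : Kb) (a : T → Kb) :
    s19g_star σ (c • a) = σ c • s19g_star σ a := by
  funext x
  simp [s19g_star]

theorem s19g_star_mul_fun (σ : s19_Gal) (a b : T → Kb) :
    s19g_star σ (a * b) = s19g_star σ a * s19g_star σ b := by
  funext x
  simp [s19g_star]

/-- a function is fixed by `σ ⋆` iff it is `σ`-equivariant. -/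
theorem s19g_star_eq_iff (σ : s19_Gal) (a : T → Kb) :
    s19g_star σ a = a ↔ ∀ x, a (σ • x) = σ (a x) := by
  constructor
  · intro h x
    have := congrFun h (σ • x)
    rw [s19g_star_apply, inv_smul_smul] at this
    exact this.symm
  · intro h
    funext x
    rw [s19g_star_apply, ← h, smul_inv_smul]

/-- the `G`-equivariant functions. -/
def s19g_Equiv (a : T → Kb) : Prop := ∀ (σ : s19_Gal) (x : T), a (σ • x) = σ (a x)

theorem s19g_equiv_iff (a : T → Kb) : s19g_Equiv a ↔ ∀ σ : s19_Gal, s19g_star σ a = a := by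
  constructor
  · intro h σ
    exact (s19g_star_eq_iff σ a).mpr (h σ)
  · intro h σ
    exact (s19g_star_eq_iff σ a).mp (h σ)

end star

/-! ### Speiser -/

section speiser

variable {T : Type} [AddCommGroup T] [Finite T] [DistribMulAction s19_Gal T]

/-- the continuity hypothesis of `s19_Desc`. -/
def s19g_Cont (T : Type) [AddCommGroup T] [DistribMulAction s19_Gal T] : Prop :=
  ∀ x : T, ∃ E : IntermediateField ℚ s19_Qbar, FiniteDimensional ℚ E ∧
    ∀ σ : s19_Gal, (∀ e ∈ E, σ e = e) → σ • x = x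

/-- every function is "defined over a finite level". -/
theorem s19g_exists_level (hT : s19g_Cont T) (a : T → Kb) :
    ∃ L₁ : IntermediateField ℚ Kb, FiniteDimensional ℚ L₁ ∧
      ∀ τ τ' : s19_Gal, (∀ x ∈ L₁, τ x = τ' x) → s19g_star τ a = s19g_star τ' a := by
  classical
  choose E hEfin hE using hT
  haveI : ∀ x, FiniteDimensional ℚ (E x) := hEfin
  have : Algebra.IsAlgebraic ℚ Kb := AlgebraicClosure.isAlgebraic ℚ
  haveI : Finite (Set.range a) := Set.finite_range a
  haveI h2 : FiniteDimensional ℚ (IntermediateField.adjoin ℚ (Set.range a)) :=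
    IntermediateField.finiteDimensional_adjoin
      (fun x _ => (Algebra.IsAlgebraic.isAlgebraic x).isIntegral)
  haveI h1 : FiniteDimensional ℚ (⨆ x, E x : IntermediateField ℚ Kb) :=
    IntermediateField.finiteDimensional_iSup_of_finite
  refine ⟨(⨆ x, E x) ⊔ IntermediateField.adjoin ℚ (Set.range a),
    IntermediateField.finiteDimensional_sup _ _, ?_⟩
  intro τ τ' h
  -- `ρ = τ'⁻¹ τ` fixes the level
  have hρ : ∀ x ∈ ((⨆ x, E x) ⊔ IntermediateField.adjoin ℚ (Set.range a) :
      IntermediateField ℚ Kb), (τ'⁻¹ * τ) x = x := by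
    intro x hx
    rw [AlgEquiv.mul_apply, h x hx]
    exact τ'.symm_apply_apply x
  have hρT : ∀ y : T, (τ'⁻¹ * τ) • y = y := by
    intro y
    apply hE y
    intro e he
    apply hρ
    exact (le_sup_left : (⨆ x, E x) ≤ _) ((le_iSup E y) he)
  have hρT' : ∀ y : T, τ⁻¹ • y = τ'⁻¹ • y := by
    intro y
    have h1 := hρT (τ⁻¹ • y)
    rw [mul_smul, smul_inv_smul] at h1
    exact h1.symm
  funext y
  rw [s19g_star_apply, s19g_star_apply, hρT']
  have hmem : a (τ'⁻¹ • y) ∈ ((⨆ x, E x) ⊔ IntermediateField.adjoin ℚ (Set.range a) :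
      IntermediateField ℚ Kb) :=
    (le_sup_right : IntermediateField.adjoin ℚ (Set.range a) ≤ _)
      (IntermediateField.subset_adjoin ℚ _ ⟨_, rfl⟩)
  exact h _ hmem

/-- **Speiser**: the equivariant functions span `T → ℚ̄`. -/
theorem s19g_span_equiv (hT : s19g_Cont T) :
    Submodule.span Kb {w : T → Kb | s19g_Equiv w} = ⊤ := by
  rw [eq_top_iff]
  intro a _
  obtain ⟨L₁, hL₁, hstab⟩ := s19g_exists_level hT a
  haveI := hL₁
  have h := s19r_speiser (K₀ := ℚ) (L := Kb) (⊤ : Subgroup s19_Gal) (V := T → Kb)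
    (fun σ a => s19g_star σ a) (fun τ v w => s19g_star_add τ v w)
    (fun τ c v => s19g_star_smul τ c v) (fun τ τ' v => s19g_star_mul τ τ' v) ⊤
    (fun _ _ _ _ => Submodule.mem_top) a Submodule.mem_top L₁
    (fun τ _ τ' _ hh => hstab τ τ' hh) (s19g_star_one a)
  refine Submodule.span_mono ?_ h
  rintro w ⟨-, hw⟩
  exact (s19g_equiv_iff w).mpr fun σ => hw σ (Subgroup.mem_top σ)

end speiser

end Fermat.Agent.Lib.S19

end
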