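/-
W-A programme (S19), brick G4d [DESC] (helper3, prefix `s19g_`), part B:
the valuation `v = ford_vQ A` (landed, `Lib/Frey/Ord`), the ring `W`, first consequences of the axioms
of a local order, and the equivariant `ℚ̄`-basis inside `HW`.
-/
import Mathlib
import Fermat.Agent.Lib.S19.GDescA
import Fermat.Agent.Lib.S19.CHopfB
import Fermat.Agent.Lib.S19.BDescDens
import Fermat.Agent.Lib.S28.DZl
import Fermat.Agent.Lib.Frey.OrdInertia

set_option autoImplicit false
set_option linter.style.haveILetI false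
set_option linter.unusedSectionVars false

noncomputable section

namespace Fermat.Agent.Lib.S19

open Fermat.Agent.Lib.Frey Fermat.Agent.Lib.S28

local notation "Kb" => AlgebraicClosure ℚ

section val

variable {ℓ : ℕ} (hℓ : ℓ.Prime) {A : ValuationSubring Kb} (hA : (ℓ : Kb) ∈ A.nonunits)

include hℓ hA

/-- finitely many elements of `ℚ̄` become integral after multiplication by one power of `ℓ`. -/
theorem s19g_exists_pow_mem {ι : Type*} [Finite ι] (c : ι → Kb) :
    ∃ N : ℕ, ∀ i, (ℓ : Kb) ^ N * c i ∈ A := by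
  classical
  cases nonempty_fintype ι
  obtain ⟨M, -, hM⟩ := s19b_exists_bound (fun i => ford_vQ A hℓ hA (c i)) 0
  refine ⟨M, fun i => ?_⟩
  rw [← ford_vQ_nonneg_iff hℓ hA, AddValuation.map_mul, AddValuation.map_pow, ford_vQ_q]
  have h := hM i
  simpa using h

/-- a rational number lies in `A` iff it lies in `ℤ_(ℓ)`. -/
theorem s19g_rat_mem_iff (q : ℚ) :
    algebraMap ℚ Kb q ∈ A ↔ q ∈ GaloisRep.ratLocalizedAt ℓ := by
  haveI : Fact ℓ.Prime := ⟨hℓ⟩
  by_cases hq : q = 0
  · subst hq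
    rw [map_zero]
    exact ⟨fun _ => Subring.zero_mem _, fun _ => A.zero_mem⟩
  · rw [← ford_vQ_nonneg_iff hℓ hA, ford_vQ_algebraMap hℓ hA hq, s28d_mem_ratLocalizedAt_iff]
    constructor
    · intro h
      have h' : ((0 : ℚ) : WithTop ℚ) ≤ ((padicValRat ℓ q : ℚ) : WithTop ℚ) := h
      exact_mod_cast h'
    · intro h
      have h' : ((0 : ℚ) : WithTop ℚ) ≤ ((padicValRat ℓ q : ℚ) : WithTop ℚ) := by
        exact_mod_cast h
      exact h'

end val

/-! ### the ring `W` -/

section W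

variable (A : ValuationSubring Kb)

theorem s19g_mem_W_iff (c : Kb) :
    c ∈ s19_W A ↔ c ∈ A ∧ ∀ τ ∈ A.inertiaSubgroupIn ℚ, τ c = c := Iff.rfl

theorem s19g_rat_mem_W {ℓ : ℕ} (hℓ : ℓ.Prime) (hA : (ℓ : Kb) ∈ A.nonunits) (q : ℚ)
    (hq : q ∈ GaloisRep.ratLocalizedAt ℓ) : algebraMap ℚ Kb q ∈ s19_W A :=
  ⟨(s19g_rat_mem_iff hℓ hA q).mpr hq, fun τ _ => τ.commutes q⟩

theorem s19g_natCast_mem_W (n : ℕ) : (n : Kb) ∈ s19_W A :=
  ⟨natCast_mem A n, fun τ _ => map_natCast τ n⟩

end W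

/-! ### consequences of the axioms of a local order -/

section localOrder

variable {A : ValuationSubring Kb} {T : Type} [AddCommGroup T] [Finite T]
  [DistribMulAction s19_Gal T] {HW : Subring (T → Kb)} (hHW : s19_IsLocalOrder A T HW)

include hHW

theorem s19g_smul_mem {c : Kb} (hc : c ∈ s19_W A) {a : T → Kb} (ha : a ∈ HW) : c • a ∈ HW := by
  have h : c • a = (fun _ : T => c) * a := by
    funext x
    simp
  rw [h]
  exact HW.mul_mem (hHW.const c hc) ha

theorem s19g_star_inertia {a : T → Kb} (ha : a ∈ HW) (τ : s19_Gal)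
    (hτ : τ ∈ A.inertiaSubgroupIn ℚ) : s19g_star τ a = a :=
  (s19g_star_eq_iff τ a).mpr fun x => hHW.equiv a ha τ hτ x

theorem s19g_star_mem {a : T → Kb} (ha : a ∈ HW) (g : s19_Gal)
    (hg : g ∈ A.decompositionSubgroup ℚ) : s19g_star g a ∈ HW :=
  hHW.stable a ha g hg

/-- `HW` spans `T → ℚ̄` over `ℚ̄`. -/
theorem s19g_span_HW : Submodule.span Kb (HW : Set (T → Kb)) = ⊤ := by
  have hA : Algebra.adjoin Kb (HW : Set (T → Kb)) = ⊤ := by
    apply s19c_eq_top_of_sep
    intro x y hxy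
    obtain ⟨a, ha, hne⟩ := hHW.sep x y hxy
    exact ⟨a, Algebra.subset_adjoin ha, hne⟩
  have h1 := Algebra.adjoin_eq_span Kb (HW : Set (T → Kb))
  have h2 : (Submonoid.closure (HW : Set (T → Kb)) : Set (T → Kb)) = (HW : Set (T → Kb)) := by
    have := Submonoid.closure_eq HW.toSubmonoid
    exact congrArg (fun S : Submonoid (T → Kb) => (S : Set (T → Kb))) this
  rw [h2, hA] at h1
  rw [← h1]
  rfl

end localOrder

end Fermat.Agent.Lib.S19

end
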