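/-
W-A programme (S19), brick G4d [DESC] (helper3, prefix `s19g_`), part C:
bases of `T → ℚ̄` inside a spanning set, the behaviour of coordinates under the star action,
the scaling lemma, and the equivariant `ℚ̄`-basis inside a local order `HW`.
-/
import Mathlib
import Fermat.Agent.Lib.S19.GDescB

set_option autoImplicit false
set_option linter.style.haveILetI false
set_option linter.unusedSectionVars false

noncomputable section

namespace Fermat.Agent.Lib.S19

open Fermat.Agent.Lib.Frey Fermat.Agent.Lib.S28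

local notation "Kb" => AlgebraicClosure ℚ

section basis

variable {T : Type} [Finite T]

/-- a spanning set of `T → ℚ̄` contains a basis. -/
theorem s19g_exists_basis_subset (S : Set (T → Kb)) (hS : Submodule.span Kb S = ⊤) :
    ∃ (n : ℕ) (β : Module.Basis (Fin n) Kb (T → Kb)), ∀ i, β i ∈ S := by
  classical
  cases nonempty_fintype T
  obtain ⟨b, hbS, hspan, hli⟩ := exists_linearIndependent Kb S
  have htop : ⊤ ≤ Submodule.span Kb (Set.range (Subtype.val : b → T → Kb)) := by
    rw [Subtype.range_coe, hspan, hS]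
  let β₀ : Module.Basis b Kb (T → Kb) := Module.Basis.mk hli htop
  haveI : Finite b := Module.Finite.finite_basis β₀
  cases nonempty_fintype b
  refine ⟨Fintype.card b, β₀.reindex (Fintype.equivFin b), fun i => ?_⟩
  rw [Module.Basis.reindex_apply, Module.Basis.mk_apply]
  exact hbS ((Fintype.equivFin b).symm i).2

end basis

section repr

variable {T : Type} [AddCommGroup T] [DistribMulAction s19_Gal T]
variable {ι : Type*} [Fintype ι] (β : Module.Basis ι Kb (T → Kb))

/-- coordinates in a `σ`-fixed basis are transformed by `σ` under the star action. -/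
theorem s19g_repr_star (σ : s19_Gal) (hβ : ∀ i, s19g_star σ (β i) = β i) (w : T → Kb) (i : ι) :
    β.repr (s19g_star σ w) i = σ (β.repr w i) := by
  have h1 : s19g_star σ w = ∑ j, σ (β.repr w j) • β j := by
    conv_lhs => rw [← β.sum_repr w]
    rw [s19g_star_sum]
    refine Finset.sum_congr rfl fun j _ => ?_
    rw [s19g_star_smul, hβ]
  rw [h1, β.repr_sum_self]

/-- the coordinates of a `σ`-fixed function in a `σ`-fixed basis are `σ`-fixed. -/
theorem s19g_repr_fixed (σ : s19_Gal) (hβ : ∀ i, s19g_star σ (β i) = β i) (w : T → Kb)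
    (hw : s19g_star σ w = w) (i : ι) : σ (β.repr w i) = β.repr w i := by
  rw [← s19g_repr_star β σ hβ w i, hw]

end repr

section scale

variable {ℓ : ℕ} (hℓ : ℓ.Prime) {A : ValuationSubring Kb} (hA : (ℓ : Kb) ∈ A.nonunits)
variable {T : Type} [AddCommGroup T] [Finite T]
  [DistribMulAction s19_Gal T] {HW : Subring (T → Kb)} (hHW : s19_IsLocalOrder A T HW)

include hℓ hA hHW

/-- **scaling**: an inertia-invariant function lies in `HW` after multiplication by a power of
`ℓ`. -/
theorem s19g_exists_scale (w : T → Kb)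
    (hw : ∀ τ ∈ A.inertiaSubgroupIn ℚ, s19g_star τ w = w) :
    ∃ N : ℕ, ((ℓ : Kb) ^ N) • w ∈ HW := by
  classical
  obtain ⟨n, β, hβ⟩ := s19g_exists_basis_subset (HW : Set (T → Kb)) (s19g_span_HW hHW)
  obtain ⟨N, hN⟩ := s19g_exists_pow_mem hℓ hA (fun i => β.repr w i)
  refine ⟨N, ?_⟩
  have h1 : ((ℓ : Kb) ^ N) • w = ∑ i, ((ℓ : Kb) ^ N * β.repr w i) • β i := by
    conv_lhs => rw [← β.sum_repr w]
    rw [Finset.smul_sum]
    refine Finset.sum_congr rfl fun i _ => ?_
    rw [smul_smul]
  rw [h1]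
  refine Subring.sum_mem _ fun i _ => ?_
  refine s19g_smul_mem hHW ⟨hN i, fun τ hτ => ?_⟩ (hβ i)
  rw [map_mul, map_pow, map_natCast,
    s19g_repr_fixed β τ (fun j => s19g_star_inertia hHW (hβ j) τ hτ) w (hw τ hτ) i]

/-- **the equivariant basis**: `HW` contains a `ℚ̄`-basis of `T → ℚ̄` made of `G`-equivariant
functions. -/
theorem s19g_exists_equiv_basis (hT : s19g_Cont T) :
    ∃ (n : ℕ) (β : Module.Basis (Fin n) Kb (T → Kb)), ∀ i, β i ∈ HW ∧ s19g_Equiv (β i) := by
  classical
  apply s19g_exists_basis_subset {w : T → Kb | w ∈ HW ∧ s19g_Equiv w}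
  rw [eq_top_iff, ← s19g_span_equiv hT]
  apply Submodule.span_le.mpr
  intro w hw
  have hw' : s19g_Equiv w := hw
  obtain ⟨N, hN⟩ := s19g_exists_scale hℓ hA hHW w
    (fun τ _ => (s19g_equiv_iff w).mp hw' τ)
  have hne : ((ℓ : Kb) ^ N) ≠ 0 := pow_ne_zero _ (by exact_mod_cast hℓ.ne_zero)
  have h1 : w = ((ℓ : Kb) ^ N)⁻¹ • (((ℓ : Kb) ^ N) • w) := by
    rw [smul_smul, inv_mul_cancel₀ hne, one_smul]
  rw [h1]
  refine Submodule.smul_mem _ _ (Submodule.subset_span ⟨hN, ?_⟩)
  rw [s19g_equiv_iff]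
  intro σ
  rw [s19g_star_smul, map_pow, map_natCast, (s19g_equiv_iff w).mp hw' σ]

end scale

end Fermat.Agent.Lib.S19

end
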