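/-
W-A programme (S19), brick G4d [DESC] (helper3, prefix `s19g_`), part D:
the global order `H = HW ∩ (equivariant functions)`; it is an `ℤ_(ℓ)`-subalgebra of `T → ℚ̄`,
made of equivariant functions, separating the points, and finitely generated as a module.
-/
import Mathlib
import Fermat.Agent.Lib.S19.GDescC

set_option autoImplicit false
set_option linter.style.haveILetI false
set_option linter.unusedSectionVars false

noncomputable section

namespace Fermat.Agent.Lib.S19

open Fermat.Agent.Lib.Frey Fermat.Agent.Lib.S28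

local notation "Kb" => AlgebraicClosure ℚ

section H

variable {ℓ : ℕ} (hℓ : ℓ.Prime) {A : ValuationSubring Kb} (hA : (ℓ : Kb) ∈ A.nonunits)
variable {T : Type} [AddCommGroup T]
  [DistribMulAction s19_Gal T] {HW : Subring (T → Kb)} (hHW : s19_IsLocalOrder A T HW)

omit [AddCommGroup T] [DistribMulAction s19_Gal T] in
theorem s19g_algebraMap_eq (r : s19c_R ℓ) :
    algebraMap (s19c_R ℓ) (T → Kb) r = fun _ : T => algebraMap ℚ Kb (r : ℚ) := rfl

/-- the global order: the `G`-equivariant functions of the local order. -/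
def s19g_H : Subalgebra (s19c_R ℓ) (T → Kb) where
  carrier := {a | a ∈ HW ∧ s19g_Equiv a}
  mul_mem' := by
    rintro a b ⟨ha, ha'⟩ ⟨hb, hb'⟩
    refine ⟨HW.mul_mem ha hb, fun σ x => ?_⟩
    rw [Pi.mul_apply, Pi.mul_apply, ha' σ x, hb' σ x, map_mul]
  one_mem' := ⟨HW.one_mem, fun σ x => by rw [Pi.one_apply, Pi.one_apply, map_one]⟩
  add_mem' := by
    rintro a b ⟨ha, ha'⟩ ⟨hb, hb'⟩
    refine ⟨HW.add_mem ha hb, fun σ x => ?_⟩
    rw [Pi.add_apply, Pi.add_apply, ha' σ x, hb' σ x, map_add]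
  zero_mem' := ⟨HW.zero_mem, fun σ x => by rw [Pi.zero_apply, Pi.zero_apply, map_zero]⟩
  algebraMap_mem' := by
    intro r
    rw [s19g_algebraMap_eq]
    exact ⟨hHW.const _ (s19g_rat_mem_W A hℓ hA (r : ℚ) r.2), fun σ x => (σ.commutes _).symm⟩

theorem s19g_mem_H_iff (a : T → Kb) :
    a ∈ s19g_H hℓ hA hHW ↔ a ∈ HW ∧ s19g_Equiv a := Iff.rfl

theorem s19g_H_equiv (a : T → Kb) (ha : a ∈ s19g_H hℓ hA hHW) (σ : s19_Gal) (x : T) :
    a (σ • x) = σ (a x) := ha.2 σ x

end H

section fields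

variable {ℓ : ℕ} [Fact ℓ.Prime] {A : ValuationSubring Kb} (hA : (ℓ : Kb) ∈ A.nonunits)
variable {T : Type} [AddCommGroup T] [Finite T]
  [DistribMulAction s19_Gal T] {HW : Subring (T → Kb)} (hHW : s19_IsLocalOrder A T HW)

/-- a basis of `T → ℚ̄` separates the points. -/
theorem s19g_basis_sep {ι : Type*} (β : Module.Basis ι Kb (T → Kb)) (x y : T) (hxy : x ≠ y) :
    ∃ i, β i x ≠ β i y := by
  classical
  by_contra hcon
  push Not at hcon
  let Φ : (T → Kb) →ₗ[Kb] Kb :=
    LinearMap.proj (R := Kb) (φ := fun _ : T => Kb) x -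
      LinearMap.proj (R := Kb) (φ := fun _ : T => Kb) y
  have h0 : Φ = 0 := by
    apply β.ext
    intro i
    show β i x - β i y = 0
    rw [hcon i, sub_self]
  have h1 : Φ (Pi.single x 1) = 1 := by
    show (Pi.single x (1 : Kb) : T → Kb) x - (Pi.single x (1 : Kb) : T → Kb) y = 1
    rw [Pi.single_eq_same, Pi.single_eq_of_ne hxy.symm, sub_zero]
  rw [h0] at h1
  exact zero_ne_one h1

include hHW in
theorem s19g_H_sep (hT : s19g_Cont T) (x y : T) (hxy : x ≠ y) :
    ∃ a ∈ s19g_H (Fact.out : ℓ.Prime) hA hHW, a x ≠ a y := by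
  obtain ⟨n, β, hβ⟩ := s19g_exists_equiv_basis (Fact.out : ℓ.Prime) hA hHW hT
  obtain ⟨i, hi⟩ := s19g_basis_sep β x y hxy
  exact ⟨β i, hβ i, hi⟩

omit [AddCommGroup T] [Finite T] [DistribMulAction s19_Gal T] in
/-- the coordinates of a function in a basis, in terms of the coordinates of the indicator
functions. -/
theorem s19g_repr_eq_sum [Fintype T] [DecidableEq T] {ι : Type*}
    (β : Module.Basis ι Kb (T → Kb)) (a : T → Kb) (j : ι) :
    β.repr a j = ∑ x : T, a x * β.repr (Pi.single x 1) j := by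
  have h1 : a = ∑ x : T, a x • (Pi.single x (1 : Kb) : T → Kb) := by
    conv_lhs => rw [← Finset.univ_sum_single a]
    refine Finset.sum_congr rfl fun x _ => ?_
    rw [← Pi.single_smul, smul_eq_mul, mul_one]
  conv_lhs => rw [h1]
  rw [map_sum, Finsupp.coe_finsetSum, Finset.sum_apply]
  refine Finset.sum_congr rfl fun x _ => ?_
  rw [map_smul, Finsupp.smul_apply, smul_eq_mul]

include hHW in
/-- `H` is a finitely generated `ℤ_(ℓ)`-module. -/
theorem s19g_H_fg (hT : s19g_Cont T) :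
    (Subalgebra.toSubmodule (s19g_H (Fact.out : ℓ.Prime) hA hHW)).FG := by
  classical
  have hℓ : ℓ.Prime := Fact.out
  letI := Fintype.ofFinite T
  obtain ⟨n, β, hβ⟩ := s19g_exists_equiv_basis hℓ hA hHW hT
  obtain ⟨N, hN⟩ := s19g_exists_pow_mem hℓ hA
    (fun p : Fin n × T => β.repr (Pi.single p.2 1) p.1)
  have hne : ((ℓ : Kb) ^ N) ≠ 0 := pow_ne_zero _ (by exact_mod_cast hℓ.ne_zero)
  set γ : Fin n → T → Kb := fun j => ((ℓ : Kb) ^ N)⁻¹ • β j with hγ
  set M : Submodule (s19c_R ℓ) (T → Kb) := Submodule.span (s19c_R ℓ) (Set.range γ) with hM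
  have hle : Subalgebra.toSubmodule (s19g_H hℓ hA hHW) ≤ M := by
    intro a ha
    have ha' : a ∈ HW ∧ s19g_Equiv a := ha
    -- the coordinates are rational
    have hrat : ∀ j, ∃ q : ℚ, algebraMap ℚ Kb q = β.repr a j := by
      intro j
      apply s19c_mem_range_of_fixed
      intro σ
      exact s19g_repr_fixed β σ (fun i => (s19g_equiv_iff _).mp (hβ i).2 σ) a
        ((s19g_equiv_iff a).mp ha'.2 σ) j
    choose q hq using hrat
    -- and `ℓ^N`-integral
    have hint : ∀ j, (ℓ : Kb) ^ N * β.repr a j ∈ A := by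
      intro j
      rw [s19g_repr_eq_sum β a j, Finset.mul_sum]
      refine A.toSubring.sum_mem fun x _ => ?_
      have h1 : (ℓ : Kb) ^ N * (a x * β.repr (Pi.single x 1) j) =
          a x * ((ℓ : Kb) ^ N * β.repr (Pi.single x 1) j) := by ring
      rw [h1]
      exact A.mul_mem _ _ (hHW.val a ha'.1 x) (hN (j, x))
    have hR : ∀ j, (ℓ : ℚ) ^ N * q j ∈ GaloisRep.ratLocalizedAt ℓ := by
      intro j
      rw [← s19g_rat_mem_iff hℓ hA, map_mul, map_pow, map_natCast, hq j]
      exact hint j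
    have hsum : a = ∑ j, (⟨(ℓ : ℚ) ^ N * q j, hR j⟩ : s19c_R ℓ) • γ j := by
      conv_lhs => rw [← β.sum_repr a]
      refine Finset.sum_congr rfl fun j _ => ?_
      funext x
      rw [s19c_smul_apply, hγ]
      simp only [Pi.smul_apply, smul_eq_mul, map_mul, map_pow, map_natCast, hq j]
      field_simp
    rw [hsum]
    exact Submodule.sum_mem _ fun j _ => Submodule.smul_mem _ _ (Submodule.subset_span ⟨j, rfl⟩)
  haveI : IsNoetherian (s19c_R ℓ) M := isNoetherian_span_of_finite _ (Set.finite_range γ)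
  haveI := isNoetherian_of_le hle
  exact (Submodule.fg_top _).mp (IsNoetherian.noetherian ⊤)

end fields

end Fermat.Agent.Lib.S19

end
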