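/-
W-A programme (S19), brick G4d [DESC] (helper3, prefix `s19g_`), part E:
roots of unity of order prime to `ℓ` in `ℚ̄`: they lie in `W`, are pairwise incongruent modulo the
maximal ideal of `A`, and a Frobenius element raises them to the `ℓ`-th power.
Periods of functions under a Galois element; inversion of a matrix relation.
-/
import Mathlib
import Fermat.Agent.Lib.S19.GDescD

set_option autoImplicit false
set_option linter.style.haveILetI false
set_option linter.unusedSectionVars false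

noncomputable section

namespace Fermat.Agent.Lib.S19

open Fermat.Agent.Lib.Frey Fermat.Agent.Lib.S28 Finset

local notation "Kb" => AlgebraicClosure ℚ

section roots

variable {ℓ : ℕ} (hℓ : ℓ.Prime) {A : ValuationSubring Kb} (hA : (ℓ : Kb) ∈ A.nonunits)

include hℓ hA

theorem s19g_nonunits_mul {x y : Kb} (hx : x ∈ A.nonunits) (hy : y ∈ A) :
    x * y ∈ A.nonunits := by
  rw [← ford_vQ_pos_iff hℓ hA] at hx ⊢
  rw [← ford_vQ_nonneg_iff hℓ hA] at hy
  rw [AddValuation.map_mul]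
  exact add_pos_of_pos_of_nonneg hx hy

theorem s19g_nonunits_sub {x y : Kb} (hx : x ∈ A.nonunits) (hy : y ∈ A.nonunits) :
    x - y ∈ A.nonunits := by
  rw [← ford_vQ_pos_iff hℓ hA] at hx hy ⊢
  exact lt_of_lt_of_le (lt_min hx hy) (AddValuation.map_sub _ x y)

theorem s19g_zero_mem_nonunits : (0 : Kb) ∈ A.nonunits := by
  rw [← ford_vQ_pos_iff hℓ hA, AddValuation.map_zero]
  exact WithTop.top_pos

theorem s19g_one_not_mem_nonunits : (1 : Kb) ∉ A.nonunits := by
  rw [← ford_vQ_pos_iff hℓ hA, AddValuation.map_one]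
  exact lt_irrefl _

/-- `ℓ ^ f - 1` is a unit at `A` for `f ≥ 1`. -/
theorem s19g_pow_sub_one_not_mem {f : ℕ} (hf : 0 < f) :
    ((ℓ ^ f - 1 : ℕ) : Kb) ∉ A.nonunits := by
  intro h
  have h1 : 1 ≤ ℓ ^ f := Nat.one_le_pow _ _ hℓ.pos
  have h2 : ((ℓ ^ f - 1 : ℕ) : Kb) = (ℓ : Kb) ^ f - 1 := by
    rw [Nat.cast_sub h1]
    push_cast
    rfl
  rw [h2] at h
  have h3 : (ℓ : Kb) ^ f ∈ A.nonunits := by
    obtain ⟨m, rfl⟩ := Nat.exists_eq_succ_of_ne_zero hf.ne'
    rw [pow_succ']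
    exact s19g_nonunits_mul hℓ hA hA (A.pow_mem (natCast_mem A ℓ) m)
  have h4 := s19g_nonunits_sub hℓ hA h3 h
  rw [sub_sub_cancel] at h4
  exact s19g_one_not_mem_nonunits hℓ hA h4

omit hℓ hA in
/-- a root of unity lies in every valuation subring. -/
theorem s19g_root_mem (A : ValuationSubring Kb) {n : ℕ} (hn : n ≠ 0) {ξ : Kb} (hξ : ξ ^ n = 1) :
    ξ ∈ A := by
  rcases A.mem_or_inv_mem ξ with h | h
  · exact h
  · obtain ⟨m, rfl⟩ := Nat.exists_eq_succ_of_ne_zero hn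
    have hξ0 : ξ ≠ 0 := by
      rintro rfl
      rw [zero_pow (Nat.succ_ne_zero m)] at hξ
      exact zero_ne_one hξ
    have h1 : ξ = ξ⁻¹ ^ m := by
      rw [inv_pow]
      apply eq_inv_of_mul_eq_one_left
      rw [← pow_succ']
      exact hξ
    rw [h1]
    exact A.pow_mem h m

/-- an `n`-th root of unity congruent to `1` is `1`, when `n` is a unit at `A`. -/
theorem s19g_root_eq_one {n : ℕ} (hn : (n : Kb) ∉ A.nonunits) {ξ : Kb} (hξ : ξ ^ n = 1)
    (h1 : ξ - 1 ∈ A.nonunits) : ξ = 1 := by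
  by_contra hne
  have hξA : ξ ∈ A := by
    have := A.add_mem _ _ (A.nonunits_subset h1) A.one_mem
    rwa [sub_add_cancel] at this
  have hsum : ∑ i ∈ range n, ξ ^ i = 0 := by
    have h2 := geom_sum_mul ξ n
    rw [hξ, sub_self] at h2
    exact (mul_eq_zero.mp h2).resolve_right (sub_ne_zero.mpr hne)
  have hn' : (n : Kb) = ∑ i ∈ range n, (1 - ξ ^ i) := by
    rw [Finset.sum_sub_distrib, hsum, sub_zero]
    simp
  apply hn
  rw [hn', ← ford_vQ_pos_iff hℓ hA]
  apply AddValuation.map_lt_sum _ WithTop.zero_ne_top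
  intro i _
  rw [ford_vQ_pos_iff]
  have h3 : 1 - ξ ^ i = (ξ - 1) * (-∑ k ∈ range i, ξ ^ k) := by
    have h4 := geom_sum_mul ξ i
    rw [mul_neg, mul_comm, h4]
    ring
  rw [h3]
  exact s19g_nonunits_mul hℓ hA h1 (A.neg_mem _ (A.toSubring.sum_mem fun k _ => A.pow_mem hξA k))

/-- congruent `n`-th roots of unity are equal, when `n` is a unit at `A`. -/
theorem s19g_root_eq {n : ℕ} (hn : (n : Kb) ∉ A.nonunits) {η η' : Kb} (hη : η ^ n = 1)
    (hη' : η' ^ n = 1) (h : η' - η ∈ A.nonunits) : η' = η := by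
  have hn0 : n ≠ 0 := by
    rintro rfl
    rw [Nat.cast_zero] at hn
    exact hn (s19g_zero_mem_nonunits hℓ hA)
  obtain ⟨m, rfl⟩ := Nat.exists_eq_succ_of_ne_zero hn0
  have hη0 : η ≠ 0 := by
    rintro rfl
    rw [zero_pow (Nat.succ_ne_zero m)] at hη
    exact zero_ne_one hη
  have hηA : η ∈ A := s19g_root_mem A (Nat.succ_ne_zero m) hη
  have h1 : η * η ^ m = 1 := by rw [← pow_succ']; exact hη
  have h2 : (η' * η ^ m) ^ (m + 1) = 1 := by
    rw [mul_pow, hη', one_mul, ← pow_mul, mul_comm, pow_mul, hη, one_pow]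
  have h3 : η' * η ^ m - 1 = (η' - η) * η ^ m := by
    rw [sub_mul, h1]
  have h4 : η' * η ^ m = 1 := by
    apply s19g_root_eq_one hℓ hA hn h2
    rw [h3]
    exact s19g_nonunits_mul hℓ hA h (A.pow_mem hηA m)
  exact mul_right_cancel₀ (pow_ne_zero m hη0) (h4.trans h1.symm)

/-- an element of `W` which is a unit at `A` is a unit of `W`. -/
theorem s19g_inv_mem_W {c : Kb} (hc : c ∈ s19_W A) (hc' : c ∉ A.nonunits) : c⁻¹ ∈ s19_W A := by
  have hc0 : c ≠ 0 := by
    rintro rfl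
    exact hc' (s19g_zero_mem_nonunits hℓ hA)
  refine ⟨?_, fun τ hτ => by rw [map_inv₀, hc.2 τ hτ]⟩
  have h1 : ford_vQ A hℓ hA c = 0 := by
    apply le_antisymm
    · rw [← ford_vQ_pos_iff hℓ hA] at hc'
      exact not_lt.mp hc'
    · exact (ford_vQ_nonneg_iff hℓ hA c).mpr hc.1
  have h2 : ford_vQ A hℓ hA (c * c⁻¹) = 0 := by
    rw [mul_inv_cancel₀ hc0, AddValuation.map_one]
  rw [AddValuation.map_mul, h1, zero_add] at h2
  rw [← ford_vQ_nonneg_iff hℓ hA, h2]

/-- roots of unity of order prime to `ℓ` lie in `W`. -/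
theorem s19g_root_mem_W {n : ℕ} (hn : (n : Kb) ∉ A.nonunits) {ξ : Kb} (hξ : ξ ^ n = 1) :
    ξ ∈ s19_W A := by
  have hn0 : n ≠ 0 := by
    rintro rfl
    rw [Nat.cast_zero] at hn
    exact hn (s19g_zero_mem_nonunits hℓ hA)
  have hξA : ξ ∈ A := s19g_root_mem A hn0 hξ
  refine ⟨hξA, fun τ hτ => ?_⟩
  apply s19g_root_eq hℓ hA hn hξ
  · rw [← map_pow, hξ, map_one]
  · exact (ford_inertia_spec A τ hτ).2 ξ hξA

/-- a Frobenius element raises the roots of unity of order prime to `ℓ` to the `ℓ`-th power. -/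
theorem s19g_frob_root {n : ℕ} (hn : (n : Kb) ∉ A.nonunits) (φ : s19_Gal)
    (hφ : A.IsFrobeniusAt φ ℓ) {ξ : Kb} (hξ : ξ ^ n = 1) : φ ξ = ξ ^ ℓ := by
  have hn0 : n ≠ 0 := by
    rintro rfl
    rw [Nat.cast_zero] at hn
    exact hn (s19g_zero_mem_nonunits hℓ hA)
  have hξA : ξ ∈ A := s19g_root_mem A hn0 hξ
  apply s19g_root_eq hℓ hA hn
  · rw [← pow_mul, mul_comm, pow_mul, hξ, one_pow]
  · rw [← map_pow, hξ, map_one]
  · exact (s19b_frob_spec A φ ℓ hφ).2 ξ hξA

theorem s19g_frob_pow_root {n : ℕ} (hn : (n : Kb) ∉ A.nonunits) (φ : s19_Gal)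
    (hφ : A.IsFrobeniusAt φ ℓ) {ξ : Kb} (hξ : ξ ^ n = 1) (j : ℕ) :
    (φ ^ j) ξ = ξ ^ (ℓ ^ j) := by
  induction j with
  | zero => simp
  | succ j ih =>
    rw [pow_succ, AlgEquiv.mul_apply, s19g_frob_root hℓ hA hn φ hφ hξ, map_pow, ih, ← pow_mul,
      ← pow_succ]

end roots

section period

variable {T : Type} [AddCommGroup T] [Finite T] [DistribMulAction s19_Gal T]

/-- every function has a finite orbit under the powers of a Galois element. -/
theorem s19g_exists_period (hT : s19g_Cont T) (φ : s19_Gal) (a : T → Kb) :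
    ∃ f : ℕ, 0 < f ∧ s19g_star (φ ^ f) a = a := by
  classical
  obtain ⟨L₁, hL₁, hstab⟩ := s19g_exists_level hT a
  haveI := hL₁
  let r : ℕ → (L₁ →ₐ[ℚ] Kb) := fun j => ((φ ^ j : s19_Gal) : Kb →ₐ[ℚ] Kb).comp L₁.val
  obtain ⟨i, j, hij, hr⟩ := Finite.exists_ne_map_eq_of_infinite r
  have key : ∀ i j : ℕ, i < j → r i = r j → ∃ f : ℕ, 0 < f ∧ s19g_star (φ ^ f) a = a := by
    intro i j hlt hr
    refine ⟨j - i, Nat.sub_pos_of_lt hlt, ?_⟩
    have h1 : s19g_star (φ ^ i) a = s19g_star (φ ^ j) a := by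
      apply hstab
      intro x hx
      exact congrArg (fun g : L₁ →ₐ[ℚ] Kb => g ⟨x, hx⟩) hr
    have h2 : φ ^ j = φ ^ i * φ ^ (j - i) := by
      rw [← pow_add, Nat.add_sub_cancel' hlt.le]
    rw [h2, s19g_star_mul] at h1
    have h3 := congrArg (s19g_star (φ ^ i)⁻¹) h1
    rw [← s19g_star_mul, ← s19g_star_mul, inv_mul_cancel, s19g_star_one, s19g_star_one] at h3
    exact h3.symm
  rcases lt_or_gt_of_ne hij with h | h
  · exact key i j h hr
  · exact key j i h hr.symm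

end period

section matrix

/-- inversion of a matrix relation. -/
theorem s19g_matrix_recover {R V ι : Type*} [CommRing R] [AddCommGroup V] [Module R V]
    [Fintype ι] [DecidableEq ι] (M : Matrix ι ι R) (hM : IsUnit M.det) (a : ι → V) (k : ι) :
    ∑ i, (M⁻¹ i k) • (∑ j, M j i • a j) = a k := by
  have h1 : M * M⁻¹ = 1 := Matrix.mul_nonsing_inv M hM
  have h2 : ∑ i, (M⁻¹ i k) • (∑ j, M j i • a j) = ∑ j, ((M * M⁻¹) j k) • a j := by
    simp_rw [Finset.smul_sum, smul_smul]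
    rw [Finset.sum_comm]
    refine Finset.sum_congr rfl fun j _ => ?_
    rw [← Finset.sum_smul, Matrix.mul_apply]
    congr 1
    exact Finset.sum_congr rfl fun i _ => mul_comm _ _
  rw [h2, h1]
  simp [Matrix.one_apply]

end matrix

end Fermat.Agent.Lib.S19

end
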