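/-
W-A programme (S19), brick G4d [DESC] (helper3, prefix `s19g_`), part F:
**unramified descent** (B1): every element of a local order `HW` is a `W`-linear combination of
elements of `HW` fixed by a Frobenius element `φ` (Vandermonde matrix of the conjugates of a root
of unity of order `ℓ ^ f - 1`).
-/
import Mathlib
import Fermat.Agent.Lib.S19.GDescE

set_option autoImplicit false
set_option linter.style.haveILetI false
set_option linter.unusedSectionVars false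

noncomputable section

namespace Fermat.Agent.Lib.S19

open Fermat.Agent.Lib.Frey Fermat.Agent.Lib.S28 Finset

local notation "Kb" => AlgebraicClosure ℚ

theorem s19g_pow_lt {ℓ f k : ℕ} (hℓ : 2 ≤ ℓ) (hf : 2 ≤ f) (hk : k < f) :
    ℓ ^ k < ℓ ^ f - 1 := by
  obtain ⟨g, rfl⟩ : ∃ g, f = g + 1 := ⟨f - 1, by omega⟩
  have h1 : ℓ ^ k ≤ ℓ ^ g := Nat.pow_le_pow_right (by omega) (by omega)
  have h2 : ℓ ^ 1 ≤ ℓ ^ g := Nat.pow_le_pow_right (by omega) (by omega)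
  have h3 : ℓ ^ (g + 1) = ℓ ^ g * ℓ := pow_succ ℓ g
  have h4 : ℓ ^ g * 2 ≤ ℓ ^ g * ℓ := Nat.mul_le_mul_left _ hℓ
  rw [pow_one] at h2
  generalize ℓ ^ g = X at *
  generalize ℓ ^ k = Z at *
  generalize ℓ ^ (g + 1) = Y at *
  generalize X * ℓ = U at *
  omega

section B1

variable {ℓ : ℕ} (hℓ : ℓ.Prime) {A : ValuationSubring Kb} (hA : (ℓ : Kb) ∈ A.nonunits)
variable {T : Type} [AddCommGroup T] [Finite T]
  [DistribMulAction s19_Gal T] {HW : Subring (T → Kb)} (hHW : s19_IsLocalOrder A T HW)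

include hℓ hA hHW

/-- **unramified descent.** -/
theorem s19g_B1 (hT : s19g_Cont T) (φ : s19_Gal) (hφ : A.IsFrobeniusAt φ ℓ) (a : T → Kb)
    (ha : a ∈ HW) :
    ∃ (f : ℕ) (x : Fin f → Kb) (b : Fin f → T → Kb), (∀ i, x i ∈ s19_W A) ∧ (∀ i, b i ∈ HW) ∧
      (∀ i, s19g_star φ (b i) = b i) ∧ a = ∑ i, x i • b i := by
  classical
  obtain ⟨f, hf, hper⟩ := s19g_exists_period hT φ a
  set n := ℓ ^ f - 1 with hn
  have hnu : ((n : ℕ) : Kb) ∉ A.nonunits := s19g_pow_sub_one_not_mem hℓ hA hf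
  have hn0 : n ≠ 0 := by
    intro h0
    rw [h0, Nat.cast_zero] at hnu
    exact hnu (s19g_zero_mem_nonunits hℓ hA)
  have hn1 : ℓ ^ f = n + 1 := by
    have : 1 ≤ ℓ ^ f := Nat.one_le_pow _ _ hℓ.pos
    omega
  haveI : NeZero ((n : ℕ) : ℚ) := ⟨by exact_mod_cast hn0⟩
  obtain ⟨ζ, hζ⟩ := HasEnoughRootsOfUnity.exists_primitiveRoot Kb n
  have hζn : ζ ^ n = 1 := hζ.pow_eq_one
  have hζm : ∀ m : ℕ, (ζ ^ m) ^ n = 1 := by
    intro m
    rw [← pow_mul, mul_comm, pow_mul, hζn, one_pow]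
  have hφD : φ ∈ A.decompositionSubgroup ℚ := (s19b_frob_spec A φ ℓ hφ).1
  have hpowW : ∀ m : ℕ, ζ ^ m ∈ s19_W A := fun m =>
    s19g_root_mem_W hℓ hA hnu (hζm m)
  let v : Fin f → ↥(s19_W A) := fun j => ⟨ζ ^ (ℓ ^ (j : ℕ)), hpowW _⟩
  let M : Matrix (Fin f) (Fin f) ↥(s19_W A) := Matrix.vandermonde v
  have hdet : IsUnit M.det := by
    rw [Matrix.det_vandermonde, IsUnit.prod_iff]
    intro i _
    rw [IsUnit.prod_iff]
    intro j hj
    have hij : i < j := Finset.mem_Ioi.mp hj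
    have hij' : (i : ℕ) < (j : ℕ) := hij
    have hf2 : 2 ≤ f := by
      have := j.2
      omega
    have hcoe : ((v j - v i : ↥(s19_W A)) : Kb) = ζ ^ (ℓ ^ (j : ℕ)) - ζ ^ (ℓ ^ (i : ℕ)) := rfl
    have hne : ((v j - v i : ↥(s19_W A)) : Kb) ∉ A.nonunits := by
      intro hmem
      rw [hcoe] at hmem
      have heq : ζ ^ (ℓ ^ (j : ℕ)) = ζ ^ (ℓ ^ (i : ℕ)) :=
        s19g_root_eq hℓ hA hnu (hζm _) (hζm _) hmem
      have h1 := hζ.pow_inj (s19g_pow_lt hℓ.two_le hf2 j.2) (s19g_pow_lt hℓ.two_le hf2 i.2) heq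
      have h2 := Nat.pow_right_injective hℓ.two_le h1
      omega
    have hne0 : ((v j - v i : ↥(s19_W A)) : Kb) ≠ 0 := by
      intro h0
      apply hne
      rw [h0]
      exact s19g_zero_mem_nonunits hℓ hA
    refine isUnit_iff_exists_inv.mpr
      ⟨⟨((v j - v i : ↥(s19_W A)) : Kb)⁻¹, s19g_inv_mem_W hℓ hA (v j - v i).2 hne⟩, ?_⟩
    apply Subtype.ext
    exact mul_inv_cancel₀ hne0
  let aj : Fin f → T → Kb := fun j => s19g_star (φ ^ (j : ℕ)) a
  have haj : ∀ j, aj j ∈ HW := fun j =>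
    s19g_star_mem hHW ha _ (Subgroup.pow_mem _ hφD _)
  let b : Fin f → T → Kb := fun i => ∑ j, M j i • aj j
  have hb : ∀ i, b i ∈ HW := fun i =>
    Subring.sum_mem _ fun j _ => s19g_smul_mem hHW (M j i).2 (haj j)
  refine ⟨f, fun i => ((M⁻¹ i ⟨0, hf⟩ : ↥(s19_W A)) : Kb), b, fun i => (M⁻¹ i ⟨0, hf⟩).2, hb, ?_, ?_⟩
  · -- invariance under the Frobenius
    intro i
    let g : ℕ → T → Kb := fun j => ((ζ ^ (ℓ ^ j)) ^ (i : ℕ)) • s19g_star (φ ^ j) a
    have hbg : b i = ∑ j ∈ range f, g j := by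
      rw [← Fin.sum_univ_eq_sum_range g f]
      rfl
    have hstep : ∀ j, s19g_star φ (g j) = g (j + 1) := by
      intro j
      show s19g_star φ (((ζ ^ (ℓ ^ j)) ^ (i : ℕ)) • s19g_star (φ ^ j) a) =
        ((ζ ^ (ℓ ^ (j + 1))) ^ (i : ℕ)) • s19g_star (φ ^ (j + 1)) a
      rw [s19g_star_smul, ← s19g_star_mul, ← pow_succ', map_pow, map_pow,
        s19g_frob_root hℓ hA hnu φ hφ hζn]
      congr 1
      rw [← pow_mul, ← pow_mul, ← pow_mul, pow_succ', mul_assoc]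
    have hwrap : g f = g 0 := by
      show ((ζ ^ (ℓ ^ f)) ^ (i : ℕ)) • s19g_star (φ ^ f) a =
        ((ζ ^ (ℓ ^ 0)) ^ (i : ℕ)) • s19g_star (φ ^ 0) a
      rw [hper, pow_zero, pow_zero, s19g_star_one, hn1, pow_succ, hζn, one_mul, pow_one]
    rw [hbg, s19g_star_sum]
    have h1 := Finset.sum_range_succ' g f
    have h2 := Finset.sum_range_succ g f
    rw [h2, hwrap] at h1
    have h3 := add_right_cancel h1
    rw [h3]
    exact Finset.sum_congr rfl fun j _ => hstep j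
  · -- recovery
    have h := s19g_matrix_recover M hdet aj ⟨0, hf⟩
    have h0 : aj ⟨0, hf⟩ = a := by
      show s19g_star (φ ^ 0) a = a
      rw [pow_zero, s19g_star_one]
    rw [h0] at h
    rw [← h]
    rfl

end B1

end Fermat.Agent.Lib.S19

end
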