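/-
W-A programme (S19), brick G4d [DESC] (helper3, prefix `s19g_`), part G:
**descent from the henselisation** (B2, by helper2's density theorem): a Frobenius-fixed element of
the local order `HW` is a `W`-combination of elements of the global order `H`; together with B1:
`HW` is contained in the `W`-span of `H`.
-/
import Mathlib
import Fermat.Agent.Lib.S19.GDescF
import Fermat.Agent.Lib.Frobenius.Exists

set_option autoImplicit false
set_option linter.style.haveILetI false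
set_option linter.unusedSectionVars false

noncomputable section

namespace Fermat.Agent.Lib.S19

open Fermat.Agent.Lib.Frey Fermat.Agent.Lib.S28 Finset

local notation "Kb" => AlgebraicClosure ℚ

section B2

variable {ℓ : ℕ} (hℓ : ℓ.Prime) {A : ValuationSubring Kb} (hA : (ℓ : Kb) ∈ A.nonunits)
variable {T : Type} [AddCommGroup T] [Finite T]
  [DistribMulAction s19_Gal T] {HW : Subring (T → Kb)} (hHW : s19_IsLocalOrder A T HW)

include hℓ hA in
/-- an element of `ℚ̄`, fixed by a Frobenius and by the inertia group, whose multiple by `ℓ ^ N` is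
integral, differs from a rational number by an integral element. -/
theorem s19g_approx (φ : s19_Gal) (hφ : A.IsFrobeniusAt φ ℓ) (c : Kb) (N : ℕ)
    (hc : (ℓ : Kb) ^ N * c ∈ A) (hcφ : φ c = c)
    (hcI : ∀ τ ∈ A.inertiaSubgroupIn ℚ, τ c = c) :
    ∃ q : ℚ, c - algebraMap ℚ Kb q ∈ s19_W A := by
  have hx1 : φ ((ℓ : Kb) ^ N * c) = (ℓ : Kb) ^ N * c := by
    rw [map_mul, map_pow, map_natCast, hcφ]
  have hx2 : ∀ τ ∈ A.inertiaSubgroupIn ℚ, τ ((ℓ : Kb) ^ N * c) = (ℓ : Kb) ^ N * c := by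
    intro τ hτ
    rw [map_mul, map_pow, map_natCast, hcI τ hτ]
  haveI := Fermat.Agent.Lib.Frobenius.isGalois_QBar
  obtain ⟨r, -, hr⟩ := s19b_density A hℓ hA φ hφ _ hc hx1 hx2 N
  have hne : ((ℓ : ℚ) ^ N) ≠ 0 := pow_ne_zero _ (by exact_mod_cast hℓ.ne_zero)
  refine ⟨r / (ℓ : ℚ) ^ N, ?_, fun τ hτ => ?_⟩
  · have h1 : (ℓ : Kb) ^ N * c - algebraMap ℚ Kb r =
        (ℓ : Kb) ^ N * (c - algebraMap ℚ Kb (r / (ℓ : ℚ) ^ N)) := by
      rw [mul_sub]
      congr 1
      rw [← map_natCast (algebraMap ℚ Kb) ℓ, ← map_pow, ← map_mul, mul_div_cancel₀ _ hne]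
    rw [h1, AddValuation.map_mul, AddValuation.map_pow, ford_vQ_q] at hr
    rw [← ford_vQ_nonneg_iff hℓ hA]
    have h2 : (N : WithTop ℚ) + 0 ≤
        (N : WithTop ℚ) + ford_vQ A hℓ hA (c - algebraMap ℚ Kb (r / (ℓ : ℚ) ^ N)) := by
      rw [add_zero]
      simpa using hr
    exact WithTop.le_of_add_le_add_left (WithTop.natCast_ne_top N) h2
  · rw [map_sub, hcI τ hτ, τ.commutes]

include hHW in
/-- **B2.** -/
theorem s19g_B2 (hT : s19g_Cont T) (φ : s19_Gal) (hφ : A.IsFrobeniusAt φ ℓ) (b : T → Kb)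
    (hb : b ∈ HW) (hbφ : s19g_star φ b = b) :
    b ∈ Submodule.span ↥(s19_W A) ((s19g_H hℓ hA hHW : Set (T → Kb))) := by
  classical
  obtain ⟨n, β, hβ⟩ := s19g_exists_equiv_basis hℓ hA hHW hT
  have hβG : ∀ (σ : s19_Gal) (i : Fin n), s19g_star σ (β i) = β i := fun σ i =>
    (s19g_equiv_iff _).mp (hβ i).2 σ
  obtain ⟨N, hN⟩ := s19g_exists_pow_mem hℓ hA (fun j => β.repr b j)
  have happ : ∀ j, ∃ q : ℚ, β.repr b j - algebraMap ℚ Kb q ∈ s19_W A := by
    intro j
    apply s19g_approx hℓ hA φ hφ (β.repr b j) N (hN j)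
    · exact s19g_repr_fixed β φ (hβG φ) b hbφ j
    · intro τ hτ
      exact s19g_repr_fixed β τ (hβG τ) b (s19g_star_inertia hHW hb τ hτ) j
  choose q hq using happ
  set b₀ : T → Kb := ∑ j, algebraMap ℚ Kb (q j) • β j with hb₀
  set b₁ : T → Kb := ∑ j, (β.repr b j - algebraMap ℚ Kb (q j)) • β j with hb₁
  have hsum : b = b₀ + b₁ := by
    rw [hb₀, hb₁, ← Finset.sum_add_distrib]
    conv_lhs => rw [← β.sum_repr b]
    refine Finset.sum_congr rfl fun j _ => ?_
    rw [← add_smul, add_sub_cancel]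
  have hb₁W : b₁ ∈ HW :=
    Subring.sum_mem _ fun j _ => s19g_smul_mem hHW (hq j) (hβ j).1
  have hb₀H : b₀ ∈ s19g_H hℓ hA hHW := by
    refine ⟨?_, ?_⟩
    · have : b₀ = b - b₁ := by rw [hsum, add_sub_cancel_right]
      rw [this]
      exact HW.sub_mem hb hb₁W
    · rw [s19g_equiv_iff]
      intro σ
      rw [hb₀, s19g_star_sum]
      refine Finset.sum_congr rfl fun j _ => ?_
      rw [s19g_star_smul, σ.commutes, hβG σ j]
  rw [hsum]
  refine Submodule.add_mem _ (Submodule.subset_span hb₀H) ?_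
  rw [hb₁]
  refine Submodule.sum_mem _ fun j _ => ?_
  exact Submodule.smul_mem _ (⟨_, hq j⟩ : ↥(s19_W A)) (Submodule.subset_span (hβ j))

include hHW in
/-- **the local order is contained in the `W`-span of the global order.** -/
theorem s19g_HW_le_span (hT : s19g_Cont T) (a : T → Kb) (ha : a ∈ HW) :
    a ∈ Submodule.span ↥(s19_W A) ((s19g_H hℓ hA hHW : Set (T → Kb))) := by
  obtain ⟨φ, hφ⟩ := Fermat.Agent.Lib.Frobenius.exists_isFrobeniusAt_of_liesOverPrime A ℓ hℓ hA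
  obtain ⟨f, x, b, hx, hb, hbφ, hab⟩ := s19g_B1 hℓ hA hHW hT φ hφ a ha
  rw [hab]
  refine Submodule.sum_mem _ fun i _ => ?_
  exact Submodule.smul_mem _ (⟨_, hx i⟩ : ↥(s19_W A)) (s19g_B2 hℓ hA hHW hT φ hφ (b i) (hb i) (hbφ i))

end B2

end Fermat.Agent.Lib.S19

end
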