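/-
W-A programme (S19), brick G4d [DESC] (helper3, prefix `s19g_`), part H:
the global order `H` is Δ-closed, and the final theorem `s19g_desc : s19_Desc`.
-/
import Mathlib
import Fermat.Agent.Lib.S19.GDescG

set_option autoImplicit false
set_option linter.style.haveILetI false
set_option linter.unusedSectionVars false

noncomputable section

namespace Fermat.Agent.Lib.S19

open Fermat.Agent.Lib.Frey Fermat.Agent.Lib.S28 Finset

local notation "Kb" => AlgebraicClosure ℚ

section omega

variable {T : Type} [AddCommGroup T] [DistribMulAction s19_Gal T]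

/-- the structure constants of the comultiplication in an equivariant basis are Galois-fixed. -/
theorem s19g_omega_fixed {ι : Type*} [Fintype ι] (b : ι → T → Kb)
    (hbe : ∀ i, s19g_Equiv (b i)) (hli : LinearIndependent Kb b) (a : T → Kb)
    (hae : s19g_Equiv a) (ω : ι × ι → Kb)
    (hω : ∀ x y, a (x + y) = ∑ p : ι × ι, ω p * (b p.1 x * b p.2 y)) (σ : s19_Gal)
    (p : ι × ι) : σ (ω p) = ω p := by
  classical
  have hF := s19c_linIndep_prod (X := T) (Y := T) b b hli hli
  rw [Fintype.linearIndependent_iff] at hF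
  have h0 := hF (fun p => σ (ω p) - ω p) (by
    funext z
    simp only [Finset.sum_apply, Pi.smul_apply, smul_eq_mul, Pi.zero_apply]
    have h1 := hω z.1 z.2
    have h2 := hω (σ⁻¹ • z.1) (σ⁻¹ • z.2)
    have h3 := congrArg σ h2
    rw [← hae, smul_add, smul_inv_smul, smul_inv_smul, map_sum] at h3
    have h4 : ∀ q : ι × ι, σ (ω q * (b q.1 (σ⁻¹ • z.1) * b q.2 (σ⁻¹ • z.2))) =
        σ (ω q) * (b q.1 z.1 * b q.2 z.2) := by
      intro q
      rw [map_mul, map_mul, ← hbe q.1 σ, ← hbe q.2 σ, smul_inv_smul, smul_inv_smul]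
    simp_rw [h4] at h3
    simp_rw [sub_mul]
    rw [Finset.sum_sub_distrib, ← h3, ← h1, sub_self]) p
  exact sub_eq_zero.mp h0

end omega

section comul

variable {ℓ : ℕ} [Fact ℓ.Prime] {A : ValuationSubring Kb} (hA : (ℓ : Kb) ∈ A.nonunits)
variable {T : Type} [AddCommGroup T] [Finite T]
  [DistribMulAction s19_Gal T] {HW : Subring (T → Kb)} (hHW : s19_IsLocalOrder A T HW)

include hHW in
/-- **`H` is Δ-closed.** -/
theorem s19g_H_comul (hT : s19g_Cont T) (a : T → Kb)
    (ha : a ∈ s19g_H (Fact.out : ℓ.Prime) hA hHW) :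
    ∃ (n : ℕ) (a' a'' : Fin n → T → Kb),
      (∀ i, a' i ∈ s19g_H (Fact.out : ℓ.Prime) hA hHW) ∧
      (∀ i, a'' i ∈ s19g_H (Fact.out : ℓ.Prime) hA hHW) ∧
      ∀ x y : T, a (x + y) = ∑ i, a' i x * a'' i y := by
  classical
  have hℓ : ℓ.Prime := Fact.out
  set H := s19g_H hℓ hA hHW with hH
  -- `H` is free of finite rank
  haveI : Module.Finite (s19c_R ℓ) H := Module.Finite.iff_fg.mpr (s19g_H_fg hA hHW hT)
  haveI := s19c_torsionFree ℓ H
  haveI : Module.Free (s19c_R ℓ) H := Module.free_of_finite_type_torsion_free'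
  let ι := Module.Free.ChooseBasisIndex (s19c_R ℓ) H
  let b : Module.Basis ι (s19c_R ℓ) H := Module.Free.chooseBasis (s19c_R ℓ) H
  let bV : ι → T → Kb := fun i => ((b i : H) : T → Kb)
  have hbH : ∀ i, bV i ∈ H := fun i => (b i).2
  have hbe : ∀ i, s19g_Equiv (bV i) := fun i => (hbH i).2
  -- the basis is linearly independent over `ℚ̄`
  have hli : LinearIndependent Kb bV := by
    have h1 : LinearIndependent (s19c_R ℓ) bV :=
      b.linearIndependent.map' (Subalgebra.toSubmodule H).subtype (Submodule.ker_subtype _)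
    have := s19c_isFractionRing ℓ
    have h2 : LinearIndependent ℚ bV :=
      (LinearIndependent.iff_fractionRing (s19c_R ℓ) ℚ).mp h1
    exact s19c_linIndep_of_equivariant _ (fun i σ x => hbe i σ x) h2
  -- the `W`-span of `H` is the `W`-span of the basis
  have hspan : Submodule.span ↥(s19_W A) (H : Set (T → Kb)) ≤
      Submodule.span ↥(s19_W A) (Set.range bV) := by
    apply Submodule.span_le.mpr
    intro h hh
    have h4 : (⟨h, hh⟩ : H) = ∑ i, b.repr ⟨h, hh⟩ i • b i := (b.sum_repr ⟨h, hh⟩).symm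
    have h5 : h = ∑ i, (algebraMap (s19c_R ℓ) Kb (b.repr ⟨h, hh⟩ i)) • bV i := by
      have h6 := congrArg (fun z : H => (z : T → Kb)) h4
      simp only at h6
      refine h6.trans ?_
      rw [AddSubmonoidClass.coe_finsetSum]
      refine Finset.sum_congr rfl fun i _ => ?_
      rw [algebraMap_smul]
      rfl
    rw [h5]
    refine Submodule.sum_mem _ fun i _ => ?_
    have hmem : algebraMap (s19c_R ℓ) Kb (b.repr ⟨h, hh⟩ i) ∈ s19_W A :=
      s19g_rat_mem_W A hℓ hA _ (b.repr ⟨h, hh⟩ i).2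
    exact Submodule.smul_mem _ (⟨_, hmem⟩ : ↥(s19_W A)) (Submodule.subset_span ⟨i, rfl⟩)
  have hcoef : ∀ w ∈ HW, ∃ u : ι → ↥(s19_W A), ∑ k, u k • bV k = w := by
    intro w hw
    exact (Submodule.mem_span_range_iff_exists_fun ↥(s19_W A)).mp
      (hspan (s19g_HW_le_span hℓ hA hHW hT w hw))
  -- the comultiplication of the local order
  obtain ⟨m, a', a'', ha', ha'', hsum⟩ := hHW.comul a ha.1
  choose u hu using fun i => hcoef (a' i) (ha' i)
  choose v hv using fun i => hcoef (a'' i) (ha'' i)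
  set ω : ι × ι → Kb := fun p => ∑ i, ((u i p.1 : ↥(s19_W A)) : Kb) * ((v i p.2 : ↥(s19_W A)) : Kb)
    with hω
  have hωW : ∀ p, ω p ∈ s19_W A := fun p =>
    Subring.sum_mem _ fun i _ => Subring.mul_mem _ (u i p.1).2 (v i p.2).2
  have hωsum : ∀ x y, a (x + y) = ∑ p : ι × ι, ω p * (bV p.1 x * bV p.2 y) := by
    intro x y
    rw [hsum x y, Fintype.sum_prod_type]
    have h1 : ∀ i, a' i x = ∑ k, ((u i k : ↥(s19_W A)) : Kb) * bV k x := by
      intro i
      have := congrFun (hu i) x
      rw [Finset.sum_apply] at this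
      exact this.symm
    have h2 : ∀ i, a'' i y = ∑ k, ((v i k : ↥(s19_W A)) : Kb) * bV k y := by
      intro i
      have := congrFun (hv i) y
      rw [Finset.sum_apply] at this
      exact this.symm
    simp_rw [h1, h2, hω, Finset.sum_mul, Finset.mul_sum]
    rw [Finset.sum_comm]
    refine Finset.sum_congr rfl fun k _ => ?_
    rw [Finset.sum_comm]
    refine Finset.sum_congr rfl fun k' _ => ?_
    refine Finset.sum_congr rfl fun i _ => ?_
    ring
  -- the structure constants are rational and integral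
  have hrat : ∀ p, ∃ q : ℚ, algebraMap ℚ Kb q = ω p := fun p =>
    s19c_mem_range_of_fixed (ω p) (fun σ => s19g_omega_fixed bV hbe hli a ha.2 ω hωsum σ p)
  choose q hq using hrat
  have hqR : ∀ p, q p ∈ GaloisRep.ratLocalizedAt ℓ := by
    intro p
    rw [← s19g_rat_mem_iff hℓ hA, hq p]
    exact (hωW p).1
  -- the witness
  let e := Fintype.equivFin (ι × ι)
  refine ⟨Fintype.card (ι × ι),
    fun i => (⟨q (e.symm i), hqR _⟩ : s19c_R ℓ) • bV (e.symm i).1,
    fun i => bV (e.symm i).2,
    fun i => Subalgebra.smul_mem H (hbH _) _, fun i => hbH _, ?_⟩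
  intro x y
  rw [hωsum x y, ← Equiv.sum_comp e.symm]
  refine Finset.sum_congr rfl fun i _ => ?_
  show ω (e.symm i) * (bV (e.symm i).1 x * bV (e.symm i).2 y) =
    ((⟨q (e.symm i), hqR _⟩ : s19c_R ℓ) • bV (e.symm i).1) x * bV (e.symm i).2 y
  rw [s19c_smul_apply, hq, mul_assoc]

end comul

/-- **[DESC]**: a local order on a continuous finite Galois module descends to a global order. -/
theorem s19g_desc : s19_Desc := by
  intro ℓ _ A hA T _ _ _ hT hex
  obtain ⟨HW, hHW⟩ := hex
  have hℓ : ℓ.Prime := Fact.out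
  have hA' : (ℓ : Kb) ∈ A.nonunits := hA
  refine ⟨s19g_H hℓ hA' hHW, ?_⟩
  exact
    { equiv := fun a ha σ x => ha.2 σ x
      fg := s19g_H_fg hA' hHW hT
      sep := s19g_H_sep hA' hHW hT
      comul := fun a ha => s19g_H_comul hA' hHW hT a ha }

end Fermat.Agent.Lib.S19

end
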