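/-
W-A programme (S19/S32): TOP-LEVEL INTERFACE AND ASSEMBLY of S19 (architect: helper5).

`s19_top`: the frozen statement of S19 from the contracts
[FRAMES] `s19_FramesExist`, [ORDER] `s19_OrderOfFrames` (IfaceLocal; its owner may assume [BASE]
`s19_BaseA`), [DESC] `s19_Desc`,
[HOPF] `s19_Hopf`, [SUBQ] `s19_OrderSub`, `s19_OrderQuot` (IfaceOrder), [LEVEL] `s19_LevelChange`
(the torsion of `J₀(p)` is a Galois subquotient of the torsion of `J₀(M)` at a good level `M`) and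
[CONT] `s19_Cont` (every point of `J₀(M)(ℚ̄)` is fixed by an open subgroup of `Gal(ℚ̄/ℚ)`).
-/
import Fermat.Agent.Lib.S19.IfaceLocal
import Fermat.Prelude.Def_ModularCurve_ArithmeticGalois

set_option autoImplicit false
set_option linter.style.haveILetI false

noncomputable section

namespace Fermat.Agent.Lib.S19

open IsLocalRing ModularCurve

/-- good levels (literally `Fermat.Agent.Lib.S18.s18_GoodLevel ℓ M`, restated to keep this file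
light). -/
def s19_Good (ℓ M : ℕ) : Prop :=
  ¬ ℓ ∣ M ∧ (5 ≤ ℓ ∨ (ℓ = 3 ∧ 2 ∣ M) ∨ (ℓ = 2 ∧ 3 ∣ M))

/-- the `ℓ^k`-torsion of `J₀(N)(ℚ̄)`. -/
abbrev s19_Tors (N ℓ k : ℕ) : Type := ↥(Submodule.torsionBy ℤ (JZero N) ((ℓ : ℤ) ^ k))

theorem s19_smul_mem_tors (N ℓ k : ℕ) (σ : s19_Gal) {x : JZero N}
    (hx : x ∈ Submodule.torsionBy ℤ (JZero N) ((ℓ : ℤ) ^ k)) :
    σ • x ∈ Submodule.torsionBy ℤ (JZero N) ((ℓ : ℤ) ^ k) := by
  rw [Submodule.mem_torsionBy_iff] at hx ⊢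
  have h := map_zsmul (DistribSMul.toAddMonoidHom (JZero N) σ) ((ℓ : ℤ) ^ k) x
  have h' : ((ℓ : ℤ) ^ k) • (σ • x) = σ • (((ℓ : ℤ) ^ k) • x) := h.symm
  rw [h', hx, smul_zero]

/-- the Galois action on the torsion. -/
instance s19_torsAction (N ℓ k : ℕ) : DistribMulAction s19_Gal (s19_Tors N ℓ k) where
  smul σ x := ⟨σ • (x : JZero N), s19_smul_mem_tors N ℓ k σ x.2⟩
  one_smul x := Subtype.ext (one_smul _ (x : JZero N))
  mul_smul σ τ x := Subtype.ext (mul_smul σ τ (x : JZero N))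
  smul_zero σ := Subtype.ext (smul_zero σ)
  smul_add σ x y := Subtype.ext (smul_add σ (x : JZero N) (y : JZero N))

theorem s19_coe_tors_smul (N ℓ k : ℕ) (σ : s19_Gal) (x : s19_Tors N ℓ k) :
    ((σ • x : s19_Tors N ℓ k) : JZero N) = σ • (x : JZero N) := rfl

/-- [FRAMES] the modular curve at a good level provides a coordinate package on `J₀(M)`. -/
def s19_FramesExist : Prop :=
  ∀ (M : ℕ) [NeZero M] (ℓ : ℕ) [Fact ℓ.Prime], s19_Good ℓ M →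
    ∀ (A : ValuationSubring s19_Qbar), A.LiesOverPrime ℓ →
    ∀ l : ↥A, ((l : ↥A) : s19_Qbar) = (ℓ : s19_Qbar) →
      ∃ (J1 : AddSubgroup (JZero M)) (g : ℕ) (𝔉 : Type) (S : 𝔉 → ↥J1 → Fin g → ↥A),
        s19_Frames A l (JZero M) J1 g 𝔉 S

/-- [CONT] the Galois action on `J₀(N)(ℚ̄)` is continuous. -/
def s19_Cont : Prop :=
  ∀ (N : ℕ) [NeZero N] (x : JZero N), ∃ E : IntermediateField ℚ s19_Qbar,
    FiniteDimensional ℚ E ∧ ∀ σ : s19_Gal, (∀ e ∈ E, σ e = e) → σ • x = x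

/-- [LEVEL] the `ℓ^k`-torsion of `J₀(p)` is a Galois subquotient of the `ℓ^k'`-torsion of `J₀(M)`
for a good level `M`. -/
def s19_LevelChange : Prop :=
  ∀ (p : ℕ) [NeZero p] (ℓ : ℕ) [Fact ℓ.Prime], ¬ ℓ ∣ p → ∀ k : ℕ,
    ∃ (M : ℕ) (_ : NeZero M) (k' : ℕ), s19_Good ℓ M ∧
      ∃ (T₁ : Type) (_ : AddCommGroup T₁) (_ : DistribMulAction s19_Gal T₁)
        (i : T₁ →+ s19_Tors M ℓ k') (q : T₁ →+ s19_Tors p ℓ k),
        Function.Injective i ∧ (∀ (σ : s19_Gal) (x : T₁), i (σ • x) = σ • i x) ∧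
        Function.Surjective q ∧ (∀ (σ : s19_Gal) (x : T₁), q (σ • x) = σ • q x)

/-- the torsion is finite as soon as it carries an order; for [DESC] and [HOPF] we need
`Finite` beforehand: [FIN] finiteness of the torsion. -/
def s19_TorsFinite : Prop :=
  ∀ (N : ℕ) [NeZero N] (ℓ k : ℕ) [Fact ℓ.Prime], Finite (s19_Tors N ℓ k)

/-- **S19 from the contracts.** -/
theorem s19_top (hF : s19_FramesExist) (hO : s19_OrderOfFrames) (hD : s19_Desc)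
    (hH : s19_Hopf) (hS : s19_OrderSub) (hQ : s19_OrderQuot) (hL : s19_LevelChange)
    (hC : s19_Cont) (hfin : s19_TorsFinite)
    (p : ℕ) [NeZero p] (ℓ : ℕ) [Fact ℓ.Prime] (hℓp : ¬ ℓ ∣ p) (k : ℕ)
    (A : ValuationSubring s19_Qbar) (hA : A.LiesOverPrime ℓ) :
    ∃ (H : Type) (_ : CommRing H) (_ : HopfAlgebra (GaloisRep.ratLocalizedAt ℓ) H),
      Module.Finite (GaloisRep.ratLocalizedAt ℓ) H ∧ Module.Flat (GaloisRep.ratLocalizedAt ℓ) H ∧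
      Coalgebra.IsCocomm (GaloisRep.ratLocalizedAt ℓ) H ∧
      ∃ e : WithConv (H →ₐ[GaloisRep.ratLocalizedAt ℓ] AlgebraicClosure ℚ) ≃
          ↥(Submodule.torsionBy ℤ (JZero p) ((ℓ : ℤ) ^ k)),
        (∀ f g, e (f * g) = e f + e g) ∧
        ∀ (σ : AlgebraicClosure ℚ ≃ₐ[ℚ] AlgebraicClosure ℚ)
          (f g : WithConv (H →ₐ[GaloisRep.ratLocalizedAt ℓ] AlgebraicClosure ℚ)),
          (∀ h : H, g h = σ (f h)) → ((e g : JZero p)) = σ • (e f : JZero p) := by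
  obtain ⟨M, hM, k', hgood, T₁, i1, i2, i, q, hi, hie, hq, hqe⟩ := hL p ℓ hℓp k
  -- `ℓ` as an element of `A`
  have hlA : (ℓ : s19_Qbar) ∈ A := by
    have h := (ValuationSubring.mem_nonunits_iff_exists_mem_maximalIdeal (A := A)).mp hA
    exact h.choose
  set l : ↥A := ⟨(ℓ : s19_Qbar), hlA⟩ with hl
  obtain ⟨J1, g, 𝔉, S, hFr⟩ := hF M ℓ hgood A hA l rfl
  haveI : Finite (s19_Tors M ℓ k') := hfin M ℓ k'
  -- the local order on the torsion of `J₀(M)`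
  have hloc : ∃ HW, s19_IsLocalOrder A (s19_Tors M ℓ k') HW :=
    hO ℓ A hA l rfl (JZero M) J1 g 𝔉 S hFr (s19_Tors M ℓ k')
      (Submodule.torsionBy ℤ (JZero M) ((ℓ : ℤ) ^ k')).subtype.toAddMonoidHom
      Subtype.val_injective (fun σ x => rfl)
  -- the global order
  have hglob : ∃ H, s19_IsOrder ℓ (s19_Tors M ℓ k') H := by
    refine hD ℓ A hA (s19_Tors M ℓ k') (fun x => ?_) hloc
    obtain ⟨E, hE, hfix⟩ := hC M (x : JZero M)
    exact ⟨E, hE, fun σ hσ => Subtype.ext (hfix σ hσ)⟩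
  -- subquotient
  have h1 : ∃ H₁, s19_IsOrder ℓ T₁ H₁ := hS ℓ (s19_Tors M ℓ k') T₁ i hi hie hglob
  haveI : Finite T₁ := Finite.of_injective i hi
  have h2 : ∃ H₂, s19_IsOrder ℓ (s19_Tors p ℓ k) H₂ := hQ ℓ T₁ (s19_Tors p ℓ k) q hq hqe h1
  obtain ⟨H₂, hH₂⟩ := h2
  haveI : Finite (s19_Tors p ℓ k) := hfin p ℓ k
  obtain ⟨H, i1, i2, hfinH, hflat, hcocomm, e, he, hequiv⟩ := hH ℓ (s19_Tors p ℓ k) H₂ hH₂
  refine ⟨H, i1, i2, hfinH, hflat, hcocomm, e, he, fun σ f g hfg => ?_⟩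
  have := hequiv σ f g hfg
  rw [this]
  rfl

end Fermat.Agent.Lib.S19
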