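/-
W-A programme (S19/S32), brick G1.6 part 4 (helper5): RATIONALITY OF CENTRES, abstract form.

`Γ` = a set of semilinear automorphisms of `F/K` acting trivially on the special fibre
(`r (g • P) = r P`), `FW` = a subring of `Γ`-fixed functions containing the `Γ`-fixed constants.
If `t ∈ FW` is a parameter of the disc of `Q`, its centre `P₀` (the point `t = 0`) is fixed by `Γ`
(a parameter is injective on the disc), hence the value at `P₀` of a function of `FW` regular on
the disc is a `Γ`-fixed constant.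
-/
import Fermat.Agent.Lib.S19.ADiscStruct
import Fermat.Prelude.Def_AlgebraicCurve_BaseChangeGalois

set_option autoImplicit false
set_option linter.unusedSectionVars false
set_option linter.unusedVariables false

noncomputable section

namespace Fermat.Agent.Lib.S19

open AlgebraicCurve Fermat.Agent.Lib.FF Fermat.Agent.Lib.S37 IsLocalRing

variable {K F : Type*} [Field K] [Field F] [Algebra K F] [IsAlgClosed K]
  {k Fb : Type*} [Field k] [Field Fb] [Algebra k Fb]
  (x : F) [FFGen K x]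

/-- **values are equivariant** under semilinear automorphisms. -/
theorem s19a_ev_smul (g : SemilinearAut K F) (v : Place K F) (f : F)
    (hf : f ∈ v.toValuationSubring) :
    s37pv_ev x (g • v) ⟨g • f, ValuationSubring.smul_mem_pointwise_smul g f _ hf⟩ =
      SemilinearAut.baseAut g (s37pv_ev x v ⟨f, hf⟩) := by
  rw [s37pv_ev_coe_eq_iff]
  have h0 := (s37pv_ev_coe_eq_iff x v ⟨f, hf⟩ (s37pv_ev x v ⟨f, hf⟩)).mp rfl
  rcases h0 with h1 | h1
  · left
    show g • f = _
    have h2 : f = algebraMap K F (s37pv_ev x v ⟨f, hf⟩) := h1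
    conv_lhs => rw [h2]
    exact SemilinearAut.smul_algebraMap g _
  · right
    show 0 < (g • v).ord (g • f - _)
    rw [← SemilinearAut.smul_algebraMap, ← smul_sub, SemilinearAut.ord_smul]
    exact h1

theorem s19a_ev_smul_fixed (g : SemilinearAut K F) (v : Place K F) (f : F)
    (hf : f ∈ v.toValuationSubring) (hgf : g • f = f) (hf' : f ∈ (g • v).toValuationSubring) :
    s37pv_ev x (g • v) ⟨f, hf'⟩ = SemilinearAut.baseAut g (s37pv_ev x v ⟨f, hf⟩) := by
  have : (⟨f, hf'⟩ : (g • v).toValuationSubring) =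
      ⟨g • f, ValuationSubring.smul_mem_pointwise_smul g f _ hf⟩ := Subtype.ext hgf.symm
  rw [this, s19a_ev_smul]

theorem s19a_ev_congr {v v' : Place K F} (hv : v' = v) (f : F) (hf : f ∈ v.toValuationSubring)
    (hf' : f ∈ v'.toValuationSubring) : s37pv_ev x v' ⟨f, hf'⟩ = s37pv_ev x v ⟨f, hf⟩ := by
  subst hv
  rfl

variable {A : ValuationSubring K} {π : ↥A →+* k} {O : ValuationSubring F} {red : ↥O →+* Fb}
  {r : Place K F → Place k Fb} (h : s19_RD A π O red r)

/-- the centre of a `Γ`-fixed parameter is `Γ`-fixed. -/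
theorem s19a_centre_fixed (g : SemilinearAut K F) (hr : ∀ P, r (g • P) = r P)
    {Q : Place k Fb} {t : F} (ht : s19a_IsParam red r Q t) (hgt : g • t = t) :
    g • s19a_pt x h ht 0 = s19a_pt x h ht 0 := by
  set P₀ := s19a_pt x h ht 0 with hP₀
  have hrP₀ : r P₀ = Q := s19a_pt_r x h ht 0
  have hrg : r (g • P₀) = Q := by rw [hr, hrP₀]
  apply s19a_param_injective x h ht (g • P₀) P₀ hrg hrP₀
  have h0 : s19a_evA x h P₀ hrP₀ (s19a_tG ht) = 0 := s19a_pt_val x h ht 0
  rw [h0]
  apply Subtype.ext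
  rw [s19a_coe_evA, s19a_evK_apply]
  have h1 : s37pv_ev x P₀ ⟨t, s19a_memP (s19a_tG ht) P₀ hrP₀⟩ = 0 := by
    have := congrArg (fun a : ↥A => (a : K)) h0
    exact this
  have h2 := s19a_ev_smul_fixed x g P₀ t (s19a_memP (s19a_tG ht) P₀ hrP₀) hgt
    (s19a_memP (s19a_tG ht) (g • P₀) hrg)
  rw [h1, map_zero] at h2
  exact h2

/-- **rationality of the centre** (abstract form of the field `ratc` of `s19_Curve`). -/
theorem s19a_ratc (Γ : Set (SemilinearAut K F)) (hr : ∀ g ∈ Γ, ∀ P, r (g • P) = r P)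
    (FW : Subring F) (hfix : ∀ f ∈ FW, ∀ g ∈ Γ, g • f = f)
    (hconst : ∀ c : K, (∀ g ∈ Γ, SemilinearAut.baseAut g c = c) → algebraMap K F c ∈ FW)
    (Q : Place k Fb) (t : F) (ht : s19a_IsParam red r Q t) (htW : t ∈ FW)
    (f : ↥(s19a_G O r Q)) (hf : (f : F) ∈ FW) :
    algebraMap K F ((s19a_evA x h (s19a_pt x h ht 0) (s19a_pt_r x h ht 0) f : ↥A) : K) ∈ FW := by
  apply hconst
  intro g hg
  set P₀ := s19a_pt x h ht 0 with hP₀
  have hrP₀ : r P₀ = Q := s19a_pt_r x h ht 0
  have hfixP : g • P₀ = P₀ := s19a_centre_fixed x h g (hr g hg) ht (hfix t htW g hg)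
  have hrg : r (g • P₀) = Q := by rw [hfixP, hrP₀]
  rw [s19a_coe_evA, s19a_evK_apply]
  have h2 := s19a_ev_smul_fixed x g P₀ (f : F) (s19a_memP f P₀ hrP₀) (hfix _ hf g hg)
    (s19a_memP f (g • P₀) hrg)
  rw [← h2]
  exact s19a_ev_congr x hfixP (f : F) (s19a_memP f P₀ hrP₀) (s19a_memP f (g • P₀) hrg)

end Fermat.Agent.Lib.S19
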