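/-
W-A programme (S19/S32), brick [FRAMES] part 1 (helper5): COORDINATES ON THE KERNEL OF
SPECIALIZATION, abstract curve.

`hC : s19_Curve …`.  `s19j_J1 hC ≤ Pic⁰(F)` = the classes of degree-zero divisors with principal
reduction.  For a coordinate system `𝔰` the map `a ↦ [divS 𝔰 a - divS 𝔰 0]` is a bijection
`𝔪^g ≅ J1` ([COORD], helper1); `s19j_S hC 𝔰 : J1 → 𝔪^g` is its inverse.  The addition law and the
change of coordinates are in the closure ring ([ADD], [CHG]).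
-/
import Fermat.Agent.Lib.S19.FCoord

set_option autoImplicit false
set_option linter.unusedSectionVars false
set_option linter.unusedVariables false

noncomputable section

namespace Fermat.Agent.Lib.S19

open AlgebraicCurve Fermat.Agent.Lib.FF Fermat.Agent.Lib.S37 IsLocalRing

variable {K F : Type*} [Field K] [Field F] [Algebra K F] [IsAlgClosed K]
  {k Fb : Type*} [Field k] [Field Fb] [Algebra k Fb]
  {x : F} [FFGen K x] {A : ValuationSubring K} {π : ↥A →+* k}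
  {O : ValuationSubring F} {red : ↥O →+* Fb} {r : Place K F → Place k Fb} {FW : Subring F}
  {l : ↥A} {g : ℕ} (hC : s19_Curve x A π O red r FW l g)

/-- **the kernel of specialization**: classes of degree-zero divisors with principal reduction. -/
def s19j_J1 (r : Place K F → Place k Fb) : AddSubgroup (Pic0 K F) where
  carrier := {y | ∃ D : Divisor.degZero (K := K) (F := F), Pic0.mk D = y ∧
    Finsupp.mapDomain r (D : Divisor K F) ∈ Divisor.principal (K := k) (F := Fb)}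
  zero_mem' := ⟨0, rfl, by
    rw [ZeroMemClass.coe_zero, Finsupp.mapDomain_zero]; exact (Divisor.principal).zero_mem⟩
  add_mem' := by
    rintro _ _ ⟨D, rfl, hD⟩ ⟨E, rfl, hE⟩
    refine ⟨D + E, rfl, ?_⟩
    rw [AddMemClass.coe_add, Finsupp.mapDomain_add]
    exact (Divisor.principal).add_mem hD hE
  neg_mem' := by
    rintro _ ⟨D, rfl, hD⟩
    refine ⟨-D, rfl, ?_⟩
    have h1 : Finsupp.mapDomain r ((-D : Divisor.degZero (K := K) (F := F)) : Divisor K F) =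
        -Finsupp.mapDomain r (D : Divisor K F) := by
      rw [NegMemClass.coe_neg]
      exact map_neg (Finsupp.mapDomain.addMonoidHom r) _
    rw [h1]
    exact (Divisor.principal).neg_mem hD

theorem s19j_mem_J1 {y : Pic0 K F} : y ∈ s19j_J1 r ↔
    ∃ D : Divisor.degZero (K := K) (F := F), Pic0.mk D = y ∧
      Finsupp.mapDomain r (D : Divisor K F) ∈ Divisor.principal (K := k) (F := Fb) := Iff.rfl

/-- equality of classes. -/
theorem s19j_mk_eq_mk_iff (D E : Divisor.degZero (K := K) (F := F)) :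
    Pic0.mk D = Pic0.mk E ↔
      (D : Divisor K F) - (E : Divisor K F) ∈ Divisor.principal (K := K) (F := F) := by
  unfold Pic0.mk
  rw [QuotientAddGroup.eq, AddSubgroup.mem_addSubgroupOf]
  have h1 : ((-D + E : Divisor.degZero (K := K) (F := F)) : Divisor K F) =
      -((D : Divisor K F) - (E : Divisor K F)) := by
    rw [AddMemClass.coe_add, NegMemClass.coe_neg]; abel
  rw [h1, neg_mem_iff]

variable (𝔰 : s19_Sys red r FW g)

/-- the degree-zero divisor with coordinates `a`. -/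
def s19j_div (a : Fin g → ↥(maximalIdeal ↥A)) : Divisor.degZero (K := K) (F := F) :=
  ⟨s19_divS hC 𝔰 a - s19_divS hC 𝔰 0, by
    rw [Divisor.mem_degZero, map_sub, s19f_divS_degree, s19f_divS_degree, sub_self]⟩

/-- the class with coordinates `a`. -/
def s19j_cls (a : Fin g → ↥(maximalIdeal ↥A)) : Pic0 K F := Pic0.mk (s19j_div hC 𝔰 a)

theorem s19j_cls_mem (a : Fin g → ↥(maximalIdeal ↥A)) : s19j_cls hC 𝔰 a ∈ s19j_J1 r := by
  refine ⟨s19j_div hC 𝔰 a, rfl, ?_⟩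
  have h1 : Finsupp.mapDomain r ((s19j_div hC 𝔰 a : Divisor.degZero (K := K) (F := F)) :
      Divisor K F) = 0 := by
    show Finsupp.mapDomain r (s19_divS hC 𝔰 a - s19_divS hC 𝔰 0) = 0
    have := map_sub (Finsupp.mapDomain.addMonoidHom r) (s19_divS hC 𝔰 a) (s19_divS hC 𝔰 0)
    have h2 : Finsupp.mapDomain r (s19_divS hC 𝔰 a - s19_divS hC 𝔰 0) =
        Finsupp.mapDomain r (s19_divS hC 𝔰 a) - Finsupp.mapDomain r (s19_divS hC 𝔰 0) := this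
    rw [h2, s19f_divS_map, s19f_divS_map, sub_self]
  rw [h1]
  exact (Divisor.principal).zero_mem

theorem s19j_cls_injective : Function.Injective (s19j_cls hC 𝔰) := by
  intro a a' h
  unfold s19j_cls at h
  rw [s19j_mk_eq_mk_iff] at h
  apply s19f_coord_unique hC 𝔰 a a'
  have he : ((s19j_div hC 𝔰 a : Divisor.degZero (K := K) (F := F)) : Divisor K F) -
      ((s19j_div hC 𝔰 a' : Divisor.degZero (K := K) (F := F)) : Divisor K F) =
      s19_divS hC 𝔰 a - s19_divS hC 𝔰 a' := by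
    show (s19_divS hC 𝔰 a - s19_divS hC 𝔰 0) - (s19_divS hC 𝔰 a' - s19_divS hC 𝔰 0) = _
    abel
  rw [he] at h
  exact h

theorem s19j_cls_surj (y : Pic0 K F) (hy : y ∈ s19j_J1 r) : ∃ a, s19j_cls hC 𝔰 a = y := by
  obtain ⟨D, rfl, hD⟩ := hy
  obtain ⟨a, ha⟩ := s19f_coord_exists hC 𝔰 (D : Divisor K F) (Divisor.mem_degZero.mp D.2) hD
  refine ⟨a, ?_⟩
  unfold s19j_cls
  rw [s19j_mk_eq_mk_iff]
  have he : ((s19j_div hC 𝔰 a : Divisor.degZero (K := K) (F := F)) : Divisor K F) -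
      (D : Divisor K F) = -((D : Divisor K F) - (s19_divS hC 𝔰 a - s19_divS hC 𝔰 0)) := by
    show (s19_divS hC 𝔰 a - s19_divS hC 𝔰 0) - (D : Divisor K F) = _
    abel
  rw [he]
  exact (Divisor.principal).neg_mem ha

/-- **the coordinates** of a point of `J1` in the system `𝔰`. -/
def s19j_S (y : ↥(s19j_J1 r)) : Fin g → ↥(maximalIdeal ↥A) :=
  Classical.choose (s19j_cls_surj hC 𝔰 (y : Pic0 K F) y.2)

theorem s19j_cls_S (y : ↥(s19j_J1 r)) : s19j_cls hC 𝔰 (s19j_S hC 𝔰 y) = (y : Pic0 K F) :=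
  Classical.choose_spec (s19j_cls_surj hC 𝔰 (y : Pic0 K F) y.2)

theorem s19j_S_cls (a : Fin g → ↥(maximalIdeal ↥A)) :
    s19j_S hC 𝔰 ⟨s19j_cls hC 𝔰 a, s19j_cls_mem hC 𝔰 a⟩ = a :=
  s19j_cls_injective hC 𝔰 (s19j_cls_S hC 𝔰 _)

theorem s19j_S_injective : Function.Injective (s19j_S hC 𝔰) := by
  intro y y' h
  apply Subtype.ext
  rw [← s19j_cls_S hC 𝔰 y, ← s19j_cls_S hC 𝔰 y', h]

theorem s19j_S_eq_iff (y : ↥(s19j_J1 r)) (a : Fin g → ↥(maximalIdeal ↥A)) :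
    s19j_S hC 𝔰 y = a ↔ s19j_cls hC 𝔰 a = (y : Pic0 K F) := by
  constructor
  · rintro rfl; exact s19j_cls_S hC 𝔰 y
  · intro h
    apply s19j_cls_injective hC 𝔰
    rw [s19j_cls_S, h]

/-- the divisor criterion: `y₁ + y₂ = y₃` in terms of coordinates. -/
theorem s19j_add_principal (y₁ y₂ : ↥(s19j_J1 r)) :
    s19_divS hC 𝔰 (s19j_S hC 𝔰 y₁) + s19_divS hC 𝔰 (s19j_S hC 𝔰 y₂) -
      s19_divS hC 𝔰 (s19j_S hC 𝔰 (y₁ + y₂)) - s19_divS hC 𝔰 0 ∈
      Divisor.principal (K := K) (F := F) := by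
  have h1 := s19j_cls_S hC 𝔰 y₁
  have h2 := s19j_cls_S hC 𝔰 y₂
  have h3 := s19j_cls_S hC 𝔰 (y₁ + y₂)
  have h4 : s19j_cls hC 𝔰 (s19j_S hC 𝔰 (y₁ + y₂)) =
      Pic0.mk (s19j_div hC 𝔰 (s19j_S hC 𝔰 y₁) + s19j_div hC 𝔰 (s19j_S hC 𝔰 y₂)) := by
    rw [h3, Pic0.mk_add]
    show ((y₁ + y₂ : ↥(s19j_J1 r)) : Pic0 K F) = s19j_cls hC 𝔰 _ + s19j_cls hC 𝔰 _
    rw [h1, h2]
    rfl
  unfold s19j_cls at h4
  rw [s19j_mk_eq_mk_iff] at h4
  have he : ((s19j_div hC 𝔰 (s19j_S hC 𝔰 (y₁ + y₂)) : Divisor.degZero (K := K) (F := F)) :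
      Divisor K F) - ((s19j_div hC 𝔰 (s19j_S hC 𝔰 y₁) + s19j_div hC 𝔰 (s19j_S hC 𝔰 y₂) :
        Divisor.degZero (K := K) (F := F)) : Divisor K F) =
      -(s19_divS hC 𝔰 (s19j_S hC 𝔰 y₁) + s19_divS hC 𝔰 (s19j_S hC 𝔰 y₂) -
        s19_divS hC 𝔰 (s19j_S hC 𝔰 (y₁ + y₂)) - s19_divS hC 𝔰 0) := by
    show (s19_divS hC 𝔰 (s19j_S hC 𝔰 (y₁ + y₂)) - s19_divS hC 𝔰 0) -
      ((s19_divS hC 𝔰 (s19j_S hC 𝔰 y₁) - s19_divS hC 𝔰 0) +
        (s19_divS hC 𝔰 (s19j_S hC 𝔰 y₂) - s19_divS hC 𝔰 0)) = _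
    abel
  rw [he, neg_mem_iff] at h4
  exact h4

/-- **the addition law in coordinates** (from [ADD]). -/
theorem s19j_add (hadd : s19_Add) {K F k Fb : Type} [Field K] [Field F] [Algebra K F]
    [IsAlgClosed K] [Field k] [Field Fb] [Algebra k Fb] {x : F} [FFGen K x]
    {A : ValuationSubring K} {π : ↥A →+* k} {O : ValuationSubring F} {red : ↥O →+* Fb}
    {r : Place K F → Place k Fb} {FW : Subring F} {l : ↥A} {g : ℕ}
    (hC : s19_Curve x A π O red r FW l g) (𝔰 : s19_Sys red r FW g)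
    {Ξ : Type} (y₁ y₂ : Ξ → ↥(s19j_J1 r))
    (hsmall : s19_Small l
      (Sum.elim (fun (i : Fin g) (ξ : Ξ) => ((s19j_S hC 𝔰 (y₁ ξ) i : ↥(maximalIdeal ↥A)) : ↥A))
        (fun (i : Fin g) (ξ : Ξ) => ((s19j_S hC 𝔰 (y₂ ξ) i : ↥(maximalIdeal ↥A)) : ↥A))))
    (i : Fin g) :
    (fun ξ => ((s19j_S hC 𝔰 (y₁ ξ + y₂ ξ) i : ↥(maximalIdeal ↥A)) : ↥A)) ∈
      s19_cl l (s19a_W A FW)
        (Sum.elim (fun (i : Fin g) (ξ : Ξ) => ((s19j_S hC 𝔰 (y₁ ξ) i : ↥(maximalIdeal ↥A)) : ↥A))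
          (fun (i : Fin g) (ξ : Ξ) => ((s19j_S hC 𝔰 (y₂ ξ) i : ↥(maximalIdeal ↥A)) : ↥A))) :=
  hadd x A π O red r FW l g hC 𝔰 (fun ξ => s19j_S hC 𝔰 (y₁ ξ)) (fun ξ => s19j_S hC 𝔰 (y₂ ξ))
    (fun ξ => s19j_S hC 𝔰 (y₁ ξ + y₂ ξ)) hsmall
    (fun ξ => s19j_add_principal hC 𝔰 (y₁ ξ) (y₂ ξ)) i

/-- **change of coordinates** (from [CHG]). -/
theorem s19j_chg (hchg : s19_Chg) {K F k Fb : Type} [Field K] [Field F] [Algebra K F]
    [IsAlgClosed K] [Field k] [Field Fb] [Algebra k Fb] {x : F} [FFGen K x]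
    {A : ValuationSubring K} {π : ↥A →+* k} {O : ValuationSubring F} {red : ↥O →+* Fb}
    {r : Place K F → Place k Fb} {FW : Subring F} {l : ↥A} {g : ℕ}
    (hC : s19_Curve x A π O red r FW l g) (𝔰 𝔰' : s19_Sys red r FW g)
    {Ξ : Type} (y : Ξ → ↥(s19j_J1 r))
    (hsmall : s19_Small l
      (fun (i : Fin g) (ξ : Ξ) => ((s19j_S hC 𝔰 (y ξ) i : ↥(maximalIdeal ↥A)) : ↥A)))
    (i : Fin g) :
    (fun ξ => ((s19j_S hC 𝔰' (y ξ) i : ↥(maximalIdeal ↥A)) : ↥A)) ∈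
      s19_cl l (s19a_W A FW)
        (fun (i : Fin g) (ξ : Ξ) => ((s19j_S hC 𝔰 (y ξ) i : ↥(maximalIdeal ↥A)) : ↥A)) := by
  refine hchg x A π O red r FW l g hC 𝔰 𝔰' (fun ξ => s19j_S hC 𝔰 (y ξ))
    (fun ξ => s19j_S hC 𝔰' (y ξ)) hsmall (fun ξ => ?_) i
  have h1 := s19j_cls_S hC 𝔰 (y ξ)
  have h2 := s19j_cls_S hC 𝔰' (y ξ)
  have h3 : s19j_cls hC 𝔰 (s19j_S hC 𝔰 (y ξ)) = s19j_cls hC 𝔰' (s19j_S hC 𝔰' (y ξ)) := by
    rw [h1, h2]
  unfold s19j_cls at h3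
  rw [s19j_mk_eq_mk_iff] at h3
  exact h3

end Fermat.Agent.Lib.S19
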