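/-
W-A programme (S19/S32), brick [FRAMES] part 2 (helper5): GALOIS TRANSPORT OF COORDINATES,
abstract curve.

`γ` a semilinear automorphism of the generic fibre `F/K`, `γb` one of the special fibre `Fb/k`,
COMPATIBLE with the reduction datum (`s19j_Compat`: `r (γ P) = γb (r P)`, `γ O = O`,
`red ∘ γ = γb ∘ red`, `γ A = A`, `γ FW = FW`).  Then `γ` preserves the kernel of specialization
`J1`, transports parameters, discs and coordinate systems, and
`S_{γ𝔰} (γ y) = γ (S_𝔰 y)` (`s19j_S_smul`).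
-/
import Fermat.Agent.Lib.S19.JOne
import Fermat.Agent.Lib.S19.AGalois

set_option autoImplicit false
set_option linter.unusedSectionVars false
set_option linter.unusedVariables false

noncomputable section

namespace Fermat.Agent.Lib.S19

open AlgebraicCurve Fermat.Agent.Lib.FF Fermat.Agent.Lib.S37 IsLocalRing

variable {K F : Type*} [Field K] [Field F] [Algebra K F] [IsAlgClosed K]
  {k Fb : Type*} [Field k] [Field Fb] [Algebra k Fb]

/-- compatibility of `(γ, γb)` with the reduction datum. -/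
structure s19j_Compat (A : ValuationSubring K) (O : ValuationSubring F) (red : ↥O →+* Fb)
    (r : Place K F → Place k Fb) (FW : Subring F) (γ : SemilinearAut K F)
    (γb : SemilinearAut k Fb) : Prop where
  r_smul : ∀ P, r (γ • P) = γb • r P
  O_smul : ∀ f ∈ O, γ • f ∈ O
  red_smul : ∀ (f : F) (hf : f ∈ O), red ⟨γ • f, O_smul f hf⟩ = γb • red ⟨f, hf⟩
  A_smul : ∀ a : K, a ∈ A → SemilinearAut.baseAut γ a ∈ A
  A_inv : ∀ a : K, SemilinearAut.baseAut γ a ∈ A → a ∈ A
  FW_smul : ∀ f ∈ FW, γ • f ∈ FW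

variable {x : F} [FFGen K x] {A : ValuationSubring K} {π : ↥A →+* k}
  {O : ValuationSubring F} {red : ↥O →+* Fb} {r : Place K F → Place k Fb} {FW : Subring F}
  {l : ↥A} {g : ℕ} (hC : s19_Curve x A π O red r FW l g)
  {γ : SemilinearAut K F} {γb : SemilinearAut k Fb} (h : s19j_Compat A O red r FW γ γb)

/-- the action of `γ` on the maximal ideal of `A`. -/
def s19j_actM (c : ↥(maximalIdeal ↥A)) : ↥(maximalIdeal ↥A) :=
  ⟨⟨SemilinearAut.baseAut γ ((c : ↥A) : K), h.A_smul _ (c : ↥A).2⟩, by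
    rw [mem_maximalIdeal, mem_nonunits_iff]
    intro hu
    obtain ⟨u, hu⟩ := hu.exists_right_inv
    have h1 : SemilinearAut.baseAut γ ((c : ↥A) : K) * (u : K) = 1 := by
      have := congrArg (fun a : ↥A => (a : K)) hu
      exact this
    set v : K := (SemilinearAut.baseAut γ).symm (u : K) with hv
    have hvA : v ∈ A := h.A_inv v (by rw [hv, RingEquiv.apply_symm_apply]; exact u.2)
    have h2 : ((c : ↥A) : K) * v = 1 := by
      apply (SemilinearAut.baseAut γ).injective
      rw [map_mul, hv, RingEquiv.apply_symm_apply, h1, map_one]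
    have hcu : IsUnit (c : ↥A) := IsUnit.of_mul_eq_one (⟨v, hvA⟩ : ↥A) (Subtype.ext h2)
    exact (mem_nonunits_iff.mp ((mem_maximalIdeal _).mp c.2)) hcu⟩

theorem s19j_coe_actM (c : ↥(maximalIdeal ↥A)) :
    (((s19j_actM h c : ↥(maximalIdeal ↥A)) : ↥A) : K) =
      SemilinearAut.baseAut γ ((c : ↥A) : K) := rfl

theorem s19j_actM_zero : s19j_actM h (0 : ↥(maximalIdeal ↥A)) = 0 := by
  apply Subtype.ext
  apply Subtype.ext
  rw [s19j_coe_actM]
  simp

include h in
/-- `γ` preserves the kernel of specialization. -/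
theorem s19j_J1_smul (y : Pic0 K F) (hy : y ∈ s19j_J1 r) : γ • y ∈ s19j_J1 r := by
  obtain ⟨D, rfl, hD⟩ := hy
  refine ⟨SemilinearAut.degZeroSMulHom γ D, (SemilinearAut.pic0_smul_mk γ D).symm, ?_⟩
  rw [SemilinearAut.coe_degZeroSMulHom, SemilinearAut.divisor_smul_def,
    ← Finsupp.mapDomain_comp]
  have h1 : (r ∘ fun P => γ • P) = (fun Q => γb • Q) ∘ r := by
    funext P
    exact h.r_smul P
  rw [h1, Finsupp.mapDomain_comp, ← SemilinearAut.divisor_smul_def]
  exact SemilinearAut.smul_mem_principal γb hD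

include h in
/-- transport of parameters. -/
theorem s19j_param_smul {Q : Place k Fb} {t : F} (ht : s19a_IsParam red r Q t) :
    s19a_IsParam red r (γb • Q) (γ • t) := by
  have hmemO : γ • t ∈ O := h.O_smul t (s19a_mem_G.mp ht.mem).1
  have hmem : γ • t ∈ s19a_G O r (γb • Q) := by
    refine ⟨hmemO, fun P' hP' => ?_⟩
    set P := γ⁻¹ • P' with hP
    have h1 : γ • P = P' := by rw [hP, smul_inv_smul]
    have h2 : r P = Q := by
      have := h.r_smul P
      rw [h1, hP'] at this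
      exact (MulAction.injective γb this).symm
    have h3 := (s19a_mem_G.mp ht.mem).2 P h2
    rw [← h1]
    exact ValuationSubring.smul_mem_pointwise_smul γ t _ h3
  refine ⟨hmem, ?_⟩
  have h1 : red ⟨γ • t, (s19a_mem_G.mp hmem).1⟩ = γb • red ⟨t, (s19a_mem_G.mp ht.mem).1⟩ :=
    h.red_smul t (s19a_mem_G.mp ht.mem).1
  rw [h1, SemilinearAut.ord_smul]
  exact ht.ord

/-- transport of the points of a disc. -/
theorem s19j_pt_smul {Q : Place k Fb} {t : F} (ht : s19a_IsParam red r Q t)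
    (c : ↥(maximalIdeal ↥A)) :
    γ • s19a_pt x hC.rd ht c = s19a_pt x hC.rd (s19j_param_smul h ht) (s19j_actM h c) := by
  set ht' := s19j_param_smul h ht with hht'
  set P := s19a_pt x hC.rd ht c with hP
  have hrP : r P = Q := s19a_pt_r x hC.rd ht c
  have hr1 : r (γ • P) = γb • Q := by rw [h.r_smul, hrP]
  have hr2 : r (s19a_pt x hC.rd ht' (s19j_actM h c)) = γb • Q := s19a_pt_r x hC.rd ht' _
  apply s19a_param_injective x hC.rd ht' _ _ hr1 hr2
  rw [s19a_pt_val]
  apply Subtype.ext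
  rw [s19a_coe_evA, s19a_evK_apply]
  have h1 : s37pv_ev x P ⟨t, s19a_memP (s19a_tG ht) P hrP⟩ = ((c : ↥A) : K) := by
    have := s19a_pt_val x hC.rd ht c
    have h2 := congrArg (fun a : ↥A => (a : K)) this
    exact h2
  have h3 := s19a_ev_smul x γ P t (s19a_memP (s19a_tG ht) P hrP)
  rw [h1] at h3
  exact h3

variable (𝔰 : s19_Sys red r FW g)

/-- non-speciality is preserved. -/
theorem s19j_nonsp_smul (hdeg : ∀ Q : Place k Fb, Q.deg = 1) :
    Module.finrank k
      ↥(riemannRochSpace (∑ i, Finsupp.single (γb • 𝔰.Q i) (1 : ℤ))) = 1 := by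
  classical
  set D : Divisor k Fb := ∑ i, Finsupp.single (𝔰.Q i) (1 : ℤ) with hD
  set D' : Divisor k Fb := ∑ i, Finsupp.single (γb • 𝔰.Q i) (1 : ℤ) with hD'
  have hDD' : D' = γb • D := by
    rw [hD, hD', Finset.smul_sum]
    refine Finset.sum_congr rfl fun i _ => ?_
    rw [SemilinearAut.smul_single]
  have hnn : ∀ (E : Divisor k Fb), (∀ Q, 0 ≤ E Q) → (1 : Fb) ∈ riemannRochSpace E := by
    intro E hE
    rw [mem_riemannRochSpace_iff]
    intro Q
    right
    rw [Place.ord_one]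
    have := hE Q
    omega
  have hDnn : ∀ Q, 0 ≤ D Q := by
    intro Q
    rw [hD, Finsupp.finsetSum_apply]
    refine Finset.sum_nonneg fun i _ => ?_
    rw [Finsupp.single_apply]
    split_ifs <;> norm_num
  have hD'nn : ∀ Q, 0 ≤ D' Q := by
    intro Q
    rw [hDD', SemilinearAut.divisor_smul_apply]
    exact hDnn _
  -- every element of `L(D)` is constant
  have hconst : ∀ f ∈ riemannRochSpace D, ∃ c : k, f = algebraMap k Fb c := by
    intro f hf
    have h1 := 𝔰.nonsp
    rw [← hD] at h1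
    have hone : (⟨1, hnn D hDnn⟩ : ↥(riemannRochSpace D)) ≠ 0 := by
      intro h0
      exact one_ne_zero (congrArg Subtype.val h0)
    obtain ⟨c, hc⟩ := (finrank_eq_one_iff_of_nonzero' _ hone).mp h1 ⟨f, hf⟩
    refine ⟨c, ?_⟩
    have := congrArg Subtype.val hc
    simp only [Submodule.coe_smul] at this
    rw [← this, Algebra.smul_def, mul_one]
  have hone' : (⟨1, hnn D' hD'nn⟩ : ↥(riemannRochSpace D')) ≠ 0 := by
    intro h0
    exact one_ne_zero (congrArg Subtype.val h0)
  rw [finrank_eq_one_iff_of_nonzero' _ hone']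
  rintro ⟨f', hf'⟩
  -- pull back
  have hf : γb⁻¹ • f' ∈ riemannRochSpace D := by
    rw [mem_riemannRochSpace_iff] at hf' ⊢
    intro Q
    rcases hf' (γb • Q) with h0 | h0
    · left; rw [h0, smul_zero]
    · right
      have h2 := SemilinearAut.ord_smul γb Q (γb⁻¹ • f')
      rw [smul_inv_smul] at h2
      rw [← h2]
      rw [hDD', SemilinearAut.divisor_smul_apply_smul] at h0
      exact h0
  obtain ⟨c, hc⟩ := hconst _ hf
  refine ⟨SemilinearAut.baseAut γb c, Subtype.ext ?_⟩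
  simp only [Submodule.coe_smul]
  rw [Algebra.smul_def, mul_one, ← SemilinearAut.smul_algebraMap, ← hc, smul_inv_smul]

/-- **transport of coordinate systems.** -/
def s19j_sys_smul (hdeg : ∀ Q : Place k Fb, Q.deg = 1) : s19_Sys red r FW g where
  Q i := γb • 𝔰.Q i
  t i := γ • 𝔰.t i
  inj := fun i j hij => 𝔰.inj (MulAction.injective γb hij)
  param i := s19j_param_smul h (𝔰.param i)
  rat i := h.FW_smul _ (𝔰.rat i)
  nonsp := s19j_nonsp_smul 𝔰 hdeg

/-- transport of the divisors `divS`. -/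
theorem s19j_divS_smul (a : Fin g → ↥(maximalIdeal ↥A)) :
    γ • s19_divS hC 𝔰 a =
      s19_divS hC (s19j_sys_smul h 𝔰 hC.degFb) (fun i => s19j_actM h (a i)) := by
  unfold s19_divS
  rw [Finset.smul_sum]
  refine Finset.sum_congr rfl fun i _ => ?_
  rw [SemilinearAut.smul_single]
  congr 1
  exact s19j_pt_smul hC h (𝔰.param i) (a i)

/-- transport of the classes. -/
theorem s19j_cls_smul (a : Fin g → ↥(maximalIdeal ↥A)) :
    γ • s19j_cls hC 𝔰 a =
      s19j_cls hC (s19j_sys_smul h 𝔰 hC.degFb) (fun i => s19j_actM h (a i)) := by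
  unfold s19j_cls
  rw [SemilinearAut.pic0_smul_mk]
  congr 1
  apply Subtype.ext
  rw [SemilinearAut.coe_degZeroSMulHom]
  show γ • (s19_divS hC 𝔰 a - s19_divS hC 𝔰 0) = _ - _
  rw [smul_sub, s19j_divS_smul hC h 𝔰 a, s19j_divS_smul hC h 𝔰 0]
  congr 2
  funext i
  exact s19j_actM_zero h

/-- **equivariance of the coordinates**: `S_{γ𝔰} (γ y) = γ (S_𝔰 y)`. -/
theorem s19j_S_smul (y : ↥(s19j_J1 r)) (hy : γ • (y : Pic0 K F) ∈ s19j_J1 r) (i : Fin g) :
    s19j_S hC (s19j_sys_smul h 𝔰 hC.degFb) ⟨γ • (y : Pic0 K F), hy⟩ i =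
      s19j_actM h (s19j_S hC 𝔰 y i) := by
  have h1 : s19j_S hC (s19j_sys_smul h 𝔰 hC.degFb) ⟨γ • (y : Pic0 K F), hy⟩ =
      fun i => s19j_actM h (s19j_S hC 𝔰 y i) := by
    rw [s19j_S_eq_iff, ← s19j_cls_smul hC h 𝔰, s19j_cls_S]
  exact congrFun h1 i

end Fermat.Agent.Lib.S19
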