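/-
W-A programme (S19/S32), brick [FRAMES] part 3 (helper5): RATIONAL CENTRES, abstract curve.

`Γ` = a set of semilinear automorphisms acting trivially on the special fibre and fixing the
rational functions `FW`.  Every class `y ∈ Pic⁰(F)` is congruent modulo the kernel of
specialization `J1` to a `Γ`-fixed class `y₀` (replace every point of a divisor by the centre of a
rational parameter of its disc).
-/
import Fermat.Agent.Lib.S19.JGal
import Fermat.Agent.Lib.S19.LLift

set_option autoImplicit false
set_option linter.unusedSectionVars false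
set_option linter.unusedVariables false

noncomputable section

namespace Fermat.Agent.Lib.S19

open AlgebraicCurve Fermat.Agent.Lib.FF Fermat.Agent.Lib.S37 IsLocalRing

variable {K F : Type*} [Field K] [Field F] [Algebra K F] [IsAlgClosed K]
  {k Fb : Type*} [Field k] [Field Fb] [Algebra k Fb]
  {x : F} [FFGen K x] {A : ValuationSubring K} {π : ↥A →+* k}
  {O : ValuationSubring F} {red : ↥O →+* Fb} {r : Place K F → Place k Fb} {FW : Subring F}
  {l : ↥A} {g : ℕ} (hC : s19_Curve x A π O red r FW l g)

/-- the centre of a chosen rational parameter of the disc of `Q`. -/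
def s19j_cen (Q : Place k Fb) : Place K F :=
  s19a_pt x hC.rd (Classical.choose_spec (hC.param Q)).2 0

theorem s19j_cen_r (Q : Place k Fb) : r (s19j_cen hC Q) = Q :=
  s19a_pt_r x hC.rd _ 0

theorem s19j_cen_fixed (γ : SemilinearAut K F) (hr : ∀ P, r (γ • P) = r P)
    (hfix : ∀ f ∈ FW, γ • f = f) (Q : Place k Fb) : γ • s19j_cen hC Q = s19j_cen hC Q :=
  s19a_centre_fixed x hC.rd γ hr _ (hfix _ (Classical.choose_spec (hC.param Q)).1)

include hC in
/-- **rational centres.** -/
theorem s19j_centre (Γ : Set (SemilinearAut K F)) (hr : ∀ γ ∈ Γ, ∀ P, r (γ • P) = r P)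
    (hfix : ∀ f ∈ FW, ∀ γ ∈ Γ, γ • f = f) (y : Pic0 K F) :
    ∃ y₀ : Pic0 K F, y - y₀ ∈ s19j_J1 r ∧ ∀ γ ∈ Γ, γ • y₀ = y₀ := by
  classical
  obtain ⟨D, rfl⟩ := Pic0.mk_surjective y
  set c : Place K F → Place K F := fun P => s19j_cen hC (r P) with hc
  have hdeg : Divisor.degree (Finsupp.mapDomain c (D : Divisor K F)) = 0 := by
    rw [s19l_degree_mapDomain hC.degF hC.degF]
    exact Divisor.mem_degZero.mp D.2
  set D₀ : Divisor.degZero (K := K) (F := F) :=
    ⟨Finsupp.mapDomain c (D : Divisor K F), Divisor.mem_degZero.mpr hdeg⟩ with hD₀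
  refine ⟨Pic0.mk D₀, ⟨D - D₀, rfl, ?_⟩, fun γ hγ => ?_⟩
  · have h1 : Finsupp.mapDomain r ((D - D₀ : Divisor.degZero (K := K) (F := F)) : Divisor K F) =
        0 := by
      rw [AddSubgroupClass.coe_sub]
      have h2 : Finsupp.mapDomain r ((D : Divisor K F) - (D₀ : Divisor K F)) =
          Finsupp.mapDomain r (D : Divisor K F) - Finsupp.mapDomain r (D₀ : Divisor K F) :=
        map_sub (Finsupp.mapDomain.addMonoidHom r) _ _
      rw [h2]
      show _ - Finsupp.mapDomain r (Finsupp.mapDomain c (D : Divisor K F)) = 0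
      rw [← Finsupp.mapDomain_comp]
      have h3 : r ∘ c = r := by
        funext P
        exact s19j_cen_r hC (r P)
      rw [h3, sub_self]
    rw [h1]
    exact (Divisor.principal).zero_mem
  · rw [SemilinearAut.pic0_smul_mk]
    congr 1
    apply Subtype.ext
    rw [SemilinearAut.coe_degZeroSMulHom, SemilinearAut.divisor_smul_def]
    show Finsupp.mapDomain (fun P => γ • P) (Finsupp.mapDomain c (D : Divisor K F)) =
      Finsupp.mapDomain c (D : Divisor K F)
    rw [← Finsupp.mapDomain_comp]
    congr 1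
    funext P
    exact s19j_cen_fixed hC γ (hr γ hγ) (fun f hf => hfix f hf γ hγ) (r P)

end Fermat.Agent.Lib.S19
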