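/-
W-A programme (S19/S32): the contract of G1 (architect: helper5):
`X₀(M)` at a good level is an abstract curve with good reduction in the sense of
`s19_Curve` (IfaceCurve), with `FW` = the functions whose `q`-expansion coefficients are fixed by
the inertia group, `l = ℓ`.
-/
import Fermat.Agent.Lib.S19.IfaceCurve
import Fermat.Agent.Lib.S37.RExists

set_option autoImplicit false
set_option linter.unusedSectionVars false
set_option synthInstance.maxHeartbeats 400000

noncomputable section

namespace Fermat.Agent.Lib.S19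

open ModularCurve HahnSeries AlgebraicCurve Fermat.Agent.Lib.S18 Fermat.Agent.Lib.S37
  Fermat.Agent.Lib.FF

local notation "Qbar" => AlgebraicClosure ℚ

/-- **the rational functions**: `q`-expansion coefficients fixed by the inertia group of `A`. -/
def s19_FW (A : ValuationSubring Qbar) (M : ℕ) : Subring ↥(modularFunctionFieldBar M) where
  carrier := {f | ∀ τ ∈ A.inertiaSubgroupIn ℚ,
    coeffMap ((τ : Qbar ≃ₐ[ℚ] Qbar) : Qbar →+* Qbar) (f : LaurentSeries Qbar) =
      (f : LaurentSeries Qbar)}
  mul_mem' := fun {a b} ha hb τ hτ => by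
    rw [MulMemClass.coe_mul, map_mul, ha τ hτ, hb τ hτ]
  one_mem' := fun τ _ => by rw [OneMemClass.coe_one, map_one]
  add_mem' := fun {a b} ha hb τ hτ => by
    rw [AddMemClass.coe_add, map_add, ha τ hτ, hb τ hτ]
  zero_mem' := fun τ _ => by rw [ZeroMemClass.coe_zero, map_zero]
  neg_mem' := fun {a} ha τ hτ => by rw [NegMemClass.coe_neg, map_neg, ha τ hτ]

/-- [CURVE] (= G1): `X₀(M)` at a good level is a curve with good reduction. -/
def s19_CurveExists : Prop :=
  ∀ (M : ℕ) [NeZero M] (ℓ : ℕ) [Fact ℓ.Prime] (hgood : s18_GoodLevel ℓ M)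
    (A : ValuationSubring Qbar) (hA : A.LiesOverPrime ℓ),
    haveI : FFGen Qbar (ffd_jBar M) := s18r_ffGen M
    ∃ (r : Place Qbar ↥(modularFunctionFieldBar M) →
        Place (IsLocalRing.ResidueField ↥A)
          ↥(modularFunctionFieldFullC (IsLocalRing.ResidueField ↥A) M))
      (l : ↥A) (g : ℕ), IsPlaceReductionModL A M r ∧ ((l : ↥A) : Qbar) = (ℓ : Qbar) ∧
      s19_Curve (ffd_jBar M) A (IsLocalRing.residue ↥A) (s37r_OF A M hA)
        (s37r_redF A M hA hgood.1) r (s19_FW A M) l g

end Fermat.Agent.Lib.S19
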