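/-
W-A programme (S19/S32), brick G1.6 part 5 (helper5): RATIONALITY OF CENTRES for the modular curve:
the fields `ratc` and `fw_inv` of `s19_Curve` for `FW = s19_FW A M` (functions whose
`q`-coefficients are fixed by the inertia group).  The inertia group acts on the generic fibre by
`s37u_Sigma` and trivially on the special fibre (`s37u_equivariant`, landed S37 package [U]).
-/
import Fermat.Agent.Lib.S19.AGalois
import Fermat.Agent.Lib.S19.IfaceModular
import Fermat.Agent.Lib.S37.UFinal
import Fermat.Agent.Lib.S37.GGen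

set_option autoImplicit false
set_option linter.unusedSectionVars false
set_option linter.unusedVariables false
set_option linter.style.haveILetI false
set_option synthInstance.maxHeartbeats 400000
set_option maxHeartbeats 800000

noncomputable section

namespace Fermat.Agent.Lib.S19

open ModularCurve HahnSeries AlgebraicCurve Fermat.Agent.Lib.S18 Fermat.Agent.Lib.S37
  Fermat.Agent.Lib.FF IsLocalRing

local notation "Qbar" => AlgebraicClosure ℚ

variable (M : ℕ) [NeZero M] {ℓ : ℕ} [Fact ℓ.Prime] (hℓM : ¬ ℓ ∣ M)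
  (A : ValuationSubring Qbar) (hA : A.LiesOverPrime ℓ)

/-- the inertia group, acting on the function field. -/
def s19a_Gamma : Set (SemilinearAut Qbar ↥(modularFunctionFieldBar M)) :=
  {σ | ∃ τ ∈ A.inertiaSubgroupIn ℚ, σ = arithmeticGalois (modularFunctionFieldFull M) τ}

theorem s19a_FW_fixed (f : ↥(modularFunctionFieldBar M)) (hf : f ∈ s19_FW A M)
    (g : SemilinearAut Qbar ↥(modularFunctionFieldBar M)) (hg : g ∈ s19a_Gamma M A) :
    g • f = f := by
  obtain ⟨τ, hτ, rfl⟩ := hg
  apply Subtype.ext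
  rw [coe_arithmeticGalois_smul]
  exact hf τ hτ

theorem s19a_FW_const (c : Qbar)
    (hc : ∀ g ∈ s19a_Gamma M A, SemilinearAut.baseAut g c = c) :
    algebraMap Qbar ↥(modularFunctionFieldBar M) c ∈ s19_FW A M := by
  intro τ hτ
  have h1 := hc _ ⟨τ, hτ, rfl⟩
  rw [baseAut_arithmeticGalois] at h1
  have h2 := arithmeticRingAut_algebraMap (modularFunctionFieldFull M) τ c
  have h3 := congrArg (fun y : ↥(modularFunctionFieldBar M) => (y : LaurentSeries Qbar)) h2
  simp only [coe_arithmeticRingAut_apply] at h3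
  rw [h3]
  have h4 : (τ : Qbar ≃ₐ[ℚ] Qbar) c = c := h1
  rw [h4]

theorem s19a_FW_inv (f : ↥(modularFunctionFieldBar M)) (hf : f ∈ s19_FW A M) :
    f⁻¹ ∈ s19_FW A M := by
  intro τ hτ
  have h1 : ((f⁻¹ : ↥(modularFunctionFieldBar M)) : LaurentSeries Qbar) =
      ((f : LaurentSeries Qbar))⁻¹ := rfl
  rw [h1, map_inv₀, hf τ hτ]

include hA hℓM in
theorem s19a_Gamma_trivial {r : Place Qbar ↥(modularFunctionFieldBar M) →
      Place (ResidueField ↥A) ↥(modularFunctionFieldFullC (ResidueField ↥A) M)}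
    (hr : IsPlaceReductionModL A M r)
    (g : SemilinearAut Qbar ↥(modularFunctionFieldBar M)) (hg : g ∈ s19a_Gamma M A)
    (P : Place Qbar ↥(modularFunctionFieldBar M)) : r (g • P) = r P := by
  obtain ⟨τ, ⟨g₀, hg₀, rfl⟩, rfl⟩ := hg
  have hgen := s37g_principalGenerated M hℓM A hA
  have huniq : ∀ r', IsPlaceReductionAlong A (IsLocalRing.residue A) M r' → r' = r :=
    fun r' hr' => s37u_unique_modL M A (Fact.out : ℓ.Prime) hA hℓM hr' hr hgen
  have h1 := s37u_equivariant A M g₀ huniq hr P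
  have hg1 : s37u_resAut A g₀ = 1 := MonoidHom.mem_ker.mp hg₀
  have hΨ : s37u_Psi A M g₀ = 1 := by rw [s37u_Psi, hg1, map_one]
  rw [hΨ, one_smul] at h1
  exact h1

/-- **the field `ratc` of `s19_Curve` for the modular curve.** -/
theorem s19a_ratc_modular {r : Place Qbar ↥(modularFunctionFieldBar M) →
      Place (ResidueField ↥A) ↥(modularFunctionFieldFullC (ResidueField ↥A) M)}
    (hr : IsPlaceReductionModL A M r)
    (rd : s19_RD A (IsLocalRing.residue ↥A) (s37r_OF A M hA) (s37r_redF A M hA hℓM) r)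
    (Q : Place (ResidueField ↥A) ↥(modularFunctionFieldFullC (ResidueField ↥A) M))
    (t : ↥(modularFunctionFieldBar M)) (ht : s19a_IsParam (s37r_redF A M hA hℓM) r Q t)
    (htW : t ∈ s19_FW A M) (f : ↥(s19a_G (s37r_OF A M hA) r Q))
    (hf : (f : ↥(modularFunctionFieldBar M)) ∈ s19_FW A M) :
    haveI : FFGen Qbar (ffd_jBar M) := s18r_ffGen M
    algebraMap Qbar ↥(modularFunctionFieldBar M)
      ((s19a_evA (ffd_jBar M) rd (s19a_pt (ffd_jBar M) rd ht 0)
        (s19a_pt_r (ffd_jBar M) rd ht 0) f : ↥A) : Qbar) ∈ s19_FW A M := by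
  haveI : FFGen Qbar (ffd_jBar M) := s18r_ffGen M
  exact s19a_ratc (ffd_jBar M) rd (s19a_Gamma M A)
    (fun g hg P => s19a_Gamma_trivial M hℓM A hA hr g hg P) (s19_FW A M)
    (fun f hf g hg => s19a_FW_fixed M A f hf g hg) (s19a_FW_const M A) Q t ht htW f hf

end Fermat.Agent.Lib.S19
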