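/-
W-A programme (S19/S32), brick [FRAMES] part 4 (helper5): the decomposition group acts compatibly
on the generic and the special fibre of the modular curve (`s19j_Compat` for
`γ = s37u_Sigma A M g`, `γb = s37u_Psi A M g`).
-/
import Fermat.Agent.Lib.S19.JGal
import Fermat.Agent.Lib.S19.MGalois

set_option autoImplicit false
set_option linter.unusedSectionVars false
set_option linter.unusedVariables false
set_option linter.style.haveILetI false
set_option synthInstance.maxHeartbeats 400000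
set_option maxHeartbeats 800000

noncomputable section

namespace Fermat.Agent.Lib.S19

open ModularCurve HahnSeries AlgebraicCurve Fermat.Agent.Lib.S18 Fermat.Agent.Lib.S37
  Fermat.Agent.Lib.FF IsLocalRing

local notation "Qbar" => AlgebraicClosure ℚ

variable (M : ℕ) [NeZero M] {ℓ : ℕ} [Fact ℓ.Prime] (hℓM : ¬ ℓ ∣ M)
  (A : ValuationSubring Qbar) (hA : A.LiesOverPrime ℓ) (g : A.decompositionSubgroup ℚ)

/-- the Gauss ring is stable under the decomposition group, with an explicit presentation. -/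
theorem s19m_O_smul_aux (f : LaurentSeries Qbar) (P Q : LaurentSeries ↥A)
    (hQ : coeffMap (IsLocalRing.residue ↥A) Q ≠ 0)
    (h : coeffMap A.subtype Q * f = coeffMap A.subtype P) :
    coeffMap (IsLocalRing.residue ↥A) (coeffMap (s37u_actA A g) Q) ≠ 0 ∧
      coeffMap A.subtype (coeffMap (s37u_actA A g) Q) *
          coeffMap (((g : Qbar ≃ₐ[ℚ] Qbar) : Qbar ≃ₐ[ℚ] Qbar) : Qbar →+* Qbar) f =
        coeffMap A.subtype (coeffMap (s37u_actA A g) P) := by
  constructor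
  · rw [s37u_coeffMap_residue_actA]
    intro h0
    apply hQ
    have h1 := congrArg (coeffMap (((s37u_resAut A g).symm : ResidueField ↥A ≃+* ResidueField ↥A) :
      ResidueField ↥A →+* ResidueField ↥A)) h0
    rw [coeffMap_coeffMap, map_zero] at h1
    rw [← h1]
    rw [coeffMap_congr (g := RingHom.id (ResidueField ↥A))
      (RingHom.ext fun a => (s37u_resAut A g).symm_apply_apply a), coeffMap_id]
  · rw [s37u_coeffMap_subtype_actA, s37u_coeffMap_subtype_actA, ← map_mul, h]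

theorem s19m_OF_smul (f : ↥(modularFunctionFieldBar M)) (hf : f ∈ s37r_OF A M hA) :
    s37u_Sigma A M g • f ∈ s37r_OF A M hA := by
  obtain ⟨P, Q, hQ, h⟩ := hf
  obtain ⟨h1, h2⟩ := s19m_O_smul_aux A g (f : LaurentSeries Qbar) P Q hQ h
  refine ⟨coeffMap (s37u_actA A g) P, coeffMap (s37u_actA A g) Q, h1, ?_⟩
  rw [s37u_Sigma, coe_arithmeticGalois_smul]
  exact h2

theorem s19m_redF_smul (f : ↥(modularFunctionFieldBar M)) (hf : f ∈ s37r_OF A M hA) :
    s37r_redF A M hA hℓM ⟨s37u_Sigma A M g • f, s19m_OF_smul M A hA g f hf⟩ =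
      s37u_Psi A M g • s37r_redF A M hA hℓM ⟨f, hf⟩ := by
  obtain ⟨P, Q, hQ, h⟩ := hf
  obtain ⟨h1, h2⟩ := s19m_O_smul_aux A g (f : LaurentSeries Qbar) P Q hQ h
  apply Subtype.ext
  rw [s37u_Psi, s37e_coe_coeffAut_smul, s37r_coe_redF, s37r_coe_redF]
  have e1 : s37r_redV A M hA ⟨f, ⟨P, Q, hQ, h⟩⟩ =
      coeffMap (IsLocalRing.residue ↥A) P / coeffMap (IsLocalRing.residue ↥A) Q :=
    s37r_red_eq A (IsLocalRing.residue ↥A) _ P Q hQ h
  have h2' : coeffMap A.subtype (coeffMap (s37u_actA A g) Q) *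
      ((s37u_Sigma A M g • f : ↥(modularFunctionFieldBar M)) : LaurentSeries Qbar) =
      coeffMap A.subtype (coeffMap (s37u_actA A g) P) := by
    rw [s37u_Sigma, coe_arithmeticGalois_smul]
    exact h2
  have e2 : s37r_redV A M hA ⟨s37u_Sigma A M g • f, s19m_OF_smul M A hA g f ⟨P, Q, hQ, h⟩⟩ =
      coeffMap (IsLocalRing.residue ↥A) (coeffMap (s37u_actA A g) P) /
        coeffMap (IsLocalRing.residue ↥A) (coeffMap (s37u_actA A g) Q) :=
    s37r_red_eq A (IsLocalRing.residue ↥A) _ _ _ h1 h2'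
  rw [e1, e2, s37u_coeffMap_residue_actA, s37u_coeffMap_residue_actA, map_div₀]

/-- the rational functions are stable under the decomposition group (inertia is normal). -/
theorem s19m_FW_smul (f : ↥(modularFunctionFieldBar M)) (hf : f ∈ s19_FW A M) :
    s37u_Sigma A M g • f ∈ s19_FW A M := by
  intro τ hτ
  rw [s37u_Sigma, coe_arithmeticGalois_smul, coeffMap_coeffMap]
  obtain ⟨τ₀, hτ₀, rfl⟩ := hτ
  -- `g⁻¹ τ g` is in the inertia group
  have hN : (A.inertiaSubgroup ℚ).Normal := by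
    unfold ValuationSubring.inertiaSubgroup
    exact MonoidHom.normal_ker _
  have hconj : g⁻¹ * τ₀ * g ∈ A.inertiaSubgroup ℚ := hN.conj_mem' τ₀ hτ₀ g
  have h1 := hf ((g⁻¹ * τ₀ * g : A.decompositionSubgroup ℚ) : Qbar ≃ₐ[ℚ] Qbar)
    ⟨g⁻¹ * τ₀ * g, hconj, rfl⟩
  have h2 := congrArg (coeffMap (((g : Qbar ≃ₐ[ℚ] Qbar) : Qbar ≃ₐ[ℚ] Qbar) : Qbar →+* Qbar)) h1
  rw [coeffMap_coeffMap] at h2
  rw [← h2]
  refine coeffMap_congr (RingHom.ext fun a => ?_) _
  simp only [RingHom.comp_apply, RingHom.coe_coe]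
  show (τ₀ : Qbar ≃ₐ[ℚ] Qbar) ((g : Qbar ≃ₐ[ℚ] Qbar) a) =
    (g : Qbar ≃ₐ[ℚ] Qbar) (((g⁻¹ * τ₀ * g : A.decompositionSubgroup ℚ) : Qbar ≃ₐ[ℚ] Qbar) a)
  simp [AlgEquiv.mul_apply]

theorem s19m_A_smul (a : Qbar) (ha : a ∈ A) : (g : Qbar ≃ₐ[ℚ] Qbar) a ∈ A :=
  (g • (⟨a, ha⟩ : ↥A) : ↥A).2

theorem s19m_A_inv (a : Qbar) (ha : (g : Qbar ≃ₐ[ℚ] Qbar) a ∈ A) : a ∈ A := by
  have h1 := s19m_A_smul A g⁻¹ _ ha
  have h2 : ((g⁻¹ : A.decompositionSubgroup ℚ) : Qbar ≃ₐ[ℚ] Qbar) ((g : Qbar ≃ₐ[ℚ] Qbar) a) = a := by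
    show ((g : Qbar ≃ₐ[ℚ] Qbar))⁻¹ ((g : Qbar ≃ₐ[ℚ] Qbar) a) = a
    exact (g : Qbar ≃ₐ[ℚ] Qbar).symm_apply_apply a
  rwa [h2] at h1

include hℓM in
/-- **the decomposition group acts compatibly on both fibres.** -/
theorem s19m_compat {r : Place Qbar ↥(modularFunctionFieldBar M) →
      Place (ResidueField ↥A) ↥(modularFunctionFieldFullC (ResidueField ↥A) M)}
    (hr : IsPlaceReductionModL A M r) :
    s19j_Compat A (s37r_OF A M hA) (s37r_redF A M hA hℓM) r (s19_FW A M)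
      (s37u_Sigma A M g) (s37u_Psi A M g) where
  r_smul := fun P => by
    have hgen := s37g_principalGenerated M hℓM A hA
    have huniq : ∀ r', IsPlaceReductionAlong A (IsLocalRing.residue A) M r' → r' = r :=
      fun r' hr' => s37u_unique_modL M A (Fact.out : ℓ.Prime) hA hℓM hr' hr hgen
    exact s37u_equivariant A M g huniq hr P
  O_smul := fun f hf => s19m_OF_smul M A hA g f hf
  red_smul := fun f hf => s19m_redF_smul M hℓM A hA g f hf
  A_smul := fun a ha => s19m_A_smul A g a ha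
  A_inv := fun a ha => s19m_A_inv A g a ha
  FW_smul := fun f hf => s19m_FW_smul M A g f hf

end Fermat.Agent.Lib.S19
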