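/-
W-A programme (S19/S32), brick [FRAMES] part 5 (helper5): **`s19m_frames`**:
[CURVE] + [ADD] + [CHG] + [NONSP] + [INF] ⇒ [FRAMES] (`s19_FramesExist`, IfaceTop): the modular
curve at a good level provides a coordinate package on `J₀(M)`.
-/
import Fermat.Agent.Lib.S19.MCompat
import Fermat.Agent.Lib.S19.JCentre
import Fermat.Agent.Lib.S19.IfaceTop
import Fermat.Agent.Lib.S19.IfaceEng

set_option autoImplicit false
set_option linter.unusedSectionVars false
set_option linter.unusedVariables false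
set_option linter.style.haveILetI false
set_option synthInstance.maxHeartbeats 400000
set_option maxHeartbeats 1600000

noncomputable section

namespace Fermat.Agent.Lib.S19

open ModularCurve HahnSeries AlgebraicCurve Fermat.Agent.Lib.S18 Fermat.Agent.Lib.S37
  Fermat.Agent.Lib.FF IsLocalRing

local notation "Qbar" => AlgebraicClosure ℚ

/-- systems with the same places and parameters are equal. -/
theorem s19m_sys_ext {K F k Fb : Type*} [Field K] [Field F] [Algebra K F] [IsAlgClosed K]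
    [Field k] [Field Fb] [Algebra k Fb] {O : ValuationSubring F} {red : ↥O →+* Fb}
    {r : Place K F → Place k Fb} {FW : Subring F} {g : ℕ} (𝔰 𝔰' : s19_Sys red r FW g)
    (hQ : 𝔰.Q = 𝔰'.Q) (ht : 𝔰.t = 𝔰'.t) : 𝔰 = 𝔰' := by
  cases 𝔰
  cases 𝔰'
  simp only at hQ ht
  subst hQ
  subst ht
  rfl

/-- the two descriptions of `W` agree. -/
theorem s19m_W_eq (A : ValuationSubring Qbar) (M : ℕ) [NeZero M] :
    s19a_W A (s19_FW A M) = s19_WA A := by
  ext c
  rw [s19a_mem_W, s19_mem_WA]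
  constructor
  · intro h τ hτ
    have h1 := h τ hτ
    have h2 := arithmeticRingAut_algebraMap (modularFunctionFieldFull M) τ (c : Qbar)
    have h3 := congrArg (fun y : ↥(modularFunctionFieldBar M) => (y : LaurentSeries Qbar)) h2
    simp only [coe_arithmeticRingAut_apply] at h3
    rw [h1] at h3
    have h4 : algebraMap Qbar ↥(modularFunctionFieldBar M) (c : Qbar) =
        algebraMap Qbar ↥(modularFunctionFieldBar M) ((τ : Qbar ≃ₐ[ℚ] Qbar) (c : Qbar)) :=
      Subtype.ext h3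
    exact ((algebraMap Qbar ↥(modularFunctionFieldBar M)).injective h4).symm
  · intro h
    apply s19a_FW_const M A
    rintro _ ⟨τ, hτ, rfl⟩
    rw [baseAut_arithmeticGalois]
    exact h τ hτ

/-- **[FRAMES] from the curve-side contracts.** -/
theorem s19m_frames (hcurve : s19_CurveExists) (hadd : s19_Add) (hchg : s19_Chg)
    (hnonsp : s19_NonSp) (hinf : s19_Inf) : s19_FramesExist := by
  intro M _ ℓ _ hgood A hA l hl
  have hgood' : s18_GoodLevel ℓ M := hgood
  haveI : FFGen Qbar (ffd_jBar M) := s18r_ffGen M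
  obtain ⟨r, l', g, hr, hl', hC⟩ := hcurve M ℓ hgood' A hA
  have hll : l' = l := Subtype.ext (hl'.trans hl.symm)
  subst hll
  have hℓM : ¬ ℓ ∣ M := hgood'.1
  -- compatibility of the decomposition group
  have hcompat : ∀ σ (hσ : σ ∈ A.decompositionSubgroup ℚ),
      s19j_Compat A (s37r_OF A M hA) (s37r_redF A M hA hℓM) r (s19_FW A M)
        (s37u_Sigma A M ⟨σ, hσ⟩) (s37u_Psi A M ⟨σ, hσ⟩) :=
    fun σ hσ => s19m_compat M hℓM A hA ⟨σ, hσ⟩ hr
  refine ⟨s19j_J1 r, g, s19_Sys (s37r_redF A M hA hℓM) r (s19_FW A M) g,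
    fun 𝔰 y i => ((s19j_S hC 𝔰 y i : ↥(maximalIdeal ↥A)) : ↥A), ?_⟩
  refine
    { nonempty := ?_
      stable := ?_
      mval := fun 𝔰 y i => (s19j_S hC 𝔰 y i).2
      inj := ?_
      equivI := ?_
      equivD := ?_
      centre := ?_
      add := ?_
      chg := ?_ }
  · -- a non-special system exists
    obtain ⟨hac, hinfP⟩ := hinf (ffd_jBar M) A (IsLocalRing.residue ↥A) (s37r_OF A M hA)
      (s37r_redF A M hA hℓM) r (s19_FW A M) l' g hC
    haveI := hac
    obtain ⟨Q, hQinj, -, hns⟩ := hnonsp g hC.rrFb hC.pdFb hC.degFb hinfP ∅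
    exact ⟨⟨Q, fun i => Classical.choose (hC.param (Q i)), hQinj,
      fun i => (Classical.choose_spec (hC.param (Q i))).2,
      fun i => (Classical.choose_spec (hC.param (Q i))).1, hns⟩⟩
  · intro σ hσ y hy
    exact s19j_J1_smul (hcompat σ hσ) y hy
  · intro 𝔰 y y' h
    apply s19j_S_injective hC 𝔰
    funext i
    exact Subtype.ext (congrFun h i)
  · -- inertia
    rintro 𝔰 τ ⟨g₀, hg₀, rfl⟩ y hy i
    have hσ : ((g₀ : A.decompositionSubgroup ℚ) : Qbar ≃ₐ[ℚ] Qbar) ∈ A.decompositionSubgroup ℚ :=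
      g₀.2
    have h := hcompat _ hσ
    have hg1 : s37u_resAut A g₀ = 1 := MonoidHom.mem_ker.mp hg₀
    have hΨ : s37u_Psi A M g₀ = 1 := by rw [s37u_Psi, hg1, map_one]
    have hsys : s19j_sys_smul h 𝔰 hC.degFb = 𝔰 := by
      apply s19m_sys_ext
      · funext j
        show s37u_Psi A M ⟨(g₀ : Qbar ≃ₐ[ℚ] Qbar), hσ⟩ • 𝔰.Q j = 𝔰.Q j
        have : (⟨(g₀ : Qbar ≃ₐ[ℚ] Qbar), hσ⟩ : A.decompositionSubgroup ℚ) = g₀ := rfl
        rw [this, hΨ, one_smul]
      · funext j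
        show s37u_Sigma A M ⟨(g₀ : Qbar ≃ₐ[ℚ] Qbar), hσ⟩ • 𝔰.t j = 𝔰.t j
        exact s19a_FW_fixed M A _ (𝔰.rat j) _ ⟨(g₀ : Qbar ≃ₐ[ℚ] Qbar), ⟨g₀, hg₀, rfl⟩, rfl⟩
    have h1 := s19j_S_smul hC h 𝔰 y hy i
    rw [hsys] at h1
    have h2 := congrArg (fun c : ↥(maximalIdeal ↥A) => (((c : ↥A)) : Qbar)) h1
    exact h2
  · -- decomposition group
    intro 𝔰 σ hσ
    have h := hcompat σ hσ
    refine ⟨s19j_sys_smul h 𝔰 hC.degFb, fun y hy i => ?_⟩
    have h1 := s19j_S_smul hC h 𝔰 y hy i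
    have h2 := congrArg (fun c : ↥(maximalIdeal ↥A) => (((c : ↥A)) : Qbar)) h1
    exact h2
  · -- centres
    intro y
    obtain ⟨y₀, hy₀, hfix⟩ := s19j_centre hC (s19a_Gamma M A)
      (fun γ hγ P => s19a_Gamma_trivial M hℓM A hA hr γ hγ P)
      (fun f hf γ hγ => s19a_FW_fixed M A f hf γ hγ) y
    exact ⟨y₀, hy₀, fun τ hτ => hfix _ ⟨τ, hτ, rfl⟩⟩
  · intro 𝔰 Ξ y₁ y₂ hsmall i
    have := s19j_add hadd hC 𝔰 y₁ y₂ hsmall i
    rw [s19m_W_eq] at this
    exact this
  · intro 𝔰 𝔰' Ξ y hsmall i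
    have := s19j_chg hchg hC 𝔰 𝔰' y hsmall i
    rw [s19m_W_eq] at this
    exact this

end Fermat.Agent.Lib.S19
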