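/-
W-A programme (S19/S32), brick G1.6 part 1 (helper5): DISCS FROM CONSERVATION OF NUMBER.

Abstract setting (as in Lib/S37/RTwo): `F/K` a function field over an algebraically closed field,
`A ⊆ K` a valuation ring with reduction `π : A →+* k`, `O ⊆ F` the Gauss valuation ring with
reduction `red : O →+* Fb`, `r : Place K F → Place k Fb` a place reduction satisfying
CONSERVATION OF NUMBER (`s19_RD.cons`).  For a place `Q` of the special fibre the *disc* of `Q`
is the fibre `r ⁻¹ {Q}`, and `s19a_G O r Q` is the ring of Gauss-integral functions regular at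
every point of the disc.  From conservation alone:
* values of elements of `s19a_G` at points of the disc lie in `A` (`s19a_val_mem`) and are
  compatible with the reduction (`s19a_red_val`);
* a function of `s19a_G` whose reduction has a simple zero at `Q` has exactly one zero on the disc,
  and it is simple (`s19a_exists_unique_zero`);
* hence a parameter `t` (reduction = a uniformizer at `Q`) identifies the disc with the maximal
  ideal of `A`, and one can divide by `t - c` inside `s19a_G` (`s19a_div_mem`).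
-/
import Fermat.Agent.Lib.S37.RTwo

set_option autoImplicit false
set_option linter.unusedSectionVars false
set_option linter.unusedVariables false

noncomputable section

namespace Fermat.Agent.Lib.S19

open AlgebraicCurve Fermat.Agent.Lib.FF Fermat.Agent.Lib.S37

variable {K F : Type*} [Field K] [Field F] [Algebra K F] [IsAlgClosed K]
  {k Fb : Type*} [Field k] [Field Fb] [Algebra k Fb]

/-- **a reduction datum**: the standing hypotheses on `(A, π, O, red, r)`. -/
structure s19_RD (A : ValuationSubring K) (π : ↥A →+* k) (O : ValuationSubring F)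
    (red : ↥O →+* Fb) (r : Place K F → Place k Fb) : Prop where
  /-- `π` kills exactly the non-units of `A`. -/
  unit_of_ne : ∀ a : ↥A, π a ≠ 0 → ((a : K))⁻¹ ∈ A
  /-- integral constants are Gauss-integral … -/
  const_mem : ∀ c : ↥A, algebraMap K F (c : K) ∈ O
  /-- … and reduce to constants. -/
  red_const : ∀ c : ↥A, red ⟨algebraMap K F (c : K), const_mem c⟩ = algebraMap k Fb (π c)
  /-- `O` is local with maximal ideal `ker red`. -/
  inv_mem : ∀ y : ↥O, red y ≠ 0 → ((y : F))⁻¹ ∈ O
  /-- divisors of functions have finite support. -/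
  fin : ∀ y : F, y ≠ 0 → {P : Place K F | P.ord y ≠ 0}.Finite
  /-- **conservation of number**. -/
  cons : ∀ (y : F) (hy : y ∈ O), red ⟨y, hy⟩ ≠ 0 → ∀ Dv : Divisor K F, (∀ P, Dv P = P.ord y) →
    ∀ Q, Finsupp.mapDomain r Dv Q = Q.ord (red ⟨y, hy⟩)

variable {A : ValuationSubring K} {π : ↥A →+* k} {O : ValuationSubring F} {red : ↥O →+* Fb}
  {r : Place K F → Place k Fb}

/-- **the ring of Gauss-integral functions regular on the disc of `Q`.** -/
def s19a_G (O : ValuationSubring F) (r : Place K F → Place k Fb) (Q : Place k Fb) : Subring F where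
  carrier := {f | f ∈ O ∧ ∀ P, r P = Q → f ∈ P.toValuationSubring}
  mul_mem' := fun {a b} ha hb => ⟨O.mul_mem _ _ ha.1 hb.1, fun P hP =>
    P.toValuationSubring.mul_mem _ _ (ha.2 P hP) (hb.2 P hP)⟩
  one_mem' := ⟨O.one_mem, fun P _ => P.toValuationSubring.one_mem⟩
  add_mem' := fun {a b} ha hb => ⟨O.add_mem _ _ ha.1 hb.1, fun P hP =>
    P.toValuationSubring.add_mem _ _ (ha.2 P hP) (hb.2 P hP)⟩
  zero_mem' := ⟨O.zero_mem, fun P _ => P.toValuationSubring.zero_mem⟩
  neg_mem' := fun {a} ha => ⟨O.neg_mem _ ha.1, fun P hP => P.toValuationSubring.neg_mem _ (ha.2 P hP)⟩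

theorem s19a_mem_G {Q : Place k Fb} {f : F} :
    f ∈ s19a_G O r Q ↔ f ∈ O ∧ ∀ P, r P = Q → f ∈ P.toValuationSubring := Iff.rfl

theorem s19a_memO {Q : Place k Fb} (f : ↥(s19a_G O r Q)) : (f : F) ∈ O := (s19a_mem_G.mp f.2).1

theorem s19a_memP {Q : Place k Fb} (f : ↥(s19a_G O r Q)) (P : Place K F) (hP : r P = Q) :
    (f : F) ∈ P.toValuationSubring := (s19a_mem_G.mp f.2).2 P hP

theorem s19a_ord_neg_one (Q : Place k Fb) : Q.ord (-1 : Fb) = 0 := by
  have := ff_ord_algebraMap Q (-1 : k)
  simpa using this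

section Basic

variable (h : s19_RD A π O red r)

include h

theorem s19a_pi_eq_zero (c : K) (hc : c ∈ A) (hinv : c⁻¹ ∉ A) : π ⟨c, hc⟩ = 0 := by
  by_contra h0
  exact hinv (h.unit_of_ne ⟨c, hc⟩ h0)

theorem s19a_const_mem_G (Q : Place k Fb) (c : ↥A) : algebraMap K F (c : K) ∈ s19a_G O r Q :=
  ⟨h.const_mem c, fun P _ => P.algebraMap_mem' _⟩

theorem s19a_ne_zero_of_red {y : F} (hy : y ∈ O) (hy0 : red ⟨y, hy⟩ ≠ 0) : y ≠ 0 := by
  rintro rfl
  apply hy0
  have : (⟨0, hy⟩ : ↥O) = 0 := rfl
  rw [this, map_zero]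

open Classical in
/-- conservation, as a finite sum over the disc. -/
theorem s19a_cons_sum {y : F} (hy : y ∈ O) (hy0 : red ⟨y, hy⟩ ≠ 0) (Q : Place k Fb) :
    Q.ord (red ⟨y, hy⟩) =
      ∑ P ∈ (h.fin y (s19a_ne_zero_of_red h hy hy0)).toFinset with r P = Q, P.ord y := by
  have hfin := h.fin y (s19a_ne_zero_of_red h hy hy0)
  set Dv : Divisor K F := Finsupp.ofSupportFinite (fun P => P.ord y) hfin with hDv
  have hDvP : ∀ P, Dv P = P.ord y := fun P => rfl
  have hc := h.cons y hy hy0 Dv hDvP Q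
  rw [s37r_mapDomain_apply] at hc
  rw [← hc]
  have hsupp : Dv.support = hfin.toFinset := by
    ext P
    rw [Finsupp.mem_support_iff, Set.Finite.mem_toFinset]
    rfl
  rw [hsupp]
  exact Finset.sum_congr rfl fun P _ => hDvP P

/-- a Gauss unit of `G(Q)` whose reduction does not vanish at `Q` has no zero on the disc. -/
theorem s19a_ord_eq_zero {Q : Place k Fb} {g : F} (hg : g ∈ s19a_G O r Q)
    (hg0 : red ⟨g, hg.1⟩ ≠ 0) (hQ : Q.ord (red ⟨g, hg.1⟩) = 0) (P : Place K F) (hP : r P = Q) :
    P.ord g = 0 := by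
  classical
  have hne := s19a_ne_zero_of_red h hg.1 hg0
  have hsum := s19a_cons_sum h hg.1 hg0 Q
  rw [hQ] at hsum
  have hnonneg : ∀ P' ∈ (h.fin g hne).toFinset.filter (fun P => r P = Q), 0 ≤ P'.ord g := by
    intro P' hP'
    rw [Finset.mem_filter] at hP'
    exact (ff_mem_iff_ord_nonneg P' hne).mp (hg.2 P' hP'.2)
  by_contra hne0
  have hmem : P ∈ (h.fin g hne).toFinset.filter (fun P => r P = Q) := by
    rw [Finset.mem_filter, Set.Finite.mem_toFinset]
    exact ⟨hne0, hP⟩
  have hpos : 0 < P.ord g :=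
    lt_of_le_of_ne ((ff_mem_iff_ord_nonneg P hne).mp (hg.2 P hP)) (Ne.symm hne0)
  have := Finset.single_le_sum hnonneg hmem
  omega

/-- a function of `G(Q)` whose reduction has a simple zero at `Q` has exactly one zero on the
disc, and it is simple. -/
theorem s19a_exists_unique_zero {Q : Place k Fb} {g : F} (hg : g ∈ s19a_G O r Q)
    (hg0 : red ⟨g, hg.1⟩ ≠ 0) (hQ : Q.ord (red ⟨g, hg.1⟩) = 1) :
    ∃ P : Place K F, r P = Q ∧ P.ord g = 1 ∧ ∀ P', r P' = Q → P' ≠ P → P'.ord g = 0 := by
  classical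
  have hne := s19a_ne_zero_of_red h hg.1 hg0
  have hsum := s19a_cons_sum h hg.1 hg0 Q
  rw [hQ] at hsum
  set T := (h.fin g hne).toFinset.filter (fun P => r P = Q) with hT
  have hnonneg : ∀ P' ∈ T, 0 ≤ P'.ord g := by
    intro P' hP'
    rw [hT, Finset.mem_filter] at hP'
    exact (ff_mem_iff_ord_nonneg P' hne).mp (hg.2 P' hP'.2)
  have hpos : ∀ P' ∈ T, 0 < P'.ord g := by
    intro P' hP'
    have h1 := hnonneg P' hP'
    rw [hT, Finset.mem_filter, Set.Finite.mem_toFinset] at hP'
    exact lt_of_le_of_ne h1 (Ne.symm hP'.1)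
  have hTne : T.Nonempty := by
    by_contra hemp
    rw [Finset.not_nonempty_iff_eq_empty] at hemp
    rw [hemp, Finset.sum_empty] at hsum
    omega
  obtain ⟨P, hPT⟩ := hTne
  have hPle : P.ord g ≤ 1 := by
    have := Finset.single_le_sum hnonneg hPT
    omega
  have hP1 : P.ord g = 1 := by have := hpos P hPT; omega
  have hPr : r P = Q := by rw [hT, Finset.mem_filter] at hPT; exact hPT.2
  refine ⟨P, hPr, hP1, fun P' hP' hne' => ?_⟩
  by_contra hne0
  have hP'T : P' ∈ T := by
    rw [hT, Finset.mem_filter, Set.Finite.mem_toFinset]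
    exact ⟨hne0, hP'⟩
  have h2 : P.ord g + P'.ord g ≤ ∑ P'' ∈ T, P''.ord g := by
    have hsub : ({P, P'} : Finset (Place K F)) ⊆ T := by
      intro P'' hP''
      rw [Finset.mem_insert, Finset.mem_singleton] at hP''
      rcases hP'' with rfl | rfl
      · exact hPT
      · exact hP'T
    have := Finset.sum_le_sum_of_subset_of_nonneg hsub (f := fun P'' => P''.ord g)
      (fun P'' hP'' _ => hnonneg P'' hP'')
    rwa [Finset.sum_pair (Ne.symm hne')] at this
  have := hpos P' hP'T
  omega

end Basic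

/-! ### Values on the disc -/

section Values

variable (x : F) [FFGen K x]

/-- the inclusion of `G(Q)` into the local ring of a point of the disc. -/
def s19a_toOP (O : ValuationSubring F) (r : Place K F → Place k Fb) {Q : Place k Fb}
    (P : Place K F) (hP : r P = Q) : ↥(s19a_G O r Q) →+* ↥P.toValuationSubring where
  toFun f := ⟨(f : F), s19a_memP f P hP⟩
  map_one' := rfl
  map_mul' _ _ := rfl
  map_zero' := rfl
  map_add' _ _ := rfl

/-- **evaluation at a point of the disc**, with values in `K`. -/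
def s19a_evK (O : ValuationSubring F) (r : Place K F → Place k Fb) {Q : Place k Fb}
    (P : Place K F) (hP : r P = Q) : ↥(s19a_G O r Q) →+* K :=
  (s37pv_ev x P).comp (s19a_toOP O r P hP)

theorem s19a_evK_apply {Q : Place k Fb} (P : Place K F) (hP : r P = Q) (f : ↥(s19a_G O r Q)) :
    s19a_evK x O r P hP f = s37pv_ev x P ⟨(f : F), s19a_memP f P hP⟩ := rfl

variable (h : s19_RD A π O red r)

include h

/-- integral constants, as elements of `G(Q)`. -/
def s19a_constG (Q : Place k Fb) (c : ↥A) : ↥(s19a_G O r Q) :=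
  ⟨algebraMap K F (c : K), s19a_const_mem_G h Q c⟩

theorem s19a_evK_const {Q : Place k Fb} (P : Place K F) (hP : r P = Q) (c : ↥A) :
    s19a_evK x O r P hP (s19a_constG h Q c) = (c : K) :=
  s37pv_ev_algebraMap x P (c : K)

/-- the evaluation vanishes iff the function does, or has positive order. -/
theorem s19a_evK_eq_zero_iff {Q : Place k Fb} (P : Place K F) (hP : r P = Q)
    (f : ↥(s19a_G O r Q)) :
    s19a_evK x O r P hP f = 0 ↔ (f : F) = 0 ∨ 0 < P.ord (f : F) := by
  rw [s19a_evK_apply, s37pv_ev_coe_eq_iff]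
  simp only [map_zero, sub_zero]

/-- **values on the disc are integral.** -/
theorem s19a_val_mem {Q : Place k Fb} (P : Place K F) (hP : r P = Q) (f : ↥(s19a_G O r Q)) :
    s19a_evK x O r P hP f ∈ A := by
  by_contra hc
  set c := s19a_evK x O r P hP f with hcdef
  have hc0 : c ≠ 0 := fun h0 => hc (by rw [h0]; exact A.zero_mem)
  have hci : c⁻¹ ∈ A := (A.mem_or_inv_mem c).resolve_left hc
  have hcii : (c⁻¹)⁻¹ ∉ A := by rwa [inv_inv]
  have hπ : π ⟨c⁻¹, hci⟩ = 0 := s19a_pi_eq_zero h c⁻¹ hci hcii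
  -- `g = c⁻¹ f - 1`
  set g : ↥(s19a_G O r Q) := s19a_constG h Q ⟨c⁻¹, hci⟩ * f - 1 with hg
  have hrc : red ⟨algebraMap K F c⁻¹, h.const_mem ⟨c⁻¹, hci⟩⟩ = algebraMap k Fb (π ⟨c⁻¹, hci⟩) :=
    h.red_const ⟨c⁻¹, hci⟩
  have hredg : red ⟨(g : F), s19a_memO g⟩ = -1 := by
    have h1 : (⟨(g : F), s19a_memO g⟩ : ↥O) =
        ⟨algebraMap K F c⁻¹, h.const_mem ⟨c⁻¹, hci⟩⟩ * ⟨(f : F), s19a_memO f⟩ - 1 := rfl
    rw [h1, map_sub, map_mul, map_one, hrc, hπ, map_zero, zero_mul, zero_sub]
  have hredg0 : red ⟨(g : F), s19a_memO g⟩ ≠ 0 := by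
    rw [hredg]; exact neg_ne_zero.mpr one_ne_zero
  have hord : Q.ord (red ⟨(g : F), s19a_memO g⟩) = 0 := by rw [hredg]; exact s19a_ord_neg_one Q
  have hP0 := s19a_ord_eq_zero h g.2 hredg0 hord P hP
  have hev : s19a_evK x O r P hP g = 0 := by
    rw [hg, map_sub, map_mul, map_one, s19a_evK_const, ← hcdef]
    show c⁻¹ * c - 1 = 0
    rw [inv_mul_cancel₀ hc0, sub_self]
  rcases (s19a_evK_eq_zero_iff x h P hP g).mp hev with h0 | h0
  · exact s19a_ne_zero_of_red h (s19a_memO g) hredg0 h0
  · omega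

/-- **evaluation at a point of the disc**, with values in `A`. -/
def s19a_evA {Q : Place k Fb} (P : Place K F) (hP : r P = Q) : ↥(s19a_G O r Q) →+* ↥A :=
  (s19a_evK x O r P hP).codRestrict A.toSubring (s19a_val_mem x h P hP)

theorem s19a_coe_evA {Q : Place k Fb} (P : Place K F) (hP : r P = Q) (f : ↥(s19a_G O r Q)) :
    ((s19a_evA x h P hP f : ↥A) : K) = s19a_evK x O r P hP f := rfl

theorem s19a_evA_const {Q : Place k Fb} (P : Place K F) (hP : r P = Q) (c : ↥A) :
    s19a_evA x h P hP (s19a_constG h Q c) = c :=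
  Subtype.ext (s19a_evK_const x h P hP c)

/-- **compatibility of values with the reduction**: either `red f` is the constant `π (f(P))`, or
`red f - π (f(P))` vanishes at `Q`. -/
theorem s19a_red_val {Q : Place k Fb} (P : Place K F) (hP : r P = Q) (f : ↥(s19a_G O r Q)) :
    red ⟨(f : F), s19a_memO f⟩ = algebraMap k Fb (π (s19a_evA x h P hP f)) ∨
      0 < Q.ord (red ⟨(f : F), s19a_memO f⟩ - algebraMap k Fb (π (s19a_evA x h P hP f))) := by
  classical
  set a := s19a_evA x h P hP f with ha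
  set g : ↥(s19a_G O r Q) := f - s19a_constG h Q a with hg
  have hredg : red ⟨(g : F), s19a_memO g⟩ =
      red ⟨(f : F), s19a_memO f⟩ - algebraMap k Fb (π a) := by
    have h1 : (⟨(g : F), s19a_memO g⟩ : ↥O) =
        ⟨(f : F), s19a_memO f⟩ - ⟨algebraMap K F (a : K), h.const_mem a⟩ := rfl
    rw [h1, map_sub, h.red_const]
  by_cases h0 : red ⟨(g : F), s19a_memO g⟩ = 0
  · left
    rw [hredg] at h0
    exact sub_eq_zero.mp h0
  · right
    rw [← hredg]
    have hne := s19a_ne_zero_of_red h (s19a_memO g) h0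
    have hev : s19a_evK x O r P hP g = 0 := by
      rw [hg, map_sub, s19a_evK_const, ← s19a_coe_evA x h P hP f, sub_self]
    have hpos : 0 < P.ord (g : F) :=
      ((s19a_evK_eq_zero_iff x h P hP g).mp hev).resolve_left hne
    -- conservation
    have hsum := s19a_cons_sum h (s19a_memO g) h0 Q
    rw [hsum]
    have hnonneg : ∀ P' ∈ (h.fin (g : F) hne).toFinset.filter (fun P => r P = Q),
        0 ≤ P'.ord (g : F) := by
      intro P' hP'
      rw [Finset.mem_filter] at hP'
      exact (ff_mem_iff_ord_nonneg P' hne).mp (s19a_memP g P' hP'.2)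
    have hmem : P ∈ (h.fin (g : F) hne).toFinset.filter (fun P => r P = Q) := by
      rw [Finset.mem_filter, Set.Finite.mem_toFinset]
      exact ⟨hpos.ne', hP⟩
    exact lt_of_lt_of_le hpos (Finset.single_le_sum hnonneg hmem)

end Values

/-! ### Parameters -/

section Param

variable (x : F) [FFGen K x] (h : s19_RD A π O red r)

/-- `t` is a **parameter** of the disc of `Q`: Gauss-integral, regular on the disc, and its
reduction is a uniformizer at `Q`. -/
structure s19a_IsParam (red : ↥O →+* Fb) (r : Place K F → Place k Fb) (Q : Place k Fb) (t : F) :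
    Prop where
  mem : t ∈ s19a_G O r Q
  ord : Q.ord (red ⟨t, (s19a_mem_G.mp mem).1⟩) = 1

variable {Q : Place k Fb} {t : F} (ht : s19a_IsParam red r Q t)

include ht in
theorem s19a_param_red_ne_zero : red ⟨t, (s19a_mem_G.mp ht.mem).1⟩ ≠ 0 := by
  intro h0
  have := ht.ord
  rw [h0, Place.ord_zero] at this
  omega

/-- the parameter, as an element of `G(Q)`. -/
def s19a_tG : ↥(s19a_G O r Q) := ⟨t, ht.mem⟩

include h in
/-- `t - c` for `c` in the maximal ideal: its reduction is that of `t`. -/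
theorem s19a_red_t_sub (c : ↥A) (hc : π c = 0) :
    red ⟨((s19a_tG ht - s19a_constG h Q c : ↥(s19a_G O r Q)) : F),
      s19a_memO (s19a_tG ht - s19a_constG h Q c)⟩ = red ⟨t, (s19a_mem_G.mp ht.mem).1⟩ := by
  have h1 : (⟨((s19a_tG ht - s19a_constG h Q c : ↥(s19a_G O r Q)) : F),
      s19a_memO (s19a_tG ht - s19a_constG h Q c)⟩ : ↥O) =
      ⟨t, (s19a_mem_G.mp ht.mem).1⟩ - ⟨algebraMap K F (c : K), h.const_mem c⟩ := rfl
  rw [h1, map_sub, h.red_const, hc, map_zero, sub_zero]

include h in
/-- the values of a parameter on the disc lie in the maximal ideal. -/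
theorem s19a_param_val (P : Place K F) (hP : r P = Q) :
    π (s19a_evA x h P hP (s19a_tG ht)) = 0 := by
  have hord := ht.ord
  rcases s19a_red_val x h P hP (s19a_tG ht) with h1 | h1
  · exfalso
    have h2 : red ⟨t, (s19a_mem_G.mp ht.mem).1⟩ =
        algebraMap k Fb (π (s19a_evA x h P hP (s19a_tG ht))) := h1
    rw [h2, ff_ord_algebraMap] at hord
    omega
  · have h2 : 0 < Q.ord (red ⟨t, (s19a_mem_G.mp ht.mem).1⟩ -
        algebraMap k Fb (π (s19a_evA x h P hP (s19a_tG ht)))) := h1
    have h3 : 0 < Q.ord (red ⟨t, (s19a_mem_G.mp ht.mem).1⟩ - algebraMap k Fb 0) := by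
      rw [map_zero, sub_zero, hord]; exact one_pos
    exact ff_ord_sub_pos_unique Q h2 h3

include h in
/-- **the point of parameter `c`**: existence and uniqueness. -/
theorem s19a_exists_point (c : ↥A) (hc : π c = 0) :
    ∃ P : Place K F, ∃ hP : r P = Q, s19a_evA x h P hP (s19a_tG ht) = c ∧
      P.ord (t - algebraMap K F (c : K)) = 1 ∧
      ∀ P' : Place K F, r P' = Q → P' ≠ P → P'.ord (t - algebraMap K F (c : K)) = 0 := by
  set g : ↥(s19a_G O r Q) := s19a_tG ht - s19a_constG h Q c with hg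
  have hred := s19a_red_t_sub h ht c hc
  have hg0 : red ⟨(g : F), s19a_memO g⟩ ≠ 0 := by
    rw [hred]; exact s19a_param_red_ne_zero ht
  have hgord : Q.ord (red ⟨(g : F), s19a_memO g⟩) = 1 := by rw [hred]; exact ht.ord
  obtain ⟨P, hP, hP1, hother⟩ := s19a_exists_unique_zero h g.2 hg0 hgord
  refine ⟨P, hP, ?_, hP1, hother⟩
  have hev : s19a_evK x O r P hP g = 0 :=
    (s19a_evK_eq_zero_iff x h P hP g).mpr (Or.inr (by rw [hP1]; exact one_pos))
  rw [hg, map_sub, s19a_evK_const, sub_eq_zero] at hev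
  exact Subtype.ext hev

include h in
/-- a parameter is injective on the disc. -/
theorem s19a_param_injective (P P' : Place K F) (hP : r P = Q) (hP' : r P' = Q)
    (heq : s19a_evA x h P hP (s19a_tG ht) = s19a_evA x h P' hP' (s19a_tG ht)) : P = P' := by
  set c := s19a_evA x h P hP (s19a_tG ht) with hc
  obtain ⟨P₀, hP₀, -, hP₀1, hother⟩ := s19a_exists_point x h ht c (s19a_param_val x h ht P hP)
  have key : ∀ P'' : Place K F, ∀ hP'' : r P'' = Q,
      s19a_evA x h P'' hP'' (s19a_tG ht) = c → P'' = P₀ := by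
    intro P'' hP'' hval
    by_contra hne
    have h0 := hother P'' hP'' hne
    have hev : s19a_evK x O r P'' hP'' (s19a_tG ht - s19a_constG h Q c) = 0 := by
      rw [map_sub, s19a_evK_const, ← s19a_coe_evA x h P'' hP'', hval, sub_self]
    rcases (s19a_evK_eq_zero_iff x h P'' hP'' _).mp hev with h1 | h1
    · have h2 : t - algebraMap K F (c : K) = 0 := h1
      rw [h2, Place.ord_zero] at hP₀1
      omega
    · have h2 : 0 < P''.ord (t - algebraMap K F (c : K)) := h1
      omega
  rw [key P hP rfl, key P' hP' heq.symm]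

end Param

end Fermat.Agent.Lib.S19
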