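/-
W-A programme (S19/S32), brick G1.6 part 3 (helper5): EXISTENCE OF PARAMETERS in the two-chart
setting of Lib/S37/RTwo.

`h₁ : s37r_ChartHyp x A π O red w PsiD₁`, `h₂ : s37r_ChartHyp x A π O red w⁻¹ PsiD₂`,
`r = s37r_r h₁ h₂`.  Then `(A, π, O, red, r)` is a reduction datum (`s19a_rd`), and for every place
`Q` of the special fibre there is a parameter of the disc of `Q` (`s19a_exists_param`); if the chart
reductions `PsiD_i` are onto already on the elements of a subring `FW ⊆ F` ("rational lifts"), the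
parameter can be taken in `FW`.
-/
import Fermat.Agent.Lib.S19.ADisc

set_option autoImplicit false
set_option linter.unusedSectionVars false
set_option linter.unusedVariables false

noncomputable section

namespace Fermat.Agent.Lib.S19

open AlgebraicCurve Fermat.Agent.Lib.FF Fermat.Agent.Lib.S37 Fermat.Agent.Lib.S18 IsDedekindDomain

variable {K F : Type*} [Field K] [Field F] [Algebra K F] [IsAlgClosed K]
  {k Fb : Type*} [Field k] [Field Fb] [Algebra k Fb]
  {D₁ : Type*} [CommRing D₁] [IsDedekindDomain D₁] [Algebra D₁ Fb] [IsFractionRing D₁ Fb]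
  [Algebra k D₁] [IsScalarTower k D₁ Fb]
  {D₂ : Type*} [CommRing D₂] [IsDedekindDomain D₂] [Algebra D₂ Fb] [IsFractionRing D₂ Fb]
  [Algebra k D₂] [IsScalarTower k D₂ Fb]
  {x : F} [FFGen K x] {A : ValuationSubring K} {π : ↥A →+* k}
  {O : ValuationSubring F} {red : ↥O →+* Fb} {w : F}
  {PsiD₁ : ↥(s18_ring O (s18_chart1 (L₀ := K) w)) →+* D₁}
  {PsiD₂ : ↥(s18_ring O (s18_chart1 (L₀ := K) w⁻¹)) →+* D₂}
  (h₁ : s37r_ChartHyp x A π O red w PsiD₁) (h₂ : s37r_ChartHyp x A π O red w⁻¹ PsiD₂)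

/-- the two-chart place reduction is a reduction datum. -/
theorem s19a_rd : s19_RD A π O red (s37r_r h₁ h₂) where
  unit_of_ne := h₁.unit_of_ne
  const_mem := h₁.const_mem
  red_const := h₁.red_const
  inv_mem := h₁.inv_mem
  fin := h₁.fin
  cons := fun y hy hy0 Dv hDv Q => s37r_conservation h₁ h₂ y hy hy0 Dv hDv Q

/-- on the disc of a place where `w̄` is regular, `w` is regular. -/
theorem s19a_w_mem_of_regular (Q : Place k Fb)
    (hQ : (red ⟨w, h₁.w_mem⟩ : Fb) ∈ Q.toValuationSubring) (P : Place K F)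
    (hP : s37r_r h₁ h₂ P = Q) : w ∈ P.toValuationSubring := by
  by_contra hw
  have hn : ¬ s37r_Int x A w P := fun hInt => hw hInt.fst
  have := s37r_r_pole h₁ h₂ P hn
  rw [hP] at this
  exact this hQ

/-- on the disc of a pole of `w̄`, `w⁻¹` is regular. -/
theorem s19a_winv_mem_of_pole (Q : Place k Fb)
    (hQ : (red ⟨w, h₁.w_mem⟩ : Fb) ∉ Q.toValuationSubring) (P : Place K F)
    (hP : s37r_r h₁ h₂ P = Q) : w⁻¹ ∈ P.toValuationSubring := by
  have hn : ¬ s37r_Int x A w P := by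
    intro hInt
    have := s37r_r_regular h₁ h₂ P hInt
    rw [hP] at this
    exact hQ this
  exact (s37r_Int_inv_of_not h₁ P hn).fst.fst

omit h₂ in
/-- a parameter from chart data: a Dedekind chart `D` regular at `Q`, onto which a ring `B` of
Gauss-integral functions regular on the disc reduces. -/
theorem s19a_exists_param_aux {D : Type*} [CommRing D] [IsDedekindDomain D] [Algebra D Fb]
    [IsFractionRing D Fb] [Algebra k D] [IsScalarTower k D Fb]
    (r : Place K F → Place k Fb) (FW : Subring F) (Q : Place k Fb)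
    (hreg : ∀ d : D, algebraMap D Fb d ∈ Q.toValuationSubring)
    (hlift : ∀ d : D, ∃ (b : F) (hb : b ∈ O), b ∈ FW ∧ (∀ P, r P = Q → b ∈ P.toValuationSubring) ∧
      red ⟨b, hb⟩ = algebraMap D Fb d) :
    ∃ t ∈ FW, s19a_IsParam red r Q t := by
  set 𝔮 := s37d_primeOf (K := k) Q hreg with h𝔮
  have hQ𝔮 : Place.ofHeightOneSpectrum (K := k) 𝔮 = Q := s37d_ofHeightOneSpectrum_primeOf Q hreg
  obtain ⟨d, hd⟩ := 𝔮.intValuation_exists_uniformizer
  obtain ⟨b, hbO, hbW, hbreg, hbred⟩ := hlift d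
  refine ⟨b, hbW, ⟨hbO, hbreg⟩, ?_⟩
  show Q.ord (red ⟨b, hbO⟩) = 1
  rw [hbred, ← hQ𝔮, s37d_ord_ofHeightOneSpectrum, HeightOneSpectrum.valuation_of_algebraMap, hd,
    WithZero.log_exp, neg_neg]

/-- **existence of parameters**, with lifts in a subring `FW`. -/
theorem s19a_exists_param (FW : Subring F)
    (hlift₁ : ∀ d : D₁, ∃ b : ↥(s18_ring O (s18_chart1 (L₀ := K) w)), PsiD₁ b = d ∧ (b : F) ∈ FW)
    (hlift₂ : ∀ d : D₂, ∃ b : ↥(s18_ring O (s18_chart1 (L₀ := K) w⁻¹)),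
      PsiD₂ b = d ∧ (b : F) ∈ FW)
    (Q : Place k Fb) : ∃ t ∈ FW, s19a_IsParam red (s37r_r h₁ h₂) Q t := by
  by_cases hQ : (red ⟨w, h₁.w_mem⟩ : Fb) ∈ Q.toValuationSubring
  · refine s19a_exists_param_aux (D := D₁) (s37r_r h₁ h₂) FW Q (h₁.reg Q hQ) fun d => ?_
    obtain ⟨b, hb, hbW⟩ := hlift₁ d
    refine ⟨(b : F), b.2.1, hbW, fun P hP => ?_, ?_⟩
    · exact b.2.2 P (s19a_w_mem_of_regular h₁ h₂ Q hQ P hP)
    · rw [← h₁.psi_eq, hb]
  · have hQ' : (red ⟨w⁻¹, h₂.w_mem⟩ : Fb) ∈ Q.toValuationSubring := by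
      rw [s37r_red_inv h₁ h₂]
      exact (Q.toValuationSubring.mem_or_inv_mem _).resolve_left hQ
    refine s19a_exists_param_aux (D := D₂) (s37r_r h₁ h₂) FW Q (h₂.reg Q hQ') fun d => ?_
    obtain ⟨b, hb, hbW⟩ := hlift₂ d
    refine ⟨(b : F), b.2.1, hbW, fun P hP => ?_, ?_⟩
    · exact b.2.2 P (s19a_winv_mem_of_pole h₁ h₂ Q hQ P hP)
    · rw [← h₂.psi_eq, hb]

end Fermat.Agent.Lib.S19
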