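/-
W-A programme (S19/S32), brick G1.6 part 6 (helper5): UNRAMIFIED LEVELS.

`A ⊆ ℚ̄` a valuation ring over `ℓ`, `κ` its residue field, `I` its inertia group.  Every element of
`κ` is the residue of an element of `A` fixed by `I` (zero, or a root of unity of order prime to
`ℓ`: Teichmüller representatives); hence finitely many elements of `κ` come from a number field
level `L₀ ⊆ ℚ̄^I` (`s19m_exists_level`, the unramified refinement of `s37kd_exists_level`).
-/
import Fermat.Agent.Lib.S37.KDescent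
import Fermat.Agent.Lib.S30.Cyc
import Fermat.Agent.Lib.S18.XPerfect

set_option autoImplicit false
set_option linter.style.haveILetI false
set_option linter.unusedSectionVars false
set_option linter.unusedVariables false
set_option synthInstance.maxHeartbeats 400000

noncomputable section

namespace Fermat.Agent.Lib.S19

open ModularCurve HahnSeries AlgebraicCurve Fermat.Agent.Lib.S18 Fermat.Agent.Lib.S37
  Fermat.Agent.Lib.S29 Fermat.Agent.Lib.S30 IntermediateField Polynomial IsLocalRing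

local notation "Qbar" => AlgebraicClosure ℚ

variable (A : ValuationSubring Qbar) {ℓ : ℕ} [Fact ℓ.Prime] (hA : A.LiesOverPrime ℓ)

include hA in
/-- every unit of the residue field has finite order prime to `ℓ`. -/
theorem s19m_unit_order (u : ResidueField ↥A) (hu : u ≠ 0) :
    ∃ N : ℕ, 0 < N ∧ ¬ ℓ ∣ N ∧ u ^ N = 1 := by
  classical
  have hp : ℓ.Prime := Fact.out
  haveI : Algebra.IsAlgebraic ℚ Qbar := s18q_isAlgebraic_bar
  haveI : CharP (ResidueField ↥A) ℓ := s18x_charP_residueField A hp hA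
  letI : Algebra (ZMod ℓ) (ResidueField ↥A) := ZMod.algebra _ ℓ
  have halg : IsAlgebraic (ZMod ℓ) u := s18x_residue_isAlgebraic A _
  let F := IntermediateField.adjoin (ZMod ℓ) {u}
  haveI : FiniteDimensional (ZMod ℓ) F := IntermediateField.adjoin.finiteDimensional halg.isIntegral
  haveI : Finite F := Module.finite_of_finite (ZMod ℓ)
  letI : Fintype F := Fintype.ofFinite F
  let u' : F := ⟨u, IntermediateField.mem_adjoin_simple_self _ _⟩
  have hu'0 : u' ≠ 0 := by
    intro h0
    exact hu (congrArg Subtype.val h0)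
  have hpow := FiniteField.pow_card_sub_one_eq_one u' hu'0
  obtain ⟨n, -, hn⟩ := FiniteField.card F ℓ
  have hn1 : 1 ≤ (n : ℕ) := n.pos
  have hpn : ℓ ≤ ℓ ^ (n : ℕ) := by
    calc ℓ = ℓ ^ 1 := (pow_one ℓ).symm
      _ ≤ ℓ ^ (n : ℕ) := Nat.pow_le_pow_right hp.pos hn1
  refine ⟨ℓ ^ (n : ℕ) - 1, ?_, ?_, ?_⟩
  · have := hp.two_le; omega
  · intro hdvd
    have h1 : ℓ ∣ ℓ ^ (n : ℕ) := dvd_pow_self ℓ (by omega)
    have h2 : ℓ ∣ 1 := by
      have := Nat.dvd_sub h1 hdvd
      have e : ℓ ^ (n : ℕ) - (ℓ ^ (n : ℕ) - 1) = 1 := by have := hp.two_le; omega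
      rwa [e] at this
    exact hp.one_lt.ne' (Nat.dvd_one.mp h2)
  · rw [hn] at hpow
    have := congrArg Subtype.val hpow
    simpa [u'] using this

include hA in
/-- **Teichmüller representatives**: every element of the residue field is the residue of an
element of `A` fixed by the inertia group. -/
theorem s19m_exists_fixed_lift (c : ResidueField ↥A) :
    ∃ (a : Qbar) (ha : a ∈ A), IsLocalRing.residue ↥A ⟨a, ha⟩ = c ∧
      ∀ τ ∈ A.inertiaSubgroupIn ℚ, (τ : Qbar ≃ₐ[ℚ] Qbar) a = a := by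
  by_cases hc : c = 0
  · refine ⟨0, A.zero_mem, ?_, fun τ _ => map_zero _⟩
    rw [hc]
    exact map_zero _
  obtain ⟨N, hN0, hℓN, hcN⟩ := s19m_unit_order A hA c hc
  have hN : N ≠ 0 := by omega
  haveI : NeZero N := ⟨hN⟩
  have hcop : Nat.Coprime N ℓ :=
    (Nat.Coprime.symm ((Nat.Prime.coprime_iff_not_dvd Fact.out).mpr hℓN))
  obtain ⟨ζ, hζ⟩ := HasEnoughRootsOfUnity.exists_primitiveRoot Qbar N
  have hζN := hζ.pow_eq_one
  have hmem : ∀ i : ℕ, ζ ^ i ∈ A := fun i => A.pow_mem (s29g_root_mem A hN hζN) i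
  have hpowN : ∀ i : ℕ, (ζ ^ i) ^ N = 1 := fun i => by
    rw [← pow_mul, mul_comm, pow_mul, hζN, one_pow]
  set e : ↥A := ⟨ζ, s29g_root_mem A hN hζN⟩ with he
  -- the residue of `ζ` is a primitive `N`-th root of unity
  have hprim : IsPrimitiveRoot (IsLocalRing.residue ↥A e) N := by
    rw [IsPrimitiveRoot.iff_def]
    refine ⟨?_, fun l hl => ?_⟩
    · rw [← map_pow]
      have : e ^ N = 1 := Subtype.ext (by simpa using hζN)
      rw [this, map_one]
    · apply hζ.dvd_of_pow_eq_one
      have h1 : ζ ^ l - 1 ∈ A.nonunits := by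
        have h2 : e ^ l - 1 ∈ maximalIdeal ↥A := by
          rw [← IsLocalRing.residue_eq_zero_iff, map_sub, map_pow, hl, map_one, sub_self]
        have h3 := (ValuationSubring.coe_mem_nonunits_iff (A := A)).mpr h2
        simpa using h3
      exact s30c_root_sep A hN hcop hA (hpowN l) (one_pow N) h1
  obtain ⟨i, -, hi⟩ := hprim.eq_pow_of_pow_eq_one hcN
  refine ⟨ζ ^ i, hmem i, ?_, fun τ hτ => ?_⟩
  · rw [← hi, ← map_pow]
    rfl
  · have hcong := s29g_inertia_congr A hτ (hmem i)
    refine s30c_root_sep A hN hcop hA ?_ (hpowN i) hcong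
    rw [← map_pow, hpowN i, map_one]

/-- the fixed field of the inertia group. -/
def s19m_Ku : IntermediateField ℚ Qbar := IntermediateField.fixedField (A.inertiaSubgroupIn ℚ)

theorem s19m_mem_Ku {a : Qbar} :
    a ∈ s19m_Ku A ↔ ∀ τ ∈ A.inertiaSubgroupIn ℚ, (τ : Qbar ≃ₐ[ℚ] Qbar) a = a := by
  rw [s19m_Ku, IntermediateField.mem_fixedField_iff]

include hA in
/-- **(K1), unramified**: finitely many elements of `κ` come from a common finite level inside
the fixed field of the inertia group. -/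
theorem s19m_exists_level (L₁ : IntermediateField ℚ Qbar) [FiniteDimensional ℚ ↥L₁]
    (hL₁ : L₁ ≤ s19m_Ku A) (s : Finset (ResidueField ↥A)) :
    ∃ L₀ : IntermediateField ℚ Qbar, FiniteDimensional ℚ ↥L₀ ∧ L₁ ≤ L₀ ∧ L₀ ≤ s19m_Ku A ∧
      ∀ c ∈ s, c ∈ Set.range (s37r_resMap A L₀) := by
  classical
  induction s using Finset.induction_on with
  | empty => exact ⟨L₁, inferInstance, le_rfl, hL₁, fun c hc => absurd hc (Finset.notMem_empty c)⟩
  | insert c s hc ih =>
    obtain ⟨L₀, hfin, hle, hKu, hs⟩ := ih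
    obtain ⟨a, haA, hac, hfix⟩ := s19m_exists_fixed_lift A hA c
    haveI := hfin
    haveI : Algebra.IsAlgebraic ℚ Qbar := s18q_isAlgebraic_bar
    haveI : FiniteDimensional ℚ ↥(ℚ⟮a⟯) :=
      IntermediateField.adjoin.finiteDimensional
        (Algebra.IsAlgebraic.isAlgebraic a).isIntegral
    refine ⟨L₀ ⊔ ℚ⟮a⟯, IntermediateField.finiteDimensional_sup _ _,
      le_trans hle le_sup_left, sup_le hKu ?_, ?_⟩
    · rw [IntermediateField.adjoin_simple_le_iff]
      exact (s19m_mem_Ku A).mpr hfix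
    · intro c' hc'
      rcases Finset.mem_insert.mp hc' with rfl | hc'
      · rw [← hac]
        exact s37kd_mem_range_of_mem A _ a haA
          ((le_sup_right : ℚ⟮a⟯ ≤ L₀ ⊔ ℚ⟮a⟯) (mem_adjoin_simple_self ℚ _))
      · exact s37kd_range_mono A le_sup_left (hs c' hc')

end Fermat.Agent.Lib.S19
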