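/-
W-A programme (S19/S32), brick G1.6 part 7 (helper5): RATIONAL LIFTS.

The reduction `Ψ : B → F_κ(M)` of the top-level chart ring is onto the integral closure of `κ[w̄]`
ALREADY ON THE RATIONAL ELEMENTS (`q`-coefficients fixed by the inertia group): the descent of an
integral element of the special fibre can be made to an UNRAMIFIED finite level
(`s19m_exists_level`), and the level statement (P3a) lifts it inside that level.
Copy of `s37kd_descent_series` / `s37r3_Psi_surjective_of` (Lib/S37) with the level kept.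
-/
import Fermat.Agent.Lib.S19.MTeich
import Fermat.Agent.Lib.S19.IfaceModular
import Fermat.Agent.Lib.S37.RSurj

set_option autoImplicit false
set_option linter.style.haveILetI false
set_option linter.unusedSectionVars false
set_option linter.unusedVariables false
set_option synthInstance.maxHeartbeats 400000
set_option maxHeartbeats 800000

noncomputable section

namespace Fermat.Agent.Lib.S19

open ModularCurve HahnSeries AlgebraicCurve Fermat.Agent.Lib.S18 Fermat.Agent.Lib.S37
  Fermat.Agent.Lib.FF IntermediateField Polynomial IsLocalRing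

local notation "Qbar" => AlgebraicClosure ℚ

variable (A : ValuationSubring Qbar) (M : ℕ) [NeZero M] {ℓ : ℕ} [Fact ℓ.Prime]
  (hA : A.LiesOverPrime ℓ) (hℓM : ¬ ℓ ∣ M) (w : ↥(modularFunctionFieldBar M))

local notation "κ" => IsLocalRing.ResidueField A

/-- functions coming from an unramified level are rational. -/
theorem s19m_incl_mem_FW (L₀ : IntermediateField ℚ Qbar) (hL₀ : L₀ ≤ s19m_Ku A)
    (b₀ : ↥(laurentBaseChange ↥L₀ (modularFunctionFieldFull M))) :
    s18q_incl M L₀ b₀ ∈ s19_FW A M := by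
  intro τ hτ
  rw [s18q_incl_coe, coeffMap_coeffMap]
  refine coeffMap_congr (RingHom.ext fun a => ?_) _
  exact (s19m_mem_Ku A).mp (hL₀ a.2) τ hτ

include hA in
/-- **(K3), unramified**: descent of integral elements to an unramified finite level. -/
theorem s19m_descent_series (wb z : LaurentSeries κ) (hz : z ∈ modularFunctionFieldFullC κ M)
    (hint : (Polynomial.aeval wb : κ[X] →ₐ[κ] LaurentSeries κ).toRingHom.IsIntegralElem z) :
    ∃ L₀ : IntermediateField ℚ Qbar, FiniteDimensional ℚ ↥L₀ ∧ L₀ ≤ s19m_Ku A ∧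
      ∀ L : IntermediateField ℚ Qbar, L₀ ≤ L →
        ∀ w₀ : LaurentSeries (IsLocalRing.ResidueField ↥(s18q_A0 A L)),
          coeffMap (s37r_resMap A L) w₀ = wb →
          ∃ z₀ ∈ modularFunctionFieldFullC (IsLocalRing.ResidueField ↥(s18q_A0 A L)) M,
            coeffMap (s37r_resMap A L) z₀ = z ∧
              (Polynomial.aeval w₀ : (IsLocalRing.ResidueField ↥(s18q_A0 A L))[X] →ₐ[_]
                LaurentSeries (IsLocalRing.ResidueField ↥(s18q_A0 A L))).toRingHom.IsIntegralElem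
                z₀ := by
  classical
  obtain ⟨p, hp, hroot⟩ := hint
  obtain ⟨s, hs⟩ := s37kd_exists_finset_of_mem A M hz
  set t : Finset κ := p.coeffs.biUnion Polynomial.coeffs with ht
  obtain ⟨L₀, hfin, -, hKu, hL₀⟩ := s19m_exists_level A hA ⊥ bot_le (s ∪ t)
  refine ⟨L₀, hfin, hKu, fun L hL w₀ hw₀ => ?_⟩
  have hrange : ∀ c ∈ s ∪ t, c ∈ Set.range (s37r_resMap A L) :=
    fun c hc => s37kd_range_mono A hL (hL₀ c hc)
  obtain ⟨z₀, hz₀, hz₀z⟩ := hs L (fun c hc => hrange c (Finset.mem_union_left _ hc))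
  refine ⟨z₀, hz₀, hz₀z, ?_⟩
  have hlift : p ∈ Polynomial.lifts (Polynomial.mapRingHom (s37r_resMap A L)) := by
    refine s37kd_lifts_of_coeffs _ p (fun n m => ?_)
    by_cases hm : (p.coeff n).coeff m = 0
    · exact ⟨0, by rw [map_zero, hm]⟩
    · have hn : p.coeff n ≠ 0 := fun h0 => hm (by rw [h0, Polynomial.coeff_zero])
      exact hrange _ (Finset.mem_union_right _ (Finset.mem_biUnion.mpr
        ⟨p.coeff n, Polynomial.coeff_mem_coeffs hn, Polynomial.coeff_mem_coeffs hm⟩))
  refine s37kd_isIntegralElem_descent (s37r_resMap A L) w₀ z₀ p hp hlift ?_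
  rw [hw₀, hz₀z]
  exact hroot

include hA in
/-- the same, for elements of the function fields, at the level `L₀` itself. -/
theorem s19m_descent (wb z : ↥(modularFunctionFieldFullC κ M))
    (hz : (Polynomial.aeval wb : κ[X] →ₐ[κ] ↥(modularFunctionFieldFullC κ M)).toRingHom.IsIntegralElem
      z) :
    ∃ L₀ : IntermediateField ℚ Qbar, FiniteDimensional ℚ ↥L₀ ∧ L₀ ≤ s19m_Ku A ∧
      ∀ w0b : ↥(modularFunctionFieldFullC (IsLocalRing.ResidueField ↥(s18q_A0 A L₀)) M),
        coeffMap (s37r_resMap A L₀)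
            (w0b : LaurentSeries (IsLocalRing.ResidueField ↥(s18q_A0 A L₀))) =
          (wb : LaurentSeries κ) →
        ∃ z0 : ↥(modularFunctionFieldFullC (IsLocalRing.ResidueField ↥(s18q_A0 A L₀)) M),
          coeffMap (s37r_resMap A L₀)
              (z0 : LaurentSeries (IsLocalRing.ResidueField ↥(s18q_A0 A L₀))) =
            (z : LaurentSeries κ) ∧
          (Polynomial.aeval w0b : (IsLocalRing.ResidueField ↥(s18q_A0 A L₀))[X] →ₐ[_]
            ↥(modularFunctionFieldFullC (IsLocalRing.ResidueField ↥(s18q_A0 A L₀))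
              M)).toRingHom.IsIntegralElem z0 := by
  obtain ⟨L₀, hfin, hKu, h⟩ := s19m_descent_series A M hA (wb : LaurentSeries κ)
    (z : LaurentSeries κ) z.2 ((s37kd_isIntegralElem_coe_iff _ wb z).mp hz)
  refine ⟨L₀, hfin, hKu, fun w0b hw => ?_⟩
  obtain ⟨z₀, hz₀, hz₀z, hint⟩ := h L₀ le_rfl _ hw
  exact ⟨⟨z₀, hz₀⟩, hz₀z, (s37kd_isIntegralElem_coe_iff _ w0b ⟨z₀, hz₀⟩).mpr hint⟩

/-- **(P3), rational surjectivity**: every element of `F_κ(M)` integral over `κ[w̄]` is the
reduction of a RATIONAL element of the top-level chart ring. -/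
theorem s19m_Psi_surjective (hlev : s37r_LevelInputs A M w) (hwO : w ∈ s37r_OF A M hA)
    (htr : Transcendental (IsLocalRing.ResidueField ↥A) (s37r_redF A M hA hℓM ⟨w, hwO⟩))
    (z : ↥(modularFunctionFieldFullC (IsLocalRing.ResidueField ↥A) M))
    (hz' : ((Polynomial.aeval (s37r_redF A M hA hℓM ⟨w, hwO⟩) :
      (IsLocalRing.ResidueField ↥A)[X] →ₐ[IsLocalRing.ResidueField ↥A]
        ↥(modularFunctionFieldFullC (IsLocalRing.ResidueField ↥A) M)) :
      (IsLocalRing.ResidueField ↥A)[X] →+*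
        ↥(modularFunctionFieldFullC (IsLocalRing.ResidueField ↥A) M)).IsIntegralElem z) :
    ∃ b : ↥(s37r_B A M hA w), s37r_Psi A M hA hℓM w b = z ∧
      (b : ↥(modularFunctionFieldBar M)) ∈ s19_FW A M := by
  classical
  have hmain := s37r3_levelMain A M
  -- descent
  obtain ⟨L₀, hfd, hKu, hL₀⟩ := s19m_descent A M hA (s37r_redF A M hA hℓM ⟨w, hwO⟩) z hz'
  haveI := hfd
  obtain ⟨hdvr, ϖ, hϖ⟩ := s37r_exists_unif A hA L₀
  haveI := hdvr
  obtain ⟨w₀, hw₀, hgen, hwV, hα, hS⟩ := hlev L₀ ϖ hϖ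
  haveI := hgen
  have hℓ : ℓ.Prime := Fact.out
  have hℓ0 : ((ℓ : ℕ) : ↥L₀) ∈ (A.comap (algebraMap ↥L₀ Qbar)).nonunits := by
    rw [ValuationSubring.mem_nonunits_iff_or]
    right
    intro hinv
    rw [ValuationSubring.mem_comap, map_inv₀, map_natCast] at hinv
    rcases (ValuationSubring.mem_nonunits_iff_or (A := A)).mp hA with h0 | h0
    · exact (Nat.cast_ne_zero.mpr hℓ.ne_zero) h0
    · exact h0 hinv
  haveI hchar : CharP (IsLocalRing.ResidueField ↥(s18q_A0 A L₀)) ℓ :=
    s18x_charP_residueField _ hℓ hℓ0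
  have hT : s18g_HT (IsLocalRing.ResidueField ↥(s18q_A0 A L₀)) M := s18t_indep_j ℓ M hℓM _
  have hdeg : s18g_HDeg ↥L₀ M := fun n b hb hn =>
    s18g_exists_relation M (algebraMap ↥L₀ Qbar) hn b hb
  -- the reduction of the level coordinate
  set w0b := s18g_redF (s37r_G A L₀ ϖ hϖ) M
    (fun _ hf => s18g_baseChange_mem_Frac (s37r_G A L₀ ϖ hϖ) M hf) hT hdeg ⟨w₀, hwV⟩ with hw0b
  have hmemw : s18q_incl M L₀ w₀ ∈ s37r_OF A M hA := by rw [hw₀]; exact hwO
  have hwbar : coeffMap (s37r_resMap A L₀)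
      (w0b : LaurentSeries (IsLocalRing.ResidueField ↥(s18q_A0 A L₀))) =
      (s37r_redF A M hA hℓM ⟨w, hwO⟩ : LaurentSeries (IsLocalRing.ResidueField ↥A)) := by
    rw [s37r_coe_redF, hw0b, s18g_coe_redF]
    have h1 := s37r_redV_incl A M hA L₀ ϖ hϖ w₀ hwV hmemw
    rw [← h1]
    congr 1
    exact Subtype.ext hw₀
  obtain ⟨z₀, hz₀, hz₀int⟩ := hL₀ w0b hwbar
  -- transcendence at the level
  have htr₀ : Transcendental (IsLocalRing.ResidueField ↥(s18q_A0 A L₀)) w0b := by
    intro halg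
    obtain ⟨p, hp0, hp⟩ := halg
    have htr' := s37r3_transcendental_coe M _ htr
    apply htr'
    refine ⟨p.map (s37r_resMap A L₀), ?_, ?_⟩
    · intro h0
      apply hp0
      apply Polynomial.map_injective (s37r_resMap A L₀) (s37r_resMap A L₀).injective
      rw [h0, Polynomial.map_zero]
    · rw [← hwbar]
      have h1 : ((Polynomial.aeval w0b p :
          ↥(modularFunctionFieldFullC (IsLocalRing.ResidueField ↥(s18q_A0 A L₀)) M)) :
          LaurentSeries (IsLocalRing.ResidueField ↥(s18q_A0 A L₀))) = 0 := by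
        rw [hp]; rfl
      have h2 := Polynomial.aeval_algebraMap_apply
        (LaurentSeries (IsLocalRing.ResidueField ↥(s18q_A0 A L₀))) w0b p
      have h3 : Polynomial.aeval
          (w0b : LaurentSeries (IsLocalRing.ResidueField ↥(s18q_A0 A L₀))) p = 0 :=
        h2.trans h1
      rw [Polynomial.aeval_def, Polynomial.eval₂_map]
      have h4 := Polynomial.hom_eval₂ p
        (algebraMap (IsLocalRing.ResidueField ↥(s18q_A0 A L₀))
          (LaurentSeries (IsLocalRing.ResidueField ↥(s18q_A0 A L₀))))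
        (coeffMap (s37r_resMap A L₀))
        (w0b : LaurentSeries (IsLocalRing.ResidueField ↥(s18q_A0 A L₀)))
      rw [Polynomial.aeval_def] at h3
      rw [h3, map_zero] at h4
      rw [h4]
      congr 1
      refine RingHom.ext fun c => ?_
      simp only [RingHom.comp_apply]
      rw [algebraMap_laurentSeries_eq_single, algebraMap_laurentSeries_eq_single, coeffMap_single]
  -- the level statement
  obtain ⟨b₀, hb₀, hb₀z⟩ := hmain L₀ ϖ hϖ hT hdeg w₀ hwV hα hS htr₀ z₀ hz₀int
  have hbB : s18q_incl M L₀ b₀ ∈ s37r_B A M hA w :=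
    (s37r_incl_mem_B_iff A M hA w L₀ ϖ hϖ w₀ hw₀ b₀).mpr hb₀
  refine ⟨⟨s18q_incl M L₀ b₀, hbB⟩, ?_, s19m_incl_mem_FW A M L₀ hKu b₀⟩
  apply Subtype.ext
  rw [← hz₀, ← hb₀z, s18g_coe_redF]
  exact s37r_redV_incl A M hA L₀ ϖ hϖ b₀ hb₀.1 hbB.1

end Fermat.Agent.Lib.S19
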