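/-
W-A programme (S19/S32), brick G1.6 part 8 (helper5): the place reduction of the modular curve at
a good level as a REDUCTION DATUM with RATIONAL PARAMETERS: fields `rd`, `pi_surj`, `param`,
`ratc`, `fw_inv` of `s19_Curve` (IfaceCurve) for the data of `s19_CurveExists` (IfaceModular).
-/
import Fermat.Agent.Lib.S19.MLift
import Fermat.Agent.Lib.S19.MGalois
import Fermat.Agent.Lib.S19.AParam
import Fermat.Agent.Lib.S37.RExists

set_option autoImplicit false
set_option linter.style.haveILetI false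
set_option linter.unusedSectionVars false
set_option linter.unusedVariables false
set_option synthInstance.maxHeartbeats 400000
set_option maxHeartbeats 1600000

noncomputable section

namespace Fermat.Agent.Lib.S19

open ModularCurve HahnSeries AlgebraicCurve Fermat.Agent.Lib.S18 Fermat.Agent.Lib.S37
  Fermat.Agent.Lib.FF Polynomial IsLocalRing

local notation "Qbar" => AlgebraicClosure ℚ

variable (A : ValuationSubring Qbar) (M : ℕ) [NeZero M] {ℓ : ℕ} [Fact ℓ.Prime]
  (hA : A.LiesOverPrime ℓ) (hℓM : ¬ ℓ ∣ M) (w : ↥(modularFunctionFieldBar M))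

/-- **the chart package with rational lifts.** -/
theorem s19m_chartPackage (hlev : s37r_LevelInputs A M w)
    (hcoord : s37b_Coord (IsLocalRing.ResidueField ↥A) ℓ
      ((s37r_redF A M hA hℓM ⟨w, s37r7_w_mem_OF A M hA w hlev⟩ :
        ↥(modularFunctionFieldFullC (IsLocalRing.ResidueField ↥A) M)) :
        LaurentSeries (IsLocalRing.ResidueField ↥A))) :
    haveI : FFGen Qbar (ffd_jBar M) := s18r_ffGen M
    ∃ (D : Type) (_ : CommRing D) (_ : IsDedekindDomain D)
      (_ : Algebra D ↥(modularFunctionFieldFullC (IsLocalRing.ResidueField ↥A) M))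
      (_ : IsFractionRing D ↥(modularFunctionFieldFullC (IsLocalRing.ResidueField ↥A) M))
      (_ : Algebra (IsLocalRing.ResidueField ↥A) D)
      (_ : IsScalarTower (IsLocalRing.ResidueField ↥A) D
        ↥(modularFunctionFieldFullC (IsLocalRing.ResidueField ↥A) M))
      (PsiD : ↥(s37r_B A M hA w) →+* D),
      s37r_ChartHyp (ffd_jBar M) A (IsLocalRing.residue ↥A) (s37r_OF A M hA)
        (s37r_redF A M hA hℓM) w PsiD ∧
      ∀ d : D, ∃ b : ↥(s37r_B A M hA w), PsiD b = d ∧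
        (b : ↥(modularFunctionFieldBar M)) ∈ s19_FW A M := by
  haveI : FFGen Qbar (ffd_jBar M) := s18r_ffGen M
  letI algX := s37r9_algebraX A M (s37r_redF A M hA hℓM ⟨w, s37r7_w_mem_OF A M hA w hlev⟩)
  have hAlg : ∀ p : (IsLocalRing.ResidueField ↥A)[X],
      algebraMap (IsLocalRing.ResidueField ↥A)[X]
        ↥(modularFunctionFieldFullC (IsLocalRing.ResidueField ↥A) M) p =
        Polynomial.aeval (s37r_redF A M hA hℓM ⟨w, s37r7_w_mem_OF A M hA w hlev⟩) p :=
    fun _ => rfl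
  obtain ⟨hDed, hFrac⟩ := s37r9_dedekindD A M hA _ hcoord hAlg
  letI algD := s37r9_algebraD A M
  have hTower := s37r9_isScalarTowerD A M _ hAlg
  have hP3i := s37r3i_Psi_isIntegral A M hA hℓM w hlev (s37r7_w_mem_OF A M hA w hlev) hAlg
  have hP3s' : ∀ z : ↥(modularFunctionFieldFullC (IsLocalRing.ResidueField ↥A) M),
      IsIntegral (IsLocalRing.ResidueField ↥A)[X] z →
        ∃ b : ↥(s37r_B A M hA w), s37r_Psi A M hA hℓM w b = z :=
    fun z hz => s37r_P3s A M hA hℓM w hlev hcoord z hz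
  refine ⟨_, inferInstance, hDed, inferInstance, hFrac, algD, hTower,
    s37r9_PsiD A M hA hℓM w hP3i,
    s37r9_chartHyp_of_P3 A M hA hℓM w hlev hAlg hcoord hP3i hP3s', fun d => ?_⟩
  have hd : IsIntegral (IsLocalRing.ResidueField ↥A)[X]
      (d : ↥(modularFunctionFieldFullC (IsLocalRing.ResidueField ↥A) M)) := d.2
  obtain ⟨b, hb, hbW⟩ := s19m_Psi_surjective A M hA hℓM w hlev (s37r7_w_mem_OF A M hA w hlev)
    (s37b_transcendental_of_coe (IsLocalRing.ResidueField ↥A) M _ hcoord.1)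
    (d : ↥(modularFunctionFieldFullC (IsLocalRing.ResidueField ↥A) M)) hd
  refine ⟨b, Subtype.ext ?_, hbW⟩
  rw [s37r9_coe_PsiD]
  exact hb

include hA hℓM in
/-- **the reduction datum of the modular curve, with rational parameters.** -/
theorem s19m_exists_rd (hgood : s18_GoodLevel ℓ M) :
    haveI : FFGen Qbar (ffd_jBar M) := s18r_ffGen M
    ∃ r : Place Qbar ↥(modularFunctionFieldBar M) →
        Place (IsLocalRing.ResidueField ↥A)
          ↥(modularFunctionFieldFullC (IsLocalRing.ResidueField ↥A) M),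
      IsPlaceReductionModL A M r ∧
      s19_RD A (IsLocalRing.residue ↥A) (s37r_OF A M hA) (s37r_redF A M hA hℓM) r ∧
      ∀ Q, ∃ t ∈ s19_FW A M, s19a_IsParam (s37r_redF A M hA hℓM) r Q t := by
  haveI : FFGen Qbar (ffd_jBar M) := s18r_ffGen M
  obtain ⟨w, hwO, hwinvO, hw0, hlev₁, hlev₂, hred⟩ := s37rl_exists_coord A M hA hℓM hgood
  have hcoord₁ : s37b_Coord (IsLocalRing.ResidueField ↥A) ℓ
      ((s37r_redF A M hA hℓM ⟨w, s37r7_w_mem_OF A M hA w hlev₁⟩ :
        ↥(modularFunctionFieldFullC (IsLocalRing.ResidueField ↥A) M)) :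
        LaurentSeries (IsLocalRing.ResidueField ↥A)) := by
    rcases hred with h | h | h
    · rw [h]; exact s37b_coord_jq _ ℓ
    · rw [h]; exact s37b_coord_t2 _ ℓ
    · rw [h]; exact s37b_coord_t3 _ ℓ
  have hcoord₂ : s37b_Coord (IsLocalRing.ResidueField ↥A) ℓ
      ((s37r_redF A M hA hℓM ⟨w⁻¹, s37r7_w_mem_OF A M hA w⁻¹ hlev₂⟩ :
        ↥(modularFunctionFieldFullC (IsLocalRing.ResidueField ↥A) M)) :
        LaurentSeries (IsLocalRing.ResidueField ↥A)) := by
    rw [s37rl_redF_inv A M hA hℓM hw0 (s37r7_w_mem_OF A M hA w hlev₁), IntermediateField.coe_inv]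
    exact s37b_coord_inv hcoord₁
  obtain ⟨D₁, i1, i2, i3, i4, i5, i6, PsiD₁, h₁, hl₁⟩ :=
    s19m_chartPackage A M hA hℓM w hlev₁ hcoord₁
  obtain ⟨D₂, j1, j2, j3, j4, j5, j6, PsiD₂, h₂, hl₂⟩ :=
    s19m_chartPackage A M hA hℓM w⁻¹ hlev₂ hcoord₂
  refine ⟨s37r_r h₁ h₂, ?_, s19a_rd h₁ h₂, fun Q => ?_⟩
  · exact s37r10_isPlaceReduction A M hA hℓM _
      (fun y hy hy0 Dv hDv Q => s37r_conservation h₁ h₂ y hy hy0 Dv hDv Q)
  · exact s19a_exists_param h₁ h₂ (s19_FW A M) hl₁ hl₂ Q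

end Fermat.Agent.Lib.S19
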