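/-
W-A programme (S19/S32), brick [RATL] part 2 (helper7, prefix `s19r_`): RATIONAL BASES of
Riemann–Roch spaces of the modular curve.

`F = laurentBaseChange L F₀` (`L/ℚ` algebraic), `I` a subgroup of `Aut(L/ℚ)` acting on `F` through
the `q`-expansion coefficients (`arithmeticGalois`).  Every `I`-stable `L`-subspace `S` of `F` is
spanned by its `I`-fixed vectors (`s19r_span_fixed`, Speiser: every function is defined over a
number field).  If `E` is an `I`-fixed divisor then `L(E)` is `I`-stable (`s19r_smul_mem_L`);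
hence, for the inertia group of `A` and the modular curve, a finite-dimensional `L(E)` has a finite
spanning family inside `s19_FW A M` (`s19r_ratL`) — the content of the field `ratL` of `s19_Curve`.
-/
import Fermat.Agent.Lib.S19.RSpeiser
import Fermat.Agent.Lib.S19.IfaceModular
import Fermat.Agent.Lib.S18.QBase

set_option autoImplicit false

noncomputable section

namespace Fermat.Agent.Lib.S19

open ModularCurve HahnSeries AlgebraicCurve Fermat.Agent.Lib.S18

section Generic

variable {K F : Type*} [Field K] [Field F] [Algebra K F]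

/-- `L(E)` is stable under a semilinear automorphism fixing `E`. -/
theorem s19r_smul_mem_L (g : SemilinearAut K F) (E : Divisor K F) (hgE : g • E = E) {f : F}
    (hf : f ∈ riemannRochSpace E) : g • f ∈ riemannRochSpace E := by
  rw [mem_riemannRochSpace_iff] at hf ⊢
  intro w
  rcases hf (g⁻¹ • w) with h0 | h1
  · left
    rw [h0, smul_zero]
  · right
    have h2 : (g • (g⁻¹ • w)).ord (g • f) = (g⁻¹ • w).ord f := SemilinearAut.ord_smul g _ f
    rw [smul_inv_smul] at h2
    have h3 : E w = E (g⁻¹ • w) := by
      conv_lhs => rw [← hgE]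
      exact SemilinearAut.divisor_smul_apply g E w
    rw [h2, h3]
    exact h1

end Generic

section Laurent

variable {L : Type*} [Field L] [Algebra ℚ L] [Algebra.IsAlgebraic ℚ L]
  (F₀ : IntermediateField ℚ (LaurentSeries ℚ))

omit [Algebra.IsAlgebraic ℚ L] in
/-- the arithmetic Galois action is semilinear. -/
theorem s19r_act_smul (τ : L ≃ₐ[ℚ] L) (c : L) (v : ↥(laurentBaseChange L F₀)) :
    arithmeticGalois F₀ τ • (c • v) = τ c • (arithmeticGalois F₀ τ • v) := by
  apply Subtype.ext
  rw [coe_arithmeticGalois_smul, IntermediateField.coe_smul, IntermediateField.coe_smul,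
    coe_arithmeticGalois_smul, Algebra.smul_def, Algebra.smul_def, map_mul, coeffMap_algebraMap]
  rfl

omit [Algebra.IsAlgebraic ℚ L] in
/-- the action on a function defined over `L₁` only depends on the restriction to `L₁`. -/
theorem s19r_act_congr (τ τ' : L ≃ₐ[ℚ] L) (L₁ : IntermediateField ℚ L)
    (y : LaurentSeries ↥L₁) (f : ↥(laurentBaseChange L F₀))
    (hyf : coeffMap (algebraMap ↥L₁ L) y = (f : LaurentSeries L))
    (hag : ∀ x ∈ L₁, τ x = τ' x) :
    arithmeticGalois F₀ τ • f = arithmeticGalois F₀ τ' • f := by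
  apply Subtype.ext
  show coeffMap (τ : L →+* L) (f : LaurentSeries L) = coeffMap (τ' : L →+* L) (f : LaurentSeries L)
  rw [← hyf, coeffMap_coeffMap, coeffMap_coeffMap]
  refine coeffMap_congr (RingHom.ext fun x => ?_) y
  exact hag (x : L) x.2

/-- **every stable subspace of a `q`-expansion field is spanned by its fixed vectors.** -/
theorem s19r_span_fixed (I : Subgroup (L ≃ₐ[ℚ] L)) (S : Submodule L ↥(laurentBaseChange L F₀))
    (hS : ∀ τ ∈ I, ∀ w ∈ S, arithmeticGalois F₀ τ • w ∈ S) :
    Submodule.span L {w : ↥(laurentBaseChange L F₀) |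
      w ∈ S ∧ ∀ τ ∈ I, arithmeticGalois F₀ τ • w = w} = S := by
  apply le_antisymm
  · rw [Submodule.span_le]
    exact fun w hw => hw.1
  intro f hf
  obtain ⟨L₁, hL₁, y, hy, hyf⟩ := s18q_exists_defOver (F₀ := F₀) f.2
  refine s19r_speiser I (fun τ w => arithmeticGalois F₀ τ • w) ?_ ?_ ?_ S hS f hf L₁ ?_ ?_
  · intro τ v w
    exact smul_add _ v w
  · intro τ c v
    exact s19r_act_smul F₀ τ c v
  · intro τ τ' v
    show arithmeticGalois F₀ (τ * τ') • v = _
    rw [map_mul, mul_smul]
  · intro τ _ τ' _ hag
    exact s19r_act_congr F₀ τ τ' L₁ y f hyf hag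
  · show arithmeticGalois F₀ (1 : L ≃ₐ[ℚ] L) • f = f
    rw [map_one, one_smul]

end Laurent

local notation "Qbar" => AlgebraicClosure ℚ

/-- **[RATL] for the modular curve**: if `E` is fixed by the inertia group and `L(E)` is
finite-dimensional, then `L(E)` is spanned by finitely many functions with inertia-fixed
`q`-coefficients. -/
theorem s19r_ratL (M : ℕ) (A : ValuationSubring Qbar)
    (E : Divisor Qbar ↥(modularFunctionFieldBar M))
    (hE : ∀ τ ∈ A.inertiaSubgroupIn ℚ, arithmeticGalois (modularFunctionFieldFull M) τ • E = E)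
    (hfin : Module.Finite Qbar ↥(riemannRochSpace E)) :
    ∃ (N : ℕ) (b : Fin N → ↥(modularFunctionFieldBar M)), (∀ i, b i ∈ s19_FW A M) ∧
      Submodule.span Qbar (Set.range b) = riemannRochSpace E := by
  classical
  have : Algebra.IsAlgebraic ℚ Qbar := s18q_isAlgebraic_bar
  have hspan := s19r_span_fixed (modularFunctionFieldFull M) (A.inertiaSubgroupIn ℚ)
    (riemannRochSpace E) (fun τ hτ w hw => s19r_smul_mem_L _ E (hE τ hτ) hw)
  have hfg : (riemannRochSpace E).FG := Module.Finite.iff_fg.mp hfin
  rw [← hspan, Submodule.fg_span_iff_fg_span_finset_subset] at hfg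
  obtain ⟨s', hs'sub, hs'span⟩ := hfg
  refine ⟨s'.card, fun i => ((s'.equivFin.symm i : ↥s') : ↥(modularFunctionFieldBar M)), ?_, ?_⟩
  · intro i τ hτ
    have h1 := (hs'sub (s'.equivFin.symm i).2).2 τ hτ
    have h2 := congrArg (fun y : ↥(modularFunctionFieldBar M) => (y : LaurentSeries Qbar)) h1
    exact h2
  · have hrange : (Set.range fun i => ((s'.equivFin.symm i : ↥s') : ↥(modularFunctionFieldBar M))) =
        (↑s' : Set ↥(modularFunctionFieldBar M)) := by
      ext w
      constructor
      · rintro ⟨i, rfl⟩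
        exact (s'.equivFin.symm i).2
      · intro hw
        refine ⟨s'.equivFin ⟨w, hw⟩, ?_⟩
        show ((s'.equivFin.symm (s'.equivFin ⟨w, hw⟩) : ↥s') : ↥(modularFunctionFieldBar M)) = w
        rw [Equiv.symm_apply_apply]
    rw [hrange, ← hs'span, hspan]

end Fermat.Agent.Lib.S19
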