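/-
W-A programme (S19/S32), brick [RATL] part 3 (helper7, prefix `s19r_`): the LITERAL field `ratL`
of `s19_Curve` for the modular curve `X₀(M)` with `FW = s19_FW A M`, from `s19r_ratL` (RRatL) and
the rationality of the centres (`s19a_centre_fixed`, AGalois/MGalois of helper5).
-/
import Fermat.Agent.Lib.S19.RRatL
import Fermat.Agent.Lib.S19.MGalois

set_option autoImplicit false
set_option linter.unusedSectionVars false
set_option linter.unusedVariables false
set_option linter.style.haveILetI false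
set_option synthInstance.maxHeartbeats 400000
set_option maxHeartbeats 800000

noncomputable section

namespace Fermat.Agent.Lib.S19

open ModularCurve HahnSeries AlgebraicCurve Fermat.Agent.Lib.S18 Fermat.Agent.Lib.S37
  Fermat.Agent.Lib.FF IsLocalRing

local notation "Qbar" => AlgebraicClosure ℚ

variable (M : ℕ) [NeZero M] {ℓ : ℕ} [Fact ℓ.Prime] (hℓM : ¬ ℓ ∣ M)
  (A : ValuationSubring Qbar) (hA : A.LiesOverPrime ℓ)

include hA hℓM in
/-- **the field `ratL` of `s19_Curve` for the modular curve.** -/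
theorem s19r_ratL_modular {r : Place Qbar ↥(modularFunctionFieldBar M) →
      Place (ResidueField ↥A) ↥(modularFunctionFieldFullC (ResidueField ↥A) M)}
    (hr : IsPlaceReductionModL A M r)
    (rd : s19_RD A (IsLocalRing.residue ↥A) (s37r_OF A M hA) (s37r_redF A M hA hℓM) r)
    (hfin : ∀ D : Divisor Qbar ↥(modularFunctionFieldBar M),
      Module.Finite Qbar ↥(riemannRochSpace D))
    (n : ℕ) (Q : Fin n → Place (ResidueField ↥A) ↥(modularFunctionFieldFullC (ResidueField ↥A) M))
    (t : Fin n → ↥(modularFunctionFieldBar M))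
    (ht : ∀ j, s19a_IsParam (s37r_redF A M hA hℓM) r (Q j) (t j))
    (htW : ∀ j, t j ∈ s19_FW A M) (m : Fin n → ℤ) :
    haveI : FFGen Qbar (ffd_jBar M) := s18r_ffGen M
    ∃ (N : ℕ) (b : Fin N → ↥(modularFunctionFieldBar M)), (∀ i, b i ∈ s19_FW A M) ∧
      Submodule.span Qbar (Set.range b) =
        riemannRochSpace (∑ j, Finsupp.single (s19a_pt (ffd_jBar M) rd (ht j) 0) (m j)) := by
  haveI : FFGen Qbar (ffd_jBar M) := s18r_ffGen M
  refine s19r_ratL M A _ (fun τ hτ => ?_) (hfin _)
  rw [Finset.smul_sum]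
  refine Finset.sum_congr rfl fun j _ => ?_
  rw [SemilinearAut.smul_single]
  congr 1
  have hg : arithmeticGalois (modularFunctionFieldFull M) τ ∈ s19a_Gamma M A := ⟨τ, hτ, rfl⟩
  exact s19a_centre_fixed (ffd_jBar M) rd _
    (fun P => s19a_Gamma_trivial M hℓM A hA hr _ hg P) (ht j)
    (s19a_FW_fixed M A (t j) (htW j) _ hg)

end Fermat.Agent.Lib.S19
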