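/-
W-A programme (S19/S32), brick [CURVE] (helper5): **assembly of `s19_CurveExists`** (IfaceModular):
`X₀(M)` at a good level is a curve with good reduction in the sense of `s19_Curve`.

Inputs (as hypotheses, to be discharged in the final assembly):
* `s19m_GaussHyp` : the fields `gv`, `sc`, `scW` for the modular curve (helper1, `SGauss*.lean`);
* `s19m_RRHyp`    : Riemann's theorem on both fibres with the same genus, from `sc`
                    (helper2, `BGenus*.lean`, `s19b_rr`);
* [BASE] `s19_BaseA` (helper6, `EBase.lean`).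
Everything else is proved: `rd`, `param` (`s19m_exists_rd`), `ratc` (`s19a_ratc_modular`),
`ratL` (helper7, `s19r_ratL_modular`), `fw_inv`, and the landed facts on degrees and principal
divisors.
-/
import Fermat.Agent.Lib.S19.MFrames
import Fermat.Agent.Lib.S19.MParam
import Fermat.Agent.Lib.S19.RRatLField
import Fermat.Agent.Lib.S44.RSepDiv

set_option autoImplicit false
set_option linter.unusedSectionVars false
set_option linter.unusedVariables false
set_option linter.style.haveILetI false
set_option synthInstance.maxHeartbeats 400000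
set_option maxHeartbeats 1600000

noncomputable section

namespace Fermat.Agent.Lib.S19

open ModularCurve HahnSeries AlgebraicCurve Fermat.Agent.Lib.S18 Fermat.Agent.Lib.S37
  Fermat.Agent.Lib.FF IsLocalRing

local notation "Qbar" => AlgebraicClosure ℚ

/-- the fields `gv`, `sc`, `scW` of `s19_Curve` for the modular curve at a good level. -/
def s19m_GaussHyp : Prop :=
  ∀ (M : ℕ) [NeZero M] (ℓ : ℕ) [Fact ℓ.Prime] (hgood : s18_GoodLevel ℓ M)
    (A : ValuationSubring Qbar) (hA : A.LiesOverPrime ℓ),
    (∀ f : ↥(modularFunctionFieldBar M), f ≠ 0 → ∃ c : Qbar, c ≠ 0 ∧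
      algebraMap Qbar ↥(modularFunctionFieldBar M) c * f ∈ s37r_OF A M hA ∧
      (algebraMap Qbar ↥(modularFunctionFieldBar M) c * f)⁻¹ ∈ s37r_OF A M hA) ∧
    (∀ (n : ℕ) (b : Fin n → ↥(modularFunctionFieldBar M)), LinearIndependent Qbar b →
      ∃ b' : Fin n → ↥(modularFunctionFieldBar M),
        Submodule.span Qbar (Set.range b') = Submodule.span Qbar (Set.range b) ∧
        ∃ hb' : ∀ i, b' i ∈ s37r_OF A M hA,
          LinearIndependent (ResidueField ↥A) fun i => s37r_redF A M hA hgood.1 ⟨b' i, hb' i⟩) ∧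
    (∀ (n : ℕ) (b : Fin n → ↥(modularFunctionFieldBar M)), LinearIndependent Qbar b →
      (∀ i, b i ∈ s19_FW A M) →
      ∃ b' : Fin n → ↥(modularFunctionFieldBar M),
        Submodule.span Qbar (Set.range b') = Submodule.span Qbar (Set.range b) ∧
        (∀ i, b' i ∈ s19_FW A M) ∧
        ∃ hb' : ∀ i, b' i ∈ s37r_OF A M hA,
          LinearIndependent (ResidueField ↥A) fun i => s37r_redF A M hA hgood.1 ⟨b' i, hb' i⟩)

/-- Riemann's theorem on both fibres with the same genus, from the field `sc`. -/
def s19m_RRHyp : Prop :=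
  ∀ (M : ℕ) [NeZero M] (ℓ : ℕ) [Fact ℓ.Prime] (hgood : s18_GoodLevel ℓ M)
    (A : ValuationSubring Qbar) (hA : A.LiesOverPrime ℓ),
    (∀ (n : ℕ) (b : Fin n → ↥(modularFunctionFieldBar M)), LinearIndependent Qbar b →
      ∃ b' : Fin n → ↥(modularFunctionFieldBar M),
        Submodule.span Qbar (Set.range b') = Submodule.span Qbar (Set.range b) ∧
        ∃ hb' : ∀ i, b' i ∈ s37r_OF A M hA,
          LinearIndependent (ResidueField ↥A) fun i => s37r_redF A M hA hgood.1 ⟨b' i, hb' i⟩) →
    ∃ g : ℕ, s19_Riemann Qbar ↥(modularFunctionFieldBar M) g ∧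
      s19_Riemann (ResidueField ↥A) ↥(modularFunctionFieldFullC (ResidueField ↥A) M) g

/-- **[CURVE]**: the modular curve at a good level is a curve with good reduction. -/
theorem s19m_curveExists (hG : s19m_GaussHyp) (hR : s19m_RRHyp) (hB : s19_BaseA) :
    s19_CurveExists := by
  intro M _ ℓ _ hgood A hA
  haveI : FFGen Qbar (ffd_jBar M) := s18r_ffGen M
  obtain ⟨r, hr, rd, hparam⟩ := s19m_exists_rd A M hA hgood.1 hgood
  obtain ⟨hgv, hsc, hscW⟩ := hG M ℓ hgood A hA
  obtain ⟨g, hrrF, hrrFb⟩ := hR M ℓ hgood A hA hsc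
  have hlA : (ℓ : Qbar) ∈ A := by
    have h := (ValuationSubring.mem_nonunits_iff_exists_mem_maximalIdeal (A := A)).mp hA
    exact h.choose
  haveI := s18n_isAlgClosed_residueField A
  haveI : CharP (ResidueField ↥A) ℓ := s18x_charP_residueField A (Fact.out : ℓ.Prime) hA
  refine ⟨r, ⟨(ℓ : Qbar), hlA⟩, g, hr, rfl, ?_⟩
  exact
    { rd := rd
      pi_surj := IsLocalRing.residue_surjective
      degF := fun P => s37i_deg_eq_one_bar M P
      degFb := fun Q => s37r10_deg_eq_one_special A M Q
      pdF := inferInstance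
      pdFb := Fermat.Agent.Lib.S44.s44rq_fbar_hasPrincipalDivisors (ResidueField ↥A) M ℓ
      gv := hgv
      sc := hsc
      scW := hscW
      rrF := hrrF
      rrFb := hrrFb
      fw_inv := fun f hf => s19a_FW_inv M A f hf
      base := by
        rw [s19m_W_eq A M]
        exact (hB ℓ A hA ⟨(ℓ : Qbar), hlA⟩ rfl).1
      param := hparam
      ratc := fun Q t ht htW f hf => s19a_ratc_modular M hgood.1 A hA hr rd Q t ht htW f hf
      ratL := fun n Q t ht htW m =>
        s19r_ratL_modular M hgood.1 A hA hr rd hrrF.fin n Q t ht htW m }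

end Fermat.Agent.Lib.S19
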