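/-
W-A programme (S19/S32), brick [PLACES] of the geometric engine (request of helper6, #2772;
helper7, prefix `s19n_`).  From `hC : s19_Curve …` alone:
* `s19n_isAlgClosed_k` : the residue field `k` is algebraically closed;
* `s19n_nonempty_placeF`, `s19n_nonempty_place` : both fibres have places;
* `s19n_infinite_places` : the special fibre has infinitely many places;
* `s19n_exists_fresh` : `ρ` distinct places off any finite set;
* `s19n_nonSp_curve` : [NONSP] specialised to the special fibre of the curve.
-/
import Fermat.Agent.Lib.S19.NNonSp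

set_option autoImplicit false

noncomputable section

namespace Fermat.Agent.Lib.S19

open AlgebraicCurve Fermat.Agent.Lib.FF IsLocalRing Polynomial

/-- the residue field of a valuation ring of an algebraically closed field is algebraically
closed. -/
theorem s19n_isAlgClosed_of_surjective {K k : Type*} [Field K] [IsAlgClosed K] [Field k]
    (A : ValuationSubring K) (π : ↥A →+* k) (hπ : Function.Surjective π) : IsAlgClosed k := by
  refine IsAlgClosed.of_exists_root k fun p hmon hirr => ?_
  obtain ⟨q, hq, hqdeg, hqmon⟩ := lifts_and_degree_eq_and_monic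
    ((mem_lifts p).mpr (map_surjective π hπ p)) hmon
  have hdeg : (q.map (algebraMap ↥A K)).degree ≠ 0 := by
    rw [hqmon.degree_map, hqdeg]
    exact (degree_pos_of_irreducible hirr).ne'
  obtain ⟨α, hα⟩ := IsAlgClosed.exists_root _ hdeg
  have hint : IsIntegral ↥A α := ⟨q, hqmon, by rwa [IsRoot, eval_map] at hα⟩
  obtain ⟨a, ha⟩ := IsIntegrallyClosed.isIntegral_iff.mp hint
  refine ⟨π a, ?_⟩
  rw [← hq, eval_map, eval₂_hom]
  have h0 : q.eval a = 0 := by
    apply (FaithfulSMul.algebraMap_injective ↥A K)
    rw [map_zero, ← eval₂_hom, ha, ← eval_map]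
    exact hα
  rw [h0, map_zero]

section Riemann

variable {k Fb : Type*} [Field k] [Field Fb] [Algebra k Fb]

/-- a non-constant function has a zero. -/
theorem s19n_exists_zero [HasPrincipalDivisors k Fb] (hdeg : ∀ Q : Place k Fb, Q.deg = 1)
    (Q₀ : Place k Fb) {f : Fb} (hf : f ∉ Submodule.span k {(1 : Fb)}) :
    ∃ P : Place k Fb, 0 < P.ord f := by
  by_contra hcon
  have hle : ∀ P : Place k Fb, P.ord f ≤ 0 := fun P => not_lt.mp fun h => hcon ⟨P, h⟩
  have hf0 : f ≠ 0 := fun h => hf (by rw [h]; exact Submodule.zero_mem _)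
  have hinv : f⁻¹ ∈ riemannRochSpace (0 : Divisor k Fb) := by
    rw [mem_riemannRochSpace_iff]
    intro v
    right
    rw [Place.ord_inv, Finsupp.zero_apply]
    have := hle v
    omega
  rw [s19n_L_zero hdeg Q₀, Submodule.mem_span_singleton] at hinv
  obtain ⟨a, ha⟩ := hinv
  apply hf
  rw [Submodule.mem_span_singleton]
  refine ⟨a⁻¹, ?_⟩
  have ha0 : a ≠ 0 := by
    rintro rfl
    rw [zero_smul] at ha
    exact inv_ne_zero hf0 ha.symm
  rw [Algebra.smul_def, mul_one] at ha ⊢
  rw [map_inv₀, ha, inv_inv]

/-- **Riemann's theorem and one place give infinitely many places** (over an infinite constant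
field, all places of degree one). -/
theorem s19n_infinite_of_riemann [Infinite k] {g : ℕ} (hR : s19_Riemann k Fb g)
    [HasPrincipalDivisors k Fb] (hdeg : ∀ Q : Place k Fb, Q.deg = 1) (Q₀ : Place k Fb) :
    Infinite (Place k Fb) := by
  obtain ⟨c, hc⟩ := hR.large
  -- a non-constant function
  set n : ℕ := (max c ((g : ℤ) + 1)).toNat with hn
  have hn1 : c ≤ (n : ℤ) := by
    rw [hn, Int.toNat_of_nonneg (le_trans (by positivity) (le_max_right _ _))]
    exact le_max_left _ _
  have hn2 : (g : ℤ) + 1 ≤ (n : ℤ) := by
    rw [hn, Int.toNat_of_nonneg (le_trans (by positivity) (le_max_right _ _))]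
    exact le_max_right _ _
  set D : Divisor k Fb := Finsupp.single Q₀ (n : ℤ) with hD
  have hdegD : Divisor.degree D = n := by
    rw [hD, Divisor.degree_single, hdeg Q₀, Nat.cast_one, mul_one]
  have hfr := hc D (by rw [hdegD]; exact hn1)
  rw [hdegD] at hfr
  have hDnn : ∀ v, 0 ≤ D v := by
    intro v
    classical
    rw [hD, Finsupp.single_apply]
    split_ifs
    · exact Int.natCast_nonneg _
    · exact le_refl _
  have hle : Submodule.span k {(1 : Fb)} ≤ riemannRochSpace D := by
    rw [Submodule.span_le, Set.singleton_subset_iff]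
    exact s19n_one_mem hDnn
  have hne : Submodule.span k {(1 : Fb)} ≠ riemannRochSpace D := by
    intro heq
    have h1 : Module.finrank k ↥(Submodule.span k {(1 : Fb)}) = 1 :=
      finrank_span_singleton one_ne_zero
    rw [heq] at h1
    rw [h1] at hfr
    push_cast at hfr
    omega
  obtain ⟨w, hwD, hw1⟩ := SetLike.exists_of_lt (lt_of_le_of_ne hle hne)
  -- the zeros of `w - c`
  have hwc : ∀ a : k, w - algebraMap k Fb a ∉ Submodule.span k {(1 : Fb)} := by
    intro a ha
    apply hw1
    have h1 : algebraMap k Fb a ∈ Submodule.span k {(1 : Fb)} := by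
      rw [Submodule.mem_span_singleton]
      exact ⟨a, by rw [Algebra.smul_def, mul_one]⟩
    have := Submodule.add_mem _ ha h1
    rwa [sub_add_cancel] at this
  choose P hP using fun a : k => s19n_exists_zero hdeg Q₀ (hwc a)
  have hinj : Function.Injective P := by
    intro a b hab
    have h1 := hP a
    have h2 := hP b
    rw [hab] at h1
    exact ff_ord_sub_pos_unique (P b) h1 h2
  exact Infinite.of_injective P hinj

end Riemann

section Curve

variable {K F : Type*} [Field K] [Field F] [Algebra K F] [IsAlgClosed K]
  {k Fb : Type*} [Field k] [Field Fb] [Algebra k Fb]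
  {x : F} [FFGen K x] {A : ValuationSubring K} {π : ↥A →+* k}
  {O : ValuationSubring F} {red : ↥O →+* Fb} {r : Place K F → Place k Fb} {FW : Subring F}
  {l : ↥A} {g : ℕ}

/-- (a) the residue field of a curve with good reduction is algebraically closed. -/
theorem s19n_isAlgClosed_k (hC : s19_Curve x A π O red r FW l g) : IsAlgClosed k :=
  s19n_isAlgClosed_of_surjective A π hC.pi_surj

/-- the generic fibre has a place (otherwise `L(0) = F` would be finite-dimensional). -/
theorem s19n_nonempty_placeF (hC : s19_Curve x A π O red r FW l g) : Nonempty (Place K F) := by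
  by_contra hne
  rw [not_nonempty_iff] at hne
  have htop : riemannRochSpace (0 : Divisor K F) = ⊤ := by
    rw [eq_top_iff]
    intro f _
    rw [mem_riemannRochSpace_iff]
    intro v
    exact hne.elim v
  have hfin := hC.rrF.fin 0
  rw [htop] at hfin
  have hF : Module.Finite K F := Module.Finite.equiv (Submodule.topEquiv (R := K) (M := F))
  have halg : IsAlgebraic K x := Algebra.IsAlgebraic.isAlgebraic x
  exact (FFGen.transc (K := K) (x := x)) halg

/-- the special fibre has a place. -/
theorem s19n_nonempty_place (hC : s19_Curve x A π O red r FW l g) : Nonempty (Place k Fb) :=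
  (s19n_nonempty_placeF hC).map r

/-- (b) the special fibre has infinitely many places. -/
theorem s19n_infinite_places (hC : s19_Curve x A π O red r FW l g) : Infinite (Place k Fb) := by
  have := s19n_isAlgClosed_k hC
  have := hC.pdFb
  obtain ⟨Q₀⟩ := s19n_nonempty_place hC
  exact s19n_infinite_of_riemann hC.rrFb hC.degFb Q₀

/-- (c) `ρ` distinct places off a finite set. -/
theorem s19n_exists_fresh (hC : s19_Curve x A π O red r FW l g) (S : Finset (Place k Fb))
    (ρ : ℕ) : ∃ Q : Fin ρ → Place k Fb, Function.Injective Q ∧ ∀ j, Q j ∉ S := by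
  classical
  have := s19n_infinite_places hC
  have hinf : ((↑S : Set (Place k Fb))ᶜ).Infinite := S.finite_toSet.infinite_compl
  obtain ⟨T, hTsub, hTcard⟩ := hinf.exists_subset_card_eq ρ
  subst hTcard
  refine ⟨fun i => (T.equivFin.symm i : Place k Fb), ?_, ?_⟩
  · intro i j hij
    exact T.equivFin.symm.injective (Subtype.ext hij)
  · intro i hi
    have := hTsub (Finset.mem_coe.mpr (T.equivFin.symm i).2)
    exact this (Finset.mem_coe.mpr hi)

end Curve

/-- [NONSP] on the special fibre of a curve with good reduction: non-special systems of `g`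
distinct places off any finite set. -/
theorem s19n_nonSp_curve {K F k Fb : Type} [Field K] [Field F] [Algebra K F] [IsAlgClosed K]
    [Field k] [Field Fb] [Algebra k Fb] {x : F} [FFGen K x] {A : ValuationSubring K}
    {π : ↥A →+* k} {O : ValuationSubring F} {red : ↥O →+* Fb} {r : Place K F → Place k Fb}
    {FW : Subring F} {l : ↥A} {g : ℕ} (hC : s19_Curve x A π O red r FW l g)
    (S : Finset (Place k Fb)) :
    ∃ Q : Fin g → Place k Fb, Function.Injective Q ∧ (∀ i, Q i ∉ S) ∧
      Module.finrank k ↥(riemannRochSpace (∑ i, Finsupp.single (Q i) (1 : ℤ))) = 1 := by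
  have := s19n_isAlgClosed_k hC
  exact s19n_nonSp g hC.rrFb hC.pdFb hC.degFb (s19n_infinite_places hC) S

end Fermat.Agent.Lib.S19
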