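/-
W-A programme (S19/S32), contract [INF] `s19_Inf` (IfaceEng.lean; helper7, prefix `s19n_`):
the special fibre of an abstract curve with good reduction has an algebraically closed constant
field and infinitely many places.  (Proofs in NPlaces.lean.)
-/
import Fermat.Agent.Lib.S19.IfaceEng
import Fermat.Agent.Lib.S19.NPlaces

set_option autoImplicit false

namespace Fermat.Agent.Lib.S19

/-- **[INF]** -/
theorem s19n_inf : s19_Inf := by
  intro K F k Fb _ _ _ _ _ _ _ x _ A π O red r FW l g hC
  exact ⟨s19n_isAlgClosed_k hC, s19n_infinite_places hC⟩

end Fermat.Agent.Lib.S19
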