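/-
W-A programme (S19/S32), brick [ORDER] (helper4, prefix `s19c_`): the cut of [ORDER] into
[FULL]+K5 (a closed contract, `s19c_K5Full`) and the order itself (`COrder*.lean`).

`Ξ` = a finite Galois set, `R̃ = s19c_Rt A Ξ` = the `W`-algebra of `I_v`-equivariant functions
`Ξ → ↥A`.  [FULL]+K5: if `σ` is a point-separating family in `R̃`, then
`𝒜(σ) ∩ R̃ = W[σ]`.
-/
import Fermat.Agent.Lib.S19.IfaceLocal

set_option autoImplicit false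

noncomputable section

namespace Fermat.Agent.Lib.S19

/-- the `W`-algebra `R̃` of `I_v`-equivariant functions `Ξ → ↥A` on a Galois set `Ξ`. -/
def s19c_Rt (A : ValuationSubring s19_Qbar) (Ξ : Type) [MulAction s19_Gal Ξ] :
    Subalgebra ↥(s19_WA A) (Ξ → ↥A) where
  carrier := {φ | ∀ τ ∈ A.inertiaSubgroupIn ℚ, ∀ ξ : Ξ,
    ((φ (τ • ξ) : ↥A) : s19_Qbar) = τ ((φ ξ : ↥A) : s19_Qbar)}
  mul_mem' := fun {φ ψ} hφ hψ τ hτ ξ => by
    simp only [Pi.mul_apply, MulMemClass.coe_mul, map_mul, hφ τ hτ ξ, hψ τ hτ ξ]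
  add_mem' := fun {φ ψ} hφ hψ τ hτ ξ => by
    simp only [Pi.add_apply, AddMemClass.coe_add, map_add, hφ τ hτ ξ, hψ τ hτ ξ]
  algebraMap_mem' := fun w τ hτ ξ => (s19_mem_WA.mp w.2 τ hτ).symm

theorem s19c_mem_Rt {A : ValuationSubring s19_Qbar} {Ξ : Type} [MulAction s19_Gal Ξ]
    {φ : Ξ → ↥A} : φ ∈ s19c_Rt A Ξ ↔ ∀ τ ∈ A.inertiaSubgroupIn ℚ, ∀ ξ : Ξ,
      ((φ (τ • ξ) : ↥A) : s19_Qbar) = τ ((φ ξ : ↥A) : s19_Qbar) := Iff.rfl

/-- [FULL]+K5: on a finite Galois set, for a point-separating family `σ` of `I_v`-equivariant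
`A`-valued functions, every `I_v`-equivariant element of the closure ring `𝒜(σ)` is a
`W`-polynomial in `σ`.  (`A` of rank one: every nonzero element divides a power of `ℓ`.) -/
def s19c_K5Full : Prop :=
  ∀ (ℓ : ℕ) [Fact ℓ.Prime] (A : ValuationSubring s19_Qbar) (l : ↥A),
    ((l : ↥A) : s19_Qbar) = (ℓ : s19_Qbar) → (∀ d : ↥A, d ≠ 0 → ∃ m : ℕ, d ∣ l ^ m) →
    ∀ (Ξ : Type) [Finite Ξ] [MulAction s19_Gal Ξ] (κ : Type) (σ : κ → Ξ → ↥A),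
      (∀ k, σ k ∈ s19c_Rt A Ξ) → (∀ ξ η : Ξ, ξ ≠ η → ∃ k, σ k ξ ≠ σ k η) →
      ∀ φ ∈ s19_cl l (s19_WA A) σ, φ ∈ s19c_Rt A Ξ →
        φ ∈ Algebra.adjoin ↥(s19_WA A) (Set.range σ)

end Fermat.Agent.Lib.S19
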