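/-
W-A programme (S19/S32), contract [ORDER] part 1 (helper7, prefix `s19o_`): [FULL] and the K5
wiring on a finite inertia-set.

`A ⊆ ℚ̄` a valuation ring, `I` its inertia group, `W = A ∩ ℚ̄^I`, `Ξ` a finite set with maps
`ρ τ : Ξ → Ξ` (`τ ∈ I`, surjective), `R̃ = s19o_Rt A ρ` the `W`-algebra of equivariant functions
`Ξ → A` (`φ (ρ τ ξ) = τ (φ ξ)`).
* `s19o_exists_matrix` : distinct characters of a monoid have an invertible evaluation matrix
  (Dedekind);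
* `s19o_full` ([FULL]) : a `W`-subalgebra `R ≤ R̃` separating the points of `Ξ` contains
  `l ^ m₀ • R̃` (`A` of rank one: every nonzero element divides a power of `l`);
* `s19o_core` : hence `𝒜(σ) ∩ R̃ ⊆ W[σ]` for equivariant `σ` separating points (K5).
-/
import Fermat.Agent.Lib.S19.IfaceLocal
import Fermat.Agent.Lib.S19.ClosInv

set_option autoImplicit false

noncomputable section

namespace Fermat.Agent.Lib.S19

open IsLocalRing

/-- **Dedekind**: distinct characters of a monoid have an invertible evaluation matrix. -/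
theorem s19o_exists_matrix {Ξ : Type*} [Fintype Ξ] [DecidableEq Ξ] {M : Type*} [Monoid M]
    {E : Type*} [Field E] (χ : Ξ → M →* E) (hχ : Function.Injective χ) :
    ∃ r : Ξ → M, IsUnit (Matrix.of fun ξ j => χ ξ (r j)).det := by
  classical
  set v : M → Ξ → E := fun r ξ => χ ξ r with hv
  have hspan : Submodule.span E (Set.range v) = ⊤ := by
    by_contra hne
    obtain ⟨f, hf0, hfker⟩ := Submodule.exists_le_ker_of_lt_top _ (lt_top_iff_ne_top.mpr hne)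
    apply hf0
    have hli : LinearIndependent E (fun ξ => ((χ ξ : M →* E) : M → E)) :=
      (linearIndependent_monoidHom M E).comp χ hχ
    rw [Fintype.linearIndependent_iff] at hli
    have hc := hli (fun ξ => f (Pi.single ξ 1)) (by
      funext r
      have h1 : f (v r) = 0 := hfker (Submodule.subset_span ⟨r, rfl⟩)
      have h2 : v r = ∑ ξ, (χ ξ r) • (Pi.single ξ (1 : E) : Ξ → E) := by
        funext ξ'
        rw [Finset.sum_apply]
        simp only [Pi.smul_apply, Pi.single_apply, smul_eq_mul, mul_ite, mul_one, mul_zero]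
        rw [Finset.sum_ite_eq Finset.univ ξ', if_pos (Finset.mem_univ _)]
      rw [h2, map_sum] at h1
      rw [Finset.sum_apply, Pi.zero_apply, ← h1]
      refine Finset.sum_congr rfl fun ξ _ => ?_
      rw [map_smul, Pi.smul_apply, smul_eq_mul, smul_eq_mul, mul_comm])
    apply LinearMap.pi_ext
    intro ξ c
    have : (Pi.single ξ c : Ξ → E) = c • Pi.single ξ (1 : E) := by
      rw [← Pi.single_smul, smul_eq_mul, mul_one]
    rw [this, map_smul, hc ξ, smul_zero, LinearMap.zero_apply]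
  obtain ⟨T, hTsub, hTspan, hTli⟩ := exists_linearIndependent E (Set.range v)
  rw [hspan] at hTspan
  let bT : Module.Basis T E (Ξ → E) :=
    Module.Basis.mk hTli (by rw [Subtype.range_coe]; exact hTspan.ge)
  let e : Ξ ≃ T := (Pi.basisFun E Ξ).indexEquiv bT
  have hpre : ∀ j : Ξ, ∃ r : M, v r = ((e j : T) : Ξ → E) := fun j => hTsub (e j).2
  choose r hr using hpre
  refine ⟨r, ?_⟩
  rw [← Matrix.isUnit_iff_isUnit_det, ← Matrix.linearIndependent_cols_iff_isUnit]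
  have hcol : (Matrix.of fun ξ j => χ ξ (r j)).col = fun j => ((e j : T) : Ξ → E) := by
    funext j
    rw [← hr j]
    rfl
  rw [hcol]
  exact hTli.comp e e.injective

variable (A : ValuationSubring s19_Qbar)

/-- **the equivariant functions** on a set `Ξ` with maps `ρ τ`. -/
def s19o_Rt {Ξ : Type*} (ρ : s19_Gal → Ξ → Ξ) : Subalgebra ↥(s19_WA A) (Ξ → ↥A) where
  carrier := {φ | ∀ τ ∈ A.inertiaSubgroupIn ℚ, ∀ ξ,
    ((φ (ρ τ ξ) : ↥A) : s19_Qbar) = τ ((φ ξ : ↥A) : s19_Qbar)}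
  mul_mem' := fun {φ ψ} h h' τ hτ ξ => by
    rw [Pi.mul_apply, Pi.mul_apply]
    push_cast
    rw [h τ hτ ξ, h' τ hτ ξ, map_mul]
  add_mem' := fun {φ ψ} h h' τ hτ ξ => by
    rw [Pi.add_apply, Pi.add_apply]
    push_cast
    rw [h τ hτ ξ, h' τ hτ ξ, map_add]
  algebraMap_mem' := fun w τ hτ ξ => ((s19_mem_WA.mp w.2) τ hτ).symm

theorem s19o_mem_Rt {Ξ : Type*} {ρ : s19_Gal → Ξ → Ξ} {φ : Ξ → ↥A} :
    φ ∈ s19o_Rt A ρ ↔ ∀ τ ∈ A.inertiaSubgroupIn ℚ, ∀ ξ,
      ((φ (ρ τ ξ) : ↥A) : s19_Qbar) = τ ((φ ξ : ↥A) : s19_Qbar) := Iff.rfl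

variable {A} in
/-- **[FULL]** -/
theorem s19o_full (l : ↥A) (hrk : ∀ d : ↥A, d ≠ 0 → ∃ m : ℕ, d ∣ l ^ m)
    (hl : ∀ τ ∈ A.inertiaSubgroupIn ℚ, τ ((l : ↥A) : s19_Qbar) = ((l : ↥A) : s19_Qbar))
    {Ξ : Type*} [Finite Ξ] (ρ : s19_Gal → Ξ → Ξ)
    (hρ : ∀ τ ∈ A.inertiaSubgroupIn ℚ, Function.Surjective (ρ τ))
    (R : Subalgebra ↥(s19_WA A) (Ξ → ↥A)) (hR : R ≤ s19o_Rt A ρ)
    (hsep : ∀ ξ ξ' : Ξ, ξ ≠ ξ' → ∃ r ∈ R, r ξ ≠ r ξ') :
    ∃ m₀ : ℕ, ∀ φ ∈ s19o_Rt A ρ, (fun ξ => l ^ m₀ * φ ξ) ∈ R := by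
  classical
  have : Fintype Ξ := Fintype.ofFinite Ξ
  -- the characters
  let χ : Ξ → ↥R →* s19_Qbar := fun ξ =>
    { toFun := fun r => (((r : Ξ → ↥A) ξ : ↥A) : s19_Qbar)
      map_one' := rfl
      map_mul' := fun a b => rfl }
  have hχ : Function.Injective χ := by
    intro ξ ξ' h
    by_contra hne
    obtain ⟨r, hr, hrne⟩ := hsep ξ ξ' hne
    apply hrne
    have := congrArg (fun f : ↥R →* s19_Qbar => f ⟨r, hr⟩) h
    exact Subtype.ext this
  obtain ⟨r, hB⟩ := s19o_exists_matrix χ hχ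
  set BA : Matrix Ξ Ξ ↥A := Matrix.of fun ξ j => ((r j : ↥R) : Ξ → ↥A) ξ with hBA
  set B : Matrix Ξ Ξ s19_Qbar := Matrix.of fun ξ j => χ ξ (r j) with hBdef
  have hBmap : B = BA.map A.subtype := rfl
  have hdet : B.det = ((BA.det : ↥A) : s19_Qbar) := by
    rw [hBmap]
    have := RingHom.map_det A.subtype BA
    rw [RingHom.mapMatrix_apply] at this
    exact this.symm
  have hd0 : BA.det ≠ 0 := by
    intro h0
    rw [hdet, h0] at hB
    exact not_isUnit_zero hB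
  obtain ⟨m₀, d', hd'⟩ := hrk BA.det hd0
  refine ⟨m₀, fun φ hφ => ?_⟩
  set φQ : Ξ → s19_Qbar := fun ξ => ((φ ξ : ↥A) : s19_Qbar) with hφQ
  set c : Ξ → s19_Qbar := B⁻¹.mulVec φQ with hc
  have hBc : B.mulVec c = φQ := by
    rw [hc, Matrix.mulVec_mulVec, Matrix.mul_nonsing_inv _ hB, Matrix.one_mulVec]
  -- invariance of the coefficients
  have hinv : ∀ τ ∈ A.inertiaSubgroupIn ℚ, ∀ j, τ (c j) = c j := by
    intro τ hτ
    have h1 : B.mulVec (fun j => τ (c j)) = B.mulVec c := by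
      funext ξ'
      obtain ⟨ξ, rfl⟩ := hρ τ hτ ξ'
      have hrow : ∀ j, B (ρ τ ξ) j = τ (B ξ j) := fun j => hR (r j).2 τ hτ ξ
      rw [hBc]
      show ∑ j, B (ρ τ ξ) j * τ (c j) = φQ (ρ τ ξ)
      rw [Finset.sum_congr rfl fun j _ => by rw [hrow j, ← map_mul]]
      rw [← map_sum]
      have h2 : ∑ j, B ξ j * c j = φQ ξ := congrFun hBc ξ
      rw [h2]
      exact (hφ τ hτ ξ).symm
    have h2 := congrArg (B⁻¹.mulVec) h1
    rw [Matrix.mulVec_mulVec, Matrix.mulVec_mulVec, Matrix.nonsing_inv_mul _ hB,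
      Matrix.one_mulVec, Matrix.one_mulVec] at h2
    exact fun j => congrFun h2 j
  -- integrality of `det • c`
  set a : Ξ → ↥A := BA.adjugate.mulVec φ with ha
  have hadj : B.adjugate = BA.adjugate.map A.subtype := by
    rw [hBmap]
    have := RingHom.map_adjugate A.subtype BA
    rw [RingHom.mapMatrix_apply, RingHom.mapMatrix_apply] at this
    exact this.symm
  have hac : ∀ j, ((a j : ↥A) : s19_Qbar) = B.det * c j := by
    intro j
    have h1 : B.det • c = B.adjugate.mulVec φQ := by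
      rw [hc, Matrix.inv_def, Matrix.smul_mulVec, smul_smul, Ring.mul_inverse_cancel _ hB,
        one_smul]
    have h2 := congrFun h1 j
    rw [Pi.smul_apply, smul_eq_mul] at h2
    rw [h2, hadj, ha]
    show ((∑ k, BA.adjugate j k * φ k : ↥A) : s19_Qbar) = ∑ k, _
    push_cast
    rfl
  -- the coefficients `l ^ m₀ * c j` are in `W`
  have hwc : ∀ j, (((d' * a j : ↥A)) : s19_Qbar) = ((l : ↥A) : s19_Qbar) ^ m₀ * c j := by
    intro j
    push_cast
    rw [hac j, hdet, ← mul_assoc, mul_comm ((d' : ↥A) : s19_Qbar), ← A.coe_mul, ← hd']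
    push_cast
    rfl
  have hwW : ∀ j, d' * a j ∈ s19_WA A := by
    intro j
    rw [s19_mem_WA]
    intro τ hτ
    rw [hwc j, map_mul, map_pow, hl τ hτ, hinv τ hτ j]
  have hsum : (fun ξ => l ^ m₀ * φ ξ) =
      ∑ j, (⟨d' * a j, hwW j⟩ : ↥(s19_WA A)) • ((r j : ↥R) : Ξ → ↥A) := by
    funext ξ
    apply Subtype.ext
    rw [Finset.sum_apply]
    have h3 : ((l ^ m₀ * φ ξ : ↥A) : s19_Qbar) = ((l : ↥A) : s19_Qbar) ^ m₀ * φQ ξ := by
      push_cast; rfl
    rw [h3, ← hBc]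
    show _ = ((∑ j, (d' * a j) * ((r j : ↥R) : Ξ → ↥A) ξ : ↥A) : s19_Qbar)
    push_cast
    show ((l : ↥A) : s19_Qbar) ^ m₀ * ∑ j, B ξ j * c j = _
    rw [Finset.mul_sum]
    refine Finset.sum_congr rfl fun j _ => ?_
    have := hwc j
    push_cast at this
    rw [this]
    show _ = _ * B ξ j
    ring
  rw [hsum]
  exact Subalgebra.sum_mem _ fun j _ => Subalgebra.smul_mem _ (r j).2 _

variable {A} in
/-- **K5 on a finite inertia-set**: an equivariant function of the closure ring of equivariant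
generators separating points is a `W`-polynomial in the generators. -/
theorem s19o_core (l : ↥A) (hl0 : l ≠ 0) (hrk : ∀ d : ↥A, d ≠ 0 → ∃ m : ℕ, d ∣ l ^ m)
    (hl : ∀ τ ∈ A.inertiaSubgroupIn ℚ, τ ((l : ↥A) : s19_Qbar) = ((l : ↥A) : s19_Qbar))
    {Ξ : Type} [Finite Ξ] (ρ : s19_Gal → Ξ → Ξ)
    (hρ : ∀ τ ∈ A.inertiaSubgroupIn ℚ, Function.Surjective (ρ τ))
    {ι : Type} (σ : ι → Ξ → ↥A) (hσ : ∀ i, σ i ∈ s19o_Rt A ρ)
    (hsep : ∀ ξ ξ' : Ξ, ξ ≠ ξ' → ∃ i, σ i ξ ≠ σ i ξ')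
    (φ : Ξ → ↥A) (hφ : φ ∈ s19_cl l (s19_WA A) σ) (hφR : φ ∈ s19o_Rt A ρ) :
    φ ∈ Algebra.adjoin ↥(s19_WA A) (Set.range σ) := by
  have hR : Algebra.adjoin ↥(s19_WA A) (Set.range σ) ≤ s19o_Rt A ρ :=
    Algebra.adjoin_le (by rintro _ ⟨i, rfl⟩; exact hσ i)
  refine s19a_closOrder l (s19_WA A) σ _ (s19o_Rt A ρ) hR
    (fun i => Algebra.subset_adjoin (Set.mem_range_self i)) ?_ ?_ φ hφ hφR
  · refine s19o_full l hrk hl ρ hρ _ hR fun ξ ξ' hne => ?_
    obtain ⟨i, hi⟩ := hsep ξ ξ' hne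
    exact ⟨σ i, Algebra.subset_adjoin (Set.mem_range_self i), hi⟩
  · intro ψ hψ τ hτ ξ
    have h1 := hψ τ hτ ξ
    simp only at h1
    push_cast at h1
    rw [map_mul, hl τ hτ] at h1
    have hl0' : ((l : ↥A) : s19_Qbar) ≠ 0 := fun h => hl0 (Subtype.ext h)
    exact mul_left_cancel₀ hl0' h1

end Fermat.Agent.Lib.S19
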