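/-
W-A programme (S19/S32), brick [ORDER]: helper4's contract `s19c_K5Full` (`CFullIface.lean`),
delivered from `s19o_core` (`OOrderFull.lean`) with `ρ τ ξ := τ • ξ`.
-/
import Fermat.Agent.Lib.S19.CFullIface
import Fermat.Agent.Lib.S19.OOrderFull

set_option autoImplicit false

noncomputable section

namespace Fermat.Agent.Lib.S19

theorem s19o_K5Full : s19c_K5Full := by
  intro ℓ _ A l hlℓ hrk Ξ _ _ κ σ hσ hsep φ hφ hφR
  have hl0 : l ≠ 0 := by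
    intro h
    have h1 : ((l : ↥A) : s19_Qbar) = 0 := by rw [h]; rfl
    rw [hlℓ] at h1
    exact (Nat.cast_ne_zero.mpr (Fact.out : ℓ.Prime).ne_zero) h1
  have hl : ∀ τ ∈ A.inertiaSubgroupIn ℚ, τ ((l : ↥A) : s19_Qbar) = ((l : ↥A) : s19_Qbar) := by
    intro τ _
    rw [hlℓ, map_natCast]
  exact s19o_core l hl0 hrk hl (Ξ := Ξ) (fun τ ξ => τ • ξ)
    (fun τ _ ξ => ⟨τ⁻¹ • ξ, by simp⟩) σ (fun i => hσ i) hsep φ hφ hφR

end Fermat.Agent.Lib.S19
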