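/-
W-A programme (S19), brick G1.3 [BC], part 1 (helper2, prefix `s19b_`): CONSTANT-FIELD BASE CHANGE
INSIDE `q`-EXPANSION FIELDS, the linear half.

`K ⊆ K'` fields, `ι = coeffMap (algebraMap K K') : K((q)) → K'((q))` the coefficientwise extension,
`𝔉 ⊆ K((q))` a subfield containing `K`, `𝔉' = K'(ι 𝔉) ⊆ K'((q))`.  Constants act by multiplication
with `s19b_C c = algebraMap K' K'((q)) c` (no `•` on Laurent series: the two scalar actions of Mathlib
on `LaurentSeries` are not reducibly equal).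

* `s19b_retr lam` : for a `K`-linear functional `lam : K' → K`, the coefficientwise map
  `K'((q)) → K((q))`, with `s19b_retr lam (C c * ι y) = C (lam c) * y`;
* `s19b_indep` : elements of `K'` linearly independent over `K` are linearly independent over
  `ι K((q))`;
* **`s19b_mem_span`** : `K'/K` algebraic ⇒ every element of `𝔉'` is a finite sum `∑ C cᵢ * ι fᵢ`,
  `fᵢ ∈ 𝔉` (the `K'`-span of `ι 𝔉` is already a field);
* **`s19b_descent`** : `ι y ∈ 𝔉'` ⇒ `y ∈ 𝔉`  (`𝔉' ∩ K((q)) = 𝔉`).
-/
import Mathlib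
import Fermat.Prelude.Def_ModularCurve_LaurentCoeff

set_option autoImplicit false
set_option linter.unusedSectionVars false
set_option linter.style.haveILetI false

noncomputable section

namespace Fermat.Agent.Lib.S19

open ModularCurve HahnSeries

variable {K K' : Type*} [Field K] [Field K'] [Algebra K K']

/-- the coefficientwise extension `K((q)) → K'((q))`. -/
abbrev s19b_iota : LaurentSeries K →+* LaurentSeries K' := coeffMap (algebraMap K K')

/-- the constant series. -/
abbrev s19b_C (c : K) : LaurentSeries K := algebraMap K (LaurentSeries K) c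

theorem s19b_iota_injective : Function.Injective (s19b_iota (K := K) (K' := K')) := by
  intro x y hxy
  ext n
  apply (algebraMap K K').injective
  have := congrArg (fun z : LaurentSeries K' => z.coeff n) hxy
  simpa using this

theorem s19b_iota_coeff (y : LaurentSeries K) (n : ℤ) :
    (s19b_iota (K' := K') y).coeff n = algebraMap K K' (y.coeff n) := rfl

/-- constants go to constants. -/
theorem s19b_iota_C (a : K) :
    s19b_iota (K' := K') (s19b_C a) = s19b_C (algebraMap K K' a) := by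
  rw [s19b_C, s19b_C, algebraMap_laurentSeries_eq_single, algebraMap_laurentSeries_eq_single]
  exact coeffMap_single _ _ _

theorem s19b_C_mul_coeff (c : K) (x : LaurentSeries K) (n : ℤ) :
    (s19b_C c * x).coeff n = c * x.coeff n := by
  rw [s19b_C, algebraMap_laurentSeries_eq_single]
  have : (HahnSeries.single (0 : ℤ) c : LaurentSeries K) = HahnSeries.C c := rfl
  rw [this, HahnSeries.C_mul_eq_smul, HahnSeries.coeff_smul, smul_eq_mul]

theorem s19b_sum_coeff {ι : Type*} (s : Finset ι) (x : ι → LaurentSeries K) (n : ℤ) :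
    (∑ i ∈ s, x i).coeff n = ∑ i ∈ s, (x i).coeff n := by
  rw [← HahnSeries.coeff.addMonoidHom_apply, map_sum]
  rfl

/-! ### The coefficientwise retraction attached to a functional -/

/-- the coefficientwise map `K'((q)) → K((q))` attached to a `K`-linear functional on `K'`. -/
def s19b_retr (lam : K' →ₗ[K] K) : LaurentSeries K' →+ LaurentSeries K where
  toFun x := x.map lam
  map_zero' := by ext n; simp
  map_add' x y := by ext n; simp

@[simp]
theorem s19b_retr_coeff (lam : K' →ₗ[K] K) (x : LaurentSeries K') (n : ℤ) :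
    (s19b_retr lam x).coeff n = lam (x.coeff n) := rfl

theorem s19b_retr_C_mul_iota (lam : K' →ₗ[K] K) (c : K') (y : LaurentSeries K) :
    s19b_retr lam (s19b_C c * s19b_iota (K' := K') y) = s19b_C (lam c) * y := by
  ext n
  rw [s19b_retr_coeff, s19b_C_mul_coeff, s19b_C_mul_coeff, s19b_iota_coeff]
  have h1 : c * algebraMap K K' (y.coeff n) = y.coeff n • c := by
    rw [Algebra.smul_def, mul_comm]
  rw [h1, map_smul, smul_eq_mul, mul_comm]

theorem s19b_retr_sum_C_mul_iota (lam : K' →ₗ[K] K) {ι : Type*} (s : Finset ι) (c : ι → K')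
    (y : ι → LaurentSeries K) :
    s19b_retr lam (∑ i ∈ s, s19b_C (c i) * s19b_iota (K' := K') (y i)) =
      ∑ i ∈ s, s19b_C (lam (c i)) * y i := by
  rw [map_sum]
  exact Finset.sum_congr rfl fun i _ => s19b_retr_C_mul_iota lam (c i) (y i)

/-- `s19b_retr lam (C c * x) = s19b_retr (lam ∘ (c * ·)) x`. -/
theorem s19b_retr_C_mul (lam : K' →ₗ[K] K) (c : K') (x : LaurentSeries K') :
    s19b_retr lam (s19b_C c * x) = s19b_retr (lam.comp (LinearMap.mulLeft K c)) x := by
  ext n
  rw [s19b_retr_coeff, s19b_retr_coeff, s19b_C_mul_coeff]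
  rfl

/-- a functional which is a retraction of `K → K'`. -/
theorem s19b_exists_retraction :
    ∃ lam : K' →ₗ[K] K, ∀ a : K, lam (algebraMap K K' a) = a := by
  obtain ⟨g, hg⟩ := LinearMap.exists_leftInverse_of_injective (Algebra.linearMap K K')
    (LinearMap.ker_eq_bot.mpr (FaithfulSMul.algebraMap_injective K K'))
  exact ⟨g, fun a => by
    have := congrArg (fun f : K →ₗ[K] K => f a) hg
    simpa using this⟩

theorem s19b_retr_iota (lam : K' →ₗ[K] K) (hlam : ∀ a : K, lam (algebraMap K K' a) = a)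
    (y : LaurentSeries K) : s19b_retr lam (s19b_iota (K' := K') y) = y := by
  ext n
  rw [s19b_retr_coeff, s19b_iota_coeff, hlam]

/-- functionals separate the points of `K'`. -/
theorem s19b_eq_zero_of_forall_functional (c : K') (h : ∀ lam : K' →ₗ[K] K, lam c = 0) : c = 0 :=
  (Module.forall_dual_apply_eq_zero_iff K c).mp h

/-- **linear disjointness**: a `K'`-combination of elements of `ι K((q))` with `K`-independent
coefficients vanishes only if all the series vanish. -/
theorem s19b_indep {ι : Type*} [Fintype ι] (c : ι → K') (hc : LinearIndependent K c)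
    (y : ι → LaurentSeries K) (h : ∑ i, s19b_C (c i) * s19b_iota (K' := K') (y i) = 0) :
    ∀ i, y i = 0 := by
  intro i
  ext n
  have h1 := congrArg (fun z : LaurentSeries K' => z.coeff n) h
  simp only [HahnSeries.coeff_zero] at h1
  have h2 : ∑ j, (y j).coeff n • c j = 0 := by
    rw [← h1, s19b_sum_coeff]
    refine Finset.sum_congr rfl fun j _ => ?_
    rw [s19b_C_mul_coeff, s19b_iota_coeff, Algebra.smul_def, mul_comm]
  have := Fintype.linearIndependent_iff.mp hc (fun j => (y j).coeff n) h2 i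
  simpa using this

/-! ### The span of `ι 𝔉` -/

section Span

variable (𝔉 : IntermediateField K (LaurentSeries K))

/-- the `K'`-span of `ι 𝔉` in `K'((q))`, as a set of explicit finite sums. -/
def s19b_spanF : Set (LaurentSeries K') :=
  {x | ∃ (n : ℕ) (c : Fin n → K') (f : Fin n → LaurentSeries K),
    (∀ i, f i ∈ 𝔉) ∧ x = ∑ i, s19b_C (c i) * s19b_iota (K' := K') (f i)}

theorem s19b_iota_mem_spanF {f : LaurentSeries K} (hf : f ∈ 𝔉) :
    s19b_iota (K' := K') f ∈ s19b_spanF (K' := K') 𝔉 :=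
  ⟨1, fun _ => 1, fun _ => f, fun _ => hf, by simp [s19b_C]⟩

theorem s19b_zero_mem_spanF : (0 : LaurentSeries K') ∈ s19b_spanF (K' := K') 𝔉 :=
  ⟨0, Fin.elim0, Fin.elim0, fun i => i.elim0, by simp⟩

theorem s19b_add_mem_spanF {x y : LaurentSeries K'} (hx : x ∈ s19b_spanF (K' := K') 𝔉)
    (hy : y ∈ s19b_spanF (K' := K') 𝔉) : x + y ∈ s19b_spanF (K' := K') 𝔉 := by
  obtain ⟨n, c, f, hf, rfl⟩ := hx
  obtain ⟨m, d, g, hg, rfl⟩ := hy
  refine ⟨n + m, Fin.append c d, Fin.append f g, ?_, ?_⟩
  · intro i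
    refine Fin.addCases (fun i => ?_) (fun i => ?_) i
    · rw [Fin.append_left]; exact hf i
    · rw [Fin.append_right]; exact hg i
  · rw [Fin.sum_univ_add]
    simp only [Fin.append_left, Fin.append_right]

theorem s19b_C_mul_mem_spanF (a : K') {x : LaurentSeries K'}
    (hx : x ∈ s19b_spanF (K' := K') 𝔉) : s19b_C a * x ∈ s19b_spanF (K' := K') 𝔉 := by
  obtain ⟨n, c, f, hf, rfl⟩ := hx
  refine ⟨n, fun i => a * c i, f, hf, ?_⟩
  rw [Finset.mul_sum]
  refine Finset.sum_congr rfl fun i _ => ?_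
  rw [s19b_C, s19b_C, s19b_C, map_mul, mul_assoc]

theorem s19b_sum_mem_spanF {ι : Type*} (s : Finset ι) (x : ι → LaurentSeries K')
    (hx : ∀ i ∈ s, x i ∈ s19b_spanF (K' := K') 𝔉) :
    ∑ i ∈ s, x i ∈ s19b_spanF (K' := K') 𝔉 := by
  classical
  induction s using Finset.induction_on with
  | empty => rw [Finset.sum_empty]; exact s19b_zero_mem_spanF 𝔉
  | insert a s ha ih =>
    rw [Finset.sum_insert ha]
    exact s19b_add_mem_spanF 𝔉 (hx a (Finset.mem_insert_self a s))
      (ih fun i hi => hx i (Finset.mem_insert_of_mem hi))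

theorem s19b_iota_mul_mem_spanF {a : LaurentSeries K} (ha : a ∈ 𝔉) {x : LaurentSeries K'}
    (hx : x ∈ s19b_spanF (K' := K') 𝔉) :
    s19b_iota (K' := K') a * x ∈ s19b_spanF (K' := K') 𝔉 := by
  obtain ⟨n, c, f, hf, rfl⟩ := hx
  refine ⟨n, c, fun i => a * f i, fun i => 𝔉.mul_mem ha (hf i), ?_⟩
  rw [Finset.mul_sum]
  refine Finset.sum_congr rfl fun i _ => ?_
  rw [map_mul]
  ring

theorem s19b_mul_mem_spanF {x y : LaurentSeries K'} (hx : x ∈ s19b_spanF (K' := K') 𝔉)
    (hy : y ∈ s19b_spanF (K' := K') 𝔉) : x * y ∈ s19b_spanF (K' := K') 𝔉 := by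
  obtain ⟨n, c, f, hf, rfl⟩ := hx
  rw [Finset.sum_mul]
  refine s19b_sum_mem_spanF 𝔉 _ _ fun i _ => ?_
  rw [mul_assoc]
  exact s19b_C_mul_mem_spanF 𝔉 _ (s19b_iota_mul_mem_spanF 𝔉 (hf i) hy)

theorem s19b_one_mem_spanF : (1 : LaurentSeries K') ∈ s19b_spanF (K' := K') 𝔉 := by
  have := s19b_iota_mem_spanF (K' := K') 𝔉 (f := 1) 𝔉.one_mem
  rwa [map_one] at this

theorem s19b_const_mem_spanF (c : K') :
    s19b_C c ∈ s19b_spanF (K' := K') 𝔉 := by
  have := s19b_C_mul_mem_spanF 𝔉 c (s19b_one_mem_spanF (K' := K') 𝔉)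
  rwa [mul_one] at this

/-- the retractions map the span of `ι 𝔉` into `𝔉`. -/
theorem s19b_retr_mem_of_mem_spanF {x : LaurentSeries K'} (hx : x ∈ s19b_spanF (K' := K') 𝔉)
    (lam : K' →ₗ[K] K) : s19b_retr lam x ∈ 𝔉 := by
  obtain ⟨n, c, f, hf, rfl⟩ := hx
  rw [s19b_retr_sum_C_mul_iota]
  exact 𝔉.sum_mem fun i _ => 𝔉.mul_mem (𝔉.algebraMap_mem _) (hf i)

/-- the `𝔉`-algebra structure on `K'((q))` (through `ι`). -/
@[reducible] def s19b_algF : Algebra 𝔉 (LaurentSeries K') :=
  ((s19b_iota (K := K) (K' := K')).comp (algebraMap 𝔉 (LaurentSeries K))).toAlgebra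

/-- **the `K'`-span of `ι 𝔉` is the field `𝔉' = K'(ι 𝔉)`** (`K'/K` algebraic), hard inclusion. -/
theorem s19b_mem_span [Algebra.IsAlgebraic K K'] {x : LaurentSeries K'}
    (hx : x ∈ IntermediateField.adjoin K'
      (s19b_iota (K' := K') '' (𝔉 : Set (LaurentSeries K)))) :
    x ∈ s19b_spanF (K' := K') 𝔉 := by
  letI := s19b_algF (K' := K') 𝔉
  have halg : ∀ f : 𝔉, algebraMap 𝔉 (LaurentSeries K') f =
      s19b_iota (K' := K') (f : LaurentSeries K) := fun f => rfl
  -- constants are algebraic over `𝔉`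
  have h1 : ∀ c : K', IsAlgebraic 𝔉 (algebraMap K' (LaurentSeries K') c) := by
    intro c
    obtain ⟨p, hp0, hp⟩ := Algebra.IsAlgebraic.isAlgebraic (R := K) c
    refine ⟨p.map (algebraMap K 𝔉),
      (Polynomial.map_ne_zero_iff (algebraMap K 𝔉).injective).mpr hp0, ?_⟩
    have hcomp : (algebraMap 𝔉 (LaurentSeries K')).comp (algebraMap K 𝔉) =
        (algebraMap K' (LaurentSeries K')).comp (algebraMap K K') := by
      refine RingHom.ext fun a => ?_
      show s19b_iota (K' := K') ((algebraMap K 𝔉 a : 𝔉) : LaurentSeries K) = _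
      exact s19b_iota_C a
    rw [Polynomial.aeval_def, Polynomial.eval₂_map, hcomp, ← Polynomial.hom_eval₂,
      ← Polynomial.aeval_def, hp, map_zero]
  have h2 := IntermediateField.adjoin_toSubalgebra_of_isAlgebraic (F := 𝔉)
    (S := Set.range (algebraMap K' (LaurentSeries K')))
    (fun y hy => by obtain ⟨c, rfl⟩ := hy; exact h1 c)
  -- `x` lies in the field generated over `𝔉` by the constants
  have h3 : x ∈ IntermediateField.adjoin 𝔉 (Set.range (algebraMap K' (LaurentSeries K'))) := by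
    have hx' : x ∈ Subfield.closure (Set.range (algebraMap K' (LaurentSeries K')) ∪
        (s19b_iota (K' := K') '' (𝔉 : Set (LaurentSeries K)))) := hx
    have hle : Subfield.closure (Set.range (algebraMap K' (LaurentSeries K')) ∪
        (s19b_iota (K' := K') '' (𝔉 : Set (LaurentSeries K)))) ≤
        (IntermediateField.adjoin 𝔉
          (Set.range (algebraMap K' (LaurentSeries K')))).toSubfield := by
      rw [Subfield.closure_le]
      rintro y (hy | ⟨f, hf, rfl⟩)
      · exact IntermediateField.subset_adjoin 𝔉 _ hy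
      · exact (IntermediateField.adjoin 𝔉 _).algebraMap_mem (⟨f, hf⟩ : 𝔉)
    exact hle hx'
  have h4 : x ∈ Algebra.adjoin 𝔉 (Set.range (algebraMap K' (LaurentSeries K'))) := by
    rw [← h2]
    exact h3
  clear h3 hx
  induction h4 using Algebra.adjoin_induction with
  | mem y hy =>
    obtain ⟨c, rfl⟩ := hy
    exact s19b_const_mem_spanF 𝔉 c
  | algebraMap f =>
    rw [halg]
    exact s19b_iota_mem_spanF 𝔉 f.2
  | add y z _ _ hy hz => exact s19b_add_mem_spanF 𝔉 hy hz
  | mul y z _ _ hy hz => exact s19b_mul_mem_spanF 𝔉 hy hz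

/-- the easy inclusion. -/
theorem s19b_span_le {x : LaurentSeries K'} (hx : x ∈ s19b_spanF (K' := K') 𝔉) :
    x ∈ IntermediateField.adjoin K'
      (s19b_iota (K' := K') '' (𝔉 : Set (LaurentSeries K))) := by
  obtain ⟨n, c, f, hf, rfl⟩ := hx
  refine sum_mem fun i _ => mul_mem (IntermediateField.algebraMap_mem _ (c i)) ?_
  exact IntermediateField.subset_adjoin K' _ ⟨f i, hf i, rfl⟩

/-- **descent**: `𝔉' ∩ K((q)) = 𝔉`. -/
theorem s19b_descent [Algebra.IsAlgebraic K K'] (y : LaurentSeries K)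
    (hy : s19b_iota (K' := K') y ∈ IntermediateField.adjoin K'
      (s19b_iota (K' := K') '' (𝔉 : Set (LaurentSeries K)))) : y ∈ 𝔉 := by
  obtain ⟨lam, hlam⟩ := s19b_exists_retraction (K := K) (K' := K')
  have := s19b_retr_mem_of_mem_spanF 𝔉 (s19b_mem_span 𝔉 hy) lam
  rwa [s19b_retr_iota lam hlam] at this

end Span

end Fermat.Agent.Lib.S19

end
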