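/-
W-A programme (S19), brick G1.3 [BC], part 2 (helper2, prefix `s19b_`): CONSTANT-FIELD BASE CHANGE
INSIDE `q`-EXPANSION FIELDS, the integrality half.

`s19b_Int w z` : `z ∈ K((q))` is integral over `K[w]` (the convention of S37/KDescent:
`(Polynomial.aeval w : K[X] →ₐ[K] K((q))).toRingHom.IsIntegralElem z`).

* `s19b_Int_map`      : integrality is transported by `coeffMap ρ`;
* `s19b_Int_descent`  : `Ω/K` algebraic, `ι y` integral over `Ω[ι w]` ⇒ `y` integral over `K[w]`;
* `s19b_exists_trace_formula` : `K'/K` Galois (algebraic, possibly infinite): every functional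
  `lam : K' → K` is, on finitely many given elements, `c ↦ ∑ⱼ σⱼ (d * c)` with `σⱼ ∈ Gal(K'/K)`;
* **`s19b_retr_Int`** : `K'/K` Galois, `x = ∑ C cᵢ * ι yᵢ` integral over `K'[ι w]` ⇒
  `s19b_retr lam x` integral over `K[w]`, for EVERY functional `lam`;
* `s19b_exists_dual_family` : reconstruction `x = ∑ⱼ C bⱼ * ι (s19b_retr gⱼ x)` with `b` linearly
  independent over `K` and `g` a dual family of functionals.
-/
import Mathlib
import Fermat.Agent.Lib.S19.BBaseChange

set_option autoImplicit false
set_option linter.unusedSectionVars false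
set_option linter.style.haveILetI false

noncomputable section

namespace Fermat.Agent.Lib.S19

open ModularCurve HahnSeries Polynomial

/-- `z` is integral over `K[w]`. -/
abbrev s19b_Int {K : Type*} [Field K] (w z : LaurentSeries K) : Prop :=
  (Polynomial.aeval w : K[X] →ₐ[K] LaurentSeries K).toRingHom.IsIntegralElem z

/-! ### Generalities on ring homomorphisms -/

section RingHom

theorem s19b_isIntegralElem_trans {R S T : Type*} [CommRing R] [CommRing S] [CommRing T]
    (f : R →+* S) (g : S →+* T) (hf : f.IsIntegral) {x : T} (hx : g.IsIntegralElem x) :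
    (g.comp f).IsIntegralElem x := by
  letI := f.toAlgebra
  letI := g.toAlgebra
  letI := (g.comp f).toAlgebra
  haveI : IsScalarTower R S T := IsScalarTower.of_algebraMap_eq fun _ => rfl
  haveI : Algebra.IsIntegral R S := ⟨hf⟩
  exact isIntegral_trans x hx

theorem s19b_isIntegralElem_sum {R S : Type*} [CommRing R] [CommRing S] (f : R →+* S)
    {ι : Type*} (s : Finset ι) (x : ι → S) (hx : ∀ i ∈ s, f.IsIntegralElem (x i)) :
    f.IsIntegralElem (∑ i ∈ s, x i) := by
  classical
  induction s using Finset.induction_on with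
  | empty => rw [Finset.sum_empty]; exact f.isIntegralElem_zero
  | insert a s ha ih =>
    rw [Finset.sum_insert ha]
    exact RingHom.IsIntegralElem.add f (hx a (Finset.mem_insert_self a s))
      (ih fun i hi => hx i (Finset.mem_insert_of_mem hi))

/-- `Polynomial Ω` is integral over `K[X]` when `Ω/K` is algebraic. -/
theorem s19b_mapRingHom_isIntegral {K Ω : Type*} [Field K] [Field Ω] [Algebra K Ω]
    [Algebra.IsAlgebraic K Ω] : (Polynomial.mapRingHom (algebraMap K Ω)).IsIntegral := by
  intro p
  induction p using Polynomial.induction_on with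
  | C a =>
    have h1 : (algebraMap K Ω).IsIntegralElem a :=
      (Algebra.IsAlgebraic.isAlgebraic (R := K) a).isIntegral
    have h2 := h1.map (Polynomial.C : Ω →+* Polynomial Ω)
    have hcomp : (Polynomial.C : Ω →+* Polynomial Ω).comp (algebraMap K Ω) =
        (Polynomial.mapRingHom (algebraMap K Ω)).comp (Polynomial.C : K →+* K[X]) := by
      refine RingHom.ext fun b => ?_
      simp
    rw [hcomp] at h2
    exact h2.of_comp
  | add p q hp hq => exact RingHom.IsIntegralElem.add _ hp hq
  | monomial n a h =>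
    have hX : (Polynomial.mapRingHom (algebraMap K Ω)).IsIntegralElem (Polynomial.X : Polynomial Ω) := by
      have := (Polynomial.mapRingHom (algebraMap K Ω)).isIntegralElem_map (x := (Polynomial.X : K[X]))
      simpa using this
    rw [pow_succ, ← mul_assoc]
    exact RingHom.IsIntegralElem.mul _ h hX

end RingHom

/-! ### Transport of integrality along `coeffMap` -/

section CoeffMap

variable {k₀ k : Type*} [Field k₀] [Field k] (ρ : k₀ →+* k)

theorem s19b_coeffMap_C (c : k₀) : coeffMap ρ (s19b_C c) = s19b_C (ρ c) := by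
  rw [s19b_C, s19b_C, algebraMap_laurentSeries_eq_single, algebraMap_laurentSeries_eq_single]
  exact coeffMap_single _ _ _

theorem s19b_coeffMap_injective : Function.Injective (coeffMap ρ) := by
  intro x y hxy
  ext n
  apply ρ.injective
  have := congrArg (fun z : LaurentSeries k => z.coeff n) hxy
  simpa using this

/-- `coeffMap ρ (p(w₀)) = (ρ p)(coeffMap ρ w₀)`. -/
theorem s19b_coeffMap_comp_aeval (w₀ : LaurentSeries k₀) :
    (coeffMap ρ).comp (Polynomial.aeval w₀ : k₀[X] →ₐ[k₀] LaurentSeries k₀).toRingHom =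
      ((Polynomial.aeval (coeffMap ρ w₀) : k[X] →ₐ[k] LaurentSeries k).toRingHom).comp
        (Polynomial.mapRingHom ρ) := by
  refine Polynomial.ringHom_ext (fun a => ?_) ?_
  · simp only [RingHom.coe_comp, Function.comp_apply, AlgHom.toRingHom_eq_coe, RingHom.coe_coe,
      Polynomial.aeval_C, Polynomial.coe_mapRingHom, Polynomial.map_C]
    exact s19b_coeffMap_C ρ a
  · simp only [RingHom.coe_comp, Function.comp_apply, AlgHom.toRingHom_eq_coe, RingHom.coe_coe,
      Polynomial.aeval_X, Polynomial.coe_mapRingHom, Polynomial.map_X]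

/-- integrality is transported by `coeffMap ρ`. -/
theorem s19b_Int_map {w z : LaurentSeries k₀} (h : s19b_Int w z) :
    s19b_Int (coeffMap ρ w) (coeffMap ρ z) := by
  have h1 := RingHom.IsIntegralElem.map h (coeffMap ρ)
  rw [s19b_coeffMap_comp_aeval] at h1
  exact h1.of_comp

end CoeffMap

section Basic

variable {K : Type*} [Field K]

theorem s19b_Int_C (w : LaurentSeries K) (c : K) : s19b_Int w (s19b_C c) := by
  have h := (Polynomial.aeval w : K[X] →ₐ[K] LaurentSeries K).toRingHom.isIntegralElem_map
    (x := Polynomial.C c)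
  have e : (Polynomial.aeval w : K[X] →ₐ[K] LaurentSeries K).toRingHom (Polynomial.C c) =
      s19b_C c := by
    show Polynomial.aeval w (Polynomial.C c) = _
    rw [Polynomial.aeval_C]
  rwa [e] at h

theorem s19b_Int_self (w : LaurentSeries K) : s19b_Int w w := by
  have h := (Polynomial.aeval w : K[X] →ₐ[K] LaurentSeries K).toRingHom.isIntegralElem_map
    (x := Polynomial.X)
  have e : (Polynomial.aeval w : K[X] →ₐ[K] LaurentSeries K).toRingHom Polynomial.X = w := by
    show Polynomial.aeval w Polynomial.X = _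
    rw [Polynomial.aeval_X]
  rwa [e] at h

theorem s19b_Int_add {w x y : LaurentSeries K} (hx : s19b_Int w x) (hy : s19b_Int w y) :
    s19b_Int w (x + y) := RingHom.IsIntegralElem.add _ hx hy

theorem s19b_Int_mul {w x y : LaurentSeries K} (hx : s19b_Int w x) (hy : s19b_Int w y) :
    s19b_Int w (x * y) := RingHom.IsIntegralElem.mul _ hx hy

theorem s19b_Int_sum {w : LaurentSeries K} {ι : Type*} (s : Finset ι) (x : ι → LaurentSeries K)
    (hx : ∀ i ∈ s, s19b_Int w (x i)) : s19b_Int w (∑ i ∈ s, x i) :=
  s19b_isIntegralElem_sum _ s x hx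

end Basic

/-! ### Descent of integrality along an algebraic extension of the constants -/

section Descent

variable {K Ω : Type*} [Field K] [Field Ω] [Algebra K Ω]

theorem s19b_Int_descent [Algebra.IsAlgebraic K Ω] {w y : LaurentSeries K}
    (h : s19b_Int (s19b_iota (K' := Ω) w) (s19b_iota (K' := Ω) y)) : s19b_Int w y := by
  have h1 := s19b_isIntegralElem_trans (Polynomial.mapRingHom (algebraMap K Ω)) _
    s19b_mapRingHom_isIntegral h
  rw [← s19b_coeffMap_comp_aeval] at h1
  exact h1.of_map (s19b_coeffMap_injective _)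

end Descent

/-! ### The Galois case -/

section Galois

variable {K K' : Type*} [Field K] [Field K'] [Algebra K K']

/-- `Gal(K'/K)` acts trivially on `ι K((q))`. -/
theorem s19b_coeffMap_iota (σ : K' ≃ₐ[K] K') (y : LaurentSeries K) :
    coeffMap (σ : K' →+* K') (s19b_iota (K' := K') y) = s19b_iota (K' := K') y := by
  rw [s19b_iota, coeffMap_coeffMap]
  exact coeffMap_congr (RingHom.ext fun a => σ.commutes a) y

/-- **trace formula**: `K'/K` Galois.  On finitely many elements, a `K`-linear functional
`lam : K' → K` is a finite sum `c ↦ ∑ⱼ σⱼ (d * c)` of twisted automorphisms. -/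
theorem s19b_exists_trace_formula [IsGalois K K'] (lam : K' →ₗ[K] K) {n : ℕ} (c : Fin n → K') :
    ∃ (m : ℕ) (ρ : Fin m → (K' ≃ₐ[K] K')) (d : K'),
      ∀ i, algebraMap K K' (lam (c i)) = ∑ j, ρ j (d * c i) := by
  classical
  haveI : Finite (Set.range c) := Set.finite_range c
  let K₁ := FiniteGaloisIntermediateField.adjoin K (Set.range c)
  have hc : ∀ i, c i ∈ K₁.toIntermediateField := fun i =>
    FiniteGaloisIntermediateField.subset_adjoin K (Set.range c) ⟨i, rfl⟩
  let lam₁ : ↥K₁.toIntermediateField →ₗ[K] K :=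
    lam.comp K₁.toIntermediateField.val.toLinearMap
  have hB := traceForm_nondegenerate K ↥K₁.toIntermediateField
  let d₁ := ((Algebra.traceForm K ↥K₁.toIntermediateField).toDual hB).symm lam₁
  have hd : ∀ v : ↥K₁.toIntermediateField,
      Algebra.trace K ↥K₁.toIntermediateField (d₁ * v) = lam (v : K') := by
    intro v
    have := LinearMap.BilinForm.apply_toDual_symm_apply (hB := hB) lam₁ v
    rwa [Algebra.traceForm_apply] at this
  let e := Fintype.equivFin (↥K₁.toIntermediateField ≃ₐ[K] ↥K₁.toIntermediateField)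
  refine ⟨_, fun j => (e.symm j).liftNormal K', (d₁ : K'), fun i => ?_⟩
  rw [← hd ⟨c i, hc i⟩, IsScalarTower.algebraMap_apply K ↥K₁.toIntermediateField K',
    trace_eq_sum_automorphisms, map_sum, ← Equiv.sum_comp e.symm]
  refine Finset.sum_congr rfl fun j _ => ?_
  rw [← AlgEquiv.liftNormal_commutes]
  rfl

/-- **integrality descends along every functional**: `K'/K` Galois (algebraic, possibly
infinite), `x = ∑ C cᵢ * ι yᵢ` integral over `K'[ι w]` ⇒ `s19b_retr lam x` integral over `K[w]`. -/
theorem s19b_retr_Int [IsGalois K K'] (lam : K' →ₗ[K] K) {n : ℕ} (c : Fin n → K')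
    (y : Fin n → LaurentSeries K) (w : LaurentSeries K)
    (hint : s19b_Int (s19b_iota (K' := K') w)
      (∑ i, s19b_C (c i) * s19b_iota (K' := K') (y i))) :
    s19b_Int w (s19b_retr lam (∑ i, s19b_C (c i) * s19b_iota (K' := K') (y i))) := by
  obtain ⟨m, ρ, d, hρ⟩ := s19b_exists_trace_formula lam c
  apply s19b_Int_descent (Ω := K')
  have key : s19b_iota (K' := K')
      (s19b_retr lam (∑ i, s19b_C (c i) * s19b_iota (K' := K') (y i))) =
      ∑ j, coeffMap (ρ j : K' →+* K')
        (s19b_C d * ∑ i, s19b_C (c i) * s19b_iota (K' := K') (y i)) := by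
    rw [s19b_retr_sum_C_mul_iota, map_sum]
    have h1 : ∀ j, coeffMap (ρ j : K' →+* K')
        (s19b_C d * ∑ i, s19b_C (c i) * s19b_iota (K' := K') (y i)) =
        ∑ i, s19b_C (ρ j (d * c i)) * s19b_iota (K' := K') (y i) := by
      intro j
      rw [Finset.mul_sum, map_sum]
      refine Finset.sum_congr rfl fun i _ => ?_
      rw [← mul_assoc, map_mul, s19b_coeffMap_iota]
      congr 1
      rw [s19b_C, s19b_C, ← map_mul]
      exact s19b_coeffMap_C (ρ j : K' →+* K') (d * c i)
    simp only [h1]
    rw [Finset.sum_comm]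
    refine Finset.sum_congr rfl fun i _ => ?_
    rw [map_mul, s19b_iota_C, hρ i, ← Finset.sum_mul]
    congr 1
    rw [s19b_C, map_sum]
  rw [key]
  refine s19b_Int_sum _ _ fun j _ => ?_
  have h1 := s19b_Int_map (ρ j : K' →+* K') (s19b_Int_mul (s19b_Int_C _ d) hint)
  rwa [s19b_coeffMap_iota] at h1

end Galois

/-! ### Semilinearity, dual families and the packaged statement -/

section Package

variable {K K' : Type*} [Field K] [Field K'] [Algebra K K']

/-- `s19b_retr lam` is semilinear over `ι K((q))`. -/
theorem s19b_retr_iota_mul (lam : K' →ₗ[K] K) (u : LaurentSeries K) (x : LaurentSeries K') :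
    s19b_retr lam (s19b_iota (K' := K') u * x) = u * s19b_retr lam x := by
  ext n
  rw [s19b_retr_coeff]
  have hs1 : (s19b_iota (K' := K') u).support ⊆ u.support := by
    intro i hi
    rw [HahnSeries.mem_support] at hi ⊢
    intro h0
    apply hi
    rw [s19b_iota_coeff, h0, map_zero]
  have hs2 : (s19b_retr lam x).support ⊆ x.support := by
    intro i hi
    rw [HahnSeries.mem_support] at hi ⊢
    intro h0
    apply hi
    rw [s19b_retr_coeff, h0, map_zero]
  rw [HahnSeries.coeff_mul_left' u.isPWO_support hs1,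
    HahnSeries.coeff_mul_right' x.isPWO_support hs2, map_sum]
  refine Finset.sum_congr rfl fun ij _ => ?_
  rw [s19b_iota_coeff, s19b_retr_coeff, ← Algebra.smul_def, map_smul, smul_eq_mul]

/-- `K`-independent series stay independent over `K'` after `ι`. -/
theorem s19b_iota_indep {ι : Type*} [Fintype ι] (f : ι → LaurentSeries K)
    (hf : ∀ a : ι → K, ∑ i, s19b_C (a i) * f i = 0 → ∀ i, a i = 0)
    (a : ι → K') (h : ∑ i, s19b_C (a i) * s19b_iota (K' := K') (f i) = 0) : ∀ i, a i = 0 := by
  intro i
  refine s19b_eq_zero_of_forall_functional (K := K) (a i) fun lam => ?_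
  have h1 := congrArg (s19b_retr lam) h
  rw [s19b_retr_sum_C_mul_iota, map_zero] at h1
  exact hf (fun i => lam (a i)) h1 i

/-- a basis of the `K`-span of finitely many elements of `K'`, with a dual family of functionals
on `K'`. -/
theorem s19b_exists_dual_family {n : ℕ} (c : Fin n → K') :
    ∃ (m : ℕ) (b : Fin m → K') (g : Fin m → (K' →ₗ[K] K)),
      LinearIndependent K b ∧ (∀ j j', g j (b j') = if j = j' then 1 else 0) ∧
      ∀ i, c i = ∑ j, algebraMap K K' (g j (c i)) * b j := by
  classical
  let V : Submodule K K' := Submodule.span K (Set.range c)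
  haveI : FiniteDimensional K V := FiniteDimensional.span_of_finite K (Set.finite_range c)
  let bV := Module.finBasis K V
  have hext : ∀ j, ∃ g : K' →ₗ[K] K, g ∘ₗ V.subtype = bV.coord j := fun j =>
    LinearMap.exists_extend (bV.coord j)
  choose g hg using hext
  have hg' : ∀ j (v : V), g j (v : K') = bV.coord j v := fun j v => by
    have := congrArg (fun f : V →ₗ[K] K => f v) (hg j)
    simpa using this
  refine ⟨_, fun j => (bV j : K'), g, ?_, ?_, ?_⟩
  · exact bV.linearIndependent.map' V.subtype (Submodule.ker_subtype V)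
  · intro j j'
    rw [hg', Module.Basis.coord_apply, Module.Basis.repr_self, Finsupp.single_apply]
    simp only [eq_comm]
  · intro i
    have hci : c i ∈ V := Submodule.subset_span ⟨i, rfl⟩
    have h1 := bV.sum_repr ⟨c i, hci⟩
    have h2 : c i = ∑ j, (bV.repr ⟨c i, hci⟩ j) • (bV j : K') := by
      have := congrArg (fun v : V => (v : K')) h1
      simp only [Submodule.coe_sum, Submodule.coe_smul] at this
      exact this.symm
    have h3 : ∀ j, g j (c i) = bV.repr ⟨c i, hci⟩ j := fun j => by
      have := hg' j ⟨c i, hci⟩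
      rwa [Module.Basis.coord_apply] at this
    conv_lhs => rw [h2]
    refine Finset.sum_congr rfl fun j _ => ?_
    rw [h3 j, Algebra.smul_def]

/-- reconstruction of a sum from its images under a dual family. -/
theorem s19b_reconstruct {n m : ℕ} (c : Fin n → K') (y : Fin n → LaurentSeries K)
    (b : Fin m → K') (g : Fin m → (K' →ₗ[K] K))
    (hc : ∀ i, c i = ∑ j, algebraMap K K' (g j (c i)) * b j) :
    ∑ i, s19b_C (c i) * s19b_iota (K' := K') (y i) =
      ∑ j, s19b_C (b j) * s19b_iota (K' := K')
        (s19b_retr (g j) (∑ i, s19b_C (c i) * s19b_iota (K' := K') (y i))) := by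
  have h1 : ∀ j, s19b_C (b j) * s19b_iota (K' := K')
        (s19b_retr (g j) (∑ i, s19b_C (c i) * s19b_iota (K' := K') (y i))) =
      ∑ i, s19b_C (algebraMap K K' (g j (c i)) * b j) * s19b_iota (K' := K') (y i) := by
    intro j
    rw [s19b_retr_sum_C_mul_iota, map_sum, Finset.mul_sum]
    refine Finset.sum_congr rfl fun i _ => ?_
    rw [map_mul, s19b_iota_C, ← mul_assoc]
    congr 1
    rw [s19b_C, s19b_C, s19b_C, ← map_mul, mul_comm]
  simp only [h1]
  rw [Finset.sum_comm]
  refine Finset.sum_congr rfl fun i _ => ?_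
  rw [← Finset.sum_mul]
  congr 1
  conv_lhs => rw [hc i]
  rw [s19b_C, map_sum]

/-- **[BC] (ii), packaged.**  `K'/K` Galois, `𝔉 ⊆ K((q))` a subfield containing `K`.  Every
`x ∈ K'·ι𝔉` is `∑ⱼ C bⱼ * ι fⱼ` with `b` linearly independent over `K`, `fⱼ = s19b_retr gⱼ x ∈ 𝔉`
for a dual family of functionals `g`, and EVERY integrality condition "`ι u * x` is integral over
`K'[ι w]`" (`u, w` arbitrary series over `K`) descends to all the `u * fⱼ` simultaneously. -/
theorem s19b_span_decomp [IsGalois K K'] (𝔉 : IntermediateField K (LaurentSeries K))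
    {x : LaurentSeries K'} (hx : x ∈ s19b_spanF (K' := K') 𝔉) :
    ∃ (m : ℕ) (b : Fin m → K') (g : Fin m → (K' →ₗ[K] K)),
      LinearIndependent K b ∧ (∀ j j', g j (b j') = if j = j' then 1 else 0) ∧
      x = ∑ j, s19b_C (b j) * s19b_iota (K' := K') (s19b_retr (g j) x) ∧
      (∀ j, s19b_retr (g j) x ∈ 𝔉) ∧
      ∀ u w : LaurentSeries K, s19b_Int (s19b_iota (K' := K') w) (s19b_iota (K' := K') u * x) →
        ∀ j, s19b_Int w (u * s19b_retr (g j) x) := by
  obtain ⟨n, c, f, hf, rfl⟩ := hx
  obtain ⟨m, b, g, hb, hgb, hc⟩ := s19b_exists_dual_family (K := K) c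
  refine ⟨m, b, g, hb, hgb, s19b_reconstruct c f b g hc,
    fun j => s19b_retr_mem_of_mem_spanF 𝔉 ⟨n, c, f, hf, rfl⟩ (g j), fun u w hint j => ?_⟩
  have hmul : s19b_iota (K' := K') u * ∑ i, s19b_C (c i) * s19b_iota (K' := K') (f i) =
      ∑ i, s19b_C (c i) * s19b_iota (K' := K') (u * f i) := by
    rw [Finset.mul_sum]
    refine Finset.sum_congr rfl fun i _ => ?_
    rw [map_mul]
    ring
  rw [← s19b_retr_iota_mul, hmul]
  rw [hmul] at hint
  exact s19b_retr_Int (g j) c (fun i => u * f i) w hint

end Package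

end Fermat.Agent.Lib.S19

end
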