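/-
W-A programme (S19), brick G1.3 [BC], part 3 (helper2, prefix `s19b_`): the INSTANCES.

* `s19b_adjoin_image_adjoin` : `K'(ι (K(S))) = K'(ι S)` for every set `S ⊆ K((q))`;
* `s19b_fullC_eq`            : `F_{K'}(N) = K'(ι F_K(N))` for the modular function fields
                               `modularFunctionFieldFullC` (any extension of fields `K'/K`);
* `s19b_laurentBaseChange_eq`: `laurentBaseChange L' F₀ = L'(ι (laurentBaseChange L F₀))` for
                               `ℚ ⊆ L ⊆ L'`;
so that `BBaseChange.lean` / `BBaseChangeInt.lean` apply with `𝔉 := modularFunctionFieldFullC K N`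
resp. `𝔉 := laurentBaseChange L F₀`.
-/
import Mathlib
import Fermat.Prelude.Def_ModularCurve_X0ModL
import Fermat.Agent.Lib.S19.BBaseChangeInt

set_option autoImplicit false
set_option linter.unusedSectionVars false
set_option linter.style.haveILetI false

noncomputable section

namespace Fermat.Agent.Lib.S19

open ModularCurve HahnSeries IntermediateField

section General

variable {K K' : Type*} [Field K] [Field K'] [Algebra K K']

/-- `K'(ι (K(S))) = K'(ι S)`. -/
theorem s19b_adjoin_image_adjoin (S : Set (LaurentSeries K)) :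
    IntermediateField.adjoin K'
        (s19b_iota (K' := K') '' ((IntermediateField.adjoin K S : IntermediateField K _) :
          Set (LaurentSeries K))) =
      IntermediateField.adjoin K' (s19b_iota (K' := K') '' S) := by
  apply le_antisymm
  · rw [IntermediateField.adjoin_le_iff]
    rintro _ ⟨f, hf, rfl⟩
    have hle : (IntermediateField.adjoin K S).toSubfield ≤
        (IntermediateField.adjoin K' (s19b_iota (K' := K') '' S)).toSubfield.comap
          (s19b_iota (K' := K')) := by
      apply IntermediateField.adjoin_le_subfield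
      · rintro _ ⟨a, rfl⟩
        show s19b_iota (K' := K') (algebraMap K (LaurentSeries K) a) ∈
          IntermediateField.adjoin K' (s19b_iota (K' := K') '' S)
        rw [s19b_iota_C a]
        exact IntermediateField.algebraMap_mem _ _
      · intro s hs
        show s19b_iota (K' := K') s ∈ IntermediateField.adjoin K' (s19b_iota (K' := K') '' S)
        exact IntermediateField.subset_adjoin K' _ ⟨s, hs, rfl⟩
    exact hle hf
  · apply IntermediateField.adjoin.mono
    exact Set.image_mono (IntermediateField.subset_adjoin K S)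

end General

section Modular

variable (K K' : Type*) [Field K] [Field K'] [Algebra K K'] (N : ℕ)

theorem s19b_image_divisorExpansionsC :
    s19b_iota (K' := K') '' divisorExpansionsC K N = divisorExpansionsC K' N := by
  ext x
  constructor
  · rintro ⟨_, ⟨d, hd, hdN, rfl⟩, rfl⟩
    haveI := hd
    refine ⟨d, hd, hdN, ?_⟩
    rw [s19b_iota, coeffMap_qExpand, coeffMap_jqModC]
  · rintro ⟨d, hd, hdN, rfl⟩
    haveI := hd
    refine ⟨_, ⟨d, hd, hdN, rfl⟩, ?_⟩
    rw [s19b_iota, coeffMap_qExpand, coeffMap_jqModC]

/-- `F_{K'}(N) = K'(ι F_K(N))`. -/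
theorem s19b_fullC_eq :
    modularFunctionFieldFullC K' N = IntermediateField.adjoin K'
      (s19b_iota (K' := K') '' ((modularFunctionFieldFullC K N : IntermediateField K _) :
        Set (LaurentSeries K))) := by
  have h := s19b_adjoin_image_adjoin (K' := K') (divisorExpansionsC K N)
  rw [s19b_image_divisorExpansionsC] at h
  exact h.symm

/-- `ι` maps `F_K(N)` into `F_{K'}(N)`. -/
theorem s19b_iota_mem_fullC {f : LaurentSeries K} (hf : f ∈ modularFunctionFieldFullC K N) :
    s19b_iota (K' := K') f ∈ modularFunctionFieldFullC K' N := by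
  rw [s19b_fullC_eq K K' N]
  exact IntermediateField.subset_adjoin K' _ ⟨f, hf, rfl⟩

end Modular

section CharZero

variable (L L' : Type*) [Field L] [Field L'] [Algebra ℚ L] [Algebra ℚ L'] [Algebra L L']
  (F₀ : IntermediateField ℚ (LaurentSeries ℚ))

theorem s19b_iota_coeffEmb (x : LaurentSeries ℚ) :
    s19b_iota (K' := L') (coeffEmb L x) = coeffEmb L' x := by
  rw [s19b_iota, coeffEmb, coeffEmb, coeffMap_coeffMap]
  exact coeffMap_congr (RingHom.ext_rat _ _) x

/-- `laurentBaseChange L' F₀ = L'(ι (laurentBaseChange L F₀))`. -/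
theorem s19b_laurentBaseChange_eq :
    laurentBaseChange L' F₀ = IntermediateField.adjoin L'
      (s19b_iota (K' := L') '' ((laurentBaseChange L F₀ : IntermediateField L _) :
        Set (LaurentSeries L))) := by
  have h := s19b_adjoin_image_adjoin (K' := L')
    (⇑(coeffEmb L) '' (F₀ : Set (LaurentSeries ℚ)))
  rw [Set.image_image] at h
  simp only [s19b_iota_coeffEmb] at h
  exact h.symm

/-- `ι` maps `laurentBaseChange L F₀` into `laurentBaseChange L' F₀`. -/
theorem s19b_iota_mem_laurentBaseChange {f : LaurentSeries L} (hf : f ∈ laurentBaseChange L F₀) :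
    s19b_iota (K' := L') f ∈ laurentBaseChange L' F₀ := by
  rw [s19b_laurentBaseChange_eq L L' F₀]
  exact IntermediateField.subset_adjoin L' _ ⟨f, hf, rfl⟩

end CharZero

/-! ### User-facing forms -/

section User

variable (K K' : Type*) [Field K] [Field K'] [Algebra K K'] (N : ℕ)

/-- `F_{K'}(N) ∩ K((q)) = F_K(N)` (`K'/K` algebraic). -/
theorem s19b_fullC_descent [Algebra.IsAlgebraic K K'] (y : LaurentSeries K)
    (hy : s19b_iota (K' := K') y ∈ modularFunctionFieldFullC K' N) :
    y ∈ modularFunctionFieldFullC K N := by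
  rw [s19b_fullC_eq K K' N] at hy
  exact s19b_descent _ y hy

/-- **[BC] for the modular function fields** (`K'/K` Galois): every `x ∈ F_{K'}(N)` is
`∑ⱼ C bⱼ * ι fⱼ`, `b` independent over `K`, `fⱼ = s19b_retr gⱼ x ∈ F_K(N)`, and all integrality
conditions descend simultaneously. -/
theorem s19b_fullC_decomp [IsGalois K K'] {x : LaurentSeries K'}
    (hx : x ∈ modularFunctionFieldFullC K' N) :
    ∃ (m : ℕ) (b : Fin m → K') (g : Fin m → (K' →ₗ[K] K)),
      LinearIndependent K b ∧ (∀ j j', g j (b j') = if j = j' then 1 else 0) ∧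
      x = ∑ j, s19b_C (b j) * s19b_iota (K' := K') (s19b_retr (g j) x) ∧
      (∀ j, s19b_retr (g j) x ∈ modularFunctionFieldFullC K N) ∧
      ∀ u w : LaurentSeries K, s19b_Int (s19b_iota (K' := K') w) (s19b_iota (K' := K') u * x) →
        ∀ j, s19b_Int w (u * s19b_retr (g j) x) := by
  rw [s19b_fullC_eq K K' N] at hx
  exact s19b_span_decomp _ (s19b_mem_span _ hx)

end User

section UserZero

variable (L L' : Type*) [Field L] [Field L'] [Algebra ℚ L] [Algebra ℚ L'] [Algebra L L']
  (F₀ : IntermediateField ℚ (LaurentSeries ℚ))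

/-- `laurentBaseChange L' F₀ ∩ L((q)) = laurentBaseChange L F₀` (`L'/L` algebraic). -/
theorem s19b_laurentBaseChange_descent [Algebra.IsAlgebraic L L'] (y : LaurentSeries L)
    (hy : s19b_iota (K' := L') y ∈ laurentBaseChange L' F₀) : y ∈ laurentBaseChange L F₀ := by
  rw [s19b_laurentBaseChange_eq L L' F₀] at hy
  exact s19b_descent _ y hy

/-- **[BC] for `laurentBaseChange`** (`L'/L` Galois). -/
theorem s19b_laurentBaseChange_decomp [IsGalois L L'] {x : LaurentSeries L'}
    (hx : x ∈ laurentBaseChange L' F₀) :
    ∃ (m : ℕ) (b : Fin m → L') (g : Fin m → (L' →ₗ[L] L)),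
      LinearIndependent L b ∧ (∀ j j', g j (b j') = if j = j' then 1 else 0) ∧
      x = ∑ j, s19b_C (b j) * s19b_iota (K' := L') (s19b_retr (g j) x) ∧
      (∀ j, s19b_retr (g j) x ∈ laurentBaseChange L F₀) ∧
      ∀ u w : LaurentSeries L, s19b_Int (s19b_iota (K' := L') w) (s19b_iota (K' := L') u * x) →
        ∀ j, s19b_Int w (u * s19b_retr (g j) x) := by
  rw [s19b_laurentBaseChange_eq L L' F₀] at hx
  exact s19b_span_decomp _ (s19b_mem_span _ hx)

end UserZero

end Fermat.Agent.Lib.S19

end
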