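/-
W-A programme (S19/S32), brick [GAUSS] part 1 (helper1, prefix `s19s_`): GAUSS-ORTHONORMAL BASES,
abstract half (Mathlib only).

* `s19s_gauss_elim` : Gaussian elimination over an ARBITRARY valuation subring `A ⊆ K`: an
  independent family of vectors of `K^ι` has the same span as a family with entries in `A` which is
  the identity on suitable pivot columns;
* `s19s_sc_abs` : if the finite family `e j ∈ O` has independent reductions, every independent
  family `b` inside the `K`-span of `e` has the same span as a family `b'` in `O` with independent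
  reductions.
-/
import Mathlib

set_option autoImplicit false

noncomputable section

namespace Fermat.Agent.Lib.S19

open Finset

/-- a nonzero vector has a coordinate of maximal norm. -/
theorem s19s_exists_max_coord {K : Type*} [Field K] (A : ValuationSubring K) {ι : Type*}
    [Fintype ι] (v : ι → K) (hv : v ≠ 0) :
    ∃ j₀, v j₀ ≠ 0 ∧ ∀ j, v j / v j₀ ∈ A := by
  classical
  obtain ⟨j₁, hj₁⟩ : ∃ j, v j ≠ 0 := by
    by_contra h
    push Not at h
    exact hv (funext h)
  obtain ⟨j₀, -, hmax⟩ := Finset.exists_max_image Finset.univ (fun j => A.valuation (v j))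
    ⟨j₁, Finset.mem_univ _⟩
  have h0 : v j₀ ≠ 0 := by
    intro h
    have h1 := hmax j₁ (Finset.mem_univ _)
    rw [h, map_zero] at h1
    exact hj₁ ((Valuation.zero_iff _).mp (le_antisymm h1 zero_le))
  refine ⟨j₀, h0, fun j => ?_⟩
  have hpos : 0 < A.valuation (v j₀) := by
    rw [zero_lt_iff]
    exact (Valuation.ne_zero_iff _).mpr h0
  rw [← A.valuation_le_one_iff, map_div₀, div_le_one₀ hpos]
  exact hmax j (Finset.mem_univ _)

/-- **Gaussian elimination over a valuation ring**: an independent family of vectors of `K^ι` has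
the same span as a family with entries in `A` which is the identity on suitable pivot columns. -/
theorem s19s_gauss_elim {K : Type*} [Field K] (A : ValuationSubring K) {ι : Type*} [Fintype ι] :
    ∀ (n : ℕ) (c : Fin n → ι → K), LinearIndependent K c →
    ∃ (c' : Fin n → ι → K) (p : Fin n → ι),
      Submodule.span K (Set.range c') = Submodule.span K (Set.range c) ∧
      (∀ i j, c' i j ∈ A) ∧ ∀ i i', c' i (p i') = if i = i' then 1 else 0 := by
  classical
  intro n
  induction n with
  | zero =>
    intro c _
    refine ⟨c, Fin.elim0, rfl, fun i => i.elim0, fun i => i.elim0⟩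
  | succ n ih =>
    intro c hc
    have hc2 := (linearIndependent_finSucc.mp hc)
    obtain ⟨c'', p'', hspan'', hA'', hpiv''⟩ := ih (Fin.tail c) hc2.1
    -- the new vector, with the pivot columns cleared
    set v : ι → K := c 0 - ∑ i, (c 0 (p'' i)) • c'' i with hv
    have hvp : ∀ i', v (p'' i') = 0 := by
      intro i'
      rw [hv, Pi.sub_apply, Finset.sum_apply]
      simp only [Pi.smul_apply, smul_eq_mul, hpiv'']
      rw [Finset.sum_eq_single i' (fun i _ hi => by rw [if_neg hi, mul_zero])
        (fun h => absurd (Finset.mem_univ _) h), if_pos rfl, mul_one, sub_self]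
    have hsum_mem : ∑ i, (c 0 (p'' i)) • c'' i ∈ Submodule.span K (Set.range (Fin.tail c)) := by
      rw [← hspan'']
      exact Submodule.sum_mem _ fun i _ =>
        Submodule.smul_mem _ _ (Submodule.subset_span ⟨i, rfl⟩)
    have hv0 : v ≠ 0 := by
      intro h
      apply hc2.2
      have : c 0 = ∑ i, (c 0 (p'' i)) • c'' i := sub_eq_zero.mp (hv ▸ h)
      rw [this]
      exact hsum_mem
    obtain ⟨j₀, hj₀, hmax⟩ := s19s_exists_max_coord A v hv0
    set w : ι → K := (v j₀)⁻¹ • v with hw
    have hwA : ∀ j, w j ∈ A := by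
      intro j
      rw [hw, Pi.smul_apply, smul_eq_mul, mul_comm, ← div_eq_mul_inv]
      exact hmax j
    have hwj₀ : w j₀ = 1 := by
      rw [hw, Pi.smul_apply, smul_eq_mul, inv_mul_cancel₀ hj₀]
    have hwp : ∀ i', w (p'' i') = 0 := by
      intro i'
      rw [hw, Pi.smul_apply, hvp, smul_zero]
    have hj₀p : ∀ i', p'' i' ≠ j₀ := by
      intro i' h
      have := hwp i'
      rw [h, hwj₀] at this
      exact one_ne_zero this
    refine ⟨Fin.cons w (fun i => c'' i - (c'' i j₀) • w), Fin.cons j₀ p'', ?_, ?_, ?_⟩
    · -- spans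
      have htail_le : Submodule.span K (Set.range (Fin.tail c)) ≤ Submodule.span K (Set.range c) :=
        Submodule.span_mono (by rintro _ ⟨i, rfl⟩; exact ⟨i.succ, rfl⟩)
      have hc''mem : ∀ i, c'' i ∈ Submodule.span K (Set.range c) := fun i =>
        htail_le (hspan'' ▸ Submodule.subset_span ⟨i, rfl⟩)
      have hvmem : v ∈ Submodule.span K (Set.range c) :=
        Submodule.sub_mem _ (Submodule.subset_span ⟨0, rfl⟩) (htail_le hsum_mem)
      have hwmem : w ∈ Submodule.span K (Set.range c) := Submodule.smul_mem _ _ hvmem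
      apply le_antisymm
      · rw [Submodule.span_le]
        rintro _ ⟨i, rfl⟩
        refine Fin.cases ?_ (fun i => ?_) i
        · simpa using hwmem
        · simp only [Fin.cons_succ]
          exact Submodule.sub_mem _ (hc''mem i) (Submodule.smul_mem _ _ hwmem)
      · set S' := Submodule.span K (Set.range
          (Fin.cons w (fun i => c'' i - (c'' i j₀) • w) : Fin (n + 1) → ι → K)) with hS'
        have hw' : w ∈ S' := Submodule.subset_span ⟨0, by simp⟩
        have hc''' : ∀ i, c'' i ∈ S' := by
          intro i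
          have h1 : c'' i - (c'' i j₀) • w ∈ S' := Submodule.subset_span ⟨i.succ, by simp⟩
          have h2 : c'' i = (c'' i - (c'' i j₀) • w) + (c'' i j₀) • w := by abel
          rw [h2]
          exact Submodule.add_mem _ h1 (Submodule.smul_mem _ _ hw')
        have htail' : Submodule.span K (Set.range (Fin.tail c)) ≤ S' := by
          rw [← hspan'', Submodule.span_le]
          rintro _ ⟨i, rfl⟩
          exact hc''' i
        rw [Submodule.span_le]
        rintro _ ⟨i, rfl⟩
        refine Fin.cases ?_ (fun i => ?_) i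
        · have h1 : c 0 = v j₀ • w + ∑ i, (c 0 (p'' i)) • c'' i := by
            rw [hw, smul_smul, mul_inv_cancel₀ hj₀, one_smul, hv]
            abel
          rw [h1]
          exact Submodule.add_mem _ (Submodule.smul_mem _ _ hw') (htail' hsum_mem)
        · exact htail' (Submodule.subset_span ⟨i, rfl⟩)
    · intro i j
      refine Fin.cases ?_ (fun i => ?_) i
      · simpa using hwA j
      · simp only [Fin.cons_succ, Pi.sub_apply, Pi.smul_apply, smul_eq_mul]
        exact sub_mem (hA'' i j) (mul_mem (hA'' i j₀) (hwA j))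
    · intro i i'
      refine Fin.cases ?_ (fun i => ?_) i <;> refine Fin.cases ?_ (fun i' => ?_) i'
      · simp [hwj₀]
      · simp only [Fin.cons_zero, Fin.cons_succ, hwp]
        rw [if_neg (Fin.succ_ne_zero i').symm]
      · simp only [Fin.cons_zero, Fin.cons_succ, Pi.sub_apply, Pi.smul_apply, smul_eq_mul, hwj₀,
          mul_one, sub_self]
        rw [if_neg (Fin.succ_ne_zero i)]
      · simp only [Fin.cons_succ, Pi.sub_apply, Pi.smul_apply, smul_eq_mul, hwp, mul_zero,
          sub_zero, hpiv'', Fin.succ_inj]

/-- **Gauss-orthonormal bases, abstract form.**  `O ⊆ F` a valuation subring containing the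
constants of `A`, `red : O →+* R` compatible with `π : A →+* k` on constants (through
`ck : k →+* R`).  If the finite family `e j ∈ O` has `k`-independent reductions, every independent
family `b` inside the `K`-span of `e` has the same span as a family `b'` in `O` with
`k`-independent reductions. -/
theorem s19s_sc_abs {K F k R : Type*} [Field K] [Field F] [Algebra K F] [Field k] [CommRing R]
    (A : ValuationSubring K) (O : ValuationSubring F) (π : ↥A →+* k) (red : ↥O →+* R)
    (ck : k →+* R)
    (hconst : ∀ a : ↥A, ∃ h : algebraMap K F (a : K) ∈ O, red ⟨_, h⟩ = ck (π a))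
    {ι : Type*} [Fintype ι] (e : ι → F) (he : ∀ j, e j ∈ O)
    (hind : ∀ g : ι → k, ∑ j, ck (g j) * red ⟨e j, he j⟩ = 0 → ∀ j, g j = 0)
    (n : ℕ) (b : Fin n → F) (hb : LinearIndependent K b)
    (hbe : ∀ i, b i ∈ Submodule.span K (Set.range e)) :
    ∃ b' : Fin n → F, Submodule.span K (Set.range b') = Submodule.span K (Set.range b) ∧
      ∃ hb' : ∀ i, b' i ∈ O,
        ∀ g : Fin n → k, ∑ i, ck (g i) * red ⟨b' i, hb' i⟩ = 0 → ∀ i, g i = 0 := by
  classical
  -- coordinates
  choose c hc using fun i => (Submodule.mem_span_range_iff_exists_fun K).mp (hbe i)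
  set L : (ι → K) →ₗ[K] F := Fintype.linearCombination K e with hL
  have hLc : ∀ x : ι → K, L x = ∑ j, x j • e j := fun x => Fintype.linearCombination_apply K e x
  have hbL : b = L ∘ c := by
    funext i
    rw [Function.comp_apply, hLc, hc i]
  have hcind : LinearIndependent K c := LinearIndependent.of_comp L (hbL ▸ hb)
  obtain ⟨c', p, hspan, hA, hpiv⟩ := s19s_gauss_elim A n c hcind
  -- the new family, inside `O`
  set bO : Fin n → ↥O := fun i => ∑ j, ⟨algebraMap K F (c' i j), (hconst ⟨c' i j, hA i j⟩).choose⟩ *
    ⟨e j, he j⟩ with hbO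
  have hbOcoe : ∀ i, ((bO i : ↥O) : F) = L (c' i) := by
    intro i
    rw [hLc, hbO]
    simp only
    rw [← Subring.coe_subtype, map_sum]
    refine Finset.sum_congr rfl fun j _ => ?_
    rw [map_mul, Algebra.smul_def]
    rfl
  refine ⟨L ∘ c', ?_, fun i => by rw [Function.comp_apply, ← hbOcoe i]; exact (bO i).2, ?_⟩
  · rw [Set.range_comp, ← Submodule.map_span, hspan, Submodule.map_span, ← Set.range_comp, hbL]
  · intro g hg
    have hred : ∀ i, red ⟨(L ∘ c') i, by rw [Function.comp_apply, ← hbOcoe i]; exact (bO i).2⟩ =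
        ∑ j, ck (π ⟨c' i j, hA i j⟩) * red ⟨e j, he j⟩ := by
      intro i
      have h1 : (⟨(L ∘ c') i, by rw [Function.comp_apply, ← hbOcoe i]; exact (bO i).2⟩ : ↥O) =
          bO i := Subtype.ext (hbOcoe i).symm
      rw [h1, hbO]
      simp only
      rw [map_sum]
      refine Finset.sum_congr rfl fun j _ => ?_
      rw [map_mul, (hconst ⟨c' i j, hA i j⟩).choose_spec]
    have h2 : ∑ j, ck (∑ i, g i * π ⟨c' i j, hA i j⟩) * red ⟨e j, he j⟩ = 0 := by
      rw [← hg]
      simp_rw [hred, Finset.mul_sum, map_sum, Finset.sum_mul]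
      rw [Finset.sum_comm]
      refine Finset.sum_congr rfl fun i _ => Finset.sum_congr rfl fun j _ => ?_
      rw [map_mul, mul_assoc]
    have h3 := hind _ h2
    intro i'
    have h4 := h3 (p i')
    rw [Finset.sum_eq_single i'] at h4
    · have h5 : (⟨c' i' (p i'), hA i' (p i')⟩ : ↥A) = 1 := Subtype.ext ((hpiv i' i').trans (if_pos rfl))
      rwa [h5, map_one, mul_one] at h4
    · intro i _ hi
      have h5 : (⟨c' i (p i'), hA i (p i')⟩ : ↥A) = 0 := Subtype.ext ((hpiv i i').trans (if_neg hi))
      rw [h5, map_zero, mul_zero]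
    · intro h
      exact absurd (Finset.mem_univ _) h

end Fermat.Agent.Lib.S19
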