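/-
W-A programme (S19/S32), brick [GAUSS] part 2 (helper1, prefix `s19s_`): GAUSS-ORTHONORMAL BASES at
a number-field level.

`G : s18g_GaussData K κ` (discrete), `𝓕 = laurentBaseChange K (modularFunctionFieldFull N)`,
`V = s18x_V G N` the Gauss valuation subring, `redV : V →+* κ((q))`.  With the residue basis `Θ k`
of `s18g_exists_basis` (`𝓕 = ⊕ K(j)·Θ k`, reductions independent over `κ[j̄]`) and a common integral
denominator `R(j)` (`s19s_common_denominator`), the finite family `R(j)⁻¹·j^d·Θ k` is orthonormal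
and its span contains any given finite family; hence (`s19s_sc_abs`):
**`s19s_level_sc`** : every independent `b : Fin n → 𝓕` has the same `K`-span as a family `b'` in `V`
with `κ`-independent reductions.
-/
import Fermat.Agent.Lib.S19.SGaussAbs
import Fermat.Agent.Lib.S18.XGauss
import Fermat.Agent.Lib.S18.GResidue

set_option autoImplicit false
set_option linter.unusedSectionVars false

noncomputable section

namespace Fermat.Agent.Lib.S19

open ModularCurve HahnSeries Polynomial Fermat.Agent.Lib.S18 Fermat.Agent.Lib.S28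

variable {K : Type*} [Field K] {κ : Type*} [Field κ] (G : s18g_GaussData K κ)

/-- **common integral denominators**: finitely many series which are `K(t)`-combinations of the
`Θ k` have a common denominator `R(t)`, `R ∈ A[X]` with nonzero reduction. -/
theorem s19s_common_denominator {ψ : ℕ} (t : LaurentSeries K) (Θ : Fin ψ → LaurentSeries K)
    (n : ℕ) (y : Fin n → LaurentSeries K)
    (hspan : ∀ i, ∃ (Q : K[X]) (P : Fin ψ → K[X]), Q ≠ 0 ∧
      Polynomial.aeval t Q * y i = ∑ k, Polynomial.aeval t (P k) * Θ k) :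
    ∃ (R : G.A[X]) (P : Fin n → Fin ψ → K[X]), R.map G.π ≠ 0 ∧
      ∀ i, Polynomial.aeval t (R.map G.A.subtype) * y i = ∑ k, Polynomial.aeval t (P i k) * Θ k := by
  classical
  choose Q P hQ hrel using hspan
  have hnorm : ∀ i, ∃ (c : K) (R : G.A[X]), R.map G.A.subtype = Polynomial.C c * Q i ∧
      R.map G.π ≠ 0 := by
    intro i
    obtain ⟨c, R, -, hR, i₀, hi₀⟩ := s18g_exists_normalise G (fun _ : Unit => Q i)
      (fun h => hQ i (congrFun h ()))
    exact ⟨c, R (), hR (), by cases i₀; exact hi₀⟩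
  choose c R hR hRπ using hnorm
  refine ⟨∏ i, R i, fun i k => (∏ i' ∈ Finset.univ.erase i, (R i').map G.A.subtype) *
    (Polynomial.C (c i) * P i k), ?_, fun i => ?_⟩
  · rw [Polynomial.map_prod]
    exact Finset.prod_ne_zero_iff.mpr fun i _ => hRπ i
  · rw [Polynomial.map_prod, ← Finset.mul_prod_erase Finset.univ _ (Finset.mem_univ i), hR i]
    simp only [map_mul]
    set E := Polynomial.aeval t (∏ x ∈ Finset.univ.erase i, (R x).map G.A.subtype) with hE
    have h1 : Polynomial.aeval t (Polynomial.C (c i)) * Polynomial.aeval t (Q i) * E * y i =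
        E * (Polynomial.aeval t (Polynomial.C (c i)) * (Polynomial.aeval t (Q i) * y i)) := by ring
    rw [h1, hrel i, Finset.mul_sum, Finset.mul_sum]
    refine Finset.sum_congr rfl fun k _ => ?_
    ring

/-- the coefficient of a polynomial given as a sum over `Fin (D+1)`. -/
theorem s19s_coeff_sum_fin {R : Type*} [CommRing R] (D : ℕ) (a : Fin (D + 1) → R)
    (d₀ : Fin (D + 1)) :
    (∑ d : Fin (D + 1), Polynomial.C (a d) * Polynomial.X ^ (d : ℕ)).coeff (d₀ : ℕ) = a d₀ := by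
  rw [Polynomial.finsetSum_coeff]
  rw [Finset.sum_eq_single d₀]
  · rw [Polynomial.coeff_C_mul_X_pow, if_pos rfl]
  · intro d _ hd
    rw [Polynomial.coeff_C_mul_X_pow, if_neg]
    exact fun h => hd (Fin.ext h.symm)
  · intro h
    exact absurd (Finset.mem_univ _) h

variable [Algebra ℚ K] (N : ℕ)

local notation "𝓕" => laurentBaseChange K (modularFunctionFieldFull N)

/-- **Gauss-orthonormal bases at a level**: over a field `K` with Gauss data `G`, every independent
finite family of the modular function field has the same span as a family in the Gauss ring with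
independent reductions. -/
theorem s19s_level_sc (hT : s18g_HT κ N) (hdeg : s18g_HDeg K N) (n : ℕ)
    (b : Fin n → ↥(laurentBaseChange K (modularFunctionFieldFull N)))
    (hb : LinearIndependent K b) :
    ∃ b' : Fin n → ↥(laurentBaseChange K (modularFunctionFieldFull N)),
      Submodule.span K (Set.range b') = Submodule.span K (Set.range b) ∧
      ∃ hb' : ∀ i, b' i ∈ s18x_V G N,
        ∀ g : Fin n → κ,
          ∑ i, HahnSeries.C (g i) * s18g_redV G (laurentBaseChange K (modularFunctionFieldFull N))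
            (fun _ hf => s18g_baseChange_mem_Frac G N hf) ⟨b' i, hb' i⟩ = 0 → ∀ i, g i = 0 := by
  classical
  obtain ⟨Θ, hΘmem, -, hindκ, -, hspan⟩ := s18g_exists_basis G N hT hdeg
  -- common denominator
  obtain ⟨R, P, hRπ, hrel⟩ := s19s_common_denominator G (jqModC K)
    (fun k => (Θ k : LaurentSeries K)) n (fun i => ((b i : 𝓕) : LaurentSeries K))
    (fun i => hspan _ (b i).2)
  set h𝓕 : ∀ f ∈ 𝓕, f ∈ s18g_Frac G := fun _ hf => s18g_baseChange_mem_Frac G N hf with hh𝓕
  set V := s18g_V G 𝓕 h𝓕 with hV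
  -- the elements of `V`
  set jF : ↥𝓕 := ⟨jqModC K, s18g_jq_mem_baseChange N⟩ with hjF
  set jV : ↥V := ⟨jF, s18g_jq_mem_O G⟩ with hjV
  have hjVred : s18g_redV G 𝓕 h𝓕 jV = jqModC κ := s18g_red_jq G
  set ΘV : Fin (dedekindPsi N) → ↥V := fun k =>
    ⟨⟨(Θ k : LaurentSeries K), s18g_closure_le_baseChange N (hΘmem k)⟩, (Θ k).2⟩ with hΘV
  have hΘVred : ∀ k, s18g_redV G 𝓕 h𝓕 (ΘV k) = s18g_red G (Θ k) := fun k => rfl
  -- the denominator
  set uO : s18g_O G := Polynomial.eval₂ (s18g_constHom G) (s18g_jO G) R with huO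
  have huOcoe : (uO : LaurentSeries K) = Polynomial.aeval (jqModC K) (R.map G.A.subtype) :=
    s18g_coe_eval₂ G (s18g_jO G) R
  have huOred : s18g_red G uO = Polynomial.aeval (jqModC κ) (R.map G.π) := by
    rw [huO, s18g_red_eval₂, s18g_red_jO]
  have hcoe_aeval : ∀ p : K[X], ((Polynomial.aeval jF p : ↥𝓕) : LaurentSeries K) =
      Polynomial.aeval (jqModC K) p := fun p =>
    (Polynomial.aeval_algHom_apply (IntermediateField.val 𝓕) jF p).symm
  set uF : ↥𝓕 := Polynomial.aeval jF (R.map G.A.subtype) with huF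
  have huFcoe : (uF : LaurentSeries K) = (uO : LaurentSeries K) := by
    rw [huOcoe, huF, hcoe_aeval]
  set uV : ↥V := ⟨uF, by
    show (uF : LaurentSeries K) ∈ s18g_O G
    rw [huFcoe]; exact uO.2⟩ with huV
  have huVred : s18g_redV G 𝓕 h𝓕 uV = Polynomial.aeval (jqModC κ) (R.map G.π) := by
    rw [← huOred]
    show s18g_red G _ = s18g_red G uO
    congr 1
    exact Subtype.ext huFcoe
  have huVunit : IsUnit uV := by
    refine (s18g_isUnit_V_iff G 𝓕 h𝓕 uV).mpr ?_
    rw [huVred]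
    intro h0
    exact hRπ ((transcendental_iff.mp (s28v_transcendental_jqModC κ)) _ h0)
  obtain ⟨wV, hwV⟩ := huVunit.exists_right_inv
  have hwred : s18g_redV G 𝓕 h𝓕 wV ≠ 0 := by
    intro h0
    have := congrArg (s18g_redV G 𝓕 h𝓕) hwV
    rw [map_mul, h0, mul_zero, map_one] at this
    exact zero_ne_one this
  have huw : uF * (wV : ↥𝓕) = 1 := congrArg Subtype.val hwV
  -- the relations inside `𝓕`
  have hrelF : ∀ i, uF * b i = ∑ k, Polynomial.aeval jF (P i k) * ((ΘV k : ↥V) : ↥𝓕) := by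
    intro i
    apply Subtype.ext
    rw [MulMemClass.coe_mul, huFcoe, huOcoe, hrel i, AddSubmonoidClass.coe_finsetSum]
    refine Finset.sum_congr rfl fun k _ => ?_
    rw [MulMemClass.coe_mul, hcoe_aeval]
  -- the degree bound and the orthonormal family
  set D : ℕ := Finset.univ.sup (fun ik : Fin n × Fin (dedekindPsi N) => (P ik.1 ik.2).natDegree)
    with hD
  have hDle : ∀ i k, (P i k).natDegree < D + 1 := fun i k =>
    Nat.lt_succ_of_le (Finset.le_sup (f := fun ik : Fin n × Fin (dedekindPsi N) =>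
      (P ik.1 ik.2).natDegree) (Finset.mem_univ (i, k)))
  set eV : Fin (D + 1) × Fin (dedekindPsi N) → ↥V := fun dk => wV * (jV ^ (dk.1 : ℕ) * ΘV dk.2)
    with heV
  have hmain := s19s_sc_abs G.A V G.π (s18g_redV G 𝓕 h𝓕) (HahnSeries.C : κ →+* LaurentSeries κ)
    (fun a => ⟨(s18g_constV G 𝓕 h𝓕 a).2, s18g_redV_constV G 𝓕 h𝓕 a⟩)
    (fun dk => ((eV dk : ↥V) : ↥𝓕)) (fun dk => (eV dk).2) ?_ n b hb ?_
  · obtain ⟨b', hspan', hb', hind'⟩ := hmain
    exact ⟨b', hspan', hb', hind'⟩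
  · -- independence of the reductions of the family
    intro g hg
    have h1 : ∀ dk : Fin (D + 1) × Fin (dedekindPsi N),
        s18g_redV G 𝓕 h𝓕 ⟨((eV dk : ↥V) : ↥𝓕), (eV dk).2⟩ =
          s18g_redV G 𝓕 h𝓕 wV * (jqModC κ ^ (dk.1 : ℕ) * s18g_red G (Θ dk.2)) := by
      intro dk
      rw [show (⟨((eV dk : ↥V) : ↥𝓕), (eV dk).2⟩ : ↥V) = eV dk from rfl, heV]
      simp only
      rw [map_mul, map_mul, map_pow, hjVred, hΘVred]
    simp_rw [h1] at hg
    rw [Fintype.sum_prod_type_right] at hg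
    set Pg : Fin (dedekindPsi N) → κ[X] := fun k =>
      ∑ d : Fin (D + 1), Polynomial.C (g (d, k)) * Polynomial.X ^ (d : ℕ) with hPg
    have h2 : s18g_redV G 𝓕 h𝓕 wV *
        ∑ k, Polynomial.aeval (jqModC κ) (Pg k) * s18g_red G (Θ k) = 0 := by
      rw [← hg, Finset.mul_sum]
      refine Finset.sum_congr rfl fun k _ => ?_
      rw [hPg]
      simp only
      rw [map_sum, Finset.sum_mul, Finset.mul_sum]
      refine Finset.sum_congr rfl fun d _ => ?_
      rw [map_mul, Polynomial.aeval_C, map_pow, Polynomial.aeval_X,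
        algebraMap_laurentSeries_eq_single, ← HahnSeries.C_apply]
      ring
    have h3 := hindκ Pg ((mul_eq_zero.mp h2).resolve_left hwred)
    rintro ⟨d, k⟩
    have h4 := congrArg (fun p : κ[X] => p.coeff (d : ℕ)) (congrFun h3 k)
    simp only [hPg, Pi.zero_apply, Polynomial.coeff_zero] at h4
    rw [s19s_coeff_sum_fin D (fun d => g (d, k)) d] at h4
    exact h4
  · -- the family `b` is in the span
    intro i
    have h1 : b i = (wV : ↥𝓕) * (uF * b i) := by
      rw [← mul_assoc, mul_comm (wV : ↥𝓕), huw, one_mul]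
    rw [h1, hrelF i, Finset.mul_sum]
    refine Submodule.sum_mem _ fun k _ => ?_
    rw [Polynomial.aeval_eq_sum_range' (hDle i k), Finset.sum_mul, Finset.mul_sum,
      Finset.sum_range]
    refine Submodule.sum_mem _ fun d _ => ?_
    have h2 : (wV : ↥𝓕) * ((P i k).coeff (d : ℕ) • jF ^ (d : ℕ) * ((ΘV k : ↥V) : ↥𝓕)) =
        (P i k).coeff (d : ℕ) • ((eV (d, k) : ↥V) : ↥𝓕) := by
      rw [heV]
      simp only
      rw [smul_mul_assoc, mul_smul_comm]
      rfl
    rw [h2]
    exact Submodule.smul_mem _ _ (Submodule.subset_span ⟨(d, k), rfl⟩)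

/-- **the value group of the Gauss valuation at a level**: every nonzero function is a constant
times a Gauss unit. -/
theorem s19s_level_gv (f₀ : ↥(laurentBaseChange K (modularFunctionFieldFull N))) (hf₀ : f₀ ≠ 0) :
    ∃ c₀ : K, c₀ ≠ 0 ∧
      algebraMap K ↥(laurentBaseChange K (modularFunctionFieldFull N)) c₀ * f₀ ∈ s18x_V G N ∧
      (algebraMap K ↥(laurentBaseChange K (modularFunctionFieldFull N)) c₀ * f₀)⁻¹ ∈ s18x_V G N := by
  set h𝓕 : ∀ f ∈ 𝓕, f ∈ s18g_Frac G := fun _ hf => s18g_baseChange_mem_Frac G N hf with hh𝓕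
  obtain ⟨m, u, hu⟩ := s18g_exists_zpow_unitV G 𝓕 h𝓕 f₀ hf₀
  have hϖ0 : ((G.ϖ : G.A) : K) ≠ 0 := s18g_unifK_ne_zero G
  have hϖF : algebraMap K ↥𝓕 ((G.ϖ : G.A) : K) ≠ 0 := by
    rw [Ne, map_eq_zero]
    exact hϖ0
  have hcu : algebraMap K ↥𝓕 (((G.ϖ : G.A) : K) ^ (-m)) * f₀ =
      ((u : ↥(s18g_V G 𝓕 h𝓕)) : ↥𝓕) := by
    rw [map_zpow₀, hu, ← mul_assoc, ← zpow_add₀ hϖF, neg_add_cancel, zpow_zero, one_mul]
  refine ⟨((G.ϖ : G.A) : K) ^ (-m), zpow_ne_zero _ hϖ0, ?_, ?_⟩
  · rw [hcu]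
    exact (u : ↥(s18g_V G 𝓕 h𝓕)).2
  · rw [hcu]
    have h1 : (((u⁻¹ : (↥(s18g_V G 𝓕 h𝓕))ˣ) : ↥(s18g_V G 𝓕 h𝓕)) : ↥𝓕) =
        ((u : ↥(s18g_V G 𝓕 h𝓕)) : ↥𝓕)⁻¹ := by
      refine eq_inv_of_mul_eq_one_left ?_
      exact congrArg Subtype.val (Units.inv_mul u)
    rw [← h1]
    exact ((u⁻¹ : (↥(s18g_V G 𝓕 h𝓕))ˣ) : ↥(s18g_V G 𝓕 h𝓕)).2

end Fermat.Agent.Lib.S19
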