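/-
W-A programme (S19/S32), brick [GAUSS] part 3 (helper1, prefix `s19s_`): the fields `gv`, `sc`, `scW`
of `s19_Curve` for the modular curve (data of `s19_CurveExists`, IfaceModular.lean):
`K = ℚ̄`, `F = modularFunctionFieldBar M`, `O = s37r_OF A M hA`, `red = s37r_redF A M hA hℓM`,
`k = ResidueField A`, `FW = s19_FW A M`.

* `s19s_coeffMap_indep` : independent Laurent series stay independent after extension of the
  coefficient field (helper2's coefficientwise functionals `s19b_retr`);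
* `s19s_sc_level`  : level statement `s19s_level_sc` pushed to the top along `s18q_incl`;
* `s19s_FW_level`  : a function with inertia-fixed coefficients comes from a finite level inside
  the fixed field of the inertia group (`s19b_laurentBaseChange_descent` + `s18q_exists_defOver`);
* **`s19s_gv`, `s19s_sc`, `s19s_scW`** : literally the three fields.
-/
import Fermat.Agent.Lib.S19.SGaussLevel
import Fermat.Agent.Lib.S19.BBaseChangeInst
import Fermat.Agent.Lib.S19.MLift

set_option autoImplicit false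
set_option linter.unusedSectionVars false
set_option linter.style.haveILetI false
set_option synthInstance.maxHeartbeats 400000
set_option maxHeartbeats 800000

noncomputable section

namespace Fermat.Agent.Lib.S19

open ModularCurve HahnSeries AlgebraicCurve Fermat.Agent.Lib.S18 Fermat.Agent.Lib.S37
  Fermat.Agent.Lib.FF IsLocalRing

theorem s19s_C_eq {L : Type*} [Field L] (c : L) :
    s19b_C c = (HahnSeries.C c : LaurentSeries L) := by
  rw [s19b_C, algebraMap_laurentSeries_eq_single, HahnSeries.C_apply]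

/-- **linear disjointness**: independent Laurent series stay independent after extension of the
coefficient field. -/
theorem s19s_coeffMap_indep {κ₀ κ : Type*} [Field κ₀] [Field κ] (ψ : κ₀ →+* κ) {n : ℕ}
    (x : Fin n → LaurentSeries κ₀)
    (hx : ∀ g : Fin n → κ₀, ∑ i, HahnSeries.C (g i) * x i = 0 → ∀ i, g i = 0)
    (g : Fin n → κ) (hg : ∑ i, HahnSeries.C (g i) * coeffMap ψ (x i) = 0) : ∀ i, g i = 0 := by
  letI : Algebra κ₀ κ := ψ.toAlgebra
  intro i
  apply s19b_eq_zero_of_forall_functional (K := κ₀)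
  intro lam
  have h1 := s19b_retr_sum_C_mul_iota lam Finset.univ g x
  have h2 : ∑ i, s19b_C (g i) * s19b_iota (K' := κ) (x i) = 0 := by
    rw [← hg]
    refine Finset.sum_congr rfl fun i _ => ?_
    rw [s19s_C_eq]
    rfl
  rw [h2, map_zero] at h1
  refine hx (fun i => lam (g i)) ?_ i
  rw [h1]
  refine Finset.sum_congr rfl fun i _ => ?_
  rw [s19s_C_eq]

local notation "Qbar" => AlgebraicClosure ℚ

variable (A : ValuationSubring Qbar) (M : ℕ) [NeZero M] {ℓ : ℕ} [Fact ℓ.Prime]
  (hA : A.LiesOverPrime ℓ) (hℓM : ¬ ℓ ∣ M)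

/-- the inclusion of a level is semilinear. -/
theorem s19s_incl_smul (L₀ : IntermediateField ℚ Qbar) (c : ↥L₀)
    (x : ↥(laurentBaseChange ↥L₀ (modularFunctionFieldFull M))) :
    s18q_incl M L₀ (c • x) = ((c : ↥L₀) : Qbar) • s18q_incl M L₀ x := by
  rw [Algebra.smul_def, Algebra.smul_def, map_mul, s18q_incl_algebraMap]

/-- the inclusion of a level maps spans into spans. -/
theorem s19s_incl_span (L₀ : IntermediateField ℚ Qbar) {n : ℕ}
    (v : Fin n → ↥(laurentBaseChange ↥L₀ (modularFunctionFieldFull M)))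
    {x : ↥(laurentBaseChange ↥L₀ (modularFunctionFieldFull M))}
    (hx : x ∈ Submodule.span ↥L₀ (Set.range v)) :
    s18q_incl M L₀ x ∈ Submodule.span Qbar (Set.range fun i => s18q_incl M L₀ (v i)) := by
  induction hx using Submodule.span_induction with
  | mem y hy =>
    obtain ⟨i, rfl⟩ := hy
    exact Submodule.subset_span ⟨i, rfl⟩
  | zero => rw [map_zero]; exact Submodule.zero_mem _
  | add y z _ _ hy hz => rw [map_add]; exact Submodule.add_mem _ hy hz
  | smul c y _ hy => rw [s19s_incl_smul]; exact Submodule.smul_mem _ _ hy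

/-- independence descends to a level. -/
theorem s19s_indep_level (L₀ : IntermediateField ℚ Qbar) {n : ℕ}
    (v : Fin n → ↥(laurentBaseChange ↥L₀ (modularFunctionFieldFull M)))
    (hv : LinearIndependent Qbar fun i => s18q_incl M L₀ (v i)) : LinearIndependent ↥L₀ v := by
  rw [Fintype.linearIndependent_iff] at hv ⊢
  intro g hg i
  have h1 := congrArg (s18q_incl M L₀) hg
  rw [map_sum, map_zero] at h1
  simp_rw [s19s_incl_smul] at h1
  have h2 := hv (fun i => ((g i : ↥L₀) : Qbar)) h1 i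
  exact Subtype.ext h2

include hA in
/-- **Gauss-orthonormal bases, from a level to the top**: a family coming from the level `L₀` and
independent over `ℚ̄` has the same `ℚ̄`-span as a family coming from `L₀`, Gauss-integral, with
independent reductions. -/
theorem s19s_sc_level (L₀ : IntermediateField ℚ Qbar) [FiniteDimensional ℚ ↥L₀] {n : ℕ}
    (b₀ : Fin n → ↥(laurentBaseChange ↥L₀ (modularFunctionFieldFull M)))
    (hb : LinearIndependent Qbar fun i => s18q_incl M L₀ (b₀ i)) :
    ∃ b₀' : Fin n → ↥(laurentBaseChange ↥L₀ (modularFunctionFieldFull M)),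
      Submodule.span Qbar (Set.range fun i => s18q_incl M L₀ (b₀' i)) =
        Submodule.span Qbar (Set.range fun i => s18q_incl M L₀ (b₀ i)) ∧
      ∃ hb' : ∀ i, s18q_incl M L₀ (b₀' i) ∈ s37r_OF A M hA,
        LinearIndependent (ResidueField ↥A) fun i =>
          s37r_redF A M hA hℓM ⟨s18q_incl M L₀ (b₀' i), hb' i⟩ := by
  classical
  obtain ⟨hdvr, ϖ, hϖ⟩ := s37r_exists_unif A hA L₀
  haveI := hdvr
  have hℓ : ℓ.Prime := Fact.out
  have hℓ0 : ((ℓ : ℕ) : ↥L₀) ∈ (A.comap (algebraMap ↥L₀ Qbar)).nonunits := by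
    rw [ValuationSubring.mem_nonunits_iff_or]
    right
    intro hinv
    rw [ValuationSubring.mem_comap, map_inv₀, map_natCast] at hinv
    rcases (ValuationSubring.mem_nonunits_iff_or (A := A)).mp hA with h0 | h0
    · exact (Nat.cast_ne_zero.mpr hℓ.ne_zero) h0
    · exact h0 hinv
  haveI hchar : CharP (IsLocalRing.ResidueField ↥(s18q_A0 A L₀)) ℓ :=
    s18x_charP_residueField _ hℓ hℓ0
  have hT : s18g_HT (IsLocalRing.ResidueField ↥(s18q_A0 A L₀)) M := s18t_indep_j ℓ M hℓM _
  have hdeg : s18g_HDeg ↥L₀ M := fun n b hb hn =>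
    s18g_exists_relation M (algebraMap ↥L₀ Qbar) hn b hb
  obtain ⟨b₀', hspan₀, hb₀'V, hind₀⟩ := s19s_level_sc (s37r_G A L₀ ϖ hϖ) M hT hdeg n b₀
    (s19s_indep_level M L₀ b₀ hb)
  have hmem : ∀ i, s18q_incl M L₀ (b₀' i) ∈ s37r_OF A M hA := fun i =>
    (s37r_incl_mem_OF_iff A M hA L₀ ϖ hϖ (b₀' i)).mpr (hb₀'V i)
  refine ⟨b₀', ?_, hmem, ?_⟩
  · apply le_antisymm
    · rw [Submodule.span_le]
      rintro _ ⟨i, rfl⟩
      refine s19s_incl_span M L₀ b₀ ?_
      rw [← hspan₀]
      exact Submodule.subset_span ⟨i, rfl⟩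
    · rw [Submodule.span_le]
      rintro _ ⟨i, rfl⟩
      refine s19s_incl_span M L₀ b₀' ?_
      rw [hspan₀]
      exact Submodule.subset_span ⟨i, rfl⟩
  · rw [Fintype.linearIndependent_iff]
    intro g hg
    refine s19s_coeffMap_indep (s37r_resMap A L₀) _ hind₀ g ?_
    have h1 := congrArg (fun y : ↥(modularFunctionFieldFullC (ResidueField ↥A) M) =>
      (y : LaurentSeries (ResidueField ↥A))) hg
    simp only [ZeroMemClass.coe_zero] at h1
    rw [← h1, AddSubmonoidClass.coe_finsetSum]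
    refine Finset.sum_congr rfl fun i _ => ?_
    rw [Algebra.smul_def, MulMemClass.coe_mul, s37r_coe_redF,
      s37r_redV_incl A M hA L₀ ϖ hϖ (b₀' i) (hb₀'V i) (hmem i)]
    congr 1
    show _ = algebraMap (ResidueField ↥A) (LaurentSeries (ResidueField ↥A)) (g i)
    rw [algebraMap_laurentSeries_eq_single, HahnSeries.C_apply]

include hA in
/-- **the field `gv` of `s19_Curve` for the modular curve**: the Gauss valuation has the value
group of `A`. -/
theorem s19s_gv (f : ↥(modularFunctionFieldBar M)) (hf : f ≠ 0) :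
    ∃ c : Qbar, c ≠ 0 ∧ algebraMap Qbar ↥(modularFunctionFieldBar M) c * f ∈ s37r_OF A M hA ∧
      (algebraMap Qbar ↥(modularFunctionFieldBar M) c * f)⁻¹ ∈ s37r_OF A M hA := by
  classical
  obtain ⟨L₀, hfd, hL₀⟩ := s18q_exists_field M {f}
  obtain ⟨f₀, hf₀⟩ := hL₀ f (Finset.mem_singleton_self f)
  haveI := hfd
  obtain ⟨hdvr, ϖ, hϖ⟩ := s37r_exists_unif A hA L₀
  haveI := hdvr
  have hf₀0 : f₀ ≠ 0 := by
    rintro rfl
    exact hf (by rw [← hf₀, map_zero])
  obtain ⟨c₀, hc₀0, h1, h2⟩ := s19s_level_gv (s37r_G A L₀ ϖ hϖ) M f₀ hf₀0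
  have hincl : algebraMap Qbar ↥(modularFunctionFieldBar M) ((c₀ : ↥L₀) : Qbar) * f =
      s18q_incl M L₀ (algebraMap ↥L₀ ↥(laurentBaseChange ↥L₀ (modularFunctionFieldFull M)) c₀ *
        f₀) := by
    rw [map_mul, s18q_incl_algebraMap, hf₀]
  refine ⟨((c₀ : ↥L₀) : Qbar), fun h => hc₀0 (Subtype.ext h), ?_, ?_⟩
  · rw [hincl]
    exact (s37r_incl_mem_OF_iff A M hA L₀ ϖ hϖ _).mpr h1
  · rw [hincl, ← map_inv₀]
    exact (s37r_incl_mem_OF_iff A M hA L₀ ϖ hϖ _).mpr h2

include hA in
/-- **the field `sc` of `s19_Curve` for the modular curve**: finite-dimensional spaces of functions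
have Gauss-orthonormal bases. -/
theorem s19s_sc (n : ℕ) (b : Fin n → ↥(modularFunctionFieldBar M))
    (hb : LinearIndependent Qbar b) :
    ∃ b' : Fin n → ↥(modularFunctionFieldBar M),
      Submodule.span Qbar (Set.range b') = Submodule.span Qbar (Set.range b) ∧
      ∃ hb' : ∀ i, b' i ∈ s37r_OF A M hA,
        LinearIndependent (ResidueField ↥A) fun i => s37r_redF A M hA hℓM ⟨b' i, hb' i⟩ := by
  classical
  obtain ⟨L₀, hfd, hL₀⟩ := s18q_exists_field M (Finset.univ.image b)
  haveI := hfd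
  choose b₀ hb₀ using fun i => hL₀ (b i) (Finset.mem_image_of_mem b (Finset.mem_univ i))
  have hbeq : (fun i => s18q_incl M L₀ (b₀ i)) = b := funext hb₀
  obtain ⟨b₀', hspan, hb', hind⟩ := s19s_sc_level A M hA hℓM L₀ b₀ (hbeq ▸ hb)
  rw [hbeq] at hspan
  exact ⟨fun i => s18q_incl M L₀ (b₀' i), hspan, hb', hind⟩

/-- a series with coefficients in a subfield comes from the subfield. -/
theorem s19s_exists_coeffMap_eq (L : IntermediateField ℚ Qbar) (f : LaurentSeries Qbar)
    (h : ∀ n, f.coeff n ∈ L) : ∃ y : LaurentSeries ↥L, coeffMap (algebraMap ↥L Qbar) y = f := by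
  refine ⟨⟨fun n => ⟨f.coeff n, h n⟩, ?_⟩, ?_⟩
  · have : Function.support (fun n => (⟨f.coeff n, h n⟩ : ↥L)) = f.support := by
      ext n
      simp [Subtype.ext_iff]
    rw [this]
    exact f.isPWO_support
  · ext n
    rfl

/-- **rational functions come from unramified finite levels.** -/
theorem s19s_FW_level (f : ↥(modularFunctionFieldBar M)) (hf : f ∈ s19_FW A M) :
    ∃ L₀ : IntermediateField ℚ Qbar, FiniteDimensional ℚ ↥L₀ ∧ L₀ ≤ s19m_Ku A ∧
      f ∈ Set.range (s18q_incl M L₀) := by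
  have hcoeff : ∀ n, (f : LaurentSeries Qbar).coeff n ∈ s19m_Ku A := by
    intro n
    rw [s19m_mem_Ku]
    intro τ hτ
    have := congrArg (fun z : LaurentSeries Qbar => z.coeff n) (hf τ hτ)
    simpa using this
  obtain ⟨y, hy⟩ := s19s_exists_coeffMap_eq (s19m_Ku A) _ hcoeff
  haveI : Algebra.IsAlgebraic ℚ Qbar := s18q_isAlgebraic_bar
  haveI : Algebra.IsAlgebraic ↥(s19m_Ku A) Qbar := Algebra.IsAlgebraic.tower_top (K := ℚ) _
  haveI : Algebra.IsAlgebraic ℚ ↥(s19m_Ku A) :=
    Algebra.IsAlgebraic.of_injective (IntermediateField.val (s19m_Ku A))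
      (IntermediateField.val (s19m_Ku A)).injective
  have hyF : y ∈ laurentBaseChange ↥(s19m_Ku A) (modularFunctionFieldFull M) := by
    refine s19b_laurentBaseChange_descent ↥(s19m_Ku A) Qbar (modularFunctionFieldFull M) y ?_
    show coeffMap (algebraMap ↥(s19m_Ku A) Qbar) y ∈ _
    rw [hy]
    exact f.2
  obtain ⟨L₁, hL₁fd, y₁, hy₁mem, hy₁⟩ :=
    s18q_exists_defOver (F₀ := modularFunctionFieldFull M) hyF
  haveI := hL₁fd
  refine ⟨L₁.map (IntermediateField.val (s19m_Ku A)), ?_, ?_, ?_⟩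
  · exact LinearEquiv.finiteDimensional
      (L₁.equivMap (IntermediateField.val (s19m_Ku A))).toLinearEquiv
  · rintro x ⟨z, -, rfl⟩
    exact z.2
  · set φ : ↥L₁ →+* ↥(L₁.map (IntermediateField.val (s19m_Ku A))) :=
      (L₁.equivMap (IntermediateField.val (s19m_Ku A))).toAlgHom.toRingHom with hφ
    refine ⟨⟨coeffMap φ y₁, s18q_coeffMap_mem φ hy₁mem⟩, ?_⟩
    apply Subtype.ext
    rw [s18q_incl_coe]
    show coeffMap _ (coeffMap φ y₁) = (f : LaurentSeries Qbar)
    rw [← hy, ← hy₁, coeffMap_coeffMap, coeffMap_coeffMap]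
    refine coeffMap_congr (RingHom.ext fun x => ?_) y₁
    rfl

include hA in
/-- **the field `scW` of `s19_Curve` for the modular curve**: rational Gauss-orthonormal bases. -/
theorem s19s_scW (n : ℕ) (b : Fin n → ↥(modularFunctionFieldBar M))
    (hb : LinearIndependent Qbar b) (hW : ∀ i, b i ∈ s19_FW A M) :
    ∃ b' : Fin n → ↥(modularFunctionFieldBar M),
      Submodule.span Qbar (Set.range b') = Submodule.span Qbar (Set.range b) ∧
      (∀ i, b' i ∈ s19_FW A M) ∧
      ∃ hb' : ∀ i, b' i ∈ s37r_OF A M hA,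
        LinearIndependent (ResidueField ↥A) fun i => s37r_redF A M hA hℓM ⟨b' i, hb' i⟩ := by
  classical
  choose L hLfd hLKu hLmem using fun i => s19s_FW_level A M (b i) (hW i)
  haveI := hLfd
  set L₀ : IntermediateField ℚ Qbar := ⨆ i, L i with hL₀
  haveI : FiniteDimensional ℚ ↥L₀ := IntermediateField.finiteDimensional_iSup_of_finite
  have hKu : L₀ ≤ s19m_Ku A := iSup_le hLKu
  choose b₀ hb₀ using fun i => s18q_incl_range_mono M (le_iSup L i) (hLmem i)
  have hbeq : (fun i => s18q_incl M L₀ (b₀ i)) = b := funext hb₀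
  obtain ⟨b₀', hspan, hb', hind⟩ := s19s_sc_level A M hA hℓM L₀ b₀ (hbeq ▸ hb)
  rw [hbeq] at hspan
  exact ⟨fun i => s18q_incl M L₀ (b₀' i), hspan, fun i => s19m_incl_mem_FW A M L₀ hKu (b₀' i),
    hb', hind⟩

/-- **the three fields together**, in the shape of `s19m_GaussHyp` (MCurve.lean, helper5). -/
theorem s19s_gaussHyp :
    ∀ (M : ℕ) [NeZero M] (ℓ : ℕ) [Fact ℓ.Prime] (hgood : s18_GoodLevel ℓ M)
      (A : ValuationSubring Qbar) (hA : A.LiesOverPrime ℓ),
      (∀ f : ↥(modularFunctionFieldBar M), f ≠ 0 → ∃ c : Qbar, c ≠ 0 ∧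
        algebraMap Qbar ↥(modularFunctionFieldBar M) c * f ∈ s37r_OF A M hA ∧
        (algebraMap Qbar ↥(modularFunctionFieldBar M) c * f)⁻¹ ∈ s37r_OF A M hA) ∧
      (∀ (n : ℕ) (b : Fin n → ↥(modularFunctionFieldBar M)), LinearIndependent Qbar b →
        ∃ b' : Fin n → ↥(modularFunctionFieldBar M),
          Submodule.span Qbar (Set.range b') = Submodule.span Qbar (Set.range b) ∧
          ∃ hb' : ∀ i, b' i ∈ s37r_OF A M hA,
            LinearIndependent (ResidueField ↥A) fun i =>
              s37r_redF A M hA hgood.1 ⟨b' i, hb' i⟩) ∧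
      (∀ (n : ℕ) (b : Fin n → ↥(modularFunctionFieldBar M)), LinearIndependent Qbar b →
        (∀ i, b i ∈ s19_FW A M) →
        ∃ b' : Fin n → ↥(modularFunctionFieldBar M),
          Submodule.span Qbar (Set.range b') = Submodule.span Qbar (Set.range b) ∧
          (∀ i, b' i ∈ s19_FW A M) ∧
          ∃ hb' : ∀ i, b' i ∈ s37r_OF A M hA,
            LinearIndependent (ResidueField ↥A) fun i =>
              s37r_redF A M hA hgood.1 ⟨b' i, hb' i⟩) :=
  fun M _ ℓ _ hgood A hA =>
    ⟨s19s_gv A M hA, s19s_sc A M hA hgood.1, s19s_scW A M hA hgood.1⟩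

end Fermat.Agent.Lib.S19
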