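/-
W-A programme (S19), contract [LEVEL] (helper8), part 2: **`s19v_level : s19_LevelChange`**.

For `ℓ ≥ 5` (or `ℓ = 3`, `2 ∣ p`, or `ℓ = 2`, `3 ∣ p`) the level `p` itself is good.  For `ℓ = 3`, `2 ∤ p` take
`M = p * 2`, for `ℓ = 2`, `3 ∤ p` take `M = p * 3`: the pull-back `α^* : J₀(p) → J₀(M)` is injective
(`VInj.lean`) and Galois equivariant, so `J₀(p)[ℓ^k]` is a Galois SUBMODULE of `J₀(M)[ℓ^k]`
(`T₁ = J₀(p)[ℓ^k]`, `i = α^*`, `q = id`, `k' = k`).
-/
import Fermat.Agent.Lib.S19.VInj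
import Fermat.Agent.Lib.S19.IfaceTop

set_option autoImplicit false
set_option linter.unusedSectionVars false
set_option linter.style.haveILetI false

noncomputable section

namespace Fermat.Agent.Lib.S19

open ModularCurve AlgebraicCurve

section Aux

variable (p r : ℕ) [NeZero p] [NeZero r] (hr : r.Prime) (hrp : ¬ r ∣ p) (ℓ k : ℕ)

/-- `α^*` on the `ℓ^k`-torsion. -/
def s19v_pullTors : s19_Tors p ℓ k →+ s19_Tors (p * r) ℓ k where
  toFun x := ⟨s19v_pull p r hr hrp (x : JZero p), by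
    have h := x.2
    rw [Submodule.mem_torsionBy_iff] at h ⊢
    rw [← map_zsmul, h, map_zero]⟩
  map_zero' := Subtype.ext (map_zero _)
  map_add' x y := Subtype.ext (map_add _ _ _)

theorem s19v_pullTors_injective : Function.Injective (s19v_pullTors p r hr hrp ℓ k) := by
  intro x y hxy
  apply Subtype.ext
  apply s19v_pull_injective p r hr hrp
  exact congrArg Subtype.val hxy

theorem s19v_pullTors_smul (σ : s19_Gal) (x : s19_Tors p ℓ k) :
    s19v_pullTors p r hr hrp ℓ k (σ • x) = σ • s19v_pullTors p r hr hrp ℓ k x := by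
  apply Subtype.ext
  show s19v_pull p r hr hrp (σ • (x : JZero p)) = σ • s19v_pull p r hr hrp (x : JZero p)
  exact s19v_pull_smul p r hr hrp σ _

end Aux

/-- the conclusion of [LEVEL] when `J₀(p)[ℓ^k]` embeds equivariantly into `J₀(M)[ℓ^k]`. -/
theorem s19v_level_of_embedding (p : ℕ) [NeZero p] (ℓ : ℕ) [Fact ℓ.Prime] (k : ℕ) (M : ℕ)
    (hM : NeZero M) (hgood : s19_Good ℓ M) (i : s19_Tors p ℓ k →+ s19_Tors M ℓ k)
    (hi : Function.Injective i) (hie : ∀ (σ : s19_Gal) (x : s19_Tors p ℓ k), i (σ • x) = σ • i x) :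
    ∃ (M : ℕ) (_ : NeZero M) (k' : ℕ), s19_Good ℓ M ∧
      ∃ (T₁ : Type) (_ : AddCommGroup T₁) (_ : DistribMulAction s19_Gal T₁)
        (i : T₁ →+ s19_Tors M ℓ k') (q : T₁ →+ s19_Tors p ℓ k),
        Function.Injective i ∧ (∀ (σ : s19_Gal) (x : T₁), i (σ • x) = σ • i x) ∧
        Function.Surjective q ∧ (∀ (σ : s19_Gal) (x : T₁), q (σ • x) = σ • q x) :=
  ⟨M, hM, k, hgood, s19_Tors p ℓ k, inferInstance, inferInstance, i, AddMonoidHom.id _, hi, hie,
    Function.surjective_id, fun _ _ => rfl⟩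

/-- **[LEVEL]**. -/
theorem s19v_level : s19_LevelChange := by
  intro p _ ℓ hℓ hℓp k
  have hprime : ℓ.Prime := hℓ.out
  by_cases h5 : 5 ≤ ℓ
  · exact s19v_level_of_embedding p ℓ k p inferInstance ⟨hℓp, Or.inl h5⟩ (AddMonoidHom.id _)
      Function.injective_id (fun _ _ => rfl)
  -- `ℓ ∈ {2, 3}`
  have hℓ23 : ℓ = 2 ∨ ℓ = 3 := by
    have h2 := hprime.two_le
    have : ℓ ≠ 4 := fun h => by rw [h] at hprime; exact absurd hprime (by decide)
    omega
  rcases hℓ23 with rfl | rfl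
  · -- `ℓ = 2`, auxiliary prime `3`
    by_cases h3 : 3 ∣ p
    · exact s19v_level_of_embedding p 2 k p inferInstance ⟨hℓp, Or.inr (Or.inr ⟨rfl, h3⟩)⟩
        (AddMonoidHom.id _) Function.injective_id (fun _ _ => rfl)
    · have hgood : s19_Good 2 (p * 3) := by
        refine ⟨fun h => ?_, Or.inr (Or.inr ⟨rfl, dvd_mul_left 3 p⟩)⟩
        rcases (Nat.Prime.dvd_mul Nat.prime_two).mp h with h | h
        · exact hℓp h
        · omega
      exact s19v_level_of_embedding p 2 k (p * 3) inferInstance hgood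
        (s19v_pullTors p 3 Nat.prime_three h3 2 k)
        (s19v_pullTors_injective p 3 Nat.prime_three h3 2 k)
        (s19v_pullTors_smul p 3 Nat.prime_three h3 2 k)
  · -- `ℓ = 3`, auxiliary prime `2`
    by_cases h2 : 2 ∣ p
    · exact s19v_level_of_embedding p 3 k p inferInstance ⟨hℓp, Or.inr (Or.inl ⟨rfl, h2⟩)⟩
        (AddMonoidHom.id _) Function.injective_id (fun _ _ => rfl)
    · have hgood : s19_Good 3 (p * 2) := by
        refine ⟨fun h => ?_, Or.inr (Or.inl ⟨rfl, dvd_mul_left 2 p⟩)⟩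
        rcases (Nat.Prime.dvd_mul Nat.prime_three).mp h with h | h
        · exact hℓp h
        · omega
      exact s19v_level_of_embedding p 3 k (p * 2) inferInstance hgood
        (s19v_pullTors p 2 Nat.prime_two h2 3 k)
        (s19v_pullTors_injective p 2 Nat.prime_two h2 3 k)
        (s19v_pullTors_smul p 2 Nat.prime_two h2 3 k)

end Fermat.Agent.Lib.S19

end
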