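/-
W-A programme (S19/S32): **FINAL ASSEMBLY of S19** (helper5).

`s19_closed`: the frozen statement of S19, all contracts discharged (`s19_final` keeps
`s19m_RRHyp` as a hypothesis):
`s19m_RRHyp` (`s19b_rr`, helper2 — Riemann's theorem on both fibres with the same genus),
`s19m_GaussHyp` (`s19s_gv`, `s19s_sc`, `s19s_scW`, helper1), [ORDER] (`s19c_order`, helper4, with `s19o_K5Full`, helper7, and [BASE]
`s19e_baseA`, helper6), [DESC] (`s19g_desc`, helper3), [LEVEL] (`s19v_level`, helper8), [HOPF],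
[SUBQ] (helper4), [CONT], [FIN] (landed S29/S30).
-/
import Fermat.Agent.Lib.S19.MCurve
import Fermat.Agent.Lib.S19.EGeoTop
import Fermat.Agent.Lib.S19.EBase
import Fermat.Agent.Lib.S19.NInf
import Fermat.Agent.Lib.S19.COrderE
import Fermat.Agent.Lib.S19.CHopfD
import Fermat.Agent.Lib.S19.CQuot
import Fermat.Agent.Lib.S19.CSubProd
import Fermat.Agent.Lib.S19.OK5Full
import Fermat.Agent.Lib.S19.GDescH
import Fermat.Agent.Lib.S19.VLevel
import Fermat.Agent.Lib.S19.SGaussTop
import Fermat.Agent.Lib.S19.BGenus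
import Fermat.Agent.Lib.S30.TateLevel
import Fermat.Agent.Lib.Frobenius.Exists

set_option autoImplicit false
set_option linter.unusedSectionVars false
set_option linter.style.haveILetI false
set_option synthInstance.maxHeartbeats 400000
set_option maxHeartbeats 1600000

noncomputable section

namespace Fermat.Agent.Lib.S19

open ModularCurve AlgebraicCurve IsLocalRing

/-- [CONT] from the landed S29 package. -/
theorem s19_cont_final : s19_Cont := fun N _ x =>
  Fermat.Agent.Lib.S29.s29g_S37Int.openStab N x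

/-- [FIN] from the landed S30 package. -/
theorem s19_torsFinite_final : s19_TorsFinite := by
  intro N _ ℓ k _
  haveI : NeZero (ℓ ^ k) := ⟨pow_ne_zero k (Fact.out : ℓ.Prime).ne_zero⟩
  have h := Fermat.Agent.Lib.S30.s30a_finite_torsion N (ℓ ^ k)
  have hcast : ((ℓ ^ k : ℕ) : ℤ) = (ℓ : ℤ) ^ k := by push_cast; rfl
  refine Finite.of_injective
    (fun x : s19_Tors N ℓ k =>
      (⟨(x : JZero N), by
        have hx := x.2
        rw [Submodule.mem_torsionBy_iff] at hx
        rw [Pic0.mem_torsion, hcast]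
        exact hx⟩ : Fermat.Agent.Lib.S29.s29k_Jp N (ℓ ^ k))) ?_
  intro x y hxy
  exact Subtype.ext (congrArg Subtype.val hxy)

/-- the Gauss valuation inputs of [CURVE], closed (helper1). -/
theorem s19_gauss_final : s19m_GaussHyp := fun M _ ℓ _ hgood A hA =>
  ⟨fun f hf => s19s_gv A M hA f hf, fun n b hb => s19s_sc A M hA hgood.1 n b hb,
    fun n b hb hW => s19s_scW A M hA hgood.1 n b hb hW⟩

/-- [FRAMES] from the open input of [CURVE]. -/
theorem s19_frames_final (hR : s19m_RRHyp) : s19_FramesExist :=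
  s19m_frames (s19m_curveExists s19_gauss_final hR s19e_baseA) s19e_add_closed s19e_chg_closed
    s19n_nonSp s19n_inf

/-- [ORDER], closed. -/
theorem s19_order_final : s19_OrderOfFrames := s19c_order s19e_baseA s19o_K5Full

/-- **S19 from the open contracts.** -/
theorem s19_final (hR : s19m_RRHyp)
    (p : ℕ) [NeZero p] (ℓ : ℕ) [Fact ℓ.Prime] (hℓp : ¬ ℓ ∣ p) (k : ℕ) :
    ∃ (H : Type) (_ : CommRing H) (_ : HopfAlgebra (GaloisRep.ratLocalizedAt ℓ) H),
      Module.Finite (GaloisRep.ratLocalizedAt ℓ) H ∧ Module.Flat (GaloisRep.ratLocalizedAt ℓ) H ∧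
      Coalgebra.IsCocomm (GaloisRep.ratLocalizedAt ℓ) H ∧
      ∃ e : WithConv (H →ₐ[GaloisRep.ratLocalizedAt ℓ] AlgebraicClosure ℚ) ≃
          ↥(Submodule.torsionBy ℤ (JZero p) ((ℓ : ℤ) ^ k)),
        (∀ f g, e (f * g) = e f + e g) ∧
        ∀ (σ : AlgebraicClosure ℚ ≃ₐ[ℚ] AlgebraicClosure ℚ)
          (f g : WithConv (H →ₐ[GaloisRep.ratLocalizedAt ℓ] AlgebraicClosure ℚ)),
          (∀ h : H, g h = σ (f h)) → ((e g : JZero p)) = σ • (e f : JZero p) := by
  obtain ⟨A, hA⟩ := Fermat.Agent.Lib.Frobenius.exists_liesOverPrime ℓ (Fact.out : ℓ.Prime)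
  exact s19_top (s19_frames_final hR) s19_order_final s19g_desc s19c_hopf_main
    s19c_orderSub s19c_orderQuot s19v_level s19_cont_final s19_torsFinite_final p ℓ hℓp k A hA

/-- Riemann's theorem on both fibres with the same genus, closed (helper2). -/
theorem s19_rr_final : s19m_RRHyp := fun M _ ℓ _ hgood A hA hsc => s19b_rr M ℓ hgood A hA hsc

/-- **S19**, all contracts discharged. -/
theorem s19_closed (p : ℕ) [NeZero p] (ℓ : ℕ) [Fact ℓ.Prime] (hℓp : ¬ ℓ ∣ p) (k : ℕ) :
    ∃ (H : Type) (_ : CommRing H) (_ : HopfAlgebra (GaloisRep.ratLocalizedAt ℓ) H),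
      Module.Finite (GaloisRep.ratLocalizedAt ℓ) H ∧ Module.Flat (GaloisRep.ratLocalizedAt ℓ) H ∧
      Coalgebra.IsCocomm (GaloisRep.ratLocalizedAt ℓ) H ∧
      ∃ e : WithConv (H →ₐ[GaloisRep.ratLocalizedAt ℓ] AlgebraicClosure ℚ) ≃
          ↥(Submodule.torsionBy ℤ (JZero p) ((ℓ : ℤ) ^ k)),
        (∀ f g, e (f * g) = e f + e g) ∧
        ∀ (σ : AlgebraicClosure ℚ ≃ₐ[ℚ] AlgebraicClosure ℚ)
          (f g : WithConv (H →ₐ[GaloisRep.ratLocalizedAt ℓ] AlgebraicClosure ℚ)),
          (∀ h : H, g h = σ (f h)) → ((e g : JZero p)) = σ • (e f : JZero p) :=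
  s19_final s19_rr_final p ℓ hℓp k

end Fermat.Agent.Lib.S19
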