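/-
W-A programme (S19/S32), contract [NONSP] `s19_NonSp` (IfaceCurve.lean): non-special systems of
`g` distinct places exist off any finite set of places (helper7, prefix `s19n_`).

Proof: `ℓ(0) = 1` (a function without poles is constant: value at a place of degree one, then the
divisor of `f - c` is effective of degree `0` with a zero); if `T` is a set of `m < g` places
with `ℓ(T) = 1` and every fresh place `P` had `ℓ(T + P) ≥ 2`, then adding `n` fresh places would
give `ℓ ≥ 1 + n`, against Riemann's equality `ℓ = m + n + 1 - g` for `m + n` large.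
-/
import Fermat.Agent.Lib.S19.IfaceCurve
import Fermat.Agent.Lib.FF.FFBasicResidue

set_option autoImplicit false

noncomputable section

namespace Fermat.Agent.Lib.S19

open AlgebraicCurve Fermat.Agent.Lib.FF IsLocalRing

variable {k Fb : Type*} [Field k] [Field Fb] [Algebra k Fb]

/-- at a place of degree one every integral function has a value in `k`. -/
theorem s19n_exists_value (Q : Place k Fb) (hQ : Q.deg = 1) (f : Fb)
    (hf : f ∈ Q.toValuationSubring) :
    ∃ c : k, f - algebraMap k Fb c = 0 ∨ 0 < Q.ord (f - algebraMap k Fb c) := by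
  unfold Place.deg at hQ
  rw [finrank_eq_one_iff_of_nonzero' (1 : Q.ResidueField) one_ne_zero] at hQ
  obtain ⟨c, hc⟩ := hQ (IsLocalRing.residue _ ⟨f, hf⟩)
  refine ⟨c, ?_⟩
  by_cases h0 : f - algebraMap k Fb c = 0
  · exact Or.inl h0
  · right
    set gO : Q.toValuationSubring := ⟨f, hf⟩ - algebraMap k Q.toValuationSubring c with hgO
    have hcoe : (gO : Fb) = f - algebraMap k Fb c := by
      rw [hgO]; push_cast; rw [Place.coe_algebraMap]
    have hres : IsLocalRing.residue _ gO = 0 := by
      rw [hgO, map_sub, ← hc, Algebra.smul_def, mul_one,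
        IsScalarTower.algebraMap_apply k Q.toValuationSubring Q.ResidueField]
      exact sub_self _
    rw [IsLocalRing.residue_eq_zero_iff, IsLocalRing.mem_maximalIdeal, mem_nonunits_iff] at hres
    rw [ff_ord_pos_iff Q h0]
    refine ⟨by rw [← hcoe]; exact gO.2, fun hinv => hres ?_⟩
    refine isUnit_iff_exists_inv.mpr ⟨⟨_, hinv⟩, Subtype.ext ?_⟩
    push_cast
    rw [hcoe]
    exact mul_inv_cancel₀ h0

/-- all places of degree one: the degree is the sum of the coefficients. -/
theorem s19n_degree_eq (hdeg : ∀ Q : Place k Fb, Q.deg = 1) (D : Divisor k Fb) :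
    Divisor.degree D = ∑ v ∈ D.support, D v := by
  unfold Divisor.degree
  rw [Finsupp.liftAddHom_apply, Finsupp.sum]
  refine Finset.sum_congr rfl fun v _ => ?_
  show D v * (v.deg : ℤ) = D v
  rw [hdeg v, Nat.cast_one, mul_one]

/-- an effective divisor of degree `0` has no positive coefficient. -/
theorem s19n_not_pos_of_degree_zero (hdeg : ∀ Q : Place k Fb, Q.deg = 1) {D : Divisor k Fb}
    (h0 : ∀ v, 0 ≤ D v) (hd : Divisor.degree D = 0) (Q : Place k Fb) : ¬ 0 < D Q := by
  intro hQ
  rw [s19n_degree_eq hdeg] at hd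
  have hmem : Q ∈ D.support := Finsupp.mem_support_iff.mpr (ne_of_gt hQ)
  have h1 : D Q ≤ ∑ v ∈ D.support, D v :=
    Finset.single_le_sum (f := fun v => D v) (fun v _ => h0 v) hmem
  omega

/-- `1 ∈ L(D)` for an effective divisor. -/
theorem s19n_one_mem {D : Divisor k Fb} (h0 : ∀ v, 0 ≤ D v) : (1 : Fb) ∈ riemannRochSpace D := by
  rw [mem_riemannRochSpace_iff]
  intro v
  right
  rw [Place.ord_one]
  have := h0 v
  omega

/-- `L` is monotone. -/
theorem s19n_L_mono {D D' : Divisor k Fb} (h : ∀ v, D v ≤ D' v) :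
    riemannRochSpace D ≤ riemannRochSpace D' := by
  intro f hf
  rw [mem_riemannRochSpace_iff] at hf ⊢
  intro v
  rcases hf v with h0 | h1
  · exact Or.inl h0
  · right
    have := h v
    omega

/-- **functions without poles are constant.** -/
theorem s19n_L_zero [HasPrincipalDivisors k Fb] (hdeg : ∀ Q : Place k Fb, Q.deg = 1)
    (Q : Place k Fb) :
    riemannRochSpace (0 : Divisor k Fb) = Submodule.span k {(1 : Fb)} := by
  apply le_antisymm
  · intro f hf
    have hfv : ∀ v : Place k Fb, f ∈ v.toValuationSubring := by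
      intro v
      rw [ff_mem_iff_adicValuation_le_one]
      simpa using hf v
    obtain ⟨c, hc⟩ := s19n_exists_value Q (hdeg Q) f (hfv Q)
    rw [Submodule.mem_span_singleton]
    refine ⟨c, ?_⟩
    rw [Algebra.smul_def, mul_one]
    by_contra hne
    have hg : f - algebraMap k Fb c ≠ 0 := fun h => hne (sub_eq_zero.mp h).symm
    have hpos : 0 < Q.ord (f - algebraMap k Fb c) := hc.resolve_left hg
    obtain ⟨Dg, hDg, hdg⟩ := HasPrincipalDivisors.exists_divisor (K := k) _ hg
    have hnn : ∀ v, 0 ≤ Dg v := by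
      intro v
      rw [hDg v]
      have h1 : f - algebraMap k Fb c ∈ v.toValuationSubring :=
        sub_mem (hfv v) (v.algebraMap_mem' c)
      exact (ff_mem_iff_ord_nonneg v hg).mp h1
    exact s19n_not_pos_of_degree_zero hdeg hnn hdg Q (by rw [hDg Q]; exact hpos)
  · rw [Submodule.span_le, Set.singleton_subset_iff]
    exact s19n_one_mem (D := 0) fun v => le_refl _

theorem s19n_finrank_L_zero [HasPrincipalDivisors k Fb] (hdeg : ∀ Q : Place k Fb, Q.deg = 1)
    (Q : Place k Fb) :
    Module.finrank k ↥(riemannRochSpace (0 : Divisor k Fb)) = 1 := by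
  rw [s19n_L_zero hdeg Q]
  exact finrank_span_singleton one_ne_zero

/-! ### reduced effective divisors -/

/-- the reduced effective divisor with support `T`. -/
def s19n_ind (T : Finset (Place k Fb)) : Divisor k Fb := ∑ v ∈ T, Finsupp.single v (1 : ℤ)

theorem s19n_ind_of_mem {T : Finset (Place k Fb)} {w : Place k Fb} (hw : w ∈ T) :
    s19n_ind T w = 1 := by
  classical
  unfold s19n_ind
  rw [Finsupp.finsetSum_apply]
  simp only [Finsupp.single_apply]
  rw [Finset.sum_ite_eq' T w, if_pos hw]

theorem s19n_ind_of_not_mem {T : Finset (Place k Fb)} {w : Place k Fb} (hw : w ∉ T) :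
    s19n_ind T w = 0 := by
  classical
  unfold s19n_ind
  rw [Finsupp.finsetSum_apply]
  simp only [Finsupp.single_apply]
  rw [Finset.sum_ite_eq' T w, if_neg hw]

theorem s19n_ind_nonneg (T : Finset (Place k Fb)) (w : Place k Fb) : 0 ≤ s19n_ind T w := by
  classical
  by_cases hw : w ∈ T
  · rw [s19n_ind_of_mem hw]; exact zero_le_one
  · rw [s19n_ind_of_not_mem hw]

theorem s19n_ind_mono {T T' : Finset (Place k Fb)} (h : T ⊆ T') (w : Place k Fb) :
    s19n_ind T w ≤ s19n_ind T' w := by
  classical
  by_cases hw : w ∈ T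
  · rw [s19n_ind_of_mem hw, s19n_ind_of_mem (h hw)]
  · rw [s19n_ind_of_not_mem hw]; exact s19n_ind_nonneg T' w

theorem s19n_degree_ind (hdeg : ∀ Q : Place k Fb, Q.deg = 1) (T : Finset (Place k Fb)) :
    Divisor.degree (s19n_ind T) = T.card := by
  unfold s19n_ind
  rw [map_sum]
  simp [Divisor.degree_single, hdeg]

theorem s19n_ind_empty : s19n_ind (∅ : Finset (Place k Fb)) = 0 := by
  unfold s19n_ind
  exact Finset.sum_empty

/-- a function of `L(T + P)` and of `L(T')`, `P ∉ T'`, `T ⊆ T'`, lies in `L(T)`. -/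
theorem s19n_mem_inf [DecidableEq (Place k Fb)] {T T' : Finset (Place k Fb)} {P : Place k Fb}
    (hP : P ∉ T') {f : Fb}
    (h1 : f ∈ riemannRochSpace (s19n_ind (insert P T))) (h2 : f ∈ riemannRochSpace (s19n_ind T')) :
    f ∈ riemannRochSpace (s19n_ind T) := by
  rw [mem_riemannRochSpace_iff] at h1 h2 ⊢
  intro v
  by_cases hv : v ∈ T
  · rcases h1 v with h | h
    · exact Or.inl h
    · right
      rw [s19n_ind_of_mem (Finset.mem_insert_of_mem hv)] at h
      rw [s19n_ind_of_mem hv]
      exact h
  · by_cases hvP : v = P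
    · subst hvP
      rcases h2 v with h | h
      · exact Or.inl h
      · right
        rw [s19n_ind_of_not_mem hP] at h
        rw [s19n_ind_of_not_mem hv]
        exact h
    · rcases h1 v with h | h
      · exact Or.inl h
      · right
        rw [s19n_ind_of_not_mem (by simp [hvP, hv])] at h
        rw [s19n_ind_of_not_mem hv]
        exact h

/-- the chain count: if every fresh place enlarges `L(T)`, then `ℓ(T ∪ N) ≥ 1 + |N|`. -/
theorem s19n_chain [DecidableEq (Place k Fb)]
    (hfin : ∀ D : Divisor k Fb, Module.Finite k ↥(riemannRochSpace D))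
    (T N : Finset (Place k Fb)) (hTN : Disjoint T N)
    (hbig : ∀ P ∈ N, ∃ f ∈ riemannRochSpace (s19n_ind (insert P T)),
      f ∉ riemannRochSpace (s19n_ind T)) :
    ∀ N' ⊆ N, 1 + N'.card ≤ Module.finrank k ↥(riemannRochSpace (s19n_ind (T ∪ N'))) := by
  intro N'
  induction N' using Finset.induction_on with
  | empty =>
    intro _
    rw [Finset.card_empty, add_zero, Finset.union_empty]
    have := hfin (s19n_ind T)
    rw [Nat.succ_le_iff, Module.finrank_pos_iff_exists_ne_zero]
    exact ⟨⟨1, s19n_one_mem (s19n_ind_nonneg T)⟩, fun h => one_ne_zero (congrArg Subtype.val h)⟩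
  | insert P N'' hPN ih =>
    intro hsub
    have hsub'' : N'' ⊆ N := fun v hv => hsub (Finset.mem_insert_of_mem hv)
    have hPN' : P ∈ N := hsub (Finset.mem_insert_self P N'')
    have hPT : P ∉ T := fun h => (Finset.disjoint_left.mp hTN h) hPN'
    have hPTN : P ∉ T ∪ N'' := by
      rw [Finset.mem_union]; rintro (h | h)
      · exact hPT h
      · exact hPN h
    obtain ⟨f, hf1, hf2⟩ := hbig P hPN'
    have hlt : riemannRochSpace (s19n_ind (T ∪ N'')) <
        riemannRochSpace (s19n_ind (T ∪ insert P N'')) := by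
      refine lt_of_le_of_ne (s19n_L_mono (s19n_ind_mono ?_)) ?_
      · exact Finset.union_subset_union_right (Finset.subset_insert P N'')
      · intro heq
        have hfbig : f ∈ riemannRochSpace (s19n_ind (T ∪ insert P N'')) := by
          refine s19n_L_mono (s19n_ind_mono ?_) hf1
          intro v hv
          rw [Finset.mem_insert] at hv
          rw [Finset.mem_union, Finset.mem_insert]
          rcases hv with h | h
          · exact Or.inr (Or.inl h)
          · exact Or.inl h
        rw [← heq] at hfbig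
        exact hf2 (s19n_mem_inf hPTN hf1 hfbig)
    have := hfin (s19n_ind (T ∪ insert P N''))
    have h2 := Submodule.finrank_lt_finrank_of_lt hlt
    have h3 := ih hsub''
    rw [Finset.card_insert_of_notMem hPN]
    omega

/-- **the inductive step**: a non-special reduced divisor of degree `< g` can be enlarged by a
fresh place off `S`. -/
theorem s19n_step [DecidableEq (Place k Fb)] {g : ℕ} (hR : s19_Riemann k Fb g)
    (hdeg : ∀ Q : Place k Fb, Q.deg = 1)
    [Infinite (Place k Fb)] (S T : Finset (Place k Fb)) (hTg : T.card < g)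
    (hT1 : Module.finrank k ↥(riemannRochSpace (s19n_ind T)) = 1) :
    ∃ P, P ∉ T ∧ P ∉ S ∧
      Module.finrank k ↥(riemannRochSpace (s19n_ind (insert P T))) = 1 := by
  by_contra hcon
  replace hcon : ∀ P, P ∉ T → P ∉ S →
      Module.finrank k ↥(riemannRochSpace (s19n_ind (insert P T))) ≠ 1 :=
    fun P h1 h2 h3 => hcon ⟨P, h1, h2, h3⟩
  obtain ⟨c, hc⟩ := hR.large
  -- fresh places
  have hinf : ((↑(T ∪ S) : Set (Place k Fb))ᶜ).Infinite := (T ∪ S).finite_toSet.infinite_compl
  obtain ⟨N, hNsub, hNcard⟩ := hinf.exists_subset_card_eq (c - T.card).toNat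
  have hNT : ∀ P ∈ N, P ∉ T ∧ P ∉ S := by
    intro P hP
    have := hNsub (Finset.mem_coe.mpr hP)
    rw [Set.mem_compl_iff, Finset.mem_coe, Finset.mem_union] at this
    exact ⟨fun h => this (Or.inl h), fun h => this (Or.inr h)⟩
  have hTN : Disjoint T N := Finset.disjoint_left.mpr fun v hvT hvN => (hNT v hvN).1 hvT
  have hbig : ∀ P ∈ N, ∃ f ∈ riemannRochSpace (s19n_ind (insert P T)),
      f ∉ riemannRochSpace (s19n_ind T) := by
    intro P hP
    have hle : riemannRochSpace (s19n_ind T) ≤ riemannRochSpace (s19n_ind (insert P T)) :=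
      s19n_L_mono (s19n_ind_mono (Finset.subset_insert P T))
    have hne : riemannRochSpace (s19n_ind T) ≠ riemannRochSpace (s19n_ind (insert P T)) := by
      intro heq
      apply hcon P (hNT P hP).1 (hNT P hP).2
      rw [← heq]
      exact hT1
    obtain ⟨f, hf, hf'⟩ := SetLike.exists_of_lt (lt_of_le_of_ne hle hne)
    exact ⟨f, hf, hf'⟩
  have h1 := s19n_chain hR.fin T N hTN hbig N (Finset.Subset.refl N)
  have hdegTN : Divisor.degree (s19n_ind (T ∪ N)) = (T.card : ℤ) + N.card := by
    rw [s19n_degree_ind hdeg, Finset.card_union_of_disjoint hTN]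
    push_cast
    ring
  have h2 := hc (s19n_ind (T ∪ N)) (by rw [hdegTN, hNcard]; omega)
  rw [hdegTN] at h2
  have h3 : ((1 + N.card : ℕ) : ℤ) ≤ (Module.finrank k ↥(riemannRochSpace (s19n_ind (T ∪ N))) : ℤ) :=
    by exact_mod_cast h1
  rw [h2] at h3
  push_cast at h3
  omega

/-- non-special reduced divisors of every degree `m ≤ g` off `S`. -/
theorem s19n_exists_finset {g : ℕ} (hR : s19_Riemann k Fb g) [HasPrincipalDivisors k Fb]
    (hdeg : ∀ Q : Place k Fb, Q.deg = 1) [Infinite (Place k Fb)] (S : Finset (Place k Fb)) :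
    ∀ m ≤ g, ∃ T : Finset (Place k Fb), T.card = m ∧ (∀ P ∈ T, P ∉ S) ∧
      Module.finrank k ↥(riemannRochSpace (s19n_ind T)) = 1 := by
  classical
  intro m
  induction m with
  | zero =>
    intro _
    obtain ⟨Q⟩ : Nonempty (Place k Fb) := inferInstance
    refine ⟨∅, Finset.card_empty, fun P hP => absurd hP (Finset.notMem_empty P), ?_⟩
    rw [s19n_ind_empty]
    exact s19n_finrank_L_zero hdeg Q
  | succ m ih =>
    intro hm
    obtain ⟨T, hTcard, hTS, hT1⟩ := ih (Nat.le_of_succ_le hm)
    obtain ⟨P, hPT, hPS, hP1⟩ := s19n_step hR hdeg S T (by omega) hT1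
    refine ⟨insert P T, ?_, ?_, hP1⟩
    · rw [Finset.card_insert_of_notMem hPT, hTcard]
    · intro v hv
      rw [Finset.mem_insert] at hv
      rcases hv with rfl | h
      · exact hPS
      · exact hTS v h

/-- **[NONSP]** -/
theorem s19n_nonSp : s19_NonSp := by
  intro k Fb _ _ _ _ g hR hpd hdeg hinf S
  classical
  obtain ⟨T, hTcard, hTS, hT1⟩ := s19n_exists_finset hR hdeg S g le_rfl
  subst hTcard
  refine ⟨fun i => (T.equivFin.symm i : Place k Fb), ?_, ?_, ?_⟩
  · intro i j hij
    exact T.equivFin.symm.injective (Subtype.ext hij)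
  · intro i
    exact hTS _ (T.equivFin.symm i).2
  · have : (∑ i, Finsupp.single ((T.equivFin.symm i : ↥T) : Place k Fb) (1 : ℤ)) = s19n_ind T := by
      unfold s19n_ind
      rw [← Finset.sum_coe_sort T (fun v => Finsupp.single v (1 : ℤ))]
      exact Fintype.sum_equiv T.equivFin.symm _ _ fun i => rfl
    rw [this]
    exact hT1

end Fermat.Agent.Lib.S19
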