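/-
W-A programme (S19/S32), support for G1.5 [GENUS] (helper6, prefix `s19e_`): ABSTRACT GENUS
COMPARISON.

* `s19e_riemann_of_sep`: Riemann's theorem in the form `s19_Riemann K F (genusFF K F)` for a
  function field with a separating coordinate over an algebraically closed field
  (packaging of `s44rm_sep_finite_L`, `s44rm_sep_riemann_ineq`, `s44rm_sep_riemann_large`);
* `s19e_genus_eq_of_finrank_eq`: two function fields satisfying Riemann's theorem with genera
  `g`, `g'`, divisors `B`, `B'` of positive degree with `ℓ(nB) = ℓ(nB')` for all large `n`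
  ⇒ `g = g'` and `deg B = deg B'`.
-/
import Fermat.Agent.Lib.S19.IfaceCurve
import Fermat.Agent.Lib.S44.RRiemIneq

set_option autoImplicit false

noncomputable section

namespace Fermat.Agent.Lib.S19

open AlgebraicCurve IntermediateField Fermat.Agent.Lib.FF Fermat.Agent.Lib.S44

/-- Riemann's theorem, packaged. -/
theorem s19e_riemann_of_sep {K F : Type*} [Field K] [Field F] [Algebra K F] (x : F) [FFGen K x]
    [Algebra.IsSeparable K⟮x⟯ F] [IsAlgClosed K] [HasPrincipalDivisors K F] :
    s19_Riemann K F (genusFF K F) where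
  fin := fun D => s44rm_sep_finite_L x D
  ineq := fun D => s44rm_sep_riemann_ineq x D
  large := by
    obtain ⟨c, hc⟩ := s44rm_sep_riemann_large (K := K) (F := F) x
    exact ⟨c, fun D hD => (hc D hD).2⟩

/-- **comparison of genera** from the dimensions of `L(nB)`, `L(nB')`. -/
theorem s19e_genus_eq_of_finrank_eq {K F k Fb : Type*} [Field K] [Field F] [Algebra K F]
    [Field k] [Field Fb] [Algebra k Fb] {g g' : ℕ} (hR : s19_Riemann K F g)
    (hR' : s19_Riemann k Fb g') (B : Divisor K F) (B' : Divisor k Fb)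
    (hB : 0 < Divisor.degree B) (hB' : 0 < Divisor.degree B') (n₀ : ℕ)
    (h : ∀ n : ℕ, n₀ ≤ n → Module.finrank K ↥(riemannRochSpace (n • B)) =
      Module.finrank k ↥(riemannRochSpace (n • B'))) :
    g = g' ∧ Divisor.degree B = Divisor.degree B' := by
  obtain ⟨c, hc⟩ := hR.large
  obtain ⟨c', hc'⟩ := hR'.large
  set d := Divisor.degree B with hd
  set d' := Divisor.degree B' with hd'
  -- a large `n`
  set n : ℕ := max n₀ (max c.toNat c'.toNat) with hn
  have hn0 : n₀ ≤ n := le_max_left _ _
  have hnc : c ≤ (n : ℤ) := by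
    have h1 : c.toNat ≤ n := le_trans (le_max_left _ _) (le_max_right _ _)
    have h2 : c ≤ (c.toNat : ℤ) := Int.self_le_toNat c
    exact le_trans h2 (by exact_mod_cast h1)
  have hnc' : c' ≤ (n : ℤ) := by
    have h1 : c'.toNat ≤ n := le_trans (le_max_right _ _) (le_max_right _ _)
    have h2 : c' ≤ (c'.toNat : ℤ) := Int.self_le_toNat c'
    exact le_trans h2 (by exact_mod_cast h1)
  have hdeg : ∀ m : ℕ, Divisor.degree (m • B) = m * d := fun m => by
    rw [map_nsmul, nsmul_eq_mul]
  have hdeg' : ∀ m : ℕ, Divisor.degree (m • B') = m * d' := fun m => by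
    rw [map_nsmul, nsmul_eq_mul]
  have key : ∀ m : ℕ, n ≤ m → (m : ℤ) * d + 1 - g = (m : ℤ) * d' + 1 - g' := by
    intro m hm
    have hmZ : (n : ℤ) ≤ (m : ℤ) := by exact_mod_cast hm
    have h1 := hc (m • B) (by
      rw [hdeg]
      nlinarith)
    have h2 := hc' (m • B') (by
      rw [hdeg']
      nlinarith)
    rw [hdeg] at h1
    rw [hdeg'] at h2
    have h3 := h m (le_trans hn0 hm)
    rw [← h1, ← h2, h3]
  have k1 := key n le_rfl
  have k2 := key (n + 1) (Nat.le_succ n)
  push_cast at k2
  have hdd : d = d' := by linarith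
  refine ⟨?_, hdd⟩
  rw [hdd] at k1
  have : (g : ℤ) = g' := by linarith
  exact_mod_cast this

end Fermat.Agent.Lib.S19
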