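/-
W-A programme (S19), brick G1.1 [ČECH] (helper2, prefix `s19b_`): Serre vanishing on two charts,
ABSTRACT FORM (Mathlib only).

`ι : R →+* S`, `t t' : S` with `t * t' = 1`; `s19b_ev ι t : R[X] →+* S` is the evaluation `X ↦ t`.
`I₁` = elements of `S` integral with respect to `s19b_ev ι t` ("integral over `R[t]`"),
`I₂` = elements integral with respect to `s19b_ev ι t'` ("integral over `R[t⁻¹]`").
* `s19b_shift`  : `y ∈ I₂ ⇒ t ^ n * y ∈ I₁` for all large `n` (scaling of the roots);
* `s19b_cech`   : if `I₁` is generated over `R[t]` by finitely many elements, then there is `n₀` with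
  `(∃ m, t ^ m * h ∈ I₁) ⇒ h ∈ I₁ + t ^ n * I₂` for all `n ≥ n₀`.
-/
import Mathlib

set_option autoImplicit false

noncomputable section

namespace Fermat.Agent.Lib.S19

open Polynomial

variable {R S : Type*} [CommRing R] [CommRing S]

/-- evaluation `R[X] →+* S`, `X ↦ t`, constants through `ι`. -/
abbrev s19b_ev (ι : R →+* S) (t : S) : R[X] →+* S := Polynomial.eval₂RingHom ι t

theorem s19b_ev_apply (ι : R →+* S) (t : S) (p : R[X]) : s19b_ev ι t p = p.eval₂ ι t := rfl

theorem s19b_isIntegralElem_finset_sum (f : R →+* S) {α : Type*} (s : Finset α) (x : α → S)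
    (hx : ∀ i ∈ s, f.IsIntegralElem (x i)) : f.IsIntegralElem (∑ i ∈ s, x i) := by
  classical
  induction s using Finset.induction_on with
  | empty => rw [Finset.sum_empty]; exact f.isIntegralElem_zero
  | insert a s ha ih =>
    rw [Finset.sum_insert ha]
    exact RingHom.IsIntegralElem.add f (hx a (Finset.mem_insert_self a s))
      (ih fun i hi => hx i (Finset.mem_insert_of_mem hi))

section Inverse

variable (ι : R →+* S) {t t' : S} (ht : t * t' = 1)

include ht

theorem s19b_pow_mul_pow (n : ℕ) : t ^ n * t' ^ n = 1 := by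
  rw [← mul_pow, ht, one_pow]

/-- `t' ^ N * p(t) = (reflect N p)(t')` for `natDegree p ≤ N`. -/
theorem s19b_pow_mul_ev (p : R[X]) (N : ℕ) (hp : p.natDegree ≤ N) :
    t' ^ N * s19b_ev ι t p = s19b_ev ι t' (p.reflect N) := by
  let _ : Invertible t := ⟨t', by rw [mul_comm]; exact ht, ht⟩
  have h := Polynomial.eval₂_reflect_mul_pow ι t N p hp
  have h' : (⅟t : S) = t' := rfl
  rw [h'] at h
  rw [s19b_ev_apply, s19b_ev_apply, ← h, mul_comm, mul_assoc, s19b_pow_mul_pow ht N, mul_one]

/-- the same with a bigger power: `t' ^ n * p(t) ∈ range (ev t')` for `natDegree p ≤ n`. -/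
theorem s19b_pow_mul_ev_mem (p : R[X]) (n : ℕ) (hp : p.natDegree ≤ n) :
    ∃ q : R[X], s19b_ev ι t' q = t' ^ n * s19b_ev ι t p :=
  ⟨p.reflect n, (s19b_pow_mul_ev ι ht p n hp).symm⟩

end Inverse

section Shift

variable (ι : R →+* S) {t t' : S} (ht : t * t' = 1)

include ht

/-- **scaling of the roots**: an element integral over `R[t']` becomes integral over `R[t]` after
multiplication by a large power of `t`. -/
theorem s19b_shift {y : S} (hy : (s19b_ev ι t').IsIntegralElem y) :
    ∃ N : ℕ, ∀ n : ℕ, N ≤ n → (s19b_ev ι t).IsIntegralElem (t ^ n * y) := by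
  classical
  obtain ⟨p, hpm, hp⟩ := hy
  have ht' : t' * t = 1 := by rw [mul_comm]; exact ht
  refine ⟨p.support.sup fun i => (p.coeff i).natDegree, fun n hn => ?_⟩
  set P : S[X] := p.map (s19b_ev ι t') with hP
  have hPm : P.Monic := hpm.map _
  have hPy : P.eval y = 0 := by rw [hP, Polynomial.eval_map]; exact hp
  set s : S := t ^ n with hs
  -- the scaled polynomial
  set Q : S[X] := Polynomial.scaleRoots P s with hQ
  have hQm : Q.Monic := (Polynomial.monic_scaleRoots_iff s).mpr hPm
  have hQy : Q.eval (s * y) = 0 := by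
    have h1 := Polynomial.scaleRoots_eval₂_mul (RingHom.id S) (p := P) y s
    rw [RingHom.id_apply, Polynomial.eval₂_id, Polynomial.eval₂_id, hPy, mul_zero] at h1
    exact h1
  -- the coefficients of `Q` are values of `ev t`
  have hcoeff : ∀ i, Q.coeff i ∈ Set.range (s19b_ev ι t) := by
    intro i
    rw [hQ, Polynomial.coeff_scaleRoots]
    rcases lt_trichotomy i P.natDegree with hlt | hid | hgt
    · have h1 : (p.coeff i).natDegree ≤ n := by
        by_cases hi : i ∈ p.support
        · exact le_trans (Finset.le_sup (f := fun i => (p.coeff i).natDegree) hi) hn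
        · rw [Polynomial.notMem_support_iff.mp hi, Polynomial.natDegree_zero]
          exact Nat.zero_le n
      have hdeg : (p.coeff i).natDegree ≤ n * (P.natDegree - i) := by
        have h2 : 1 ≤ P.natDegree - i := by omega
        calc (p.coeff i).natDegree ≤ n := h1
          _ = n * 1 := (mul_one n).symm
          _ ≤ n * (P.natDegree - i) := Nat.mul_le_mul_left n h2
      obtain ⟨q, hq⟩ := s19b_pow_mul_ev_mem ι ht' (p.coeff i) (n * (P.natDegree - i)) hdeg
      refine ⟨q, ?_⟩
      rw [hq, hP, Polynomial.coeff_map, hs, ← pow_mul, mul_comm]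
    · rw [hid, Nat.sub_self, pow_zero, mul_one]
      have : P.coeff P.natDegree = 1 := hPm
      rw [this]
      exact ⟨1, map_one _⟩
    · rw [Polynomial.coeff_eq_zero_of_natDegree_lt hgt, zero_mul]
      exact ⟨0, map_zero _⟩
  have hlift : Q ∈ Polynomial.lifts (s19b_ev ι t) :=
    (Polynomial.lifts_iff_coeffs_subset_range Q).mpr (by
      intro c hc
      obtain ⟨i, -, rfl⟩ := Polynomial.mem_coeffs_iff.mp hc
      exact hcoeff i)
  obtain ⟨q, hq, -, hqm⟩ := Polynomial.lifts_and_natDegree_eq_and_monic hlift hQm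
  refine ⟨q, hqm, ?_⟩
  rw [← Polynomial.eval_map, hq]
  exact hQy

end Shift

section Cech

variable (ι : R →+* S) {t t' : S} (ht : t * t' = 1)

include ht

/-- **Čech vanishing**: if the ring `I₁` of elements integral over `R[t]` is generated over `R[t]`
by finitely many elements `b i`, then for all large `n` every `h` with `t ^ m * h ∈ I₁` for some
`m` is a sum `h₁ + t ^ n * h₂` with `h₁ ∈ I₁` and `h₂` integral over `R[t']`. -/
theorem s19b_cech {r : ℕ} (b : Fin r → S) (hb : ∀ i, (s19b_ev ι t).IsIntegralElem (b i))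
    (hgen : ∀ y : S, (s19b_ev ι t).IsIntegralElem y →
      ∃ c : Fin r → R[X], y = ∑ i, s19b_ev ι t (c i) * b i) :
    ∃ n₀ : ℕ, ∀ n : ℕ, n₀ ≤ n → ∀ (h : S) (m : ℕ), (s19b_ev ι t).IsIntegralElem (t ^ m * h) →
      ∃ h₁ h₂ : S, (s19b_ev ι t).IsIntegralElem h₁ ∧ (s19b_ev ι t').IsIntegralElem h₂ ∧
        h = h₁ + t ^ n * h₂ := by
  classical
  have ht' : t' * t = 1 := by rw [mul_comm]; exact ht
  choose N hN using fun i => s19b_shift ι ht' (hb i)
  refine ⟨Finset.univ.sup N, fun n hn h m hm => ?_⟩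
  obtain ⟨c, hc⟩ := hgen _ hm
  -- split `c i = X ^ m * q i + r i`
  set q : Fin r → R[X] := fun i => c i /ₘ (X ^ m) with hq
  set ρ : Fin r → R[X] := fun i => c i %ₘ (X ^ m) with hρ
  have hsplit : ∀ i, c i = ρ i + X ^ m * q i := fun i =>
    (Polynomial.modByMonic_add_div (c i) (X ^ m)).symm
  have hρdeg : ∀ i, (ρ i).natDegree ≤ m := fun i =>
    le_trans (Polynomial.natDegree_modByMonic_le (c i) (Polynomial.monic_X_pow m))
      (Polynomial.natDegree_X_pow_le m)
  have hevX : s19b_ev ι t (X ^ m) = t ^ m := by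
    rw [s19b_ev_apply, Polynomial.eval₂_X_pow]
  -- `h = t' ^ m * (t ^ m * h)`
  have hh : h = t' ^ m * (t ^ m * h) := by
    rw [← mul_assoc, mul_comm (t' ^ m), s19b_pow_mul_pow ht m, one_mul]
  refine ⟨∑ i, s19b_ev ι t (q i) * b i,
    ∑ i, s19b_ev ι t' ((ρ i).reflect m) * (t' ^ n * b i), ?_, ?_, ?_⟩
  · exact s19b_isIntegralElem_finset_sum _ _ _ fun i _ =>
      RingHom.IsIntegralElem.mul _ (RingHom.isIntegralElem_map _) (hb i)
  · refine s19b_isIntegralElem_finset_sum _ _ _ fun i _ =>
      RingHom.IsIntegralElem.mul _ (RingHom.isIntegralElem_map _) (hN i n ?_)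
    exact le_trans (Finset.le_sup (f := N) (Finset.mem_univ i)) hn
  · rw [hh, hc, Finset.mul_sum, Finset.mul_sum, ← Finset.sum_add_distrib]
    refine Finset.sum_congr rfl fun i _ => ?_
    rw [← s19b_pow_mul_ev ι ht (ρ i) m (hρdeg i)]
    conv_lhs => rw [hsplit i, map_add, map_mul, hevX]
    have h1 : t' ^ m * t ^ m = 1 := by rw [mul_comm]; exact s19b_pow_mul_pow ht m
    have h2 : t ^ n * t' ^ n = 1 := s19b_pow_mul_pow ht n
    calc t' ^ m * ((s19b_ev ι t (ρ i) + t ^ m * s19b_ev ι t (q i)) * b i)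
        = (t' ^ m * t ^ m) * (s19b_ev ι t (q i) * b i) +
            t' ^ m * s19b_ev ι t (ρ i) * b i := by ring
      _ = s19b_ev ι t (q i) * b i + t' ^ m * s19b_ev ι t (ρ i) * b i := by rw [h1, one_mul]
      _ = s19b_ev ι t (q i) * b i +
            (t ^ n * t' ^ n) * (t' ^ m * s19b_ev ι t (ρ i) * b i) := by rw [h2, one_mul]
      _ = s19b_ev ι t (q i) * b i +
            t ^ n * (t' ^ m * s19b_ev ι t (ρ i) * (t' ^ n * b i)) := by ring

end Cech

end Fermat.Agent.Lib.S19

end
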