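/-
W-A programme (S19), brick G1.5 [GENUS], the dictionary (helper2, prefix `s19b_`).

`F/K` a function field with a separable generator `w` (any characteristic), `B = (w)_∞` its pole
divisor.  Then `L(n B) = {f | f integral over K[w] ∧ w⁻¹ ^ n * f integral over K[w⁻¹]}`.
-/
import Fermat.Agent.Lib.S44.RRiemIneq

set_option autoImplicit false
set_option linter.unusedSectionVars false
set_option linter.style.haveILetI false

noncomputable section

namespace Fermat.Agent.Lib.S19

open AlgebraicCurve IntermediateField Polynomial Fermat.Agent.Lib.FF Fermat.Agent.Lib.S44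
  IsDedekindDomain
open scoped IntermediateField.algebraAdjoinAdjoin

variable {K F : Type*} [Field K] [Field F] [Algebra K F]

/-- elements integral over `K[w]` lie in every valuation subring containing `K` and `w`. -/
theorem s19b_mem_of_isIntegralElem' (w : F)
    (W : ValuationSubring F) (hK : ∀ c : K, algebraMap K F c ∈ W) (hw : w ∈ W) (y : F)
    (hy : (Polynomial.aeval w : K[X] →ₐ[K] F).toRingHom.IsIntegralElem y) : y ∈ W := by
  let c : K →+* W := (algebraMap K F).codRestrict W.toSubring hK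
  let ev' : K[X] →+* W := Polynomial.eval₂RingHom c ⟨w, hw⟩
  have hcomp : (W.subtype : W →+* F).comp ev' =
      (Polynomial.aeval w : K[X] →ₐ[K] F).toRingHom := by
    refine Polynomial.ringHom_ext (fun a => ?_) ?_
    · show ((Polynomial.eval₂ c ⟨w, hw⟩ (Polynomial.C a) : W) : F) = Polynomial.aeval w (C a)
      rw [Polynomial.eval₂_C, Polynomial.aeval_C]
      rfl
    · show ((Polynomial.eval₂ c ⟨w, hw⟩ Polynomial.X : W) : F) = Polynomial.aeval w X
      rw [Polynomial.eval₂_X, Polynomial.aeval_X]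
  rw [← hcomp] at hy
  have h1 : (W.subtype : W →+* F).IsIntegralElem y := RingHom.IsIntegralElem.of_comp hy
  have h2 : IsIntegral W y := h1
  obtain ⟨z, hz⟩ := IsIntegrallyClosed.isIntegral_iff.mp h2
  rw [← hz]
  exact z.2

/-- an element regular wherever `w` is regular is integral over `K[w]`. -/
theorem s19b_isIntegralElem_of_regular (w : F) [FFGen K w] [Algebra.IsSeparable K⟮w⟯ F] (y : F)
    (hy : ∀ v : Place K F, w ∈ v.toValuationSubring → y ∈ v.toValuationSubring) :
    (Polynomial.aeval w : K[X] →ₐ[K] F).toRingHom.IsIntegralElem y := by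
  have hmem : y ∈ (algebraMap (ffB K w) F).range :=
    HeightOneSpectrum.mem_integers_of_valuation_le_one F y (fun v =>
      (s44rq_mem_placeOf_iff v y).mp (hy (s44rq_placeOf K w v) (s44rq_x_mem_placeOf v)))
  obtain ⟨b, rfl⟩ := hmem
  have hb : IsIntegral (ffA K w) ((b : ffB K w) : F) := b.2
  obtain ⟨p, hp, hp0⟩ := hb
  have htr : Transcendental K w := FFGen.transc
  let e := ffA_equiv htr
  refine ⟨p.map (e.symm : ffA K w →+* K[X]), hp.map _, ?_⟩
  rw [Polynomial.eval₂_map]
  have hcomp : ((Polynomial.aeval w : K[X] →ₐ[K] F).toRingHom.comp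
      (e.symm : ffA K w →+* K[X])) = algebraMap (ffA K w) F := by
    refine RingHom.ext fun a => ?_
    show Polynomial.aeval w (e.symm a) = (a : F)
    rw [← ffA_equiv_apply htr (e.symm a)]
    show ((e (e.symm a) : ffA K w) : F) = (a : F)
    rw [AlgEquiv.apply_symm_apply]
  rw [hcomp]
  exact hp0

/-- **the dictionary** `L(n (w)_∞) = {f integral over K[w], w⁻ⁿ f integral over K[w⁻¹]}`. -/
theorem s19b_mem_L_iff (w : F) [FFGen K w] [Algebra.IsSeparable K⟮w⟯ F]
    (B : Divisor K F) (hB0 : ∀ v : Place K F, 0 ≤ v.ord w → B v = 0)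
    (hB1 : ∀ v : Place K F, v.ord w < 0 → B v = -v.ord w) (n : ℕ) (f : F) :
    f ∈ riemannRochSpace (n • B) ↔
      (Polynomial.aeval w : K[X] →ₐ[K] F).toRingHom.IsIntegralElem f ∧
      (Polynomial.aeval w⁻¹ : K[X] →ₐ[K] F).toRingHom.IsIntegralElem (w⁻¹ ^ n * f) := by
  have hw0 : w ≠ 0 := by
    have := ff_sub_ne_zero (K := K) (x := w) 0
    simpa using this
  have htr : Transcendental K w := FFGen.transc
  haveI hgen' : FFGen K w⁻¹ := ff_gen_of_transcendental (x := w) (ff_transcendental_inv htr)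
  haveI hsep' : Algebra.IsSeparable K⟮w⁻¹⟯ F := s44rq_isSeparable_of_eq (ff_adjoin_inv w)
  have hwn0 : w⁻¹ ^ n ≠ 0 := pow_ne_zero n (inv_ne_zero hw0)
  have hordpow : ∀ v : Place K F, v.ord (w⁻¹ ^ n) = -((n : ℤ) * v.ord w) := by
    intro v
    have h1 := v.ord_zpow w⁻¹ (n : ℤ)
    rw [zpow_natCast] at h1
    rw [h1, v.ord_inv]
    ring
  rcases eq_or_ne f 0 with rfl | hf0
  · refine ⟨fun _ => ⟨RingHom.isIntegralElem_zero _, ?_⟩, fun _ => Submodule.zero_mem _⟩
    rw [mul_zero]
    exact RingHom.isIntegralElem_zero _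
  rw [s44rm_mem_L hf0]
  constructor
  · intro h
    constructor
    · apply s19b_isIntegralElem_of_regular
      intro v hv
      have hv0 : 0 ≤ v.ord w := (ff_mem_iff_ord_nonneg v hw0).mp hv
      have h1 := h v
      rw [Finsupp.smul_apply, hB0 v hv0, smul_zero, zero_add] at h1
      exact (ff_mem_iff_ord_nonneg v hf0).mpr h1
    · apply s19b_isIntegralElem_of_regular
      intro v hv
      have hv0 : 0 ≤ v.ord w⁻¹ := (ff_mem_iff_ord_nonneg v (inv_ne_zero hw0)).mp hv
      rw [v.ord_inv] at hv0
      rw [ff_mem_iff_ord_nonneg v (mul_ne_zero hwn0 hf0), v.ord_mul hwn0 hf0, hordpow]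
      have h1 := h v
      rw [Finsupp.smul_apply, nsmul_eq_mul] at h1
      by_cases hlt : v.ord w < 0
      · rw [hB1 v hlt] at h1
        linarith
      · have h0 : v.ord w = 0 := by omega
        rw [hB0 v (by omega)] at h1
        rw [h0]
        simp only [mul_zero, neg_zero, zero_add] at h1 ⊢
        exact h1
  · rintro ⟨h1, h2⟩ v
    rw [Finsupp.smul_apply, nsmul_eq_mul]
    by_cases hlt : v.ord w < 0
    · rw [hB1 v hlt]
      have hv : w⁻¹ ∈ v.toValuationSubring := by
        rw [ff_mem_iff_ord_nonneg v (inv_ne_zero hw0), v.ord_inv]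
        omega
      have h3 := s19b_mem_of_isIntegralElem' w⁻¹ v.toValuationSubring
        (fun c => v.algebraMap_mem' c) hv _ h2
      rw [ff_mem_iff_ord_nonneg v (mul_ne_zero hwn0 hf0), v.ord_mul hwn0 hf0, hordpow] at h3
      linarith
    · rw [hB0 v (by omega), mul_zero, zero_add]
      have hv : w ∈ v.toValuationSubring := (ff_mem_iff_ord_nonneg v hw0).mpr (by omega)
      have h3 := s19b_mem_of_isIntegralElem' w v.toValuationSubring
        (fun c => v.algebraMap_mem' c) hv _ h1
      exact (ff_mem_iff_ord_nonneg v hf0).mp h3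

end Fermat.Agent.Lib.S19

end
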