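/-
W-A programme (S19), brick G1.5 [GENUS], linear algebra of the constant-field extension
(helper2, prefix `s19b_`).

`K ⊆ K'` fields, `𝔉 ⊆ K((q))`, `𝔉' ⊆ K'((q))` subfields with `ι 𝔉 ⊆ 𝔉'`, `W ⊆ 𝔉` a `K`-subspace.
* `s19b_indep_descent` : if `m` elements of `𝔉'`, independent over `K'`, are `K'`-combinations of
  elements of `ι W`, then `W` contains `m` elements independent over `K`.
* `s19b_indep_iota`    : `K`-independent elements of `𝔉` stay `K'`-independent in `𝔉'`.
-/
import Fermat.Agent.Lib.S19.BBaseChangeInt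

set_option autoImplicit false
set_option linter.unusedSectionVars false
set_option linter.style.haveILetI false
set_option synthInstance.maxHeartbeats 400000
set_option maxHeartbeats 800000

noncomputable section

namespace Fermat.Agent.Lib.S19

open HahnSeries

variable {K K' : Type*} [Field K] [Field K'] [Algebra K K']
  (𝔉 : IntermediateField K (LaurentSeries K)) (𝔉' : IntermediateField K' (LaurentSeries K'))

theorem s19b_coe_smul_F (c : K) (z : ↥𝔉) :
    ((c • z : ↥𝔉) : LaurentSeries K) = s19b_C c * (z : LaurentSeries K) := by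
  rw [Algebra.smul_def]
  rfl

theorem s19b_coe_sum_F {α : Type*} (s : Finset α) (z : α → ↥𝔉) :
    ((∑ a ∈ s, z a : ↥𝔉) : LaurentSeries K) = ∑ a ∈ s, (z a : LaurentSeries K) := by
  have := map_sum 𝔉.val z s
  exact this

/-- linear independence in `𝔉`, in terms of series. -/
theorem s19b_linearIndependent_iff {m : ℕ} (e : Fin m → ↥𝔉) :
    LinearIndependent K e ↔
      ∀ a : Fin m → K, ∑ i, s19b_C (a i) * (e i : LaurentSeries K) = 0 → ∀ i, a i = 0 := by
  rw [Fintype.linearIndependent_iff]
  refine forall_congr' fun a => ?_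
  have h : (∑ i, a i • e i = 0) ↔ ∑ i, s19b_C (a i) * (e i : LaurentSeries K) = 0 := by
    rw [← Subtype.coe_inj, s19b_coe_sum_F, ZeroMemClass.coe_zero]
    simp only [s19b_coe_smul_F]
  rw [h]

variable (hι : ∀ f : LaurentSeries K, f ∈ 𝔉 → s19b_iota (K' := K') f ∈ 𝔉')

include hι in
/-- **`K`-independent elements of `𝔉` stay `K'`-independent.** -/
theorem s19b_indep_iota {m : ℕ} (e : Fin m → ↥𝔉) (he : LinearIndependent K e) :
    LinearIndependent K' fun i =>
      (⟨s19b_iota (K' := K') (e i : LaurentSeries K), hι _ (e i).2⟩ : ↥𝔉') := by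
  rw [s19b_linearIndependent_iff]
  intro a ha
  exact s19b_iota_indep (fun i => (e i : LaurentSeries K))
    ((s19b_linearIndependent_iff 𝔉 e).mp he) a ha

include hι in
/-- **descent of independent families.** -/
theorem s19b_indep_descent (W : Submodule K ↥𝔉) {m : ℕ} (x : Fin m → ↥𝔉')
    (hx : LinearIndependent K' x)
    (hmem : ∀ i, ∃ (r : ℕ) (c : Fin r → K') (y : Fin r → ↥𝔉), (∀ j, y j ∈ W) ∧
      ((x i : ↥𝔉') : LaurentSeries K') =
        ∑ j, s19b_C (c j) * s19b_iota (K' := K') ((y j : ↥𝔉) : LaurentSeries K)) :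
    ∃ e : Fin m → ↥𝔉, LinearIndependent K e ∧ ∀ a, e a ∈ W := by
  classical
  by_cases h : (m : Cardinal) ≤ Module.rank K ↥W
  · obtain ⟨f, hf⟩ := exists_linearIndependent_of_le_rank h
    refine ⟨fun a => ((f a : ↥W) : ↥𝔉), ?_, fun a => (f a).2⟩
    exact hf.map' W.subtype (Submodule.ker_subtype W)
  · exfalso
    rw [not_le] at h
    haveI hfin : Module.Finite K ↥W :=
      Module.rank_lt_aleph0_iff.mp (lt_trans h (Cardinal.natCast_lt_aleph0))
    set d := Module.finrank K ↥W with hd
    have hdm : d < m := by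
      have h1 : ((d : ℕ) : Cardinal) = Module.rank K ↥W := Module.finrank_eq_rank K ↥W
      rw [← h1] at h
      exact_mod_cast h
    let bW := Module.finBasis K ↥W
    -- the images of the basis in `𝔉'`
    let v : Fin d → ↥𝔉' := fun a =>
      ⟨s19b_iota (K' := K') (((bW a : ↥W) : ↥𝔉) : LaurentSeries K), hι _ ((bW a : ↥W) : ↥𝔉).2⟩
    set S : Submodule K' ↥𝔉' := Submodule.span K' (Set.range v) with hS
    -- every `ι y`, `y ∈ W`, is in `S`
    have hW : ∀ y : ↥𝔉, ∀ hy : y ∈ W,
        (⟨s19b_iota (K' := K') (y : LaurentSeries K), hι _ y.2⟩ : ↥𝔉') ∈ S := by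
      intro y hy
      have h1 : (⟨y, hy⟩ : ↥W) = ∑ a, (bW.repr ⟨y, hy⟩ a) • bW a := (bW.sum_repr ⟨y, hy⟩).symm
      have h2 : y = ∑ a, (bW.repr ⟨y, hy⟩ a) • ((bW a : ↥W) : ↥𝔉) := by
        have h := congrArg (fun z : ↥W => (z : ↥𝔉)) h1
        simp only [Submodule.coe_sum, Submodule.coe_smul] at h
        exact h
      have h3 : (⟨s19b_iota (K' := K') (y : LaurentSeries K), hι _ y.2⟩ : ↥𝔉') =
          ∑ a, (algebraMap K K' (bW.repr ⟨y, hy⟩ a)) • v a := by
        apply Subtype.ext
        rw [s19b_coe_sum_F]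
        simp only [s19b_coe_smul_F]
        conv_lhs => rw [h2]
        rw [s19b_coe_sum_F, map_sum]
        refine Finset.sum_congr rfl fun a _ => ?_
        rw [s19b_coe_smul_F, map_mul, s19b_iota_C]
      rw [h3]
      exact Submodule.sum_mem _ fun a _ => Submodule.smul_mem _ _ (Submodule.subset_span ⟨a, rfl⟩)
    -- hence every `x i` is in `S`
    have hxS : ∀ i, x i ∈ S := by
      intro i
      obtain ⟨r, c, y, hyW, hxi⟩ := hmem i
      have h3 : x i = ∑ j, c j • (⟨s19b_iota (K' := K') ((y j : ↥𝔉) : LaurentSeries K),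
          hι _ (y j).2⟩ : ↥𝔉') := by
        apply Subtype.ext
        rw [s19b_coe_sum_F, hxi]
        refine Finset.sum_congr rfl fun j _ => ?_
        rw [s19b_coe_smul_F]
      rw [h3]
      exact Submodule.sum_mem _ fun j _ => Submodule.smul_mem _ _ (hW (y j) (hyW j))
    -- count
    let x' : Fin m → ↥S := fun i => ⟨x i, hxS i⟩
    have hx' : LinearIndependent K' x' := by
      apply LinearIndependent.of_comp S.subtype
      exact hx
    haveI : Module.Finite K' ↥S := FiniteDimensional.span_of_finite K' (Set.finite_range v)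
    have h1 := hx'.fintype_card_le_finrank
    have h2 : Module.finrank K' ↥S ≤ d := by
      exact finrank_range_le_card (R := K') v |>.trans (by rw [Fintype.card_fin])
    rw [Fintype.card_fin] at h1
    omega

end Fermat.Agent.Lib.S19

end
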