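/-
W-A programme (S19), brick G1.5 [GENUS], from a level to the top (helper2, prefix `s19b_`).

`A ⊆ ℚ̄` a valuation ring over `ℓ`, `k` its residue field, `L₀ ⊆ ℚ̄` a number field level with
Gauss datum `G = s37r_G A L₀ ϖ hϖ`, `κ₀` its residue field, `ρ = s37r_resMap A L₀ : κ₀ → k`.
* `s19b_isGalois_res`  : `k/κ₀` is Galois;
* `s19b_htr_level`     : transcendence descends along `coeffMap ρ`;
* `s19b_incl_Int`      : integrality over `A₀[w₀]` at the level gives integrality over `ℚ̄[w]`;
* `s19b_top_indep`     : Gauss-integral level functions with `κ₀`-independent reductions are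
  `ℚ̄`-independent at the top.
-/
import Fermat.Agent.Lib.S19.BLinDisj
import Fermat.Agent.Lib.S37.RValue
import Fermat.Agent.Lib.S37.RLevel
import Fermat.Agent.Lib.S37.KDescent
import Fermat.Agent.Lib.S37.RSurjOf
import Fermat.Agent.Lib.S18.NResidue

set_option autoImplicit false
set_option linter.unusedSectionVars false
set_option linter.style.haveILetI false
set_option synthInstance.maxHeartbeats 400000
set_option maxHeartbeats 800000

noncomputable section

namespace Fermat.Agent.Lib.S19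

open ModularCurve HahnSeries AlgebraicCurve Fermat.Agent.Lib.S18 Fermat.Agent.Lib.S37
  Fermat.Agent.Lib.FF Polynomial

local notation "Qbar" => AlgebraicClosure ℚ

section Galois

variable (A : ValuationSubring Qbar) {ℓ : ℕ} [Fact ℓ.Prime] (hA : A.LiesOverPrime ℓ)
  (L₀ : IntermediateField ℚ Qbar) [FiniteDimensional ℚ L₀]

include hA in
/-- the residue field of `A` is Galois over the residue field of a number field level. -/
theorem s19b_isGalois_res :
    letI := (s37r_resMap A L₀).toAlgebra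
    IsGalois (IsLocalRing.ResidueField ↥(s18q_A0 A L₀)) (IsLocalRing.ResidueField ↥A) := by
  letI alg := (s37r_resMap A L₀).toAlgebra
  have hℓ : ℓ.Prime := Fact.out
  haveI hchar₀ : CharP (IsLocalRing.ResidueField ↥(s18q_A0 A L₀)) ℓ := s37rl_charP A hA L₀
  haveI hchar : CharP (IsLocalRing.ResidueField ↥A) ℓ := s18x_charP_residueField A hℓ hA
  haveI hperf : PerfectField (IsLocalRing.ResidueField ↥(s18q_A0 A L₀)) :=
    s37rl_perfectField A hA L₀
  haveI hclosed : IsAlgClosed (IsLocalRing.ResidueField ↥A) := s18n_isAlgClosed_residueField A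
  haveI : Algebra.IsAlgebraic ℚ Qbar := s18q_isAlgebraic_bar
  letI a1 : Algebra (ZMod ℓ) (IsLocalRing.ResidueField ↥A) := ZMod.algebra _ ℓ
  letI a0 : Algebra (ZMod ℓ) (IsLocalRing.ResidueField ↥(s18q_A0 A L₀)) := ZMod.algebra _ ℓ
  haveI : IsScalarTower (ZMod ℓ) (IsLocalRing.ResidueField ↥(s18q_A0 A L₀))
      (IsLocalRing.ResidueField ↥A) :=
    IsScalarTower.of_algebraMap_eq' (RingHom.ext_zmod _ _)
  haveI halg : Algebra.IsAlgebraic (IsLocalRing.ResidueField ↥(s18q_A0 A L₀))
      (IsLocalRing.ResidueField ↥A) :=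
    ⟨fun z => (s18x_residue_isAlgebraic (ℓ := ℓ) A z).tower_top _⟩
  haveI : IsAlgClosure (IsLocalRing.ResidueField ↥(s18q_A0 A L₀))
      (IsLocalRing.ResidueField ↥A) := ⟨hclosed, halg⟩
  haveI : Normal (IsLocalRing.ResidueField ↥(s18q_A0 A L₀)) (IsLocalRing.ResidueField ↥A) :=
    IsAlgClosure.normal _ _
  haveI : Algebra.IsSeparable (IsLocalRing.ResidueField ↥(s18q_A0 A L₀))
      (IsLocalRing.ResidueField ↥A) := Algebra.IsAlgebraic.isSeparable_of_perfectField
  exact IsGalois.mk

end Galois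

section Transc

variable {k₀ k : Type*} [Field k₀] [Field k] (ρ : k₀ →+* k) (M : ℕ) [NeZero M]

/-- transcendence descends along `coeffMap ρ`. -/
theorem s19b_htr_level (x₀ : ↥(modularFunctionFieldFullC k₀ M)) (x : ↥(modularFunctionFieldFullC k M))
    (hx : coeffMap ρ (x₀ : LaurentSeries k₀) = (x : LaurentSeries k))
    (htr : Transcendental k x) : Transcendental k₀ x₀ := by
  intro halg
  obtain ⟨p, hp0, hp⟩ := halg
  have htr' := s37r3_transcendental_coe M _ htr
  apply htr'
  refine ⟨p.map ρ, ?_, ?_⟩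
  · intro h0
    apply hp0
    apply Polynomial.map_injective ρ ρ.injective
    rw [h0, Polynomial.map_zero]
  · rw [← hx]
    have h1 : ((Polynomial.aeval x₀ p : ↥(modularFunctionFieldFullC k₀ M)) :
        LaurentSeries k₀) = 0 := by
      rw [hp]; rfl
    have h2 := Polynomial.aeval_algebraMap_apply (LaurentSeries k₀) x₀ p
    have h3 : Polynomial.aeval (x₀ : LaurentSeries k₀) p = 0 := h2.trans h1
    rw [Polynomial.aeval_def, Polynomial.eval₂_map]
    have h4 := Polynomial.hom_eval₂ p (algebraMap k₀ (LaurentSeries k₀)) (coeffMap ρ)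
      (x₀ : LaurentSeries k₀)
    rw [Polynomial.aeval_def] at h3
    rw [h3, map_zero] at h4
    rw [h4]
    congr 1
    refine RingHom.ext fun c => ?_
    simp only [RingHom.comp_apply]
    rw [algebraMap_laurentSeries_eq_single, algebraMap_laurentSeries_eq_single, coeffMap_single]

end Transc

section Top

variable (A : ValuationSubring Qbar) (M : ℕ) [NeZero M] {ℓ : ℕ} [Fact ℓ.Prime]
  (hA : A.LiesOverPrime ℓ) (hℓM : ¬ ℓ ∣ M)
  (L₀ : IntermediateField ℚ Qbar) [FiniteDimensional ℚ L₀]
  [IsDiscreteValuationRing ↥(s18q_A0 A L₀)] (ϖ : ↥(s18q_A0 A L₀)) (hϖ : Irreducible ϖ)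

/-- integrality over `A₀[w₀]` at the level gives integrality over `ℚ̄[w]` at the top. -/
theorem s19b_incl_Int (w₀ f : ↥(laurentBaseChange ↥L₀ (modularFunctionFieldFull M)))
    (h : (s18b_ev (s37r_G A L₀ ϖ hϖ) (laurentBaseChange ↥L₀ (modularFunctionFieldFull M))
      w₀).IsIntegralElem f) :
    s19b_Int ((s18q_incl M L₀ w₀ : ↥(modularFunctionFieldBar M)) : LaurentSeries Qbar)
      ((s18q_incl M L₀ f : ↥(modularFunctionFieldBar M)) : LaurentSeries Qbar) := by
  have h1 : ((Polynomial.aeval w₀ : (↥L₀)[X] →ₐ[↥L₀]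
      ↥(laurentBaseChange ↥L₀ (modularFunctionFieldFull M))).toRingHom).IsIntegralElem f :=
    RingHom.IsIntegralElem.of_comp h
  have h2 := (s37kd_isIntegralElem_coe_iff
    (laurentBaseChange ↥L₀ (modularFunctionFieldFull M)) w₀ f).mp h1
  exact s19b_Int_map (algebraMap ↥L₀ Qbar) h2

include hℓM in
/-- the top-level reduction of an integral constant. -/
theorem s19b_redV_const (c : Qbar) (hc : c ∈ A) :
    s37r_redV A M hA ⟨algebraMap Qbar ↥(modularFunctionFieldBar M) c,
        s37r4_const_mem_OF A M hA c hc⟩ =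
      s19b_C (IsLocalRing.residue ↥A ⟨c, hc⟩) := by
  have h := s37r4_Psi_const A M hA hℓM (1 : ↥(modularFunctionFieldBar M)) c hc
  have h' := congrArg (fun z : ↥(modularFunctionFieldFullC (IsLocalRing.ResidueField ↥A) M) =>
    (z : LaurentSeries (IsLocalRing.ResidueField ↥A))) h
  exact h'

include hA hℓM in
/-- **independence at the top from independence of the reductions at a level.** -/
theorem s19b_top_indep (hT : s18g_HT (IsLocalRing.ResidueField ↥(s18q_A0 A L₀)) M)
    (hdeg : s18g_HDeg ↥L₀ M) {m : ℕ}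
    (f : Fin m → ↥(laurentBaseChange ↥L₀ (modularFunctionFieldFull M)))
    (hfV : ∀ a, f a ∈ s18x_V (s37r_G A L₀ ϖ hϖ) M)
    (hind : LinearIndependent (IsLocalRing.ResidueField ↥(s18q_A0 A L₀)) fun a =>
      s18g_redF (s37r_G A L₀ ϖ hϖ) M
        (fun _ hf => s18g_baseChange_mem_Frac (s37r_G A L₀ ϖ hϖ) M hf) hT hdeg ⟨f a, hfV a⟩) :
    LinearIndependent Qbar fun a => (s18q_incl M L₀ (f a) : ↥(modularFunctionFieldBar M)) := by
  classical
  letI alg := (s37r_resMap A L₀).toAlgebra
  rw [Fintype.linearIndependent_iff]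
  intro c hc
  by_contra hne
  rw [not_forall] at hne
  obtain ⟨a₀, ha₀⟩ := hne
  -- a coefficient of maximal absolute value
  obtain ⟨a₁, -, hmax⟩ := Finset.exists_max_image Finset.univ (fun a => A.valuation (c a))
    ⟨a₀, Finset.mem_univ a₀⟩
  have hca₁ : c a₁ ≠ 0 := by
    intro h0
    have h1 := hmax a₀ (Finset.mem_univ a₀)
    rw [h0, map_zero] at h1
    exact ha₀ ((map_eq_zero _).mp (le_antisymm h1 zero_le))
  -- the normalised coefficients
  set c' : Fin m → Qbar := fun a => c a / c a₁ with hc'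
  have hc'A : ∀ a, c' a ∈ A := by
    intro a
    rw [← ValuationSubring.valuation_le_one_iff, hc', map_div₀]
    exact div_le_one_of_le₀ (hmax a (Finset.mem_univ a)) zero_le
  have hc'one : c' a₁ = 1 := div_self hca₁
  -- the relation, normalised
  have hrel : ∑ a, algebraMap Qbar ↥(modularFunctionFieldBar M) (c' a) *
      (s18q_incl M L₀ (f a) : ↥(modularFunctionFieldBar M)) = 0 := by
    have h1 : ∑ a, algebraMap Qbar ↥(modularFunctionFieldBar M) (c' a) *
        (s18q_incl M L₀ (f a) : ↥(modularFunctionFieldBar M)) =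
        algebraMap Qbar ↥(modularFunctionFieldBar M) (c a₁)⁻¹ *
          ∑ a, c a • (s18q_incl M L₀ (f a) : ↥(modularFunctionFieldBar M)) := by
      rw [Finset.mul_sum]
      refine Finset.sum_congr rfl fun a _ => ?_
      show algebraMap Qbar ↥(modularFunctionFieldBar M) (c a / c a₁) * _ = _
      rw [Algebra.smul_def, ← mul_assoc, ← map_mul, div_eq_inv_mul]
    rw [h1, hc, mul_zero]
  -- Gauss-integrality
  have hgO : ∀ a, (s18q_incl M L₀ (f a) : ↥(modularFunctionFieldBar M)) ∈ s37r_OF A M hA :=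
    fun a => (s37r_incl_mem_OF_iff A M hA L₀ ϖ hϖ (f a)).mpr (hfV a)
  -- apply the reduction
  have hred : ∑ a, s37r_redV A M hA ⟨algebraMap Qbar ↥(modularFunctionFieldBar M) (c' a),
        s37r4_const_mem_OF A M hA (c' a) (hc'A a)⟩ *
      s37r_redV A M hA ⟨s18q_incl M L₀ (f a), hgO a⟩ = 0 := by
    have h1 : (∑ a, (⟨algebraMap Qbar ↥(modularFunctionFieldBar M) (c' a),
          s37r4_const_mem_OF A M hA (c' a) (hc'A a)⟩ : ↥(s37r_OF A M hA)) *
        ⟨s18q_incl M L₀ (f a), hgO a⟩) = 0 := by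
      apply Subtype.ext
      rw [ZeroMemClass.coe_zero, ← hrel]
      have := map_sum (s37r_OF A M hA).subtype (fun a =>
        (⟨algebraMap Qbar ↥(modularFunctionFieldBar M) (c' a),
          s37r4_const_mem_OF A M hA (c' a) (hc'A a)⟩ : ↥(s37r_OF A M hA)) *
        ⟨s18q_incl M L₀ (f a), hgO a⟩) Finset.univ
      exact this
    have h2 := congrArg (s37r_redV A M hA) h1
    rw [map_sum, map_zero] at h2
    simp only [map_mul] at h2
    exact h2
  -- rewrite the reductions
  have hred' : ∑ a, s19b_C (IsLocalRing.residue ↥A ⟨c' a, hc'A a⟩) *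
      s19b_iota (K' := IsLocalRing.ResidueField ↥A)
        ((s18g_redF (s37r_G A L₀ ϖ hϖ) M
          (fun _ hf => s18g_baseChange_mem_Frac (s37r_G A L₀ ϖ hϖ) M hf) hT hdeg
            ⟨f a, hfV a⟩ : ↥(modularFunctionFieldFullC
              (IsLocalRing.ResidueField ↥(s18q_A0 A L₀)) M)) :
          LaurentSeries (IsLocalRing.ResidueField ↥(s18q_A0 A L₀))) = 0 := by
    rw [← hred]
    refine Finset.sum_congr rfl fun a _ => ?_
    rw [s19b_redV_const A M hA hℓM, s37r_redV_incl A M hA L₀ ϖ hϖ (f a) (hfV a) (hgO a)]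
    rfl
  have hall := s19b_iota_indep _
    ((s19b_linearIndependent_iff (modularFunctionFieldFullC
      (IsLocalRing.ResidueField ↥(s18q_A0 A L₀)) M) _).mp hind) _ hred'
  have h1 := hall a₁
  have h2 : (⟨c' a₁, hc'A a₁⟩ : ↥A) = 1 := Subtype.ext hc'one
  rw [h2, map_one] at h1
  exact one_ne_zero h1

end Top

end Fermat.Agent.Lib.S19

end
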