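/-
W-A programme (S19), brick G1.5 [GENUS], top-level generalities (helper2, prefix `s19b_`).

* `s19b_indep_of_red`        : Gauss-integral functions with `k`-independent reductions are
  `ℚ̄`-independent;
* `s19b_transcendental_top`  : a Gauss-integral function with transcendental reduction is
  transcendental over `ℚ̄`.
-/
import Fermat.Agent.Lib.S19.BLevelTop

set_option autoImplicit false
set_option linter.unusedSectionVars false
set_option linter.style.haveILetI false
set_option synthInstance.maxHeartbeats 400000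
set_option maxHeartbeats 1600000

noncomputable section

namespace Fermat.Agent.Lib.S19

open ModularCurve HahnSeries AlgebraicCurve Fermat.Agent.Lib.S18 Fermat.Agent.Lib.S37
  Fermat.Agent.Lib.FF Polynomial

local notation "Qbar" => AlgebraicClosure ℚ

section Top

variable (A : ValuationSubring Qbar) (M : ℕ) [NeZero M] {ℓ : ℕ} [Fact ℓ.Prime]
  (hA : A.LiesOverPrime ℓ) (hℓM : ¬ ℓ ∣ M)

/-- the reduction of an integral constant, in `F_k(M)`. -/
theorem s19b_redF_const (c : Qbar) (hc : c ∈ A) :
    s37r_redF A M hA hℓM ⟨algebraMap Qbar ↥(modularFunctionFieldBar M) c,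
        s37r4_const_mem_OF A M hA c hc⟩ =
      algebraMap (IsLocalRing.ResidueField ↥A)
        ↥(modularFunctionFieldFullC (IsLocalRing.ResidueField ↥A) M)
        (IsLocalRing.residue ↥A ⟨c, hc⟩) :=
  s37r4_Psi_const A M hA hℓM (1 : ↥(modularFunctionFieldBar M)) c hc

/-- **independent reductions ⇒ independent.** -/
theorem s19b_indep_of_red {m : ℕ} (g : Fin m → ↥(modularFunctionFieldBar M))
    (hgO : ∀ a, g a ∈ s37r_OF A M hA)
    (hind : LinearIndependent (IsLocalRing.ResidueField ↥A) fun a =>
      s37r_redF A M hA hℓM ⟨g a, hgO a⟩) :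
    LinearIndependent Qbar g := by
  classical
  rw [Fintype.linearIndependent_iff]
  intro c hc
  by_contra hne
  rw [not_forall] at hne
  obtain ⟨a₀, ha₀⟩ := hne
  obtain ⟨a₁, -, hmax⟩ := Finset.exists_max_image Finset.univ (fun a => A.valuation (c a))
    ⟨a₀, Finset.mem_univ a₀⟩
  have hca₁ : c a₁ ≠ 0 := by
    intro h0
    have h1 := hmax a₀ (Finset.mem_univ a₀)
    rw [h0, map_zero] at h1
    exact ha₀ ((map_eq_zero _).mp (le_antisymm h1 zero_le))
  set c' : Fin m → Qbar := fun a => c a / c a₁ with hc'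
  have hc'A : ∀ a, c' a ∈ A := by
    intro a
    rw [← ValuationSubring.valuation_le_one_iff, hc', map_div₀]
    exact div_le_one_of_le₀ (hmax a (Finset.mem_univ a)) zero_le
  have hc'one : c' a₁ = 1 := div_self hca₁
  have hrel : ∑ a, algebraMap Qbar ↥(modularFunctionFieldBar M) (c' a) * g a = 0 := by
    have h1 : ∑ a, algebraMap Qbar ↥(modularFunctionFieldBar M) (c' a) * g a =
        algebraMap Qbar ↥(modularFunctionFieldBar M) (c a₁)⁻¹ * ∑ a, c a • g a := by
      rw [Finset.mul_sum]
      refine Finset.sum_congr rfl fun a _ => ?_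
      show algebraMap Qbar ↥(modularFunctionFieldBar M) (c a / c a₁) * _ = _
      rw [Algebra.smul_def, ← mul_assoc, ← map_mul, div_eq_inv_mul]
    rw [h1, hc, mul_zero]
  have hred : ∑ a, (IsLocalRing.residue ↥A ⟨c' a, hc'A a⟩) •
      s37r_redF A M hA hℓM ⟨g a, hgO a⟩ = 0 := by
    have h1 : (∑ a, (⟨algebraMap Qbar ↥(modularFunctionFieldBar M) (c' a),
          s37r4_const_mem_OF A M hA (c' a) (hc'A a)⟩ : ↥(s37r_OF A M hA)) *
        ⟨g a, hgO a⟩) = 0 := by
      apply Subtype.ext
      rw [ZeroMemClass.coe_zero, ← hrel]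
      have := map_sum (s37r_OF A M hA).subtype (fun a =>
        (⟨algebraMap Qbar ↥(modularFunctionFieldBar M) (c' a),
          s37r4_const_mem_OF A M hA (c' a) (hc'A a)⟩ : ↥(s37r_OF A M hA)) *
        ⟨g a, hgO a⟩) Finset.univ
      exact this
    have h2 := congrArg (s37r_redF A M hA hℓM) h1
    rw [map_sum, map_zero] at h2
    rw [← h2]
    refine Finset.sum_congr rfl fun a _ => ?_
    rw [map_mul, s19b_redF_const A M hA hℓM, Algebra.smul_def]
  have hall := Fintype.linearIndependent_iff.mp hind _ hred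
  have h1 := hall a₁
  have h2 : (⟨c' a₁, hc'A a₁⟩ : ↥A) = 1 := Subtype.ext hc'one
  rw [h2, map_one] at h1
  exact one_ne_zero h1

/-- **a Gauss-integral function with transcendental reduction is transcendental.** -/
theorem s19b_transcendental_top (w : ↥(modularFunctionFieldBar M)) (hwO : w ∈ s37r_OF A M hA)
    (htr : Transcendental (IsLocalRing.ResidueField ↥A) (s37r_redF A M hA hℓM ⟨w, hwO⟩)) :
    Transcendental Qbar w := by
  rw [transcendental_iff]
  intro p hp
  set d := p.natDegree with hd
  -- the powers of `w` up to `d` are independent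
  have hpowO : ∀ i : Fin (d + 1), w ^ (i : ℕ) ∈ s37r_OF A M hA := fun i => pow_mem hwO _
  have hind : LinearIndependent Qbar fun i : Fin (d + 1) => w ^ (i : ℕ) := by
    refine s19b_indep_of_red A M hA hℓM _ hpowO ?_
    have h1 : (fun i : Fin (d + 1) => s37r_redF A M hA hℓM ⟨w ^ (i : ℕ), hpowO i⟩) =
        fun i : Fin (d + 1) => (s37r_redF A M hA hℓM ⟨w, hwO⟩) ^ (i : ℕ) := by
      funext i
      rw [← map_pow]
      rfl
    rw [h1]
    have h2 : LinearIndependent (IsLocalRing.ResidueField ↥A)
        (fun k : ℕ => (s37r_redF A M hA hℓM ⟨w, hwO⟩) ^ k) := by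
      have h3 : LinearIndependent (IsLocalRing.ResidueField ↥A)
          (fun k : ℕ => (Polynomial.basisMonomials (IsLocalRing.ResidueField ↥A)) k) :=
        (Polynomial.basisMonomials _).linearIndependent
      have h4 := h3.map' (Polynomial.aeval (s37r_redF A M hA hℓM ⟨w, hwO⟩)).toLinearMap
        (LinearMap.ker_eq_bot.mpr (transcendental_iff_injective.mp htr))
      have h5 : (fun k : ℕ => (s37r_redF A M hA hℓM ⟨w, hwO⟩) ^ k) =
          (⇑(Polynomial.aeval (s37r_redF A M hA hℓM ⟨w, hwO⟩)).toLinearMap ∘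
            fun k : ℕ => (Polynomial.basisMonomials (IsLocalRing.ResidueField ↥A)) k) := by
        funext k
        simp [Polynomial.coe_basisMonomials]
      rw [h5]
      exact h4
    exact h2.comp (fun i : Fin (d + 1) => (i : ℕ)) Fin.val_injective
  -- the relation
  have hsum : ∑ i : Fin (d + 1), p.coeff (i : ℕ) • w ^ (i : ℕ) = 0 := by
    rw [Polynomial.aeval_eq_sum_range] at hp
    rw [← hp, Finset.sum_range]
  have hall := Fintype.linearIndependent_iff.mp hind _ hsum
  ext i
  rw [Polynomial.coeff_zero]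
  by_cases hi : i ≤ d
  · exact hall ⟨i, Nat.lt_succ_of_le hi⟩
  · exact Polynomial.coeff_eq_zero_of_natDegree_lt (by omega)

end Top

end Fermat.Agent.Lib.S19

end
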