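/-
W-A programme (S19), brick G1.2 [LIFT-n] at a level (helper2, prefix `s19b_`).

`G` a Gauss datum with `G.A` a DVR (a number field level), `w, w'` coordinates of `𝓕(M)` with
`w * w' = 1`, both with (α) and the per-chart contract `s18f_ChartS`.  Then there is `n₀` such that
for all `n ≥ n₀` every `z ∈ F_κ(M)` with `z` integral over `κ[w̄]` and `w̄' ^ n * z` integral over
`κ[w̄']` (i.e. `z ∈ L(n (w̄)_∞)`) is the reduction of some `f ∈ V`, integral over `A[w]`, with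
`w' ^ n * f` integral over `A[w']`.

Proof: (P3a) `s37r3a_hmain` on both charts, kernel of the reduction `= (ϖ)`, purity of the chart
ring, finite generation [B2] `s18b_fg_of_le_ring`, and the abstract Čech vanishing `s19b_cech`.
-/
import Fermat.Agent.Lib.S19.BCech
import Fermat.Agent.Lib.S37.RSurjA
import Fermat.Agent.Lib.S18.BFin

set_option autoImplicit false
set_option linter.unusedSectionVars false
set_option linter.style.haveILetI false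
set_option maxHeartbeats 800000

noncomputable section

namespace Fermat.Agent.Lib.S19

open AlgebraicCurve ModularCurve Fermat.Agent.Lib.FF Fermat.Agent.Lib.S18 Fermat.Agent.Lib.S37
  Polynomial

section Level

variable {K : Type} [Field K] [CharZero K] [Algebra ℚ K] {κ : Type} [Field κ]
  (G : s18g_GaussData K κ) (M : ℕ) [NeZero M]

local notation "𝓕M" => laurentBaseChange K (modularFunctionFieldFull M)
local notation "hFM" => (fun (f : LaurentSeries K)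
  (hf : f ∈ laurentBaseChange K (modularFunctionFieldFull M)) => s18g_baseChange_mem_Frac G M hf)

/-- the constants of `A` in `𝓕(M)`. -/
abbrev s19b_iotaA : ↥G.A →+* ↥𝓕M := (algebraMap K ↥𝓕M).comp (algebraMap ↥G.A K)

/-- the level evaluation is the abstract evaluation of `BCech`. -/
theorem s19b_ev_eq (w : ↥𝓕M) : s18b_ev G 𝓕M w = s19b_ev (s19b_iotaA G M) w := by
  refine Polynomial.ringHom_ext (fun a => ?_) ?_
  · rw [s18b_evA_C, s19b_ev_apply, Polynomial.eval₂_C]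
    rfl
  · rw [s18b_evA_X, s19b_ev_apply, Polynomial.eval₂_X]

/-- **[LIFT-n] at a level.** -/
theorem s19b_level_lift [IsDiscreteValuationRing G.A] (hπ : Function.Surjective G.π)
    (hT : s18g_HT κ M) (hdeg : s18g_HDeg K M)
    (w w' : ↥𝓕M) [FFGen K w] [FFGen K w'] (hww' : w * w' = 1)
    (hwV : w ∈ s18g_V G 𝓕M hFM) (hw'V : w' ∈ s18g_V G 𝓕M hFM)
    (hα : ∀ y ∈ s18g_V G 𝓕M hFM, ∃ s : G.A[X], s.map G.π ≠ 0 ∧
      (s18b_ev G 𝓕M w).IsIntegralElem (s18b_ev G 𝓕M w s * y))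
    (hα' : ∀ y ∈ s18g_V G 𝓕M hFM, ∃ s : G.A[X], s.map G.π ≠ 0 ∧
      (s18b_ev G 𝓕M w').IsIntegralElem (s18b_ev G 𝓕M w' s * y))
    (hS : s18f_ChartS G M w 1) (hS' : s18f_ChartS G M w' 1)
    (htr : Transcendental κ (s18g_redF G M hFM hT hdeg ⟨w, hwV⟩))
    (htr' : Transcendental κ (s18g_redF G M hFM hT hdeg ⟨w', hw'V⟩)) :
    ∃ n₀ : ℕ, ∀ n : ℕ, n₀ ≤ n → ∀ z : ↥(modularFunctionFieldFullC κ M),
      ((Polynomial.aeval (s18g_redF G M hFM hT hdeg ⟨w, hwV⟩) :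
        κ[X] →ₐ[κ] ↥(modularFunctionFieldFullC κ M)) :
          κ[X] →+* ↥(modularFunctionFieldFullC κ M)).IsIntegralElem z →
      ((Polynomial.aeval (s18g_redF G M hFM hT hdeg ⟨w', hw'V⟩) :
        κ[X] →ₐ[κ] ↥(modularFunctionFieldFullC κ M)) :
          κ[X] →+* ↥(modularFunctionFieldFullC κ M)).IsIntegralElem
        ((s18g_redF G M hFM hT hdeg ⟨w', hw'V⟩) ^ n * z) →
      ∃ (f : ↥𝓕M) (hf : f ∈ s18g_V G 𝓕M hFM), (s18b_ev G 𝓕M w).IsIntegralElem f ∧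
        (s18b_ev G 𝓕M w').IsIntegralElem (w' ^ n * f) ∧
        s18g_redF G M hFM hT hdeg ⟨f, hf⟩ = z := by
  classical
  have hw'w : w' * w = 1 := by rw [mul_comm]; exact hww'
  -- membership in the chart rings = integrality
  have hiff : ∀ y : ↥𝓕M, y ∈ s18_ring (L₀ := K) (s18g_V G 𝓕M hFM) (s18_chart1 w) ↔
      (s18b_ev G 𝓕M w).IsIntegralElem y := fun y => s18b_mem_ring_iff G 𝓕M hFM w hwV hα y
  have hiff' : ∀ y : ↥𝓕M, y ∈ s18_ring (L₀ := K) (s18g_V G 𝓕M hFM) (s18_chart1 w') ↔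
      (s18b_ev G 𝓕M w').IsIntegralElem y := fun y => s18b_mem_ring_iff G 𝓕M hFM w' hw'V hα' y
  -- finite generation of the chart ring
  obtain ⟨r, b, hbmem, hbgen⟩ := s18b_fg_of_le_ring G 𝓕M w hFM hwV hα
    (s18_ring (L₀ := K) (s18g_V G 𝓕M hFM) (s18_chart1 w)).toAddSubgroup
    (fun p x hx => (s18_ring (L₀ := K) (s18g_V G 𝓕M hFM) (s18_chart1 w)).mul_mem
      ((hiff _).mpr (RingHom.isIntegralElem_map _)) hx)
    (fun x hx => hx)
  -- Čech vanishing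
  obtain ⟨n₀, hn₀⟩ := s19b_cech (s19b_iotaA G M) hww' b
    (fun i => by rw [← s19b_ev_eq]; exact (hiff _).mp (hbmem i))
    (fun y hy => by
      rw [← s19b_ev_eq] at hy ⊢
      exact hbgen y ((hiff y).mpr hy))
  refine ⟨n₀, fun n hn z hz hz' => ?_⟩
  -- the two lifts
  obtain ⟨f₁, hf₁, hred₁⟩ := s37r3a_hmain G M hπ hT hdeg w hwV hα hS htr z hz
  obtain ⟨f₂, hf₂, hred₂⟩ := s37r3a_hmain G M hπ hT hdeg w' hw'V hα' hS' htr' _ hz'
  have hf₁int := (hiff f₁).mp hf₁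
  have hf₂int := (hiff' f₂).mp hf₂
  -- reductions of the coordinates
  set wb := s18g_redF G M hFM hT hdeg ⟨w, hwV⟩ with hwb
  set wb' := s18g_redF G M hFM hT hdeg ⟨w', hw'V⟩ with hwb'
  have hwbwb' : wb * wb' = 1 := by
    rw [hwb, hwb', ← map_mul]
    have : (⟨w, hwV⟩ * ⟨w', hw'V⟩ : ↥(s18g_V G 𝓕M hFM)) = 1 := Subtype.ext hww'
    rw [this, map_one]
  -- the difference is in the kernel
  have hwnV : w ^ n ∈ s18g_V G 𝓕M hFM := pow_mem hwV n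
  set d : ↥(s18g_V G 𝓕M hFM) := ⟨f₁, hf₁.1⟩ - ⟨w ^ n, hwnV⟩ * ⟨f₂, hf₂.1⟩ with hd
  have hdker : d ∈ RingHom.ker (s18g_redF G M hFM hT hdeg) := by
    rw [RingHom.mem_ker, hd, map_sub, map_mul, hred₁, hred₂]
    have h1 : s18g_redF G M hFM hT hdeg ⟨w ^ n, hwnV⟩ = wb ^ n := by
      rw [hwb, ← map_pow]
      rfl
    rw [h1, ← mul_assoc, ← mul_pow, hwbwb', one_pow, one_mul, sub_self]
  rw [s18g_ker_redF, Ideal.mem_span_singleton] at hdker
  obtain ⟨h, hh⟩ := hdker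
  -- `(d : 𝓕) = ϖ * h`
  set ϖF : ↥𝓕M := algebraMap K ↥𝓕M ((G.ϖ : G.A) : K) with hϖF
  have hdF : f₁ - w ^ n * f₂ = ϖF * (h : ↥𝓕M) := by
    have := congrArg (fun v : ↥(s18g_V G 𝓕M hFM) => (v : ↥𝓕M)) hh
    exact this
  have hϖint : ∀ u : ↥𝓕M, (s18b_ev G 𝓕M u).IsIntegralElem ϖF := by
    intro u
    have h1 := (s18b_ev G 𝓕M u).isIntegralElem_map (x := Polynomial.C G.ϖ)
    rwa [s18b_evA_C] at h1
  -- a power of `w` moves `h` into the chart ring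
  obtain ⟨N, hN⟩ := s19b_shift (s19b_iotaA G M) hww' (y := f₂) (by rw [← s19b_ev_eq]; exact hf₂int)
  have hNint : (s18b_ev G 𝓕M w).IsIntegralElem (w ^ N * f₂) := by
    rw [s19b_ev_eq]; exact hN N le_rfl
  have hwint : (s18b_ev G 𝓕M w).IsIntegralElem w := by
    have h1 := (s18b_ev G 𝓕M w).isIntegralElem_map (x := Polynomial.X)
    rwa [s18b_evA_X] at h1
  have hwpow : ∀ j : ℕ, (s18b_ev G 𝓕M w).IsIntegralElem (w ^ j) := by
    intro j
    have h1 := (s18b_ev G 𝓕M w).isIntegralElem_map (x := Polynomial.X ^ j)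
    rwa [map_pow, s18b_evA_X] at h1
  have hwNh : (s18b_ev G 𝓕M w).IsIntegralElem (w ^ N * (h : ↥𝓕M)) := by
    rw [← hiff]
    have h1 : (s18b_ev G 𝓕M w).IsIntegralElem (w ^ N * (f₁ - w ^ n * f₂)) := by
      have e : w ^ N * (f₁ - w ^ n * f₂) = w ^ N * f₁ - w ^ n * (w ^ N * f₂) := by ring
      rw [e]
      exact RingHom.IsIntegralElem.sub _ (RingHom.IsIntegralElem.mul _ (hwpow N) hf₁int)
        (RingHom.IsIntegralElem.mul _ (hwpow n) hNint)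
    have h2 : w ^ N * (f₁ - w ^ n * f₂) ∈ s18_ring (L₀ := K) (s18g_V G 𝓕M hFM) (s18_chart1 w) :=
      (hiff _).mpr h1
    have h3 : w ^ N * (h : ↥𝓕M) ∈ s18g_V G 𝓕M hFM :=
      (s18g_V G 𝓕M hFM).mul_mem _ _ (pow_mem hwV N) h.2
    refine s18f_ring_pure (s18g_V G 𝓕M hFM) (s18_chart1 (L₀ := K) w) ((G.ϖ : G.A) : K)
      (s18g_unifK_ne_zero G) h2 h3 ?_
    rw [hdF]
    ring
  -- Čech decomposition of `h`
  obtain ⟨h₁, h₂, hh₁, hh₂, hsum⟩ := hn₀ n hn (h : ↥𝓕M) N (by rw [← s19b_ev_eq]; exact hwNh)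
  rw [← s19b_ev_eq] at hh₁ hh₂
  have hh₁V : h₁ ∈ s18g_V G 𝓕M hFM := ((hiff h₁).mpr hh₁).1
  have hϖV : ϖF ∈ s18g_V G 𝓕M hFM := (s18g_unifV G 𝓕M hFM).2
  refine ⟨f₁ - ϖF * h₁, (s18g_V G 𝓕M hFM).sub_mem hf₁.1 ((s18g_V G 𝓕M hFM).mul_mem _ _ hϖV hh₁V), ?_, ?_, ?_⟩
  · exact RingHom.IsIntegralElem.sub _ hf₁int (RingHom.IsIntegralElem.mul _ (hϖint w) hh₁)
  · have e : w' ^ n * (f₁ - ϖF * h₁) = f₂ + ϖF * h₂ := by
      have h1 : f₁ = w ^ n * f₂ + ϖF * (h : ↥𝓕M) := by rw [← hdF]; ring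
      have h2 : w' ^ n * w ^ n = 1 := by rw [← mul_pow, hw'w, one_pow]
      rw [h1, hsum]
      calc w' ^ n * (w ^ n * f₂ + ϖF * (h₁ + w ^ n * h₂) - ϖF * h₁)
          = (w' ^ n * w ^ n) * (f₂ + ϖF * h₂) := by ring
        _ = f₂ + ϖF * h₂ := by rw [h2, one_mul]
    rw [e]
    exact RingHom.IsIntegralElem.add _ hf₂int (RingHom.IsIntegralElem.mul _ (hϖint w') hh₂)
  · have e : (⟨f₁ - ϖF * h₁, (s18g_V G 𝓕M hFM).sub_mem hf₁.1
        ((s18g_V G 𝓕M hFM).mul_mem _ _ hϖV hh₁V)⟩ : ↥(s18g_V G 𝓕M hFM)) =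
        ⟨f₁, hf₁.1⟩ - s18g_unifV G 𝓕M hFM * ⟨h₁, hh₁V⟩ := Subtype.ext rfl
    rw [e, map_sub, map_mul, hred₁]
    have h0 : s18g_redF G M hFM hT hdeg (s18g_unifV G 𝓕M hFM) = 0 := by
      have h2 := s18g_redF_constV G M hFM hT hdeg G.ϖ
      rw [s18g_pi_unif, map_zero] at h2
      exact h2
    rw [h0, zero_mul, sub_zero]

end Level

end Fermat.Agent.Lib.S19

end
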