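/-
W-A programme (S19), brick G1.5 [GENUS], the lifting half (helper2, prefix `s19b_`).

`s19b_LnSub 𝔉 w w' n` = `{z ∈ 𝔉 | z integral over K[w], w' ^ n * z integral over K[w']}`
(= `L(n (w)_∞)` when `w' = w⁻¹`).

**`s19b_lift_top`**: for a coordinate `w` of `F = F_{ℚ̄}(M)` with level inputs on both charts there
is `n₀` such that for `n ≥ n₀`, `m` elements of `L(n (w̄)_∞) ⊆ F_k(M)` independent over `k` give
`m` elements of `L(n (w)_∞) ⊆ F` independent over `ℚ̄`.  Hence
`dim_k L(n (w̄)_∞) ≤ dim_{ℚ̄} L(n (w)_∞)`.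

Proof at ONE fixed number field level (`L₀ = ⊥`): descent `k → κ₀` by [BC] (`s19b_fullC_decomp`
for the infinite Galois extension `k/κ₀`), lifting at the level (`s19b_level_lift`), and
`s19b_top_indep`.
-/
import Fermat.Agent.Lib.S19.BLevelTop
import Fermat.Agent.Lib.S19.BLevelLift
import Fermat.Agent.Lib.S19.BBaseChangeInst

set_option autoImplicit false
set_option linter.unusedSectionVars false
set_option linter.style.haveILetI false
set_option synthInstance.maxHeartbeats 400000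
set_option maxHeartbeats 1600000

noncomputable section

namespace Fermat.Agent.Lib.S19

open ModularCurve HahnSeries AlgebraicCurve Fermat.Agent.Lib.S18 Fermat.Agent.Lib.S37
  Fermat.Agent.Lib.FF Polynomial

local notation "Qbar" => AlgebraicClosure ℚ

/-- `L(n (w)_∞)` inside a subfield `𝔉 ⊆ K((q))`, in integrality form. -/
def s19b_LnSub {K : Type*} [Field K] (𝔉 : IntermediateField K (LaurentSeries K))
    (w w' : LaurentSeries K) (n : ℕ) : Submodule K ↥𝔉 where
  carrier := {z | s19b_Int w (z : LaurentSeries K) ∧ s19b_Int w' (w' ^ n * (z : LaurentSeries K))}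
  add_mem' := fun {a b} ha hb => by
    refine ⟨?_, ?_⟩
    · rw [AddMemClass.coe_add]; exact s19b_Int_add ha.1 hb.1
    · rw [AddMemClass.coe_add, mul_add]; exact s19b_Int_add ha.2 hb.2
  zero_mem' := by
    refine ⟨?_, ?_⟩
    · rw [ZeroMemClass.coe_zero]; exact RingHom.isIntegralElem_zero _
    · rw [ZeroMemClass.coe_zero, mul_zero]; exact RingHom.isIntegralElem_zero _
  smul_mem' := fun c z hz => by
    refine ⟨?_, ?_⟩
    · rw [s19b_coe_smul_F]; exact s19b_Int_mul (s19b_Int_C w c) hz.1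
    · rw [s19b_coe_smul_F, mul_left_comm]; exact s19b_Int_mul (s19b_Int_C w' c) hz.2

theorem s19b_mem_LnSub {K : Type*} [Field K] (𝔉 : IntermediateField K (LaurentSeries K))
    (w w' : LaurentSeries K) (n : ℕ) (z : ↥𝔉) :
    z ∈ s19b_LnSub 𝔉 w w' n ↔
      s19b_Int w (z : LaurentSeries K) ∧ s19b_Int w' (w' ^ n * (z : LaurentSeries K)) := Iff.rfl

section Top

variable (A : ValuationSubring Qbar) (M : ℕ) [NeZero M] {ℓ : ℕ} [Fact ℓ.Prime]
  (hA : A.LiesOverPrime ℓ) (hℓM : ¬ ℓ ∣ M)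

/-- **the lifting half of the genus comparison.** -/
theorem s19b_lift_top (w : ↥(modularFunctionFieldBar M)) (hw0 : w ≠ 0)
    (hwO : w ∈ s37r_OF A M hA) (hwinvO : w⁻¹ ∈ s37r_OF A M hA)
    (hlev₁ : s37r_LevelInputs A M w) (hlev₂ : s37r_LevelInputs A M w⁻¹)
    (htr : Transcendental (IsLocalRing.ResidueField ↥A) (s37r_redF A M hA hℓM ⟨w, hwO⟩))
    (htr' : Transcendental (IsLocalRing.ResidueField ↥A) (s37r_redF A M hA hℓM ⟨w⁻¹, hwinvO⟩)) :
    ∃ n₀ : ℕ, ∀ n : ℕ, n₀ ≤ n → ∀ (m : ℕ)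
      (x : Fin m → ↥(modularFunctionFieldFullC (IsLocalRing.ResidueField ↥A) M)),
      LinearIndependent (IsLocalRing.ResidueField ↥A) x →
      (∀ i, x i ∈ s19b_LnSub (modularFunctionFieldFullC (IsLocalRing.ResidueField ↥A) M)
        ((s37r_redF A M hA hℓM ⟨w, hwO⟩ :
          ↥(modularFunctionFieldFullC (IsLocalRing.ResidueField ↥A) M)) :
          LaurentSeries (IsLocalRing.ResidueField ↥A))
        ((s37r_redF A M hA hℓM ⟨w⁻¹, hwinvO⟩ :
          ↥(modularFunctionFieldFullC (IsLocalRing.ResidueField ↥A) M)) :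
          LaurentSeries (IsLocalRing.ResidueField ↥A)) n) →
      ∃ f : Fin m → ↥(modularFunctionFieldBar M), LinearIndependent Qbar f ∧
        ∀ i, f i ∈ s19b_LnSub (modularFunctionFieldBar M)
          ((w : ↥(modularFunctionFieldBar M)) : LaurentSeries Qbar)
          ((w⁻¹ : ↥(modularFunctionFieldBar M)) : LaurentSeries Qbar) n := by
  classical
  -- the level
  set L₀ : IntermediateField ℚ Qbar := ⊥ with hL₀
  haveI hfd : FiniteDimensional ℚ ↥L₀ := inferInstance
  obtain ⟨hdvr, ϖ, hϖ⟩ := s37r_exists_unif A hA L₀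
  haveI := hdvr
  obtain ⟨w₀, hw₀, hgen, hwV, hα, hS⟩ := hlev₁ L₀ ϖ hϖ
  obtain ⟨w₀', hw₀', hgen', hw'V, hα', hS'⟩ := hlev₂ L₀ ϖ hϖ
  haveI := hgen
  haveI := hgen'
  have hℓ : ℓ.Prime := Fact.out
  haveI hchar : CharP (IsLocalRing.ResidueField ↥(s18q_A0 A L₀)) ℓ := s37rl_charP A hA L₀
  have hT : s18g_HT (IsLocalRing.ResidueField ↥(s18q_A0 A L₀)) M := s18t_indep_j ℓ M hℓM _
  have hdeg : s18g_HDeg ↥L₀ M := fun n b hb hn =>
    s18g_exists_relation M (algebraMap ↥L₀ Qbar) hn b hb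
  set G := s37r_G A L₀ ϖ hϖ with hG
  haveI : IsDiscreteValuationRing ↥G.A := hdvr
  have hπ : Function.Surjective G.π := IsLocalRing.residue_surjective
  have hww' : w₀ * w₀' = 1 := by
    apply s18q_incl_injective M L₀
    rw [map_mul, hw₀, hw₀', map_one, mul_inv_cancel₀ hw0]
  -- reductions of the level coordinates
  set w0b := s18g_redF G M (fun _ hf => s18g_baseChange_mem_Frac G M hf) hT hdeg ⟨w₀, hwV⟩
    with hw0b
  set w0b' := s18g_redF G M (fun _ hf => s18g_baseChange_mem_Frac G M hf) hT hdeg ⟨w₀', hw'V⟩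
    with hw0b'
  have hbar : ∀ (u₀ : ↥(laurentBaseChange ↥L₀ (modularFunctionFieldFull M)))
      (hu₀V : u₀ ∈ s18x_V G M) (u : ↥(modularFunctionFieldBar M)) (hu : s18q_incl M L₀ u₀ = u)
      (huO : u ∈ s37r_OF A M hA),
      coeffMap (s37r_resMap A L₀)
        ((s18g_redF G M (fun _ hf => s18g_baseChange_mem_Frac G M hf) hT hdeg ⟨u₀, hu₀V⟩ :
          ↥(modularFunctionFieldFullC (IsLocalRing.ResidueField ↥(s18q_A0 A L₀)) M)) :
          LaurentSeries (IsLocalRing.ResidueField ↥(s18q_A0 A L₀))) =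
      ((s37r_redF A M hA hℓM ⟨u, huO⟩ :
        ↥(modularFunctionFieldFullC (IsLocalRing.ResidueField ↥A) M)) :
        LaurentSeries (IsLocalRing.ResidueField ↥A)) := by
    intro u₀ hu₀V u hu huO
    have hmem : s18q_incl M L₀ u₀ ∈ s37r_OF A M hA := by rw [hu]; exact huO
    rw [s37r_coe_redF, s18g_coe_redF]
    have h1 := s37r_redV_incl A M hA L₀ ϖ hϖ u₀ hu₀V hmem
    rw [← h1]
    congr 1
    exact Subtype.ext hu
  have hwbar := hbar w₀ hwV w hw₀ hwO
  have hwbar' := hbar w₀' hw'V w⁻¹ hw₀' hwinvO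
  have htr₀ : Transcendental (IsLocalRing.ResidueField ↥(s18q_A0 A L₀)) w0b :=
    s19b_htr_level (s37r_resMap A L₀) M w0b _ hwbar htr
  have htr₀' : Transcendental (IsLocalRing.ResidueField ↥(s18q_A0 A L₀)) w0b' :=
    s19b_htr_level (s37r_resMap A L₀) M w0b' _ hwbar' htr'
  -- the level lifting
  obtain ⟨n₀, hn₀⟩ := s19b_level_lift G M hπ hT hdeg w₀ w₀' hww' hwV hw'V hα hα' hS hS'
    htr₀ htr₀'
  refine ⟨n₀, fun n hn m x hx hxL => ?_⟩
  -- descent to the level residue field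
  letI alg := (s37r_resMap A L₀).toAlgebra
  haveI hgal : IsGalois (IsLocalRing.ResidueField ↥(s18q_A0 A L₀))
      (IsLocalRing.ResidueField ↥A) := s19b_isGalois_res A hA L₀
  have hιmem : ∀ f : LaurentSeries (IsLocalRing.ResidueField ↥(s18q_A0 A L₀)),
      f ∈ modularFunctionFieldFullC (IsLocalRing.ResidueField ↥(s18q_A0 A L₀)) M →
      s19b_iota (K' := IsLocalRing.ResidueField ↥A) f ∈
        modularFunctionFieldFullC (IsLocalRing.ResidueField ↥A) M :=
    fun f hf => s19b_iota_mem_fullC _ _ M hf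
  obtain ⟨e, he, heW⟩ := s19b_indep_descent
    (modularFunctionFieldFullC (IsLocalRing.ResidueField ↥(s18q_A0 A L₀)) M)
    (modularFunctionFieldFullC (IsLocalRing.ResidueField ↥A) M) hιmem
    (s19b_LnSub (modularFunctionFieldFullC (IsLocalRing.ResidueField ↥(s18q_A0 A L₀)) M)
      (w0b : LaurentSeries (IsLocalRing.ResidueField ↥(s18q_A0 A L₀)))
      (w0b' : LaurentSeries (IsLocalRing.ResidueField ↥(s18q_A0 A L₀))) n) x hx (by
    intro i
    obtain ⟨r, b, g, -, -, hxeq, hymem, hall⟩ :=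
      s19b_fullC_decomp (IsLocalRing.ResidueField ↥(s18q_A0 A L₀))
        (IsLocalRing.ResidueField ↥A) M (x i).2
    refine ⟨r, b, fun j => ⟨s19b_retr (g j) ((x i : ↥(modularFunctionFieldFullC
      (IsLocalRing.ResidueField ↥A) M)) : LaurentSeries (IsLocalRing.ResidueField ↥A)),
      hymem j⟩, fun j => ?_, hxeq⟩
    rw [s19b_mem_LnSub]
    constructor
    · have h1 := hall 1 (w0b : LaurentSeries (IsLocalRing.ResidueField ↥(s18q_A0 A L₀))) (by
        rw [map_one, one_mul]
        have : s19b_iota (K' := IsLocalRing.ResidueField ↥A)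
            (w0b : LaurentSeries (IsLocalRing.ResidueField ↥(s18q_A0 A L₀))) =
            ((s37r_redF A M hA hℓM ⟨w, hwO⟩ :
              ↥(modularFunctionFieldFullC (IsLocalRing.ResidueField ↥A) M)) :
              LaurentSeries (IsLocalRing.ResidueField ↥A)) := hwbar
        rw [this]
        exact (hxL i).1) j
      rwa [one_mul] at h1
    · have h1 := hall ((w0b' : LaurentSeries (IsLocalRing.ResidueField ↥(s18q_A0 A L₀))) ^ n)
        (w0b' : LaurentSeries (IsLocalRing.ResidueField ↥(s18q_A0 A L₀))) (by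
        have : s19b_iota (K' := IsLocalRing.ResidueField ↥A)
            (w0b' : LaurentSeries (IsLocalRing.ResidueField ↥(s18q_A0 A L₀))) =
            ((s37r_redF A M hA hℓM ⟨w⁻¹, hwinvO⟩ :
              ↥(modularFunctionFieldFullC (IsLocalRing.ResidueField ↥A) M)) :
              LaurentSeries (IsLocalRing.ResidueField ↥A)) := hwbar'
        rw [map_pow, this]
        exact (hxL i).2) j
      exact h1)
  -- lifting at the level
  have hlift : ∀ a, ∃ (f : ↥(laurentBaseChange ↥L₀ (modularFunctionFieldFull M)))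
      (hf : f ∈ s18x_V G M),
      (s18b_ev G (laurentBaseChange ↥L₀ (modularFunctionFieldFull M)) w₀).IsIntegralElem f ∧
      (s18b_ev G (laurentBaseChange ↥L₀ (modularFunctionFieldFull M)) w₀').IsIntegralElem
        (w₀' ^ n * f) ∧
      s18g_redF G M (fun _ hf => s18g_baseChange_mem_Frac G M hf) hT hdeg ⟨f, hf⟩ = e a := by
    intro a
    have hea := (s19b_mem_LnSub _ _ _ _ _).mp (heW a)
    refine hn₀ n hn (e a) ?_ ?_
    · exact (s37kd_isIntegralElem_coe_iff _ w0b (e a)).mpr hea.1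
    · refine (s37kd_isIntegralElem_coe_iff _ w0b' (w0b' ^ n * e a)).mpr ?_
      rw [MulMemClass.coe_mul, SubmonoidClass.coe_pow]
      exact hea.2
  choose f hfV hfint hfint' hfred using hlift
  refine ⟨fun a => s18q_incl M L₀ (f a), ?_, fun a => ?_⟩
  · refine s19b_top_indep A M hA hℓM L₀ ϖ hϖ hT hdeg f hfV ?_
    have : (fun a => s18g_redF G M (fun _ hf => s18g_baseChange_mem_Frac G M hf) hT hdeg
        ⟨f a, hfV a⟩) = e := funext hfred
    rw [this]
    exact he
  · rw [s19b_mem_LnSub]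
    constructor
    · have h1 := s19b_incl_Int A M L₀ ϖ hϖ w₀ (f a) (hfint a)
      rwa [hw₀] at h1
    · have h1 := s19b_incl_Int A M L₀ ϖ hϖ w₀' (w₀' ^ n * f a) (hfint' a)
      rw [map_mul, map_pow, hw₀', MulMemClass.coe_mul, SubmonoidClass.coe_pow] at h1
      exact h1

end Top

end Fermat.Agent.Lib.S19

end
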