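/-
W-A programme (S19), brick G1.5 [GENUS], the semicontinuity half (helper2, prefix `s19b_`).

**`s19b_red_top`**: given Gauss-orthonormal bases (`hsc` = the field `sc` of `s19_Curve` for the
modular curve), `m` elements of `L(n (w)_∞) ⊆ F` independent over `ℚ̄` give `m` elements of
`L(n (w̄)_∞) ⊆ F_k(M)` independent over `k` (landed (P3) integrality `s37r3_Psi_isIntegral` on both
charts).  Hence `dim_{ℚ̄} L(n (w)_∞) ≤ dim_k L(n (w̄)_∞)`.
-/
import Fermat.Agent.Lib.S19.BLiftTop
import Fermat.Agent.Lib.S37.RSurj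
import Fermat.Agent.Lib.S37.RInst2

set_option autoImplicit false
set_option linter.unusedSectionVars false
set_option linter.unusedVariables false
set_option linter.style.haveILetI false
set_option synthInstance.maxHeartbeats 400000
set_option maxHeartbeats 1600000

noncomputable section

namespace Fermat.Agent.Lib.S19

open ModularCurve HahnSeries AlgebraicCurve Fermat.Agent.Lib.S18 Fermat.Agent.Lib.S37
  Fermat.Agent.Lib.FF Polynomial

local notation "Qbar" => AlgebraicClosure ℚ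

/-- elements integral over `K[w]` lie in every valuation subring containing `K` and `w`. -/
theorem s19b_mem_of_isIntegralElem {K F : Type*} [Field K] [Field F] [Algebra K F] (w : F)
    (W : ValuationSubring F) (hK : ∀ c : K, algebraMap K F c ∈ W) (hw : w ∈ W) (y : F)
    (hy : (Polynomial.aeval w : K[X] →ₐ[K] F).toRingHom.IsIntegralElem y) : y ∈ W := by
  let c : K →+* W := (algebraMap K F).codRestrict W.toSubring hK
  let ev' : K[X] →+* W := Polynomial.eval₂RingHom c ⟨w, hw⟩
  have hcomp : (W.subtype : W →+* F).comp ev' =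
      (Polynomial.aeval w : K[X] →ₐ[K] F).toRingHom := by
    refine Polynomial.ringHom_ext (fun a => ?_) ?_
    · show ((Polynomial.eval₂ c ⟨w, hw⟩ (Polynomial.C a) : W) : F) = Polynomial.aeval w (C a)
      rw [Polynomial.eval₂_C, Polynomial.aeval_C]
      rfl
    · show ((Polynomial.eval₂ c ⟨w, hw⟩ Polynomial.X : W) : F) = Polynomial.aeval w X
      rw [Polynomial.eval₂_X, Polynomial.aeval_X]
  rw [← hcomp] at hy
  have h1 : (W.subtype : W →+* F).IsIntegralElem y := RingHom.IsIntegralElem.of_comp hy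
  have h2 : IsIntegral W y := h1
  obtain ⟨z, hz⟩ := IsIntegrallyClosed.isIntegral_iff.mp h2
  rw [← hz]
  exact z.2

section Top

variable (A : ValuationSubring Qbar) (M : ℕ) [NeZero M] {ℓ : ℕ} [Fact ℓ.Prime]
  (hA : A.LiesOverPrime ℓ) (hℓM : ¬ ℓ ∣ M)

/-- a Gauss-integral function integral over `ℚ̄[w]` is in the chart ring, and its reduction is
integral over `k[w̄]`. -/
theorem s19b_red_Int (w : ↥(modularFunctionFieldBar M)) (hwO : w ∈ s37r_OF A M hA)
    (hlev : s37r_LevelInputs A M w) (y : ↥(modularFunctionFieldBar M))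
    (hyO : y ∈ s37r_OF A M hA)
    (hy : s19b_Int ((w : ↥(modularFunctionFieldBar M)) : LaurentSeries Qbar)
      ((y : ↥(modularFunctionFieldBar M)) : LaurentSeries Qbar)) :
    s19b_Int ((s37r_redF A M hA hℓM ⟨w, hwO⟩ :
        ↥(modularFunctionFieldFullC (IsLocalRing.ResidueField ↥A) M)) :
        LaurentSeries (IsLocalRing.ResidueField ↥A))
      ((s37r_redF A M hA hℓM ⟨y, hyO⟩ :
        ↥(modularFunctionFieldFullC (IsLocalRing.ResidueField ↥A) M)) :
        LaurentSeries (IsLocalRing.ResidueField ↥A)) := by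
  have hy' := (s37kd_isIntegralElem_coe_iff (modularFunctionFieldBar M) w y).mpr hy
  have hyB : y ∈ s37r_B A M hA w :=
    ⟨hyO, fun Q hQ => s19b_mem_of_isIntegralElem w Q.toValuationSubring
      (fun c => Q.algebraMap_mem' c) hQ y hy'⟩
  letI algX := s37r9_algebraX A M (s37r_redF A M hA hℓM ⟨w, hwO⟩)
  have h1 := s37r3_Psi_isIntegral A M hA hℓM w hlev hwO (fun _ => rfl) ⟨y, hyB⟩
  have h2 : (Polynomial.aeval (s37r_redF A M hA hℓM ⟨w, hwO⟩) :
      (IsLocalRing.ResidueField ↥A)[X] →ₐ[IsLocalRing.ResidueField ↥A]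
        ↥(modularFunctionFieldFullC (IsLocalRing.ResidueField ↥A) M)).toRingHom.IsIntegralElem
      (s37r_redF A M hA hℓM ⟨y, hyO⟩) := h1
  exact (s37kd_isIntegralElem_coe_iff _ _ _).mp h2

/-- **the semicontinuity half of the genus comparison.** -/
theorem s19b_red_top (w : ↥(modularFunctionFieldBar M)) (hw0 : w ≠ 0)
    (hwO : w ∈ s37r_OF A M hA) (hwinvO : w⁻¹ ∈ s37r_OF A M hA)
    (hlev₁ : s37r_LevelInputs A M w) (hlev₂ : s37r_LevelInputs A M w⁻¹)
    (hsc : ∀ (n : ℕ) (b : Fin n → ↥(modularFunctionFieldBar M)), LinearIndependent Qbar b →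
      ∃ b' : Fin n → ↥(modularFunctionFieldBar M),
        Submodule.span Qbar (Set.range b') = Submodule.span Qbar (Set.range b) ∧
        ∃ hb' : ∀ i, b' i ∈ s37r_OF A M hA,
          LinearIndependent (IsLocalRing.ResidueField ↥A) fun i =>
            s37r_redF A M hA hℓM ⟨b' i, hb' i⟩)
    (n m : ℕ) (f : Fin m → ↥(modularFunctionFieldBar M)) (hf : LinearIndependent Qbar f)
    (hfL : ∀ i, f i ∈ s19b_LnSub (modularFunctionFieldBar M)
      ((w : ↥(modularFunctionFieldBar M)) : LaurentSeries Qbar)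
      ((w⁻¹ : ↥(modularFunctionFieldBar M)) : LaurentSeries Qbar) n) :
    ∃ x : Fin m → ↥(modularFunctionFieldFullC (IsLocalRing.ResidueField ↥A) M),
      LinearIndependent (IsLocalRing.ResidueField ↥A) x ∧
      ∀ i, x i ∈ s19b_LnSub (modularFunctionFieldFullC (IsLocalRing.ResidueField ↥A) M)
        ((s37r_redF A M hA hℓM ⟨w, hwO⟩ :
          ↥(modularFunctionFieldFullC (IsLocalRing.ResidueField ↥A) M)) :
          LaurentSeries (IsLocalRing.ResidueField ↥A))
        ((s37r_redF A M hA hℓM ⟨w⁻¹, hwinvO⟩ :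
          ↥(modularFunctionFieldFullC (IsLocalRing.ResidueField ↥A) M)) :
          LaurentSeries (IsLocalRing.ResidueField ↥A)) n := by
  obtain ⟨b', hspan, hb'O, hli⟩ := hsc m f hf
  refine ⟨fun i => s37r_redF A M hA hℓM ⟨b' i, hb'O i⟩, hli, fun i => ?_⟩
  -- `b' i` is in `L(n (w)_∞)`
  have hb'L : b' i ∈ s19b_LnSub (modularFunctionFieldBar M)
      ((w : ↥(modularFunctionFieldBar M)) : LaurentSeries Qbar)
      ((w⁻¹ : ↥(modularFunctionFieldBar M)) : LaurentSeries Qbar) n := by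
    have h1 : b' i ∈ Submodule.span Qbar (Set.range b') := Submodule.subset_span ⟨i, rfl⟩
    rw [hspan] at h1
    refine (Submodule.span_le.mpr ?_) h1
    rintro _ ⟨j, rfl⟩
    exact hfL j
  rw [s19b_mem_LnSub] at hb'L ⊢
  refine ⟨s19b_red_Int A M hA hℓM w hwO hlev₁ (b' i) (hb'O i) hb'L.1, ?_⟩
  -- the second chart
  have hmem : w⁻¹ ^ n * b' i ∈ s37r_OF A M hA :=
    (s37r_OF A M hA).mul_mem _ _ (pow_mem hwinvO n) (hb'O i)
  have h2 := s19b_red_Int A M hA hℓM w⁻¹ hwinvO hlev₂ (w⁻¹ ^ n * b' i) hmem (by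
    rw [MulMemClass.coe_mul, SubmonoidClass.coe_pow]
    exact hb'L.2)
  have h3 : (⟨w⁻¹ ^ n * b' i, hmem⟩ : ↥(s37r_OF A M hA)) =
      ⟨w⁻¹, hwinvO⟩ ^ n * ⟨b' i, hb'O i⟩ := Subtype.ext rfl
  rw [h3, map_mul, map_pow, MulMemClass.coe_mul, SubmonoidClass.coe_pow] at h2
  exact h2

end Top

end Fermat.Agent.Lib.S19

end
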