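/-
W-A programme (S19), brick G1.5 [GENUS], final assembly (helper2, prefix `s19b_`).

**`s19b_rr`** = the fields `rrF`, `rrFb` of `s19_Curve` for the modular curve at a good level, WITH
THE SAME GENUS: Riemann's theorem holds on `ℚ̄(X₀(M))` and on `k(X₀(M))` with one and the same `g`.

Proof: `w` = the coordinate of `s37rl_exists_coord` (`w`, `w⁻¹` Gauss-integral, level inputs on both
charts, `w̄ ∈ {j̄, t̄₂, t̄₃}` a separating coordinate of the special fibre).  With `B = (w)_∞`,
`B̄ = (w̄)_∞` the dictionary `s19b_mem_L_iff` identifies `L(nB)`, `L(nB̄)` with the spaces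
`s19b_LnSub` of the two-chart description; `s19b_red_top` (semicontinuity, from `hsc`) and
`s19b_lift_top` (Čech lifting for `n ≥ n₀`) give `dim L(nB) = dim L(nB̄)` for `n ≥ n₀`, and helper6's
`s19e_genus_eq_of_finrank_eq` concludes.
-/
import Fermat.Agent.Lib.S19.BGenusTop
import Fermat.Agent.Lib.S19.BRedTop
import Fermat.Agent.Lib.S19.BDict
import Fermat.Agent.Lib.S19.EGenus
import Fermat.Agent.Lib.S44.RSepDiv
import Fermat.Agent.Lib.S37.RExists
import Fermat.Agent.Lib.S37.RLevel
import Fermat.Agent.Lib.S18.RData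

set_option autoImplicit false
set_option linter.unusedSectionVars false
set_option linter.unusedVariables false
set_option linter.style.haveILetI false
set_option synthInstance.maxHeartbeats 400000
set_option maxHeartbeats 1600000

noncomputable section

namespace Fermat.Agent.Lib.S19

open ModularCurve HahnSeries AlgebraicCurve Fermat.Agent.Lib.S18 Fermat.Agent.Lib.S37
  Fermat.Agent.Lib.FF Fermat.Agent.Lib.S44 IsLocalRing IntermediateField Polynomial

local notation "Qbar" => AlgebraicClosure ℚ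

/-- the dictionary for a subfield of Laurent series: `L(n (w)_∞)` is the two-chart space. -/
theorem s19b_L_eq_LnSub {K : Type*} [Field K] (𝔉 : IntermediateField K (LaurentSeries K))
    (w : ↥𝔉) [FFGen K w] [Algebra.IsSeparable K⟮w⟯ ↥𝔉] (B : Divisor K ↥𝔉)
    (hB0 : ∀ v : Place K ↥𝔉, 0 ≤ v.ord w → B v = 0)
    (hB1 : ∀ v : Place K ↥𝔉, v.ord w < 0 → B v = -v.ord w) (n : ℕ) :
    riemannRochSpace (n • B) =
      s19b_LnSub 𝔉 (w : LaurentSeries K) ((w⁻¹ : ↥𝔉) : LaurentSeries K) n := by
  ext f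
  rw [s19b_mem_L_iff w B hB0 hB1 n f, s19b_mem_LnSub, s37kd_isIntegralElem_coe_iff,
    s37kd_isIntegralElem_coe_iff]
  simp only [MulMemClass.coe_mul, SubmonoidClass.coe_pow]

/-- dimension comparison from a transfer of independent families. -/
theorem s19b_finrank_le_of_transfer {K k V W : Type*} [Field K] [Field k] [AddCommGroup V]
    [Module K V] [AddCommGroup W] [Module k W] (S : Submodule K V) (T : Submodule k W)
    [Module.Finite K ↥S] [Module.Finite k ↥T]
    (h : ∀ (m : ℕ) (f : Fin m → V), LinearIndependent K f → (∀ i, f i ∈ S) →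
      ∃ x : Fin m → W, LinearIndependent k x ∧ ∀ i, x i ∈ T) :
    Module.finrank K ↥S ≤ Module.finrank k ↥T := by
  let b := Module.finBasis K ↥S
  have hb : LinearIndependent K (fun i => ((b i : ↥S) : V)) :=
    b.linearIndependent.map' S.subtype (Submodule.ker_subtype S)
  obtain ⟨x, hx, hxT⟩ := h _ _ hb (fun i => (b i).2)
  have hx' : LinearIndependent k (fun i => (⟨x i, hxT i⟩ : ↥T)) :=
    LinearIndependent.of_comp T.subtype hx
  have h1 := hx'.fintype_card_le_finrank
  simpa using h1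

section Main

variable (M : ℕ) [NeZero M] (ℓ : ℕ) [Fact ℓ.Prime]

/-- **Riemann's theorem on both fibres of `X₀(M)` at a good level, with the same genus.** -/
theorem s19b_rr (hgood : s18_GoodLevel ℓ M)
    (A : ValuationSubring Qbar) (hA : A.LiesOverPrime ℓ)
    (hsc : ∀ (n : ℕ) (b : Fin n → ↥(modularFunctionFieldBar M)), LinearIndependent Qbar b →
      ∃ b' : Fin n → ↥(modularFunctionFieldBar M),
        Submodule.span Qbar (Set.range b') = Submodule.span Qbar (Set.range b) ∧
        ∃ hb' : ∀ i, b' i ∈ s37r_OF A M hA,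
          LinearIndependent (ResidueField ↥A) fun i => s37r_redF A M hA hgood.1 ⟨b' i, hb' i⟩) :
    ∃ g : ℕ, s19_Riemann Qbar ↥(modularFunctionFieldBar M) g ∧
      s19_Riemann (ResidueField ↥A) ↥(modularFunctionFieldFullC (ResidueField ↥A) M) g := by
  have hℓM : ¬ ℓ ∣ M := hgood.1
  obtain ⟨w, hwO, hwinvO, hw0, hlev₁, hlev₂, hred⟩ := s37rl_exists_coord A M hA hℓM hgood
  haveI : IsAlgClosed (ResidueField ↥A) := s18n_isAlgClosed_residueField A
  haveI : CharP (ResidueField ↥A) ℓ := s18x_charP_residueField A (Fact.out : ℓ.Prime) hA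
  -- the coordinate of the special fibre
  obtain ⟨wb, hwb⟩ : ∃ wb : ↥(modularFunctionFieldFullC (ResidueField ↥A) M),
      wb = s37r_redF A M hA hℓM ⟨w, hwO⟩ := ⟨_, rfl⟩
  have hcoord₁ : s37b_Coord (ResidueField ↥A) ℓ (wb : LaurentSeries (ResidueField ↥A)) := by
    rw [hwb]
    rcases hred with h | h | h
    · rw [h]; exact s37b_coord_jq _ ℓ
    · rw [h]; exact s37b_coord_t2 _ ℓ
    · rw [h]; exact s37b_coord_t3 _ ℓ
  have hinv : s37r_redF A M hA hℓM ⟨w⁻¹, hwinvO⟩ = wb⁻¹ := by
    rw [hwb]; exact s37rl_redF_inv A M hA hℓM hw0 hwO hwinvO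
  have hcoord₂ : s37b_Coord (ResidueField ↥A) ℓ
      ((wb⁻¹ : ↥(modularFunctionFieldFullC (ResidueField ↥A) M)) :
        LaurentSeries (ResidueField ↥A)) := by
    rw [IntermediateField.coe_inv]; exact s37b_coord_inv hcoord₁
  have htr₁ : Transcendental (ResidueField ↥A) (s37r_redF A M hA hℓM ⟨w, hwO⟩) := by
    rw [← hwb]; exact s37b_transcendental_of_coe _ M _ hcoord₁.1
  have htr₂ : Transcendental (ResidueField ↥A) (s37r_redF A M hA hℓM ⟨w⁻¹, hwinvO⟩) := by
    rw [hinv]; exact s37b_transcendental_of_coe _ M _ hcoord₂.1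
  obtain ⟨n₀, hlift⟩ := s19b_lift_top A M hA hℓM w hw0 hwO hwinvO hlev₁ hlev₂ htr₁ htr₂
  -- the generic fibre
  haveI : FFGen Qbar (ffd_jBar M) := s18r_ffGen M
  haveI hgenw : FFGen Qbar w :=
    ff_gen_of_transcendental (x := ffd_jBar M) (s19b_transcendental_top A M hA hℓM w hwO htr₁)
  obtain ⟨BF, hBF0, hBF1, hBFdeg⟩ := s44rm_exists_poleDivisor (K := Qbar) w
  -- the special fibre
  haveI hgenwb : FFGen (ResidueField ↥A) wb := s37b_ffGen_of_coord _ M ℓ wb hcoord₁
  haveI hsepwb : Algebra.IsSeparable (ResidueField ↥A)⟮wb⟯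
      ↥(modularFunctionFieldFullC (ResidueField ↥A) M) := s37b_isSeparable _ M ℓ wb hcoord₁
  haveI : HasPrincipalDivisors (ResidueField ↥A)
      ↥(modularFunctionFieldFullC (ResidueField ↥A) M) := s44rq_fbar_hasPrincipalDivisors _ M ℓ
  obtain ⟨Bb, hBb0, hBb1, hBbdeg⟩ := s44rm_exists_poleDivisor (K := ResidueField ↥A) wb
  have hRF : s19_Riemann Qbar ↥(modularFunctionFieldBar M)
      (genusFF Qbar ↥(modularFunctionFieldBar M)) := s19e_riemann_of_sep (K := Qbar) w
  have hRb : s19_Riemann (ResidueField ↥A) ↥(modularFunctionFieldFullC (ResidueField ↥A) M)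
      (genusFF (ResidueField ↥A) ↥(modularFunctionFieldFullC (ResidueField ↥A) M)) :=
    s19e_riemann_of_sep (K := ResidueField ↥A) wb
  have hdegF : 0 < Divisor.degree BF := by
    rw [hBFdeg]
    haveI := hgenw.finite
    exact_mod_cast Module.finrank_pos
  have hdegb : 0 < Divisor.degree Bb := by
    rw [hBbdeg]
    haveI := hgenwb.finite
    exact_mod_cast Module.finrank_pos
  have hfin : ∀ n : ℕ, n₀ ≤ n →
      Module.finrank Qbar ↥(riemannRochSpace (n • BF)) =
        Module.finrank (ResidueField ↥A) ↥(riemannRochSpace (n • Bb)) := by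
    intro n hn
    have e₁ := s19b_L_eq_LnSub (modularFunctionFieldBar M) w BF hBF0 hBF1 n
    have e₂ := s19b_L_eq_LnSub (modularFunctionFieldFullC (ResidueField ↥A) M) wb Bb hBb0 hBb1 n
    haveI f₁ : Module.Finite Qbar ↥(s19b_LnSub (modularFunctionFieldBar M)
        (w : LaurentSeries Qbar) ((w⁻¹ : ↥(modularFunctionFieldBar M)) : LaurentSeries Qbar) n) :=
      e₁ ▸ hRF.fin (n • BF)
    haveI f₂ : Module.Finite (ResidueField ↥A)
        ↥(s19b_LnSub (modularFunctionFieldFullC (ResidueField ↥A) M)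
        (wb : LaurentSeries (ResidueField ↥A))
        ((wb⁻¹ : ↥(modularFunctionFieldFullC (ResidueField ↥A) M)) :
          LaurentSeries (ResidueField ↥A)) n) :=
      e₂ ▸ hRb.fin (n • Bb)
    rw [e₁, e₂]
    apply le_antisymm
    · refine s19b_finrank_le_of_transfer _ _ (fun m f hf hfL => ?_)
      obtain ⟨x, hx, hxL⟩ :=
        s19b_red_top A M hA hℓM w hw0 hwO hwinvO hlev₁ hlev₂ hsc n m f hf hfL
      refine ⟨x, hx, fun i => ?_⟩
      have h1 := hxL i
      rw [hinv, ← hwb] at h1
      exact h1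
    · refine s19b_finrank_le_of_transfer _ _ (fun m x hx hxL => ?_)
      refine hlift n hn m x hx (fun i => ?_)
      have h1 := hxL i
      rw [hinv, ← hwb]
      exact h1
  obtain ⟨hg, -⟩ := s19e_genus_eq_of_finrank_eq hRF hRb BF Bb hdegF hdegb n₀ hfin
  refine ⟨genusFF Qbar ↥(modularFunctionFieldBar M), hRF, ?_⟩
  rw [hg]
  exact hRb

end Main

end Fermat.Agent.Lib.S19
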