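/-
W-A programme (S19/S32), brick [ORDER] (helper4, prefix `s19c_`), part A: generic tools.

* `s19c_inertia_le`, `s19c_inertia_conj`, `s19c_decomp_mem`, `s19c_decomp_W` : `I_v ≤ D_v`,
  `I_v ⊴ D_v`, `D_v` preserves `A` and `W`;
* `s19c_isIntegral_of_mem_Rt` : an `I_v`-equivariant `A`-valued function on a finite Galois set is
  integral over `W`;  `s19c_adjoin_fg` : finitely many of them generate a finite `W`-module;
* `s19c_small_of_finite` : finitely many elements of the maximal ideal are uniformly small;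
* `s19c_locconst_mem` : locally constant `W`-valued functions lie in any `W`-algebra containing
  the indicator functions;
* `s19c_Dec` : the `W`-algebra of decomposable functions `Σ a'(x) a''(y)` on `T × T`;
* `s19c_Delta` : `a ↦ ((x, y) ↦ a (x + y))`.
-/
import Fermat.Agent.Lib.S19.CFullIface

set_option autoImplicit false

noncomputable section

namespace Fermat.Agent.Lib.S19

open IsLocalRing Polynomial
open scoped Pointwise

/-! ### Decomposition and inertia groups -/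

theorem s19c_inertia_le (A : ValuationSubring s19_Qbar) :
    A.inertiaSubgroupIn ℚ ≤ A.decompositionSubgroup ℚ := by
  intro σ hσ
  obtain ⟨g, -, rfl⟩ := Subgroup.mem_map.mp hσ
  exact g.2

theorem s19c_inertia_conj (A : ValuationSubring s19_Qbar) {g τ : s19_Gal}
    (hg : g ∈ A.decompositionSubgroup ℚ) (hτ : τ ∈ A.inertiaSubgroupIn ℚ) :
    g * τ * g⁻¹ ∈ A.inertiaSubgroupIn ℚ := by
  obtain ⟨t, ht, rfl⟩ := Subgroup.mem_map.mp hτ
  refine Subgroup.mem_map.mpr ⟨⟨g, hg⟩ * t * ⟨g, hg⟩⁻¹, ?_, rfl⟩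
  have hn : (A.inertiaSubgroup ℚ).Normal := by
    unfold ValuationSubring.inertiaSubgroup
    infer_instance
  exact hn.conj_mem t ht ⟨g, hg⟩

theorem s19c_inertia_conj' (A : ValuationSubring s19_Qbar) {g τ : s19_Gal}
    (hg : g ∈ A.decompositionSubgroup ℚ) (hτ : τ ∈ A.inertiaSubgroupIn ℚ) :
    g⁻¹ * τ * g ∈ A.inertiaSubgroupIn ℚ := by
  have := s19c_inertia_conj A ((A.decompositionSubgroup ℚ).inv_mem hg) hτ
  rwa [inv_inv] at this

theorem s19c_decomp_mem (A : ValuationSubring s19_Qbar) {g : s19_Gal}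
    (hg : g ∈ A.decompositionSubgroup ℚ) {x : s19_Qbar} (hx : x ∈ A) : g x ∈ A := by
  have h1 : g • x ∈ g • A := ValuationSubring.smul_mem_pointwise_smul g x A hx
  rwa [MulAction.mem_stabilizer_iff.mp hg] at h1

theorem s19c_decomp_W (A : ValuationSubring s19_Qbar) {g : s19_Gal}
    (hg : g ∈ A.decompositionSubgroup ℚ) {c : s19_Qbar} (hc : c ∈ s19_W A) : g c ∈ s19_W A := by
  refine ⟨s19c_decomp_mem A hg hc.1, fun τ hτ => ?_⟩
  have h1 := hc.2 (g⁻¹ * τ * g) (s19c_inertia_conj' A hg hτ)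
  have h2 : g ((g⁻¹ * τ * g) c) = τ (g c) := by
    simp only [AlgEquiv.mul_apply]
    exact AlgEquiv.apply_symm_apply g _
  rw [← h2, h1]

/-! ### Integrality of equivariant functions -/

theorem s19c_isIntegral_of_mem_Rt {A : ValuationSubring s19_Qbar} {Ξ : Type} [Finite Ξ]
    [MulAction s19_Gal Ξ] (u : Ξ → ↥A) (hu : u ∈ s19c_Rt A Ξ) :
    IsIntegral ↥(s19_WA A) u := by
  classical
  cases nonempty_fintype Ξ
  set P : Polynomial ↥A := ∏ ξ : Ξ, (X - C (u ξ)) with hP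
  have hmonic : P.Monic := monic_prod_of_monic _ _ (fun ξ _ => monic_X_sub_C _)
  have hcoef : ∀ n, P.coeff n ∈ s19_WA A := by
    intro n
    rw [s19_mem_WA]
    intro τ hτ
    have h2 : P.map A.subtype = ∏ ξ : Ξ, (X - C ((u ξ : ↥A) : s19_Qbar)) := by
      rw [hP, Polynomial.map_prod]
      refine Finset.prod_congr rfl fun ξ _ => ?_
      rw [Polynomial.map_sub, map_X, map_C]; rfl
    have h3 : (P.map A.subtype).map (τ : s19_Qbar →+* s19_Qbar) = P.map A.subtype := by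
      rw [h2, Polynomial.map_prod]
      have h4 : ∀ ξ : Ξ, (X - C ((u ξ : ↥A) : s19_Qbar)).map (τ : s19_Qbar →+* s19_Qbar) =
          X - C ((u (τ • ξ) : ↥A) : s19_Qbar) := by
        intro ξ
        rw [Polynomial.map_sub, map_X, map_C, hu τ hτ ξ]; rfl
      rw [Finset.prod_congr rfl fun ξ _ => h4 ξ]
      exact Fintype.prod_equiv (MulAction.toPerm τ) _ _ (fun ξ => rfl)
    have h5 := congrArg (fun Q : Polynomial s19_Qbar => Q.coeff n) h3
    simp only [coeff_map] at h5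
    exact h5
  have hsub : (↑P.coeffs : Set ↥A) ⊆ (s19_WA A : Set ↥A) := by
    intro c hc
    obtain ⟨n, -, rfl⟩ := (Polynomial.mem_coeffs_iff).mp (Finset.mem_coe.mp hc)
    exact hcoef n
  refine ⟨P.toSubring (s19_WA A) hsub, (monic_toSubring P _ hsub).mpr hmonic, ?_⟩
  funext ξ
  have h6 := Polynomial.hom_eval₂ (P.toSubring (s19_WA A) hsub)
    (algebraMap ↥(s19_WA A) (Ξ → ↥A)) (Pi.evalRingHom (fun _ : Ξ => ↥A) ξ) u
  have h7 : (Pi.evalRingHom (fun _ : Ξ => ↥A) ξ).comp (algebraMap ↥(s19_WA A) (Ξ → ↥A)) =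
      (s19_WA A).subtype := RingHom.ext fun w => rfl
  rw [h7, Pi.evalRingHom_apply, Pi.evalRingHom_apply] at h6
  rw [h6, Pi.zero_apply, ← eval_map, map_toSubring, hP, eval_prod]
  exact Finset.prod_eq_zero (Finset.mem_univ ξ) (by simp)

theorem s19c_adjoin_fg {A : ValuationSubring s19_Qbar} {Ξ : Type} [Finite Ξ]
    [MulAction s19_Gal Ξ] {κ : Type} [Finite κ] (σ : κ → Ξ → ↥A) (hσ : ∀ k, σ k ∈ s19c_Rt A Ξ) :
    (Subalgebra.toSubmodule (Algebra.adjoin ↥(s19_WA A) (Set.range σ))).FG := by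
  apply fg_adjoin_of_finite (Set.finite_range σ)
  rintro _ ⟨k, rfl⟩
  exact s19c_isIntegral_of_mem_Rt (σ k) (hσ k)

/-! ### Smallness -/

theorem s19c_small_of_finite {A : ValuationSubring s19_Qbar} {l : ↥A}
    (hB : s19_Base l (s19_WA A)) {Ξ κ : Type} [Finite Ξ] [Finite κ] (σ : κ → Ξ → ↥A)
    (hσ : ∀ k ξ, σ k ξ ∈ maximalIdeal ↥A) : s19_Small l σ := by
  classical
  cases nonempty_fintype Ξ
  cases nonempty_fintype κ
  choose e he using fun p : κ × Ξ => hB.small (σ p.1 p.2) (hσ p.1 p.2)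
  refine ⟨∑ p, e p, fun k ξ => ?_⟩
  have h1 : e (k, ξ) ≤ ∑ p, e p := Finset.single_le_sum (f := e) (fun _ _ => Nat.zero_le _)
    (Finset.mem_univ (k, ξ))
  exact (he (k, ξ)).trans (pow_dvd_pow _ h1)

/-! ### Locally constant functions -/

theorem s19c_locconst_mem {A : ValuationSubring s19_Qbar} {Ξ P : Type} [Finite P]
    (B : Subalgebra ↥(s19_WA A) (Ξ → ↥A)) (p : Ξ → P)
    (hB : ∀ q : P, ∃ e ∈ B, (∀ ξ, p ξ = q → e ξ = (1 : ↥A)) ∧ ∀ ξ, p ξ ≠ q → e ξ = 0)
    (f : Ξ → ↥A) (hfW : ∀ ξ, f ξ ∈ s19_WA A) (hfp : ∀ ξ ξ', p ξ = p ξ' → f ξ = f ξ') :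
    f ∈ B := by
  classical
  cases nonempty_fintype P
  choose e heB he1 he0 using hB
  set w : P → ↥(s19_WA A) := fun q =>
    if h : ∃ ξ, p ξ = q then ⟨f h.choose, hfW _⟩ else 0 with hw
  have hf : f = ∑ q, w q • e q := by
    funext ξ
    rw [Finset.sum_apply]
    rw [Finset.sum_eq_single (p ξ)]
    · have hex : ∃ ξ', p ξ' = p ξ := ⟨ξ, rfl⟩
      rw [Pi.smul_apply, he1 (p ξ) ξ rfl]
      have h1 : w (p ξ) = ⟨f hex.choose, hfW _⟩ := by
        simp only [hw]
        rw [dif_pos hex]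
      rw [h1]
      show f ξ = f hex.choose * 1
      rw [mul_one]
      exact hfp _ _ hex.choose_spec.symm
    · intro q _ hq
      rw [Pi.smul_apply, he0 q ξ (Ne.symm hq), smul_zero]
    · intro h
      exact absurd (Finset.mem_univ _) h
  rw [hf]
  exact Subalgebra.sum_mem _ fun q _ => B.smul_mem (heB q) _

/-! ### Decomposable functions on `T × T` -/

section Dec

variable {R S T : Type} [CommRing R] [CommRing S] [Algebra R S]

/-- the algebra of decomposable functions `(x, y) ↦ Σ a'(x) a''(y)` with `a', a'' ∈ B`. -/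
def s19c_Dec (B : Subalgebra R (T → S)) : Subalgebra R (T × T → S) where
  carrier := {F | ∃ (κ : Type) (_ : Fintype κ) (a' a'' : κ → T → S),
    (∀ k, a' k ∈ B) ∧ (∀ k, a'' k ∈ B) ∧ ∀ ξ : T × T, F ξ = ∑ k, a' k ξ.1 * a'' k ξ.2}
  mul_mem' := by
    rintro F G ⟨κ, _, a', a'', h', h'', hF⟩ ⟨μ, _, b', b'', g', g'', hG⟩
    refine ⟨κ × μ, inferInstance, fun k => a' k.1 * b' k.2, fun k => a'' k.1 * b'' k.2,
      fun k => B.mul_mem (h' _) (g' _), fun k => B.mul_mem (h'' _) (g'' _), fun ξ => ?_⟩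
    rw [Pi.mul_apply, hF, hG, Finset.sum_mul_sum, Fintype.sum_prod_type]
    refine Finset.sum_congr rfl fun k _ => Finset.sum_congr rfl fun m _ => ?_
    simp only [Pi.mul_apply]
    ring
  add_mem' := by
    rintro F G ⟨κ, _, a', a'', h', h'', hF⟩ ⟨μ, _, b', b'', g', g'', hG⟩
    refine ⟨κ ⊕ μ, inferInstance, Sum.elim a' b', Sum.elim a'' b'', ?_, ?_, fun ξ => ?_⟩
    · rintro (k | k)
      · exact h' k
      · exact g' k
    · rintro (k | k)
      · exact h'' k
      · exact g'' k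
    · rw [Pi.add_apply, hF, hG, Fintype.sum_sum_type]
      rfl
  algebraMap_mem' := fun r => by
    refine ⟨Unit, inferInstance, fun _ => algebraMap R (T → S) r, fun _ => 1,
      fun _ => B.algebraMap_mem r, fun _ => B.one_mem, fun ξ => ?_⟩
    simp

theorem s19c_mem_Dec {B : Subalgebra R (T → S)} {F : T × T → S} (hF : F ∈ s19c_Dec B) :
    ∃ (n : ℕ) (a' a'' : Fin n → T → S), (∀ i, a' i ∈ B) ∧ (∀ i, a'' i ∈ B) ∧
      ∀ x y : T, F (x, y) = ∑ i, a' i x * a'' i y := by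
  obtain ⟨κ, _, a', a'', h', h'', hF⟩ := hF
  refine ⟨Fintype.card κ, fun i => a' ((Fintype.equivFin κ).symm i),
    fun i => a'' ((Fintype.equivFin κ).symm i), fun i => h' _, fun i => h'' _, fun x y => ?_⟩
  rw [hF]
  exact (Equiv.sum_comp (Fintype.equivFin κ).symm (fun k => a' k x * a'' k y)).symm

theorem s19c_fst_mem_Dec {B : Subalgebra R (T → S)} {a : T → S} (ha : a ∈ B) :
    (fun ξ : T × T => a ξ.1) ∈ s19c_Dec B :=
  ⟨Unit, inferInstance, fun _ => a, fun _ => 1, fun _ => ha, fun _ => B.one_mem,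
    fun ξ => by simp⟩

theorem s19c_snd_mem_Dec {B : Subalgebra R (T → S)} {a : T → S} (ha : a ∈ B) :
    (fun ξ : T × T => a ξ.2) ∈ s19c_Dec B :=
  ⟨Unit, inferInstance, fun _ => 1, fun _ => a, fun _ => B.one_mem, fun _ => ha,
    fun ξ => by simp⟩

variable [Add T]

/-- `a ↦ ((x, y) ↦ a (x + y))`. -/
def s19c_Delta (R S T : Type) [CommRing R] [CommRing S] [Algebra R S] [Add T] :
    (T → S) →ₐ[R] (T × T → S) where
  toFun a ξ := a (ξ.1 + ξ.2)
  map_one' := rfl
  map_mul' _ _ := rfl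
  map_zero' := rfl
  map_add' _ _ := rfl
  commutes' _ := rfl

theorem s19c_Delta_apply (a : T → S) (ξ : T × T) : s19c_Delta R S T a ξ = a (ξ.1 + ξ.2) := rfl

end Dec

end Fermat.Agent.Lib.S19
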