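/-
W-A programme (S19/S32), brick [GENG] part 1 (helper6, prefix `s19e_`): ONE DISC.

* abstract: the Taylor expansion `g = Σ_{s<L} tay_s(g) t^s + t^L · Δ₀^L g` on an abstract disc;
* on the disc of a parameter `t` at `Q`: orders of `t − c` at the points of the disc, the
  reduction `G(Q) → Fb` and its regularity at `Q`;
* the BRIDGE: if the Taylor coefficients of order `< L` of `f ∈ G(Q)` lie in the maximal ideal
  then `red f = (red t)^L · red h` with `h ∈ G(Q)`;
* `t^m f ∈ G(Q)` for `f ∈ L(E) ∩ O`, `E = m · centre` on the disc;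
* the order of a nodal product at the points of the disc.
-/
import Fermat.Agent.Lib.S19.IfaceCurve
import Fermat.Agent.Lib.S19.EEngDisc
import Fermat.Agent.Lib.S19.FCoord

set_option autoImplicit false
set_option linter.unusedSectionVars false
set_option linter.unusedVariables false

noncomputable section

namespace Fermat.Agent.Lib.S19

open AlgebraicCurve Fermat.Agent.Lib.FF Fermat.Agent.Lib.S37 IsLocalRing

/-! ### Abstract Taylor expansion -/

section Abstract

variable {A : Type*} [CommRing A] [IsLocalRing A] {W : Subring A}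
  {G : Type*} [CommRing G] [Algebra A G] (D : s19_Disc A W G)

theorem s19e_tay_succ (s : ℕ) (g : G) : s19_tay D (s + 1) g = s19_tay D s (D.dq 0 g) := by
  unfold s19_tay s19_dd
  rw [List.replicate_succ]
  rfl

theorem s19e_dqs_replicate_succ (s : ℕ) (g : G) :
    s19_dqs D (List.replicate (s + 1) 0) g = s19_dqs D (List.replicate s 0) (D.dq 0 g) := by
  rw [List.replicate_succ]
  rfl

/-- **Taylor expansion at the centre.** -/
theorem s19e_taylor (L : ℕ) (g : G) :
    g = ∑ s ∈ Finset.range L, algebraMap A G (s19_tay D s g) * D.t ^ s +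
      D.t ^ L * s19_dqs D (List.replicate L 0) g := by
  induction L generalizing g with
  | zero => simp [s19_dqs]
  | succ L ih =>
    have h1 := D.dq_spec 0 g
    have h0 : ((0 : ↥(maximalIdeal A)) : A) = 0 := rfl
    rw [h0, map_zero, sub_zero] at h1
    have h2 := ih (D.dq 0 g)
    rw [Finset.sum_range_succ', s19e_dqs_replicate_succ]
    simp only [s19e_tay_succ]
    have h3 : s19_tay D 0 g = D.ev 0 g := rfl
    rw [h3, pow_zero, mul_one]
    conv_lhs => rw [h1, h2]
    rw [mul_add, Finset.mul_sum]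
    have : ∀ s ∈ Finset.range L,
        D.t * (algebraMap A G (s19_tay D s (D.dq 0 g)) * D.t ^ s) =
          algebraMap A G (s19_tay D s (D.dq 0 g)) * D.t ^ (s + 1) := by
      intro s _
      ring
    rw [Finset.sum_congr rfl this]
    ring

end Abstract

theorem s19e_ord_pow {K F : Type*} [Field K] [Field F] [Algebra K F] (P : Place K F) (f : F)
    (n : ℕ) : P.ord (f ^ n) = n * P.ord f := by
  rw [← zpow_natCast, Place.ord_zpow]

/-! ### The disc of a parameter -/

section Disc

variable {K F : Type*} [Field K] [Field F] [Algebra K F] [IsAlgClosed K]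
  {k Fb : Type*} [Field k] [Field Fb] [Algebra k Fb]
  {A : ValuationSubring K} {π : ↥A →+* k} {O : ValuationSubring F} {red : ↥O →+* Fb}
  {r : Place K F → Place k Fb}
  (x : F) [FFGen K x] (h : s19_RD A π O red r)
  {Q : Place k Fb} {t : F} (ht : s19a_IsParam red r Q t)

lemma s19e_evA_congr {Q : Place k Fb} (f : ↥(s19a_G O r Q)) (P P' : Place K F) (hP : r P = Q)
    (hP' : r P' = Q) (e : P = P') : s19a_evA x h P hP f = s19a_evA x h P' hP' f := by
  subst e
  rfl

theorem s19e_pt_inj (c c' : ↥(maximalIdeal ↥A)) (e : s19a_pt x h ht c = s19a_pt x h ht c') :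
    c = c' := by
  have h1 := s19a_pt_val x h ht c
  have h2 := s19a_pt_val x h ht c'
  apply Subtype.ext
  rw [← h1, ← h2]
  exact s19e_evA_congr x h _ _ _ _ _ e

open Classical in
/-- the order of `t - c` at a point of the disc. -/
theorem s19e_ord_t_sub (c : ↥(maximalIdeal ↥A)) (P : Place K F) (hP : r P = Q) :
    P.ord (t - algebraMap K F ((c.1 : ↥A) : K)) = if P = s19a_pt x h ht c then 1 else 0 := by
  split_ifs with hPc
  · rw [hPc]
    exact s19a_pt_ord x h ht c
  · exact s19a_pt_other x h ht c P hP hPc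

open Classical in
theorem s19e_ord_t (P : Place K F) (hP : r P = Q) :
    P.ord t = if P = s19a_pt x h ht 0 then 1 else 0 := by
  have := s19e_ord_t_sub x h ht 0 P hP
  have h0 : algebraMap K F (((0 : ↥(maximalIdeal ↥A)).1 : ↥A) : K) = 0 := by simp
  rwa [h0, sub_zero] at this

include x h ht in
theorem s19e_t_ne_zero : t ≠ 0 := by
  have := s19a_t_sub_ne_zero x h ht 0
  have h0 : algebraMap K F (((0 : ↥(maximalIdeal ↥A)).1 : ↥A) : K) = 0 := by simp
  rwa [h0, sub_zero] at this

/-! ### the reduction on `G(Q)` -/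

/-- the inclusion `G(Q) → O`. -/
def s19e_toO (O : ValuationSubring F) (r : Place K F → Place k Fb) (Q : Place k Fb) :
    ↥(s19a_G O r Q) →+* ↥O where
  toFun f := ⟨(f : F), s19a_memO f⟩
  map_one' := rfl
  map_mul' _ _ := rfl
  map_zero' := rfl
  map_add' _ _ := rfl

/-- the reduction `G(Q) → Fb`. -/
def s19e_redG (red : ↥O →+* Fb) (r : Place K F → Place k Fb) (Q : Place k Fb) :
    ↥(s19a_G O r Q) →+* Fb :=
  red.comp (s19e_toO O r Q)

theorem s19e_redG_apply (f : ↥(s19a_G O r Q)) :
    s19e_redG red r Q f = red ⟨(f : F), s19a_memO f⟩ := rfl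

include h in
theorem s19e_redG_const (a : ↥A) :
    s19e_redG red r Q (s19a_constG h Q a) = algebraMap k Fb (π a) :=
  h.red_const a

include x h in
/-- reductions of functions of `G(Q)` are regular at `Q` (given a point in the disc). -/
theorem s19e_redG_mem (P : Place K F) (hP : r P = Q) (f : ↥(s19a_G O r Q)) :
    s19e_redG red r Q f ∈ Q.toValuationSubring := by
  rcases s19a_red_val x h P hP f with h1 | h1
  · rw [s19e_redG_apply, h1]
    exact Q.algebraMap_mem' _
  · have hne : red ⟨(f : F), s19a_memO f⟩ - algebraMap k Fb (π (s19a_evA x h P hP f)) ≠ 0 := by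
      intro h0
      rw [h0, Place.ord_zero] at h1
      exact lt_irrefl _ h1
    have h2 := (ff_mem_iff_ord_nonneg Q hne).mpr h1.le
    have h3 := Q.toValuationSubring.add_mem _ _ h2 (Q.algebraMap_mem' (π (s19a_evA x h P hP f)))
    rw [sub_add_cancel] at h3
    exact h3

include x h ht in
theorem s19e_redG_ord_nonneg (f : ↥(s19a_G O r Q)) (hf : s19e_redG red r Q f ≠ 0) :
    0 ≤ Q.ord (s19e_redG red r Q f) :=
  (ff_mem_iff_ord_nonneg Q hf).mp
    (s19e_redG_mem x h (s19a_pt x h ht 0) (s19a_pt_r x h ht 0) f)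

/-! ### the bridge -/

section Bridge

variable (FW : Subring F) (hinv : ∀ f ∈ FW, f⁻¹ ∈ FW) (htW : t ∈ FW)
  (hrat : ∀ g : ↥(s19a_G O r Q), (g : F) ∈ FW →
    algebraMap K F ((s19a_evA x h (s19a_pt x h ht 0) (s19a_pt_r x h ht 0) g : ↥A) : K) ∈ FW)

/-- **the bridge**: Taylor coefficients of order `< L` in the maximal ideal ⇒ the reduction is
divisible by the `L`-th power of the reduced parameter. -/
theorem s19e_bridge (L : ℕ) (f : ↥(s19a_G O r Q)) :
    letI := s19a_algebraG h Q
    (∀ s < L, s19_tay (s19a_disc x h ht FW hinv htW hrat) s f ∈ maximalIdeal ↥A) →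
    ∃ h' : ↥(s19a_G O r Q),
      s19e_redG red r Q f = red ⟨t, (s19a_mem_G.mp ht.mem).1⟩ ^ L * s19e_redG red r Q h' := by
  letI := s19a_algebraG h Q
  intro htay
  set D := s19a_disc x h ht FW hinv htW hrat with hD
  refine ⟨s19_dqs D (List.replicate L 0) f, ?_⟩
  have h1 := s19e_taylor D L f
  have h2 := congrArg (s19e_redG red r Q) h1
  rw [map_add, map_sum, map_mul, map_pow] at h2
  have h3 : ∑ s ∈ Finset.range L,
      s19e_redG red r Q (algebraMap ↥A ↥(s19a_G O r Q) (s19_tay D s f) * D.t ^ s) = 0 := by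
    refine Finset.sum_eq_zero fun s hs => ?_
    rw [map_mul]
    have h4 : s19e_redG red r Q (algebraMap ↥A ↥(s19a_G O r Q) (s19_tay D s f)) =
        algebraMap k Fb (π (s19_tay D s f)) := s19e_redG_const h _
    rw [h4, (s19a_pi_eq_zero_iff h _).mpr (htay s (Finset.mem_range.mp hs)), map_zero, zero_mul]
  rw [h3, zero_add] at h2
  exact h2

end Bridge

/-! ### multiplication by a power of the parameter -/

/-- `t^m f ∈ G(Q)` for `f ∈ L(E) ∩ O` when `E = m · centre` on the disc. -/
theorem s19e_pow_mul_mem (m : ℕ) (E : Divisor K F) (hE0 : E (s19a_pt x h ht 0) = m)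
    (hE : ∀ P, r P = Q → P ≠ s19a_pt x h ht 0 → E P = 0) {f : F} (hfO : f ∈ O)
    (hfE : f ∈ riemannRochSpace E) : t ^ m * f ∈ s19a_G O r Q := by
  classical
  have htO : t ∈ O := (s19a_mem_G.mp ht.mem).1
  refine ⟨O.mul_mem _ _ (pow_mem htO m) hfO, fun P hP => ?_⟩
  rcases eq_or_ne f 0 with rfl | hf0
  · rw [mul_zero]; exact P.toValuationSubring.zero_mem
  have ht0 : t ≠ 0 := s19e_t_ne_zero x h ht
  have hne : t ^ m * f ≠ 0 := mul_ne_zero (pow_ne_zero m ht0) hf0
  rw [ff_mem_iff_ord_nonneg P hne, P.ord_mul (pow_ne_zero m ht0) hf0, s19e_ord_pow,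
    s19e_ord_t x h ht P hP]
  have hfP := (mem_riemannRochSpace_iff.mp hfE P).resolve_left hf0
  split_ifs with hPc
  · rw [hPc] at hfP ⊢
    rw [hE0] at hfP
    linarith
  · rw [hE P hP hPc] at hfP
    linarith

/-! ### nodal products -/

open Classical in
/-- the number of nodes of the list at the point `P`. -/
def s19e_cnt (P : Place K F) (as : List ↥(maximalIdeal ↥A)) : ℤ :=
  (as.map fun a => if P = s19a_pt x h ht a then (1 : ℤ) else 0).sum

/-- the divisor of the nodes of a list. -/
def s19e_Zl (as : List ↥(maximalIdeal ↥A)) : Divisor K F :=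
  (as.map fun a => Finsupp.single (s19a_pt x h ht a) (1 : ℤ)).sum

theorem s19e_Zl_nil : s19e_Zl x h ht [] = 0 := rfl

theorem s19e_Zl_cons (a : ↥(maximalIdeal ↥A)) (as : List ↥(maximalIdeal ↥A)) :
    s19e_Zl x h ht (a :: as) = Finsupp.single (s19a_pt x h ht a) (1 : ℤ) + s19e_Zl x h ht as := by
  simp [s19e_Zl]

theorem s19e_Zl_append (as bs : List ↥(maximalIdeal ↥A)) :
    s19e_Zl x h ht (as ++ bs) = s19e_Zl x h ht as + s19e_Zl x h ht bs := by
  simp [s19e_Zl]

theorem s19e_Zl_apply (as : List ↥(maximalIdeal ↥A)) (P : Place K F) :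
    s19e_Zl x h ht as P = s19e_cnt x h ht P as := by
  classical
  induction as with
  | nil => simp [s19e_Zl, s19e_cnt]
  | cons a as ih =>
    rw [s19e_Zl_cons, Finsupp.add_apply, ih, Finsupp.single_apply]
    simp only [s19e_cnt, List.map_cons, List.sum_cons]
    congr 1
    by_cases hP : P = s19a_pt x h ht a
    · rw [if_pos hP, if_pos hP.symm]
    · rw [if_neg hP, if_neg (fun e => hP e.symm)]

theorem s19e_Zl_nonneg (as : List ↥(maximalIdeal ↥A)) (P : Place K F) :
    0 ≤ s19e_Zl x h ht as P := by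
  classical
  rw [s19e_Zl_apply]
  unfold s19e_cnt
  apply List.sum_nonneg
  intro z hz
  rw [List.mem_map] at hz
  obtain ⟨a, -, rfl⟩ := hz
  split_ifs <;> norm_num

theorem s19e_Zl_eq_zero (as : List ↥(maximalIdeal ↥A)) (P : Place K F) (hP : r P ≠ Q) :
    s19e_Zl x h ht as P = 0 := by
  classical
  rw [s19e_Zl_apply]
  unfold s19e_cnt
  have : ∀ a : ↥(maximalIdeal ↥A), (if P = s19a_pt x h ht a then (1 : ℤ) else 0) = 0 := by
    intro a
    rw [if_neg]
    intro e
    apply hP
    rw [e]
    exact s19a_pt_r x h ht a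
  simp only [this, List.map_const', List.sum_replicate, smul_zero]

theorem s19e_Zl_degree (hdeg : ∀ P : Place K F, P.deg = 1) (as : List ↥(maximalIdeal ↥A)) :
    Divisor.degree (s19e_Zl x h ht as) = as.length := by
  induction as with
  | nil => simp [s19e_Zl]
  | cons a as ih =>
    rw [s19e_Zl_cons, map_add, ih, Divisor.degree_single, hdeg]
    simp only [List.length_cons]
    push_cast
    ring

theorem s19e_Zl_map (as : List ↥(maximalIdeal ↥A)) :
    Finsupp.mapDomain r (s19e_Zl x h ht as) = Finsupp.single Q (as.length : ℤ) := by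
  induction as with
  | nil => simp [s19e_Zl]
  | cons a as ih =>
    rw [s19e_Zl_cons, Finsupp.mapDomain_add, ih, Finsupp.mapDomain_single, s19a_pt_r x h ht a,
      ← Finsupp.single_add]
    simp only [List.length_cons]
    push_cast
    ring_nf

section Nodal

variable (FW : Subring F) (hinv : ∀ f ∈ FW, f⁻¹ ∈ FW) (htW : t ∈ FW)
  (hrat : ∀ g : ↥(s19a_G O r Q), (g : F) ∈ FW →
    algebraMap K F ((s19a_evA x h (s19a_pt x h ht 0) (s19a_pt_r x h ht 0) g : ↥A) : K) ∈ FW)

/-- the order of a nodal product at a point of the disc. -/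
theorem s19e_nodal_ord (as : List ↥(maximalIdeal ↥A)) (P : Place K F) (hP : r P = Q) :
    letI := s19a_algebraG h Q
    ((s19_nodal (s19a_disc x h ht FW hinv htW hrat) as : ↥(s19a_G O r Q)) : F) ≠ 0 ∧
      P.ord ((s19_nodal (s19a_disc x h ht FW hinv htW hrat) as : ↥(s19a_G O r Q)) : F) =
        s19e_cnt x h ht P as := by
  letI := s19a_algebraG h Q
  classical
  set D := s19a_disc x h ht FW hinv htW hrat with hD
  induction as with
  | nil =>
    rw [s19e_nodal_nil]
    refine ⟨one_ne_zero, ?_⟩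
    simp [s19e_cnt]
  | cons a as ih =>
    obtain ⟨ih0, ihord⟩ := ih
    rw [s19e_nodal_cons]
    have hfac : ((D.t - algebraMap ↥A ↥(s19a_G O r Q) (a : ↥A) : ↥(s19a_G O r Q)) : F) =
        t - algebraMap K F (((a : ↥A)) : K) := rfl
    have hne := s19a_t_sub_ne_zero x h ht a
    rw [Subring.coe_mul, hfac]
    refine ⟨mul_ne_zero hne ih0, ?_⟩
    rw [P.ord_mul hne ih0, ihord, s19e_ord_t_sub x h ht a P hP]
    simp only [s19e_cnt, List.map_cons, List.sum_cons]

end Nodal

end Disc

end Fermat.Agent.Lib.S19
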