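/-
W-A programme (S19/S32), brick [GENG] part 2 (helper6, prefix `s19e_`): A FAMILY OF DISCS.

`Qd : ι → Place k Fb` pairwise distinct places of the special fibre with rational parameters `td i`.
* the ambient divisor `s19e_Eamb m = Σ m_i · centre_i`, its values, degree and reduction;
* `s19e_div_of_factor` (DIV): a non-zero `f ∈ L(E_amb)` such that, on every disc,
  `t_i^{m_i} f = nodal(as_i) · g_i` with `g_i ∈ G(Q_i)` and `|as_i| = m_i`, has divisor
  `Σ_i Z(as_i) − E_amb`.
-/
import Fermat.Agent.Lib.S19.EGeoDisc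
import Fermat.Agent.Lib.S19.NNonSp
import Fermat.Agent.Lib.S19.LLift

set_option autoImplicit false
set_option linter.unusedSectionVars false
set_option linter.unusedVariables false

noncomputable section

namespace Fermat.Agent.Lib.S19

open AlgebraicCurve Fermat.Agent.Lib.FF Fermat.Agent.Lib.S37 IsLocalRing

section Family

variable {K F k Fb : Type} [Field K] [Field F] [Algebra K F] [IsAlgClosed K] [Field k] [Field Fb]
  [Algebra k Fb] {x : F} [FFGen K x] {A : ValuationSubring K} {π : ↥A →+* k}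
  {O : ValuationSubring F} {red : ↥O →+* Fb} {r : Place K F → Place k Fb} {FW : Subring F}
  {l : ↥A} {g : ℕ} (hC : s19_Curve x A π O red r FW l g)
  {ι : Type} [Fintype ι] [DecidableEq ι] (Qd : ι → Place k Fb) (td : ι → F)
  (hpar : ∀ i, s19a_IsParam red r (Qd i) (td i)) (hinj : Function.Injective Qd)

/-- an effective divisor of degree `0` is `0` (all places of degree one). -/
theorem s19e_eq_zero_of_degree {K F : Type*} [Field K] [Field F] [Algebra K F]
    (hdeg : ∀ P : Place K F, P.deg = 1) (D : Divisor K F) (h0 : ∀ P, 0 ≤ D P)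
    (hd : Divisor.degree D = 0) : D = 0 := by
  ext P
  have := s19n_not_pos_of_degree_zero hdeg h0 hd P
  have := h0 P
  rw [Finsupp.zero_apply]
  omega

/-- the ambient divisor `Σ m_i · centre_i`. -/
def s19e_Eamb (m : ι → ℕ) : Divisor K F :=
  ∑ i, Finsupp.single (s19a_pt x hC.rd (hpar i) 0) (m i : ℤ)

include hinj in
theorem s19e_pt_fam_inj (i j : ι) (c c' : ↥(maximalIdeal ↥A))
    (e : s19a_pt x hC.rd (hpar i) c = s19a_pt x hC.rd (hpar j) c') : i = j := by
  apply hinj
  rw [← s19a_pt_r x hC.rd (hpar i) c, ← s19a_pt_r x hC.rd (hpar j) c', e]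

include hinj in
theorem s19e_Eamb_centre (m : ι → ℕ) (i : ι) :
    s19e_Eamb hC Qd td hpar m (s19a_pt x hC.rd (hpar i) 0) = m i := by
  classical
  unfold s19e_Eamb
  rw [Finsupp.finsetSum_apply, Finset.sum_eq_single i]
  · exact Finsupp.single_eq_same
  · intro j _ hji
    exact Finsupp.single_eq_of_ne (fun e => hji (s19e_pt_fam_inj hC Qd td hpar hinj _ _ _ _ e).symm)
  · intro hi
    exact absurd (Finset.mem_univ i) hi

include hinj in
theorem s19e_Eamb_other (m : ι → ℕ) (i : ι) (P : Place K F) (hP : r P = Qd i)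
    (hne : P ≠ s19a_pt x hC.rd (hpar i) 0) : s19e_Eamb hC Qd td hpar m P = 0 := by
  classical
  unfold s19e_Eamb
  rw [Finsupp.finsetSum_apply]
  refine Finset.sum_eq_zero fun j _ => Finsupp.single_eq_of_ne ?_
  intro e
  have hj : r P = Qd j := by rw [e]; exact s19a_pt_r x hC.rd (hpar j) 0
  have hij : i = j := hinj (hP.symm.trans hj)
  subst hij
  exact hne e

theorem s19e_Eamb_off (m : ι → ℕ) (P : Place K F) (hP : ∀ i, r P ≠ Qd i) :
    s19e_Eamb hC Qd td hpar m P = 0 := by
  classical
  unfold s19e_Eamb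
  rw [Finsupp.finsetSum_apply]
  refine Finset.sum_eq_zero fun j _ => Finsupp.single_eq_of_ne ?_
  intro e
  apply hP j
  rw [e]
  exact s19a_pt_r x hC.rd (hpar j) 0

theorem s19e_Eamb_nonneg (m : ι → ℕ) (P : Place K F) : 0 ≤ s19e_Eamb hC Qd td hpar m P := by
  classical
  unfold s19e_Eamb
  rw [Finsupp.finsetSum_apply]
  refine Finset.sum_nonneg fun i _ => ?_
  rw [Finsupp.single_apply]
  split_ifs
  · exact Int.natCast_nonneg _
  · exact le_rfl

theorem s19e_Eamb_degree (m : ι → ℕ) :
    Divisor.degree (s19e_Eamb hC Qd td hpar m) = ∑ i, (m i : ℤ) := by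
  unfold s19e_Eamb
  rw [map_sum]
  refine Finset.sum_congr rfl fun i _ => ?_
  rw [Divisor.degree_single, hC.degF, Nat.cast_one, mul_one]

theorem s19e_Eamb_map (m : ι → ℕ) :
    Finsupp.mapDomain r (s19e_Eamb hC Qd td hpar m) = ∑ i, Finsupp.single (Qd i) (m i : ℤ) := by
  unfold s19e_Eamb
  rw [Finsupp.mapDomain_finsetSum]
  refine Finset.sum_congr rfl fun i _ => ?_
  rw [Finsupp.mapDomain_single, s19a_pt_r x hC.rd (hpar i) 0]

include hinj in
/-- values of a divisor `Σ n_i Q_i` on the special fibre. -/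
theorem s19e_sum_single_self (n : ι → ℤ) (i : ι) :
    (∑ j, Finsupp.single (Qd j) (n j)) (Qd i) = n i := by
  classical
  rw [Finsupp.finsetSum_apply, Finset.sum_eq_single i]
  · exact Finsupp.single_eq_same
  · intro j _ hji
    exact Finsupp.single_eq_of_ne (fun e => hji (hinj e).symm)
  · intro hi
    exact absurd (Finset.mem_univ i) hi

theorem s19e_sum_single_off (n : ι → ℤ) (Q₀ : Place k Fb) (hQ : ∀ i, Q₀ ≠ Qd i) :
    (∑ j, Finsupp.single (Qd j) (n j)) Q₀ = 0 := by
  classical
  rw [Finsupp.finsetSum_apply]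
  exact Finset.sum_eq_zero fun j _ => Finsupp.single_eq_of_ne (fun e => hQ j e)

section Div

variable (hratt : ∀ i, td i ∈ FW)

include hinj in
/-- **(DIV)** the divisor of a function which factors on every disc. -/
theorem s19e_div_of_factor (m : ι → ℕ) (f : F) (hf0 : f ≠ 0)
    (hfE : f ∈ riemannRochSpace (s19e_Eamb hC Qd td hpar m))
    (as : ι → List ↥(maximalIdeal ↥A)) (hlen : ∀ i, (as i).length = m i)
    (hfac : ∀ i,
      letI := s19a_algebraG hC.rd (Qd i)
      ∃ g' : ↥(s19a_G O r (Qd i)), td i ^ m i * f =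
        ((s19_nodal (s19a_disc x hC.rd (hpar i) FW hC.fw_inv (hratt i)
          (hC.ratc (Qd i) (td i) (hpar i) (hratt i))) (as i) : ↥(s19a_G O r (Qd i))) : F) *
          (g' : F))
    (P : Place K F) :
    P.ord f = (∑ i, s19e_Zl x hC.rd (hpar i) (as i)) P - s19e_Eamb hC Qd td hpar m P := by
  classical
  obtain ⟨Dv, hDv, hDvdeg⟩ := hC.pdF.exists_divisor f hf0
  set Z : Divisor K F := ∑ i, s19e_Zl x hC.rd (hpar i) (as i) with hZ
  set E := s19e_Eamb hC Qd td hpar m with hE
  set Wd : Divisor K F := Dv + E - Z with hWd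
  have hZapp : ∀ P', Z P' = ∑ i, s19e_Zl x hC.rd (hpar i) (as i) P' := by
    intro P'
    rw [hZ, Finsupp.finsetSum_apply]
  -- `Wd` is effective
  have hW0 : ∀ P', 0 ≤ Wd P' := by
    intro P'
    rw [hWd, Finsupp.sub_apply, Finsupp.add_apply, hDv P']
    by_cases hex : ∃ i, r P' = Qd i
    · obtain ⟨i, hi⟩ := hex
      -- only the `i`-th term of `Z` survives
      have hZi : Z P' = s19e_Zl x hC.rd (hpar i) (as i) P' := by
        rw [hZapp, Finset.sum_eq_single i]
        · intro j _ hji
          apply s19e_Zl_eq_zero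
          rw [hi]
          exact fun e => hji (hinj e).symm
        · intro hi'
          exact absurd (Finset.mem_univ i) hi'
      rw [hZi, s19e_Zl_apply]
      letI := s19a_algebraG hC.rd (Qd i)
      obtain ⟨g', hg'⟩ := hfac i
      obtain ⟨hnod0, hnodord⟩ := s19e_nodal_ord x hC.rd (hpar i) FW hC.fw_inv (hratt i)
        (hC.ratc (Qd i) (td i) (hpar i) (hratt i)) (as i) P' hi
      have ht0 : td i ≠ 0 := s19e_t_ne_zero x hC.rd (hpar i)
      have hlhs0 : td i ^ m i * f ≠ 0 := mul_ne_zero (pow_ne_zero _ ht0) hf0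
      have hg'0 : (g' : F) ≠ 0 := by
        intro h0
        rw [h0, mul_zero] at hg'
        exact hlhs0 hg'
      have hord := congrArg P'.ord hg'
      rw [P'.ord_mul (pow_ne_zero _ ht0) hf0, P'.ord_mul hnod0 hg'0, hnodord, s19e_ord_pow,
        s19e_ord_t x hC.rd (hpar i) P' hi] at hord
      have hg'nn : 0 ≤ P'.ord (g' : F) :=
        (ff_mem_iff_ord_nonneg P' hg'0).mp (s19a_memP g' P' hi)
      by_cases hPc : P' = s19a_pt x hC.rd (hpar i) 0
      · rw [if_pos hPc] at hord
        have hEc : E P' = m i := by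
          rw [hPc, hE]
          exact s19e_Eamb_centre hC Qd td hpar hinj m i
        rw [hEc]
        linarith
      · rw [if_neg hPc] at hord
        have hEc : E P' = 0 := s19e_Eamb_other hC Qd td hpar hinj m i P' hi hPc
        rw [hEc]
        linarith
    · push Not at hex
      have hZ0 : Z P' = 0 := by
        rw [hZapp]
        exact Finset.sum_eq_zero fun i _ => s19e_Zl_eq_zero x hC.rd (hpar i) (as i) P' (hex i)
      rw [hZ0]
      have := (mem_riemannRochSpace_iff.mp hfE P').resolve_left hf0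
      linarith
  -- of degree `0`
  have hWdeg : Divisor.degree Wd = 0 := by
    rw [hWd, map_sub, map_add, hDvdeg, hE, s19e_Eamb_degree, hZ, map_sum]
    have : ∀ i ∈ Finset.univ, Divisor.degree (s19e_Zl x hC.rd (hpar i) (as i)) = (m i : ℤ) := by
      intro i _
      rw [s19e_Zl_degree x hC.rd (hpar i) hC.degF, hlen i]
    rw [Finset.sum_congr rfl this]
    ring
  have hW := s19e_eq_zero_of_degree hC.degF Wd hW0 hWdeg
  have := congrArg (fun D : Divisor K F => D P) hW
  simp only [hWd, Finsupp.sub_apply, Finsupp.add_apply, Finsupp.zero_apply, hDv P] at this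
  linarith

end Div

end Family

end Fermat.Agent.Lib.S19
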