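/-
W-A programme (S19), contract [LEVEL] (helper8), part 1: **the pull-back
`α^* : J₀(N)(ℚ̄) → J₀(N r)(ℚ̄)` along the inclusion `F̄(N) ⊂ F̄(N r)` is INJECTIVE** (`r` a prime, `r ∤ N`).

Kummer argument: a class `z` killed by `α^*` is killed by `n = r + 1`; a Kummer generator `f` of `z`
becomes an `n`-th power `u ^ n` in `F̄(N r)`; the subfield `E' = {x | x(ζ^0 q-expansion at the other
cusp) is a series in q^r}` of `F̄(N r)` contains `α F̄(N)` and `u` but not `β j = j(q^r)`, and every proper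
intermediate field of `F̄(N r) / α F̄(N)` other than `α F̄(N)` has codegree `< r`, which is impossible
since the `r` conjugates `j(ζ^k q)` of `j(q)` over `ℚ̄((q^r))` are distinct.  Hence `u ∈ α F̄(N)`,
`f` is an `n`-th power in `F̄(N)` and `z = 0`.
-/
import Fermat.Agent.Lib.S33.LPull
import Fermat.Agent.Lib.S37.LLevel

set_option autoImplicit false
set_option linter.unusedSectionVars false
set_option linter.style.haveILetI false

noncomputable section

namespace Fermat.Agent.Lib.S19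

open ModularCurve AlgebraicCurve HahnSeries Polynomial
open Fermat.Agent.Lib.FF Fermat.Agent.Lib.S28 Fermat.Agent.Lib.S37 Fermat.Agent.Lib.S33

local notation "Kb" => AlgebraicClosure ℚ
local notation "Ω" => LaurentSeries (AlgebraicClosure ℚ)

/-- a primitive `r`-th root of unity in `ℚ̄`, as a unit. -/
theorem s19v_exists_zeta (r : ℕ) [NeZero r] : ∃ ζ : Kbˣ, IsPrimitiveRoot (ζ : Kb) r := by
  haveI : NeZero ((r : ℕ) : Kb) := ⟨Nat.cast_ne_zero.mpr (NeZero.ne r)⟩
  obtain ⟨ζ, hζ⟩ := HasEnoughRootsOfUnity.exists_primitiveRoot Kb r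
  exact ⟨(hζ.isUnit (NeZero.ne r)).unit, by rw [IsUnit.unit_spec]; exact hζ⟩

/-- roots of unity in `ℚ̄((q))` are constants. -/
theorem s19v_const_of_pow_eq_one {m : ℕ} (hm : 0 < m) (ξ : Ω) (h : ξ ^ m = 1) :
    ∃ c : Kb, ξ = HahnSeries.C c := by
  have hint : IsIntegral Kb ξ := by
    refine ⟨X ^ m - Polynomial.C 1, monic_X_pow_sub_C 1 hm.ne', ?_⟩
    simp [h]
  have hdeg := IsAlgClosed.degree_eq_one_of_irreducible Kb (minpoly.irreducible hint)
  obtain ⟨c, hc⟩ := minpoly.degree_eq_one_iff.mp hdeg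
  refine ⟨c, ?_⟩
  rw [← hc, algebraMap_laurentSeries_eq_single]
  rfl

/-- a nonzero polynomial of degree `< r` over `ℚ̄((q))` whose coefficients are series in `q ^ r` does
not vanish at a series with a nonzero coefficient at `q⁻¹`. -/
theorem s19v_no_small_poly (r : ℕ) [NeZero r] (ζ : Kbˣ) (hζ : IsPrimitiveRoot (ζ : Kb) r)
    (Q : Polynomial Ω) (hQ0 : Q ≠ 0) (hQd : Q.natDegree < r)
    (hQc : ∀ n, Q.coeff n ∈ (qExpand Kb r).range) (t : Ω) (ht : t.coeff (-1 : ℤ) ≠ 0)
    (hroot : Q.eval t = 0) : False := by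
  classical
  have hζ' : IsPrimitiveRoot ζ r := IsPrimitiveRoot.of_map_of_injective (f := Units.coeHom Kb)
    (by simpa using hζ) Units.val_injective
  have hpow : ∀ k : ℕ, (ζ ^ k) ^ r = 1 := fun k => by
    rw [← pow_mul, mul_comm, pow_mul, hζ'.pow_eq_one, one_pow]
  -- the twists fix `Q`
  have hmap : ∀ k : ℕ, Q.map (s28m_tw (ζ ^ k)) = Q := fun k => by
    ext n : 1
    rw [coeff_map]
    obtain ⟨x, hx⟩ := hQc n
    rw [← hx, s28m_tw_qExpand _ r (hpow k)]
  let s : Fin r → Ω := fun k => s28m_tw (ζ ^ (k : ℕ)) t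
  have hs_root : ∀ k, s k ∈ Q.roots := fun k => by
    rw [mem_roots hQ0, IsRoot.def]
    have := eval_map_apply (p := Q) (s28m_tw (ζ ^ (k : ℕ))) t
    rw [hmap, hroot, map_zero] at this
    exact this
  have hs_inj : Function.Injective s := by
    intro a b hab
    have hc : (s a).coeff (-1 : ℤ) = (s b).coeff (-1 : ℤ) := by rw [hab]
    simp only [s, s28m_tw_coeff] at hc
    have h1 := mul_right_cancel₀ ht hc
    have h2 : (ζ ^ (a : ℕ)) ^ (-1 : ℤ) = (ζ ^ (b : ℕ)) ^ (-1 : ℤ) := Units.ext h1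
    rw [zpow_neg_one, zpow_neg_one] at h2
    have h3 : ζ ^ (a : ℕ) = ζ ^ (b : ℕ) := inv_injective h2
    exact Fin.ext (hζ'.pow_inj a.2 b.2 h3)
  have hcard : (Finset.univ.image s).card = r := by
    rw [Finset.card_image_of_injective _ hs_inj, Finset.card_univ, Fintype.card_fin]
  have hsub : (Finset.univ.image s).val ⊆ Q.roots := by
    intro x hx
    rw [Finset.mem_val, Finset.mem_image] at hx
    obtain ⟨k, -, rfl⟩ := hx
    exact hs_root k
  have := card_le_degree_of_subset_roots hsub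
  omega

section Generic

variable {F F' Ωf : Type*} [Field F] [Field F'] [Field Ωf] [Algebra F F'] [FiniteDimensional F F']

/-- generic degree argument: if `[F' : F] = r + 1`, `T` is a subfield of `Ωf` containing the image of `F`
under `e₁ : F' → Ωf`, and `e₁ t` is not a root of any nonzero polynomial of degree `< r` with
coefficients in `T`, then every `u ∈ F'` with `e₁ u ∈ T` lies in `F`. -/
theorem s19v_generic (r : ℕ) (hr2 : 2 ≤ r) (hrank : Module.finrank F F' = r + 1)
    (e₁ : F' →+* Ωf) (T : Subfield Ωf) (hT : ∀ y : F, e₁ (algebraMap F F' y) ∈ T) (t : F')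
    (ht : ∀ Q : Polynomial Ωf, Q ≠ 0 → Q.natDegree < r → (∀ n, Q.coeff n ∈ T) →
      Q.eval (e₁ t) ≠ 0)
    (u : F') (hu : e₁ u ∈ T) : ∃ u₀ : F, algebraMap F F' u₀ = u := by
  let S : Subfield F' := T.comap e₁
  let E' : IntermediateField F F' := S.toIntermediateField hT
  have hmemE : ∀ x : F', x ∈ E' ↔ e₁ x ∈ T := fun x => Iff.rfl
  have huE : u ∈ E' := (hmemE u).mpr hu
  by_cases hbot : E' = ⊥
  · rw [hbot] at huE
    obtain ⟨u₀, hu₀⟩ := IntermediateField.mem_bot.mp huE
    exact ⟨u₀, hu₀⟩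
  · exfalso
    have h1 : Module.finrank F E' ≠ 1 := fun h =>
      hbot (IntermediateField.finrank_eq_one_iff.mp h)
    have h2 : 0 < Module.finrank F E' := Module.finrank_pos
    have h3 := Module.finrank_mul_finrank F E' F'
    rw [hrank] at h3
    have h4 : Module.finrank E' F' < r := by
      have h5 : 2 * Module.finrank E' F' ≤ Module.finrank F E' * Module.finrank E' F' :=
        Nat.mul_le_mul_right _ (by omega)
      omega
    have hint : IsIntegral E' t := Algebra.IsIntegral.isIntegral t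
    set P := minpoly E' t with hP
    have hPd : P.natDegree < r := lt_of_le_of_lt (minpoly.natDegree_le t) h4
    have hPm : P.Monic := minpoly.monic hint
    set φ : E' →+* Ωf := e₁.comp (algebraMap E' F') with hφ
    refine ht (P.map φ) (hPm.map φ).ne_zero ?_ ?_ ?_
    · rw [hPm.natDegree_map]; exact hPd
    · intro n
      rw [coeff_map]
      exact (hmemE _).mp (P.coeff n).2
    · rw [eval_map, hφ, ← hom_eval₂, ← aeval_def, minpoly.aeval, map_zero]

end Generic

section Main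

variable (N r : ℕ) [NeZero N] [NeZero r] (hr : r.Prime) (hrN : ¬ r ∣ N)

include hr hrN in
/-- **no Kummer subextension**: an element of `F̄(N r)` with a power in `α F̄(N)` lies in `α F̄(N)`. -/
theorem s19v_mem_range_alpha (u : ffi_F (N * r)) (m : ℕ) (hm : 0 < m) (g : ffi_F N)
    (hu : u ^ m = heckeAlphaBar Kb N r g) : ∃ u₀ : ffi_F N, heckeAlphaBar Kb N r u₀ = u := by
  obtain ⟨ζ, hζ⟩ := s19v_exists_zeta r
  have hζ' : IsPrimitiveRoot ζ r := IsPrimitiveRoot.of_map_of_injective (f := Units.coeHom Kb)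
    (by simpa using hζ) Units.val_injective
  have hpow : ζ ^ r = 1 := hζ'.pow_eq_one
  letI := algebraAlong (heckeAlphaBar Kb N r)
  haveI hfin : Module.Finite (ffi_F N) (ffi_F (N * r)) := s37w_finite_alpha N r hr hrN
  have hrank : Module.finrank (ffi_F N) (ffi_F (N * r)) = r + 1 := s37w_finrank_alpha N r hr hrN
  set e₀ : ffi_F (N * r) →+* Ω := s37w_emb N r hr hrN ζ none with he₀
  set e₁ : ffi_F (N * r) →+* Ω := s37w_emb N r hr hrN ζ (some ⟨0, hr.pos⟩) with he₁
  have hT : ∀ y : ffi_F N, e₁ (algebraMap (ffi_F N) (ffi_F (N * r)) y) ∈ (qExpand Kb r).fieldRange :=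
    fun y => by
      show e₁ (heckeAlphaBar Kb N r y) ∈ (qExpand Kb r).fieldRange
      rw [he₁, s37w_emb_alpha N r hr hrN ζ hpow, s37w_base_apply]
      exact ⟨_, rfl⟩
  -- `e₁ u` is a series in `q ^ r`
  have huT : e₁ u ∈ (qExpand Kb r).fieldRange := by
    by_cases hu0 : u = 0
    · rw [hu0, map_zero]; exact zero_mem _
    have h0 : e₀ u ≠ 0 := (map_ne_zero e₀).mpr hu0
    have hpw : (e₁ u) ^ m = (e₀ u) ^ m := by
      rw [← map_pow, ← map_pow, hu, he₀, he₁, s37w_emb_alpha N r hr hrN ζ hpow,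
        s37w_emb_alpha N r hr hrN ζ hpow]
    have hξ : (e₁ u / e₀ u) ^ m = 1 := by
      rw [div_pow, hpw, div_self (pow_ne_zero m h0)]
    obtain ⟨c, hc⟩ := s19v_const_of_pow_eq_one hm _ hξ
    have h1 : e₁ u = HahnSeries.C c * e₀ u := by
      rw [← hc, div_mul_cancel₀ _ h0]
    rw [h1, he₀, s37w_emb_none]
    exact ⟨HahnSeries.C c * (u : Ω), by rw [map_mul, qExpand_C]⟩
  -- `β j`
  have ht1 : e₁ (heckeBetaBar Kb N r (ffd_jBar N)) = s28m_tw (ζ ^ (0 : ℕ)) ffd_jSeries := by
    rw [he₁, s37w_emb_some_beta_j]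
  have htc : (e₁ (heckeBetaBar Kb N r (ffd_jBar N))).coeff (-1 : ℤ) ≠ 0 := by
    rw [ht1, s37w_coeff_some]
    exact Units.ne_zero _
  exact s19v_generic r hr.two_le hrank e₁ (qExpand Kb r).fieldRange hT
    (heckeBetaBar Kb N r (ffd_jBar N))
    (fun Q hQ0 hQd hQc hroot => s19v_no_small_poly r ζ hζ Q hQ0 hQd
      (fun n => by
        obtain ⟨x, hx⟩ := hQc n
        exact ⟨x, hx⟩) _ htc hroot) u huT

include hr hrN in
theorem s19v_alpha_integral : (heckeAlphaBar Kb N r).toRingHom.IsIntegral :=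
  s37l_isIntegral_of_finite _ (s37w_finite_alpha N r hr hrN)

include hr hrN in
theorem s19v_alpha_FI :
    FundamentalIdentityAlong Kb (heckeAlphaBar Kb N r) (s19v_alpha_integral N r hr hrN) :=
  s37l_fundamentalIdentityAlong _ (s19v_alpha_integral N r hr hrN) (s37w_finite_alpha N r hr hrN)

/-- **`α^* : J₀(N) → J₀(N r)`**. -/
def s19v_pull : JZero N →+ JZero (N * r) :=
  s37l_pic0Pullback (heckeAlphaBar Kb N r) (s19v_alpha_integral N r hr hrN)
    (s19v_alpha_FI N r hr hrN)

/-- `α^*` is Galois equivariant. -/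
theorem s19v_pull_smul (σ : AlgebraicClosure ℚ ≃ₐ[ℚ] AlgebraicClosure ℚ) (x : JZero N) :
    s19v_pull N r hr hrN (σ • x) = σ • s19v_pull N r hr hrN x := by
  rw [galois_smul_pic0_def, galois_smul_pic0_def]
  exact s37l_pic0Pullback_smul _ _ _ _ _ (Fermat.Agent.Lib.S29.s29g_alpha_intertwines N r σ) x

/-- functions on `X₀(M)` without zeros and poles are constants. -/
theorem s19v_const (M : ℕ) [NeZero M] : s33d_ConstOfOrdZero Kb (ffi_F M) :=
  fun x _ hord => Fermat.Agent.Lib.S18.s18e_const_of_ord_nonpos M x (fun P => (hord P).le)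

/-- **`α^*` is injective.** -/
theorem s19v_pull_injective : Function.Injective (s19v_pull N r hr hrN) := by
  rw [injective_iff_map_eq_zero]
  intro z hz
  have hα := s19v_alpha_integral N r hr hrN
  have hfin := s37w_finite_alpha N r hr hrN
  have hFI := s19v_alpha_FI N r hr hrN
  have hN := s37l_normFormulaAlong _ hfin
  have hdeg : finrankAlong Kb (heckeAlphaBar Kb N r) = r + 1 := s37w_finrank_alpha N r hr hrN
  have hz' : s37l_pic0Pullback (heckeAlphaBar Kb N r) hα hFI z = 0 := hz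
  have hnz : (r + 1) • z = 0 :=
    s37l_pic0Pullback_eq_zero _ hα hFI hfin hN (r + 1)
      (fun v => by rw [s37l_sum_e_f _ hα hfin v, hdeg]) z hz'
  obtain ⟨f, hf⟩ := s33d_exists_kumGen (r + 1) z hnz
  have hpull := s33l_kumGen_pull (heckeAlphaBar Kb N r) hα hFI hf
  rw [hz'] at hpull
  obtain ⟨c, w, hc, hw, hcw⟩ :=
    (s33d_kumGen_zero_iff (s19v_const (N * r)) (Nat.succ_ne_zero r) hpull).mp rfl
  obtain ⟨d, hd⟩ := IsAlgClosed.exists_pow_nat_eq c (Nat.succ_pos r)
  have hu : (algebraMap Kb (ffi_F (N * r)) d * w) ^ (r + 1) = heckeAlphaBar Kb N r f := by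
    rw [mul_pow, ← map_pow, hd]
    exact hcw.symm
  obtain ⟨u₀, hu₀⟩ := s19v_mem_range_alpha N r hr hrN _ (r + 1) (Nat.succ_pos r) f hu
  have hf' : f = u₀ ^ (r + 1) := by
    apply (heckeAlphaBar Kb N r).toRingHom.injective
    show heckeAlphaBar Kb N r f = heckeAlphaBar Kb N r (u₀ ^ (r + 1))
    rw [map_pow, hu₀, hu]
  have hu₀0 : u₀ ≠ 0 := by
    rintro rfl
    exact hf.1 (by rw [hf', zero_pow (Nat.succ_ne_zero r)])
  exact (s33d_kumGen_zero_iff (s19v_const N) (Nat.succ_ne_zero r) hf).mpr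
    ⟨1, u₀, one_ne_zero, hu₀0, by rw [map_one, one_mul, hf']⟩

end Main

end Fermat.Agent.Lib.S19

end
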